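import Mathlib
import Fermat.Prelude.Def_ModularCurve_X0ModL
import Fermat.Agent.S18x.Dict.H20_GaussModular

/-!
# S37 [RED-EX] (c), part 1 (helper22): integral fraction form in the modular function field

`K` a field, `O : ValuationSubring K`, `FK = modularFunctionFieldFullC K M ⊆ K((q))`,
`ι = gIota O : O((q)) → K((q))`, `red = gRed O : O((q)) → κ((q))`.

* `isIntQuot_of_mem` : every `x ∈ FK` is a quotient `ι a / ι b` with `a, b ∈ O((q))`,
  `ι a, ι b ∈ FK`, `b ≠ 0`;
* `exists_normal_form` : for `O` a discrete valuation ring and `x ≠ 0` in `FK`: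
  `x * ι Y₂ = C c * ι Y₁` with `c ∈ Kˣ`, `ι Y₁, ι Y₂ ∈ FK` and `red Y₁ ≠ 0`, `red Y₂ ≠ 0`.
-/

set_option autoImplicit false
set_option linter.unusedSectionVars false

open ModularCurve

noncomputable section

namespace Fermat.Agent.S37x.Red.H22

open Fermat.Agent.S18x.Dict.H20

section Frac

variable {K : Type*} [Field K] (O : ValuationSubring K) (M : ℕ)

/-- `x` is a quotient of two integral series lying in the modular function field. -/
def IsIntQuot (x : LaurentSeries K) : Prop :=
  ∃ a b : LaurentSeries O, gIota O a ∈ modularFunctionFieldFullC K M ∧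
    gIota O b ∈ modularFunctionFieldFullC K M ∧ b ≠ 0 ∧ x * gIota O b = gIota O a

theorem C_mem_full (c : K) : (HahnSeries.C c : LaurentSeries K) ∈ modularFunctionFieldFullC K M := by
  have h := (modularFunctionFieldFullC K M).algebraMap_mem c
  rwa [algebraMap_laurentSeries_eq_single, ← HahnSeries.C_apply] at h

theorem isIntQuot_algebraMap (c : K) :
    IsIntQuot O M (algebraMap K (LaurentSeries K) c) := by
  rw [algebraMap_laurentSeries_eq_single, ← HahnSeries.C_apply]
  by_cases hc : c ∈ O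
  · refine ⟨HahnSeries.C ⟨c, hc⟩, 1, ?_, ?_, one_ne_zero, ?_⟩
    · rw [gIota_C]; exact C_mem_full M c
    · rw [map_one]; exact one_mem _
    · rw [map_one, mul_one, gIota_C]
  · have hc0 : c ≠ 0 := by
      rintro rfl
      exact hc (zero_mem _)
    have hci : c⁻¹ ∈ O := (O.mem_or_inv_mem c).resolve_left hc
    refine ⟨1, HahnSeries.C ⟨c⁻¹, hci⟩, ?_, ?_, ?_, ?_⟩
    · rw [map_one]; exact one_mem _
    · rw [gIota_C]; exact C_mem_full M c⁻¹
    · intro h
      have h1 := congrArg (gIota O) h
      rw [gIota_C, map_zero] at h1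
      have h2 : (HahnSeries.C (c⁻¹ : K) : LaurentSeries K) ≠ 0 := by
        intro h3
        have := HahnSeries.C_injective (h3.trans (map_zero _).symm)
        exact inv_ne_zero hc0 this
      exact h2 h1
    · rw [gIota_C, map_one, ← map_mul, mul_inv_cancel₀ hc0, map_one]

/-- **Fraction form**: every element of `FK` is a quotient of integral elements of `FK`. -/
theorem isIntQuot_of_mem {x : LaurentSeries K} (hx : x ∈ modularFunctionFieldFullC K M) :
    IsIntQuot O M x := by
  change x ∈ IntermediateField.adjoin K (divisorExpansionsC K M) at hx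
  induction hx using IntermediateField.adjoin_induction with
  | mem y hy =>
    obtain ⟨d, hne, hd, rfl⟩ := hy
    have := hne
    refine ⟨qExpand O d (jqModC O), 1, ?_, ?_, one_ne_zero, ?_⟩
    · rw [gIota_qExpand_jqModC]; exact jqModCd_mem_full K M hd
    · rw [map_one]; exact one_mem _
    · rw [map_one, mul_one, gIota_qExpand_jqModC]
  | algebraMap c => exact isIntQuot_algebraMap O M c
  | add x y _ _ hx hy =>
    obtain ⟨a, b, ha, hb, hb0, h⟩ := hx
    obtain ⟨a', b', ha', hb', hb0', h'⟩ := hy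
    refine ⟨a * b' + a' * b, b * b', ?_, ?_, mul_ne_zero hb0 hb0', ?_⟩
    · rw [map_add, map_mul, map_mul]
      exact add_mem (mul_mem ha hb') (mul_mem ha' hb)
    · rw [map_mul]; exact mul_mem hb hb'
    · rw [map_add, map_mul, map_mul, map_mul, ← h, ← h']; ring
  | inv x _ hx =>
    obtain ⟨a, b, ha, hb, hb0, h⟩ := hx
    by_cases ha0 : a = 0
    · have hx0 : x = 0 := by
        rw [ha0, map_zero] at h
        rcases mul_eq_zero.1 h with h1 | h1
        · exact h1
        · exact absurd h1 (gIota_ne_zero O hb0)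
      rw [hx0, inv_zero]
      exact ⟨0, 1, by rw [map_zero]; exact zero_mem _, by rw [map_one]; exact one_mem _,
        one_ne_zero, by rw [map_zero, zero_mul]⟩
    · refine ⟨b, a, hb, ha, ha0, ?_⟩
      have hx0 : x ≠ 0 := by
        rintro rfl
        rw [zero_mul] at h
        exact gIota_ne_zero O ha0 h.symm
      rw [← h]
      field_simp
  | mul x y _ _ hx hy =>
    obtain ⟨a, b, ha, hb, hb0, h⟩ := hx
    obtain ⟨a', b', ha', hb', hb0', h'⟩ := hy
    refine ⟨a * a', b * b', ?_, ?_, mul_ne_zero hb0 hb0', ?_⟩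
    · rw [map_mul]; exact mul_mem ha ha'
    · rw [map_mul]; exact mul_mem hb hb'
    · rw [map_mul, map_mul, ← h, ← h']; ring

variable [IsDiscreteValuationRing O] (π : O) (hπ : Irreducible π)

include hπ in
/-- Dividing an integral element of `FK` by the right power of the uniformiser. -/
theorem exists_unit_red {a : LaurentSeries O} (ha : gIota O a ∈ modularFunctionFieldFullC K M)
    (ha0 : a ≠ 0) :
    ∃ (m : ℕ) (a' : LaurentSeries O), gIota O a' ∈ modularFunctionFieldFullC K M ∧
      gRed O a' ≠ 0 ∧ gIota O a = HahnSeries.C ((π : K) ^ m) * gIota O a' := by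
  obtain ⟨m, a', h, hred⟩ := exists_pow_mul_gRed_ne_zero O π hπ ha0
  have hπ0 : (HahnSeries.C ((π : K) ^ m) : LaurentSeries K) ≠ 0 := by
    rw [map_pow]
    exact pow_ne_zero _ (C_unif_ne_zero O π hπ)
  have e : gIota O a = HahnSeries.C ((π : K) ^ m) * gIota O a' := by
    rw [h, map_mul, map_pow, gIota_C, map_pow]
  refine ⟨m, a', ?_, hred, e⟩
  have e2 : gIota O a' = (HahnSeries.C ((π : K) ^ m))⁻¹ * gIota O a := by
    rw [e, ← mul_assoc, inv_mul_cancel₀ hπ0, one_mul]
  rw [e2]
  exact mul_mem (inv_mem (C_mem_full M _)) ha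

include hπ in
/-- **Normal form**: a nonzero element of `FK` is a constant times a quotient of integral
elements of `FK` with nonzero reductions. -/
theorem exists_normal_form {x : LaurentSeries K} (hx : x ∈ modularFunctionFieldFullC K M)
    (hx0 : x ≠ 0) :
    ∃ (c : K) (Y₁ Y₂ : LaurentSeries O), c ≠ 0 ∧
      gIota O Y₁ ∈ modularFunctionFieldFullC K M ∧ gIota O Y₂ ∈ modularFunctionFieldFullC K M ∧
      gRed O Y₁ ≠ 0 ∧ gRed O Y₂ ≠ 0 ∧ x * gIota O Y₂ = HahnSeries.C c * gIota O Y₁ := by
  obtain ⟨a, b, ha, hb, hb0, h⟩ := isIntQuot_of_mem O M hx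
  have ha0 : a ≠ 0 := by
    rintro rfl
    rw [map_zero] at h
    rcases mul_eq_zero.1 h with h1 | h1
    · exact hx0 h1
    · exact gIota_ne_zero O hb0 h1
  obtain ⟨m, a', ha', hra, ea⟩ := exists_unit_red O M π hπ ha ha0
  obtain ⟨n, b', hb', hrb, eb⟩ := exists_unit_red O M π hπ hb hb0
  have hπK : (π : K) ≠ 0 := unif_coe_ne_zero O π hπ
  have hCn : (HahnSeries.C ((π : K) ^ n) : LaurentSeries K) ≠ 0 := by
    rw [map_pow]
    exact pow_ne_zero _ (C_unif_ne_zero O π hπ)
  refine ⟨(π : K) ^ m * ((π : K) ^ n)⁻¹, a', b',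
    mul_ne_zero (pow_ne_zero _ hπK) (inv_ne_zero (pow_ne_zero _ hπK)), ha', hb', hra, hrb, ?_⟩
  rw [ea, eb] at h
  have h2 : x * gIota O b' = (HahnSeries.C ((π : K) ^ n))⁻¹ *
      (HahnSeries.C ((π : K) ^ m) * gIota O a') := by
    rw [← h]
    field_simp
  rw [h2, map_mul, map_inv₀]
  ring

end Frac

end Fermat.Agent.S37x.Red.H22
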