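import Mathlib
import Fermat.Prelude.Def_ModularCurve_ReductionModL
import Fermat.Agent.S37x.Red.H22_Frac
import Fermat.Agent.S18x.Dict.H22_GaussDesc
import Fermat.Agent.S18x.Qepo.H1_Basis
import Fermat.Agent.S18x.E.H12_Div

/-!
# S37 [RED-EX] (c) (helper22): principal divisors are generated by integral principal divisors

`L = AlgebraicClosure ℚ`, `A : ValuationSubring L` over the prime `ℓ`, `ℓ ∤ N`,
`k = IsLocalRing.ResidueField A`, `F_L = modularFunctionFieldBar N`,
`F̄ = modularFunctionFieldFullC k N`.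

* `exists_integral_quot` : every `f ≠ 0` in `F_L` satisfies `f * ι Y₂ = c * ι Y₁` with
  `c ∈ Lˣ`, `Y₁, Y₂ : LaurentSeries A`, `ι Y_i ∈ F_L`, `red Y_i ∈ F̄`, `red Y_i ≠ 0`;
* `h22_principalGeneratedByIntegral` :
  `PrincipalGeneratedByIntegral A (IsLocalRing.residue A) N` (prelude spelling).

Inputs: (D0c) helper19, Gauss ring helper20, (D1) helper23, (Q5) helper1, (DIV) helper12.
-/

set_option autoImplicit false
set_option linter.unusedSectionVars false
set_option synthInstance.maxHeartbeats 400000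
set_option maxHeartbeats 1000000

open ModularCurve AlgebraicCurve IntermediateField

noncomputable section

namespace Fermat.Agent.S37x.Red.H22

open Fermat.Agent.S18x.Dict.H20 Fermat.Agent.S18x.Dict.H23 Fermat.Agent.S18x.Dict.H22

local notation "Lbar" => AlgebraicClosure ℚ

section Quot

variable (A : ValuationSubring Lbar) {ℓ : ℕ} (hℓ : ℓ.Prime) (hA : A.LiesOverPrime ℓ)
  (N : ℕ) [NeZero N] (hℓN : ¬ ℓ ∣ N)

include hℓ hA hℓN in
/-- Integral elements of `FK` with nonzero reduction go up to integral elements of `F_L` with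
nonzero reduction in `F̄`. -/
theorem up_integral (K : IntermediateField ℚ Lbar) [FiniteDimensional ℚ K]
    (Y : LaurentSeries (A.comap (algebraMap ↥K Lbar)))
    (hY : gIota (A.comap (algebraMap ↥K Lbar)) Y ∈ modularFunctionFieldFullC ↥K N)
    (hred : gRed (A.comap (algebraMap ↥K Lbar)) Y ≠ 0) :
    coeffMap A.subtype (coeffMap (h23_incl A) Y) ∈ modularFunctionFieldBar N ∧
      coeffMap (IsLocalRing.residue A) (coeffMap (h23_incl A) Y)
        ∈ modularFunctionFieldFullC (IsLocalRing.ResidueField A) N ∧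
      coeffMap (IsLocalRing.residue A) (coeffMap (h23_incl A) Y) ≠ 0 := by
  have hDVR : IsDiscreteValuationRing (A.comap (algebraMap ↥K Lbar)) :=
    h23_isDVR_intermediate A hℓ hA K
  obtain ⟨π, hπ⟩ := IsDiscreteValuationRing.exists_irreducible (A.comap (algebraMap ↥K Lbar))
  have hfact : Fact ℓ.Prime := ⟨hℓ⟩
  have hchar : CharP (IsLocalRing.ResidueField (A.comap (algebraMap ↥K Lbar))) ℓ :=
    h23_charP_residueField A hℓ hA
  have hcz : CharZero ↥K := charZero_of_injective_algebraMap (algebraMap ℚ ↥K).injective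
  have e1 := gd_up_gIota A Y
  have e2 := gd_gRed_incl A Y
  simp only [gIota, gRed] at e1 e2
  refine ⟨?_, ?_, ?_⟩
  · rw [← e1]
    exact coeffMap_mem_bar ↥K N hY
  · rw [e2]
    have hq5 := Fermat.Agent.S18x.Qepo.gaussRed_mem_full (A.comap (algebraMap ↥K Lbar)) π hπ N ℓ
      hℓN ⟨gIota (A.comap (algebraMap ↥K Lbar)) Y, coeffMap_subtype_mem_gaussRing _ Y⟩ hY
    rw [gaussRed_coeffMap_subtype] at hq5
    exact Fermat.Agent.S18x.Desc.H19.h19_coeffMap_mem_full (h23_resEmb A) N hq5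
  · rw [e2]
    intro h0
    exact hred (gd_resEmb_injective A (by rw [h0, map_zero]))

include hℓ hA hℓN in
/-- **Integral quotient form over `ℚ̄`.** -/
theorem exists_integral_quot (f : ↥(modularFunctionFieldBar N)) (hf : f ≠ 0) :
    ∃ (c : Lbar) (Y₁ Y₂ : LaurentSeries A), c ≠ 0 ∧
      coeffMap A.subtype Y₁ ∈ modularFunctionFieldBar N ∧
      coeffMap A.subtype Y₂ ∈ modularFunctionFieldBar N ∧
      coeffMap (IsLocalRing.residue A) Y₁
        ∈ modularFunctionFieldFullC (IsLocalRing.ResidueField A) N ∧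
      coeffMap (IsLocalRing.residue A) Y₂
        ∈ modularFunctionFieldFullC (IsLocalRing.ResidueField A) N ∧
      coeffMap (IsLocalRing.residue A) Y₁ ≠ 0 ∧ coeffMap (IsLocalRing.residue A) Y₂ ≠ 0 ∧
      (f : LaurentSeries Lbar) * coeffMap A.subtype Y₂
        = HahnSeries.C c * coeffMap A.subtype Y₁ := by
  obtain ⟨K, hKfin, hK⟩ := Fermat.Agent.S18x.Desc.H19.h19_exists_descent_bar N f
  obtain ⟨g, hg⟩ := hK K le_rfl
  have := hKfin
  have hDVR : IsDiscreteValuationRing (A.comap (algebraMap ↥K Lbar)) :=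
    h23_isDVR_intermediate A hℓ hA K
  obtain ⟨π, hπ⟩ := IsDiscreteValuationRing.exists_irreducible (A.comap (algebraMap ↥K Lbar))
  have hg0 : (g : LaurentSeries ↥K) ≠ 0 := by
    intro h0
    apply hf
    rw [← hg]
    have : g = 0 := Subtype.ext h0
    rw [this, map_zero]
  obtain ⟨c, Y₁, Y₂, hc, hY₁, hY₂, hr₁, hr₂, h⟩ :=
    exists_normal_form (A.comap (algebraMap ↥K Lbar)) N π hπ g.2 hg0
  obtain ⟨h1a, h1b, h1c⟩ := up_integral A hℓ hA N hℓN K Y₁ hY₁ hr₁
  obtain ⟨h2a, h2b, h2c⟩ := up_integral A hℓ hA N hℓN K Y₂ hY₂ hr₂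
  refine ⟨algebraMap ↥K Lbar c, coeffMap (h23_incl A) Y₁, coeffMap (h23_incl A) Y₂,
    by rwa [Ne, map_eq_zero], h1a, h2a, h1b, h2b, h1c, h2c, ?_⟩
  have e1 := gd_up_gIota A Y₁
  have e2 := gd_up_gIota A Y₂
  simp only [gIota] at e1 e2 h
  have hfg : (f : LaurentSeries Lbar) = coeffMap (algebraMap ↥K Lbar) (g : LaurentSeries ↥K) := by
    rw [← hg]; rfl
  rw [hfg, ← e1, ← e2, ← map_mul, h, map_mul]
  congr 1
  rw [HahnSeries.C_apply, HahnSeries.C_apply, coeffMap_single]

end Quot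

section Gen

variable (A : ValuationSubring Lbar) {ℓ : ℕ} (hℓ : ℓ.Prime) (hA : A.LiesOverPrime ℓ)
  (N : ℕ) [NeZero N] (hℓN : ¬ ℓ ∣ N)

/-- A nonzero constant has order zero. -/
theorem ord_const_eq_zero {K F : Type*} [Field K] [Field F] [Algebra K F] (v : Place K F)
    (c : K) : v.ord (algebraMap K F c) = 0 := by
  rcases eq_or_ne c 0 with rfl | hc
  · simp
  obtain ⟨π, hπ⟩ := IsDiscreteValuationRing.exists_irreducible v.toValuationSubring
  have hc' : algebraMap K F c ≠ 0 := by rwa [Ne, map_eq_zero]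
  have hu : IsUnit (algebraMap K v.toValuationSubring c) :=
    (isUnit_iff_ne_zero.2 hc).map (algebraMap K v.toValuationSubring)
  have := v.ord_coe_unit hu.unit
  rwa [IsUnit.unit_spec, Place.coe_algebraMap] at this

include hℓ hA hℓN in
/-- **S37 [RED-EX] (c)**: every principal divisor of `F_L` lies in the subgroup generated by the
divisors of integral modular functions with nonzero reduction in `F̄`. -/
theorem h22_principalGeneratedByIntegral :
    PrincipalGeneratedByIntegral A (IsLocalRing.residue A) N := by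
  intro D hD
  obtain ⟨f, hf0, hfD⟩ := Divisor.mem_principal.1 hD
  obtain ⟨c, Y₁, Y₂, hc, h1a, h2a, h1b, h2b, h1c, h2c, h⟩ :=
    exists_integral_quot A hℓ hA N hℓN f hf0
  have hZ1 : (⟨coeffMap A.subtype Y₁, h1a⟩ : ↥(modularFunctionFieldBar N)) ≠ 0 := by
    intro h0
    have h0' : coeffMap A.subtype Y₁ = 0 := congrArg Subtype.val h0
    have : Y₁ = 0 := coeffMap_subtype_injective A (by rw [h0', map_zero])
    exact h1c (by rw [this, map_zero])
  have hZ2 : (⟨coeffMap A.subtype Y₂, h2a⟩ : ↥(modularFunctionFieldBar N)) ≠ 0 := by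
    intro h0
    have h0' : coeffMap A.subtype Y₂ = 0 := congrArg Subtype.val h0
    have : Y₂ = 0 := coeffMap_subtype_injective A (by rw [h0', map_zero])
    exact h2c (by rw [this, map_zero])
  obtain ⟨D₁, hD₁⟩ := Fermat.Agent.S18x.E.H12.stDiv N _ hZ1
  obtain ⟨D₂, hD₂⟩ := Fermat.Agent.S18x.E.H12.stDiv N _ hZ2
  have hmem1 : D₁ ∈ integralPrincipalDivisors A (IsLocalRing.residue A) N :=
    ⟨Y₁, h1a, h1b, h1c, hD₁⟩
  have hmem2 : D₂ ∈ integralPrincipalDivisors A (IsLocalRing.residue A) N :=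
    ⟨Y₂, h2a, h2b, h2c, hD₂⟩
  have hfeq : f * (⟨coeffMap A.subtype Y₂, h2a⟩ : ↥(modularFunctionFieldBar N))
      = algebraMap Lbar ↥(modularFunctionFieldBar N) c
        * (⟨coeffMap A.subtype Y₁, h1a⟩ : ↥(modularFunctionFieldBar N)) := by
    apply Subtype.ext
    show (f : LaurentSeries Lbar) * coeffMap A.subtype Y₂
      = algebraMap Lbar (LaurentSeries Lbar) c * coeffMap A.subtype Y₁
    rw [h, algebraMap_laurentSeries_eq_single, HahnSeries.C_apply]
  have hc' : algebraMap Lbar ↥(modularFunctionFieldBar N) c ≠ 0 := by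
    rwa [Ne, map_eq_zero]
  have hDeq : D = D₁ - D₂ := by
    ext v
    have h1 := congrArg v.ord hfeq
    rw [v.ord_mul hf0 hZ2, v.ord_mul hc' hZ1, ord_const_eq_zero] at h1
    rw [Finsupp.sub_apply, hfD v, hD₁ v, hD₂ v]
    omega
  rw [hDeq]
  exact AddSubgroup.sub_mem _ (AddSubgroup.subset_closure hmem1)
    (AddSubgroup.subset_closure hmem2)

end Gen

end Fermat.Agent.S37x.Red.H22
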