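import Mathlib
import Fermat.Prelude.Def_AlgebraicCurve_DivisorClassGroup
import Fermat.Agent.S24.H15_Kaehler

/-!
# S37 [RED-M] (c2), pole-order bound (helper4)

`g` integral over `O[h]`: then there is `m : ℕ` with `ord_v g ≥ m * ord_v h` at EVERY place `v`
at which `h` has a pole (and the constants from `O` are regular), in any characteristic.
Consequently `g * u ^ n` vanishes at every pole of `h` as soon as `n > m` and
`ord_v u = - ord_v h` (e.g. `u = a / (a - h)`).

* `h4_scaled_mem`      : valuation-ring core (scaled monic equation + integrally closed);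
* `h4_pole_bound_poly` : the bound for an explicit equation with coefficients `aeval h (c i)`,
                         `m` = a bound for the degrees of the `c i`;
* `h4_pole_bound`      : `∃ m`, for `g` integral over `Algebra.adjoin O {h}`;
* `h4_ord_mul_pow_pos` : `0 < ord_v (g * u ^ n)` for `n > m`;
* `h4_ord_inv_sub`     : `ord_v (a / (a - h)) = - ord_v h` at a pole of `h`.
-/

set_option autoImplicit false

noncomputable section

namespace Fermat.Agent.S37x.Red.H4

open AlgebraicCurve Polynomial
open Fermat.Agent.S24.RH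

section ValRing

variable {F : Type*} [Field F]

/-- If `g` is a root of the monic `p ∈ F[X]`, `w ∈ V` and `p.coeff i * w ^ m ∈ V` for all
`i < deg p`, then `w ^ m * g ∈ V`. -/
theorem h4_scaled_mem (V : ValuationSubring F) (p : F[X]) (hp : p.Monic) (g : F)
    (hroot : p.eval g = 0) (w : F) (hw : w ∈ V) (m : ℕ)
    (hc : ∀ i, i < p.natDegree → p.coeff i * w ^ m ∈ V) : w ^ m * g ∈ V := by
  set s : F := w ^ m with hs
  have hsV : s ∈ V := pow_mem hw m
  set q : F[X] := scaleRoots p s with hq
  have hqm : q.Monic := (monic_scaleRoots_iff s).mpr hp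
  have hqroot : q.eval (s * g) = 0 := by
    have := scaleRoots_eval₂_mul (p := p) (RingHom.id F) g s
    simp only [eval₂_id, RingHom.id_apply] at this
    rw [hq, this, hroot, mul_zero]
  have hqc : ∀ i, q.coeff i ∈ V := by
    intro i
    rw [hq, coeff_scaleRoots]
    rcases lt_trichotomy i p.natDegree with hi | hi | hi
    · have h1 : p.natDegree - i = (p.natDegree - i - 1) + 1 := by omega
      rw [h1, pow_succ, ← mul_assoc, mul_right_comm]
      exact mul_mem (hc i hi) (pow_mem hsV _)
    · rw [hi, Nat.sub_self, pow_zero, mul_one, coeff_natDegree, hp.leadingCoeff]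
      exact one_mem _
    · rw [coeff_eq_zero_of_natDegree_lt hi, zero_mul]
      exact zero_mem _
  -- lift `q` to `V[X]`
  have hlift : q ∈ Polynomial.lifts (algebraMap V F) := by
    rw [Polynomial.lifts_iff_coeff_lifts]
    intro i
    exact ⟨⟨q.coeff i, hqc i⟩, rfl⟩
  obtain ⟨q', hq', -, hq'm⟩ := Polynomial.lifts_and_natDegree_eq_and_monic hlift hqm
  have hint : IsIntegral V (s * g) := by
    refine ⟨q', hq'm, ?_⟩
    rw [← eval_map, hq']
    exact hqroot
  obtain ⟨y, hy⟩ := IsIntegrallyClosed.isIntegral_iff.mp hint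
  rw [← hy]
  exact y.2

end ValRing

section Place

variable {K F : Type*} [Field K] [Field F] [Algebra K F]

/-- At a pole of `h`, `q(h) * (h⁻¹) ^ m` is regular for every polynomial `q` of degree `≤ m`
with regular coefficients. -/
theorem h4_aeval_mul_inv_pow_mem {O : Type*} [CommRing O] [Algebra O F] (v : Place K F)
    (hO : ∀ c : O, algebraMap O F c ∈ v.toValuationSubring) (h : F) (hh : v.ord h < 0)
    (q : O[X]) (m : ℕ) (hq : q.natDegree ≤ m) :
    aeval h q * (h⁻¹) ^ m ∈ v.toValuationSubring := by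
  have hh0 : h ≠ 0 := by rintro rfl; simp at hh
  have hw : h⁻¹ ∈ v.toValuationSubring := by
    apply mem_of_ord_nonneg
    rw [v.ord_inv]; omega
  rw [aeval_eq_sum_range' (Nat.lt_succ_of_le hq), Finset.sum_mul]
  refine sum_mem fun i hi => ?_
  have hi' : i ≤ m := Nat.lt_succ_iff.mp (Finset.mem_range.mp hi)
  rw [Algebra.smul_def, mul_assoc]
  refine mul_mem (hO _) ?_
  have h1 : h ^ i * (h⁻¹) ^ m = (h⁻¹) ^ (m - i) := by
    have h2 : (h⁻¹) ^ m = (h⁻¹) ^ (m - i) * (h⁻¹) ^ i := by
      rw [← pow_add, Nat.sub_add_cancel hi']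
    rw [h2, mul_comm, mul_assoc, ← mul_pow, inv_mul_cancel₀ hh0, one_pow, mul_one]
  rw [h1]
  exact pow_mem hw _

/-- **Pole-order bound, explicit form**: `g` a root of a monic polynomial whose coefficients
are `c i (h)` with `deg (c i) ≤ m`; then `ord_v g ≥ m * ord_v h` at every pole `v` of `h`. -/
theorem h4_pole_bound_poly {O : Type*} [CommRing O] [Algebra O F] (v : Place K F)
    (hO : ∀ c : O, algebraMap O F c ∈ v.toValuationSubring) (h g : F) (hh : v.ord h < 0)
    (p : F[X]) (hp : p.Monic) (hroot : p.eval g = 0) (m : ℕ)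
    (hc : ∀ i, i < p.natDegree → ∃ q : O[X], q.natDegree ≤ m ∧ aeval h q = p.coeff i) :
    (m : ℤ) * v.ord h ≤ v.ord g := by
  have hh0 : h ≠ 0 := by rintro rfl; simp at hh
  have hw : h⁻¹ ∈ v.toValuationSubring := by
    apply mem_of_ord_nonneg
    rw [v.ord_inv]; omega
  have hmem : (h⁻¹) ^ m * g ∈ v.toValuationSubring := by
    refine h4_scaled_mem v.toValuationSubring p hp g hroot h⁻¹ hw m fun i hi => ?_
    obtain ⟨q, hq, hqi⟩ := hc i hi
    rw [← hqi]
    exact h4_aeval_mul_inv_pow_mem v hO h hh q m hq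
  rcases eq_or_ne g 0 with rfl | hg0
  · rw [v.ord_zero]
    exact mul_nonpos_of_nonneg_of_nonpos (Int.natCast_nonneg m) hh.le
  have h1 := ord_nonneg_of_mem v hmem
  rw [v.ord_mul (pow_ne_zero m (inv_ne_zero hh0)) hg0] at h1
  have h2 : v.ord ((h⁻¹) ^ m) = -(m * v.ord h) := by
    have := v.ord_zpow h⁻¹ (m : ℤ)
    rw [zpow_natCast] at this
    rw [this, v.ord_inv]; ring
  rw [h2] at h1
  omega

/-- **Pole-order bound**: for `g` integral over `O[h]` there is `m` such that
`ord_v g ≥ m * ord_v h` at every place `v` (regular on the constants from `O`) at which `h` has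
a pole. -/
theorem h4_pole_bound {O : Type*} [CommRing O] [Algebra O F] (h g : F)
    (hg : IsIntegral (Algebra.adjoin O {h}) g) :
    ∃ m : ℕ, ∀ v : Place K F, (∀ c : O, algebraMap O F c ∈ v.toValuationSubring) →
      v.ord h < 0 → (m : ℤ) * v.ord h ≤ v.ord g := by
  classical
  obtain ⟨P, hP, hPg⟩ := hg
  -- representatives of the coefficients
  have hrep : ∀ i : ℕ, ∃ q : O[X], aeval h q = ((P.coeff i : Algebra.adjoin O {h}) : F) := by
    intro i
    have hmem : ((P.coeff i : Algebra.adjoin O {h}) : F) ∈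
        (aeval h : O[X] →ₐ[O] F).range := by
      rw [← Algebra.adjoin_singleton_eq_range_aeval]
      exact (P.coeff i).2
    obtain ⟨q, hq⟩ := hmem
    exact ⟨q, hq⟩
  choose q hq using hrep
  refine ⟨(Finset.range P.natDegree).sup fun i => (q i).natDegree, fun v hO hh => ?_⟩
  set p : F[X] := P.map (algebraMap (Algebra.adjoin O {h}) F) with hp
  have hpm : p.Monic := hP.map _
  have hpdeg : p.natDegree = P.natDegree :=
    (hP.natDegree_map (algebraMap (Algebra.adjoin O {h}) F))
  have hroot : p.eval g = 0 := by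
    rw [hp, eval_map]
    exact hPg
  refine h4_pole_bound_poly v hO h g hh p hpm hroot _ fun i hi => ⟨q i, ?_, ?_⟩
  · rw [hpdeg] at hi
    exact Finset.le_sup (f := fun i => (q i).natDegree) (Finset.mem_range.mpr hi)
  · rw [hq i, hp, coeff_map]
    rfl

/-- `g * u ^ n` vanishes at a pole of `h` as soon as `n` exceeds the pole-order bound and
`ord_v u = - ord_v h`. -/
theorem h4_ord_mul_pow_pos (v : Place K F) (h g u : F) (hh : v.ord h < 0)
    (hu : v.ord u = -v.ord h) (hg0 : g ≠ 0) (m n : ℕ) (hmn : m < n)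
    (hb : (m : ℤ) * v.ord h ≤ v.ord g) : 0 < v.ord (g * u ^ n) := by
  have hu0 : u ≠ 0 := by
    rintro rfl
    rw [v.ord_zero] at hu
    omega
  rw [v.ord_mul hg0 (pow_ne_zero n hu0)]
  have h2 : v.ord (u ^ n) = n * v.ord u := by
    have := v.ord_zpow u (n : ℤ)
    rwa [zpow_natCast] at this
  rw [h2, hu]
  have h3 : ((n : ℤ) - m) * (-v.ord h) > 0 := by
    apply mul_pos
    · have : (m : ℤ) < n := by exact_mod_cast hmn
      omega
    · omega
  nlinarith

/-- At a pole of `h`: `ord_v (a / (a - h)) = - ord_v h` for a non-zero constant `a`. -/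
theorem h4_ord_const_div_sub (v : Place K F) (h : F) (hh : v.ord h < 0) (a : K) (ha : a ≠ 0) :
    v.ord (algebraMap K F a / (algebraMap K F a - h)) = -v.ord h := by
  have hh0 : h ≠ 0 := by rintro rfl; simp at hh
  have haF : algebraMap K F a ≠ 0 := by
    rwa [Ne, map_eq_zero_iff _ (algebraMap K F).injective]
  -- `a - h = -h * (1 - a * h⁻¹)` and `1 - a h⁻¹` is a unit at `v`
  have hw : 0 < v.ord h⁻¹ := by rw [v.ord_inv]; omega
  obtain ⟨hwm, hwmax⟩ := mem_maximalIdeal_of_ord_pos v hw
  have hunit : IsUnit ((1 : v.toValuationSubring) +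
      (-(algebraMap K v.toValuationSubring a)) * ⟨h⁻¹, hwm⟩) :=
    isUnit_add_of_mem_maximalIdeal isUnit_one (Ideal.mul_mem_left _ _ hwmax)
  have hcoe : ((hunit.unit : v.toValuationSubring) : F) = 1 - algebraMap K F a * h⁻¹ := by
    rw [IsUnit.unit_spec]
    simp [v.coe_algebraMap, sub_eq_add_neg]
  have hord1 : v.ord (1 - algebraMap K F a * h⁻¹) = 0 := by
    rw [← hcoe]; exact v.ord_coe_unit _
  have hne1 : (1 - algebraMap K F a * h⁻¹) ≠ 0 := by
    rw [← hcoe]
    exact fun h0 => hunit.unit.ne_zero (Subtype.ext h0)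
  have hkey : algebraMap K F a - h = (-h) * (1 - algebraMap K F a * h⁻¹) := by
    field_simp
    ring
  have hneg : v.ord (-h) = v.ord h := by
    have h1 : (-h) = algebraMap K F (-1) * h := by simp
    have h2 : algebraMap K F (-1) ≠ 0 := by
      rw [Ne, map_eq_zero_iff _ (algebraMap K F).injective]; norm_num
    rw [h1, v.ord_mul h2 hh0, ord_algebraMap, zero_add]
  have hsub : v.ord (algebraMap K F a - h) = v.ord h := by
    rw [hkey, v.ord_mul (neg_ne_zero.mpr hh0) hne1, hneg, hord1, add_zero]
  have hsub0 : algebraMap K F a - h ≠ 0 := by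
    rw [hkey]; exact mul_ne_zero (neg_ne_zero.mpr hh0) hne1
  rw [div_eq_mul_inv, v.ord_mul haF (inv_ne_zero hsub0), ord_algebraMap, v.ord_inv, hsub,
    zero_add]

end Place

/-! ### Equation form (transportable along a reduction map) -/

section Equation

variable {K F : Type*} [Field K] [Field F] [Algebra K F]

/-- An integral element over `O[h]` satisfies an explicit monic equation with coefficients
`q i (h)`, `q i ∈ O[X]`, of degree `≤ m`. -/
theorem h4_exists_equation {O F : Type*} [CommRing O] [CommRing F] [Algebra O F] (h g : F)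
    (hg : IsIntegral (Algebra.adjoin O {h}) g) :
    ∃ (n m : ℕ) (q : ℕ → O[X]), (∀ i, (q i).natDegree ≤ m) ∧
      g ^ n + ∑ i ∈ Finset.range n, aeval h (q i) * g ^ i = 0 := by
  classical
  obtain ⟨P, hP, hPg⟩ := hg
  have hrep : ∀ i : ℕ, ∃ q : O[X], aeval h q = ((P.coeff i : Algebra.adjoin O {h}) : F) := by
    intro i
    have hmem : ((P.coeff i : Algebra.adjoin O {h}) : F) ∈
        (aeval h : O[X] →ₐ[O] F).range := by
      rw [← Algebra.adjoin_singleton_eq_range_aeval]
      exact (P.coeff i).2
    obtain ⟨q, hq⟩ := hmem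
    exact ⟨q, hq⟩
  choose q hq using hrep
  set m := (Finset.range P.natDegree).sup fun i => (q i).natDegree with hm
  refine ⟨P.natDegree, m, fun i => if i < P.natDegree then q i else 0, ?_, ?_⟩
  · intro i
    dsimp only
    split_ifs with hi
    · exact Finset.le_sup (f := fun i => (q i).natDegree) (Finset.mem_range.mpr hi)
    · simp
  · have h1 := hPg
    rw [eval₂_eq_sum_range, Finset.sum_range_succ, hP.coeff_natDegree, map_one, one_mul] at h1
    rw [add_comm] at h1
    rw [← h1]
    congr 1
    refine Finset.sum_congr rfl fun i hi => ?_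
    dsimp only
    rw [if_pos (Finset.mem_range.mp hi), hq i]
    rfl

/-- **Pole-order bound from an explicit equation** (any field, any place): if
`g ^ n + ∑_{i < n} c_i * g ^ i = 0` with `c_i = q i (h)`, `deg (q i) ≤ m`, then
`ord_v g ≥ m * ord_v h` at every pole `v` of `h` at which the constants from `O` are regular. -/
theorem h4_pole_bound_of_equation {O : Type*} [CommRing O] [Algebra O F] (v : Place K F)
    (hO : ∀ c : O, algebraMap O F c ∈ v.toValuationSubring) (h g : F) (hh : v.ord h < 0)
    (n m : ℕ) (q : ℕ → O[X]) (hq : ∀ i, (q i).natDegree ≤ m)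
    (heq : g ^ n + ∑ i ∈ Finset.range n, aeval h (q i) * g ^ i = 0) :
    (m : ℤ) * v.ord h ≤ v.ord g := by
  classical
  set p : F[X] := X ^ n + ∑ i ∈ Finset.range n, C (aeval h (q i)) * X ^ i with hp
  have hcoeff : ∀ j : ℕ, (∑ i ∈ Finset.range n, C (aeval h (q i)) * X ^ i : F[X]).coeff j
      = if j < n then aeval h (q j) else 0 := by
    intro j
    rw [finsetSum_coeff]
    simp only [coeff_C_mul, coeff_X_pow]
    split_ifs with hj
    · rw [Finset.sum_eq_single j]
      · simp
      · intro i _ hij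
        rw [if_neg (Ne.symm hij), mul_zero]
      · intro hnj
        exact absurd (Finset.mem_range.mpr hj) hnj
    · refine Finset.sum_eq_zero fun i hi => ?_
      have : j ≠ i := fun h0 => hj (h0 ▸ Finset.mem_range.mp hi)
      rw [if_neg this, mul_zero]
  have hdeglt : (∑ i ∈ Finset.range n, C (aeval h (q i)) * X ^ i : F[X]).degree < n := by
    rw [degree_lt_iff_coeff_zero]
    intro j hj
    rw [hcoeff j, if_neg (not_lt.mpr hj)]
  have hpm : p.Monic := monic_X_pow_add hdeglt
  have hpn : p.natDegree = n := by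
    rw [hp, natDegree_add_eq_left_of_degree_lt (by rwa [degree_X_pow]), natDegree_X_pow]
  have hroot : p.eval g = 0 := by
    rw [hp, eval_add, eval_pow, eval_X, eval_finsetSum]
    simp only [eval_mul, eval_C, eval_pow, eval_X]
    exact heq
  refine h4_pole_bound_poly v hO h g hh p hpm hroot m fun i hi => ⟨q i, hq i, ?_⟩
  rw [hpn] at hi
  rw [hp, coeff_add, coeff_X_pow, if_neg (Nat.ne_of_lt hi), zero_add, hcoeff i, if_pos hi]

end Equation

end Fermat.Agent.S37x.Red.H4
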