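import Mathlib
import Fermat.Prelude.Def_AlgebraicCurve_DivisorClassGroup
import Fermat.Agent.S24.H15_Kaehler
import Fermat.Agent.S37x.Red.H4_PoleBound

/-!
# S37 [RED-M] (c2), (D5): the separating function at a cusp, place-level facts (helper4)

`F / K` a function field (any characteristic), `h, g ∈ F`, `a ∈ Kˣ`,
`u := a / (a - h)`, `w := 1 - u = h / (h - a)`, `y := g * u ^ n + w ^ n`.

* at a pole of `h` (`n` larger than the pole-order bound of `g`): `y ≡ 1`, `ord y = 0`;
* at a zero of `h`: `u ≡ 1`, `ord w = ord h`, `ord y = ord g` as soon as `ord g < n * ord h`;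
* where `h` is regular with value `≠ a` and `g` is regular: `y` is regular, and its value is
  `b * (a / (a - c)) ^ n + (c / (c - a)) ^ n` (`c`, `b` the values of `h`, `g`);
* this value lies in the maximal ideal of a valuation ring `A` of `K` if `a ∈ Aˣ`,
  `c, b ∈ 𝔪_A`, `n ≥ 1`.

The statements are for arbitrary `u w y` with `u * (a - h) = a`, `u + w = 1`,
`y = g * u ^ n + w ^ n` (structure `H4D5`), so that they apply to any spelling of `u, w, y`
(e.g. coercions of integral Laurent series and their reductions).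
-/

set_option autoImplicit false

open AlgebraicCurve IsLocalRing

namespace Fermat.Agent.S37x.Red.H4

open Fermat.Agent.S24.RH

section Val

variable {K F : Type*} [Field K] [Field F] [Algebra K F]

/-! ### `ord` versus the valuation of the valuation ring -/

theorem h4_val_le_one_iff (v : Place K F) (z : F) :
    v.toValuationSubring.valuation z ≤ 1 ↔ 0 ≤ v.ord z :=
  (ValuationSubring.valuation_le_one_iff _ z).trans (ord_nonneg_iff v).symm

theorem h4_val_lt_one_iff (v : Place K F) (z : F) :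
    v.toValuationSubring.valuation z < 1 ↔ z = 0 ∨ 0 < v.ord z := by
  constructor
  · intro h
    by_cases h0 : z = 0
    · exact Or.inl h0
    · right
      have hz : z ∈ v.toValuationSubring :=
        (ValuationSubring.valuation_le_one_iff _ _).mp h.le
      have hm : (⟨z, hz⟩ : v.toValuationSubring) ∈ maximalIdeal v.toValuationSubring := by
        rw [ValuationSubring.valuation_lt_one_iff]
        exact h
      have hne : (⟨z, hz⟩ : v.toValuationSubring) ≠ 0 := by
        intro h1
        apply h0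
        simpa using congrArg (fun x : v.toValuationSubring => (x : F)) h1
      have h5 := @ord_pos_of_mem_maximalIdeal K F _ _ _ v ⟨z, hz⟩ hm hne
      exact h5
  · rintro (rfl | h)
    · simp
    · obtain ⟨hz, hm⟩ := mem_maximalIdeal_of_ord_pos v h
      rw [ValuationSubring.valuation_lt_one_iff] at hm
      exact hm

theorem h4_val_eq_one_iff (v : Place K F) (z : F) :
    v.toValuationSubring.valuation z = 1 ↔ z ≠ 0 ∧ v.ord z = 0 := by
  constructor
  · intro h
    have h0 : z ≠ 0 := by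
      rintro rfl
      simp at h
    refine ⟨h0, ?_⟩
    have hz : z ∈ v.toValuationSubring :=
      (ValuationSubring.valuation_le_one_iff _ _).mp h.le
    have hu : IsUnit (⟨z, hz⟩ : v.toValuationSubring) :=
      (ValuationSubring.valuation_eq_one_iff _ ⟨z, hz⟩).mpr h
    have := v.ord_coe_unit hu.unit
    rwa [IsUnit.unit_spec] at this
  · rintro ⟨h0, h⟩
    have h1 : v.toValuationSubring.valuation z ≤ 1 := (h4_val_le_one_iff v z).mpr h.ge
    have h2 : v.toValuationSubring.valuation z⁻¹ ≤ 1 :=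
      (h4_val_le_one_iff v z⁻¹).mpr (by rw [v.ord_inv]; omega)
    rw [map_inv₀] at h2
    have h3 : v.toValuationSubring.valuation z ≠ 0 := by
      rwa [Ne, map_eq_zero]
    have h4 : 1 ≤ v.toValuationSubring.valuation z := by
      by_contra hlt
      rw [not_le] at hlt
      have := (inv_le_one₀ (zero_lt_iff.mpr h3)).mp h2
      exact absurd hlt (not_lt.mpr this)
    exact le_antisymm h1 h4

theorem h4_val_algebraMap (v : Place K F) {c : K} (hc : c ≠ 0) :
    v.toValuationSubring.valuation (algebraMap K F c) = 1 := by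
  rw [h4_val_eq_one_iff]
  refine ⟨?_, ord_algebraMap v c⟩
  rwa [Ne, map_eq_zero_iff _ (algebraMap K F).injective]

theorem h4_val_algebraMap_le (v : Place K F) (c : K) :
    v.toValuationSubring.valuation (algebraMap K F c) ≤ 1 :=
  (ValuationSubring.valuation_le_one_iff _ _).mpr (v.algebraMap_mem' c)

theorem h4_ord_npow (v : Place K F) (f : F) (n : ℕ) : v.ord (f ^ n) = n * v.ord f := by
  have := v.ord_zpow f (n : ℤ)
  rwa [zpow_natCast] at this

theorem h4_ord_neg (v : Place K F) (f : F) : v.ord (-f) = v.ord f := by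
  rcases eq_or_ne f 0 with rfl | hf
  · simp
  have h1 : (-f) = algebraMap K F (-1) * f := by simp
  have h2 : algebraMap K F (-1) ≠ 0 := by
    rw [Ne, map_eq_zero_iff _ (algebraMap K F).injective]; norm_num
  rw [h1, v.ord_mul h2 hf, ord_algebraMap, zero_add]

/-- The order of a sum of two terms of different orders. -/
theorem h4_ord_add_of_lt (v : Place K F) {x z : F} (hx : x ≠ 0) (hz : z ≠ 0)
    (h : v.ord x < v.ord z) : x + z ≠ 0 ∧ v.ord (x + z) = v.ord x := by
  have hq : 0 < v.ord (z / x) := by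
    rw [div_eq_mul_inv, v.ord_mul hz (inv_ne_zero hx), v.ord_inv]
    omega
  have h1 : v.toValuationSubring.valuation (1 + z / x) = 1 :=
    Valuation.map_one_add_of_lt _ ((h4_val_lt_one_iff v _).mpr (Or.inr hq))
  obtain ⟨h2, h3⟩ := (h4_val_eq_one_iff v _).mp h1
  have h4 : x + z = x * (1 + z / x) := by
    field_simp
  refine ⟨by rw [h4]; exact mul_ne_zero hx h2, ?_⟩
  rw [h4, v.ord_mul hx h2, h3, add_zero]

/-! ### Congruences modulo the maximal ideal of a place -/

/-- `x ≡ ξ mod 𝔪_v` for a constant `ξ`. -/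
def H4Cong (v : Place K F) (x : F) (ξ : K) : Prop :=
  v.toValuationSubring.valuation (x - algebraMap K F ξ) < 1

theorem h4Cong_iff (v : Place K F) (x : F) (ξ : K) :
    H4Cong v x ξ ↔ x = algebraMap K F ξ ∨ 0 < v.ord (x - algebraMap K F ξ) := by
  rw [H4Cong, h4_val_lt_one_iff, sub_eq_zero]

theorem H4Cong.val_le {v : Place K F} {x : F} {ξ : K} (h : H4Cong v x ξ) :
    v.toValuationSubring.valuation x ≤ 1 := by
  have h1 : x = (x - algebraMap K F ξ) + algebraMap K F ξ := by ring
  rw [h1]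
  exact Valuation.map_add_le _ h.le (h4_val_algebraMap_le v ξ)

theorem H4Cong.ord_nonneg {v : Place K F} {x : F} {ξ : K} (h : H4Cong v x ξ) :
    0 ≤ v.ord x :=
  (h4_val_le_one_iff v x).mp h.val_le

theorem h4Cong_const (v : Place K F) (ξ : K) : H4Cong v (algebraMap K F ξ) ξ := by
  simp [H4Cong]

theorem H4Cong.add {v : Place K F} {x x' : F} {ξ ξ' : K} (h : H4Cong v x ξ)
    (h' : H4Cong v x' ξ') : H4Cong v (x + x') (ξ + ξ') := by
  have h1 : x + x' - algebraMap K F (ξ + ξ') =
      (x - algebraMap K F ξ) + (x' - algebraMap K F ξ') := by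
    rw [map_add]; ring
  rw [H4Cong, h1]
  exact Valuation.map_add_lt _ h h'

theorem H4Cong.mul {v : Place K F} {x x' : F} {ξ ξ' : K} (h : H4Cong v x ξ)
    (h' : H4Cong v x' ξ') : H4Cong v (x * x') (ξ * ξ') := by
  have h1 : x * x' - algebraMap K F (ξ * ξ') =
      (x - algebraMap K F ξ) * x' + algebraMap K F ξ * (x' - algebraMap K F ξ') := by
    rw [map_mul]; ring
  rw [H4Cong, h1]
  apply Valuation.map_add_lt
  · rw [map_mul]
    exact mul_lt_one_of_nonneg_of_lt_one_left zero_le h h'.val_le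
  · rw [map_mul]
    exact mul_lt_one_of_nonneg_of_lt_one_right (h4_val_algebraMap_le v ξ) zero_le h'

theorem H4Cong.pow {v : Place K F} {x : F} {ξ : K} (h : H4Cong v x ξ) (n : ℕ) :
    H4Cong v (x ^ n) (ξ ^ n) := by
  induction n with
  | zero =>
    simp only [pow_zero]
    have := h4Cong_const v (1 : K)
    rwa [map_one] at this
  | succ k ih =>
    rw [pow_succ, pow_succ]
    exact ih.mul h

theorem H4Cong.neg {v : Place K F} {x : F} {ξ : K} (h : H4Cong v x ξ) :
    H4Cong v (-x) (-ξ) := by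
  have h1 : -x - algebraMap K F (-ξ) = -(x - algebraMap K F ξ) := by
    rw [map_neg]; ring
  rw [H4Cong, h1, Valuation.map_neg]
  exact h

theorem H4Cong.sub {v : Place K F} {x x' : F} {ξ ξ' : K} (h : H4Cong v x ξ)
    (h' : H4Cong v x' ξ') : H4Cong v (x - x') (ξ - ξ') := by
  rw [sub_eq_add_neg, sub_eq_add_neg]
  exact h.add h'.neg

/-- A function congruent to a non-zero constant is a unit at the place. -/
theorem H4Cong.val_eq_one {v : Place K F} {x : F} {ξ : K} (h : H4Cong v x ξ) (hξ : ξ ≠ 0) :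
    v.toValuationSubring.valuation x = 1 := by
  have h1 : x = algebraMap K F ξ + (x - algebraMap K F ξ) := by ring
  rw [h1]
  have h2 := h4_val_algebraMap v hξ
  rw [Valuation.map_add_eq_of_lt_left _ (by rw [h2]; exact h), h2]

/-- Inverse of a function congruent to a non-zero constant. -/
theorem H4Cong.inv {v : Place K F} {x : F} {ξ : K} (h : H4Cong v x ξ) (hξ : ξ ≠ 0) :
    H4Cong v x⁻¹ ξ⁻¹ := by
  have hx1 := h.val_eq_one hξ
  have hx0 : x ≠ 0 := ((h4_val_eq_one_iff v x).mp hx1).1
  have hξF : algebraMap K F ξ ≠ 0 := by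
    rwa [Ne, map_eq_zero_iff _ (algebraMap K F).injective]
  have h1 : x⁻¹ - algebraMap K F ξ⁻¹ =
      -(x - algebraMap K F ξ) * (x⁻¹ * algebraMap K F ξ⁻¹) := by
    rw [map_inv₀]
    field_simp
    ring
  rw [H4Cong, h1, map_mul, Valuation.map_neg, map_mul, map_inv₀, hx1, inv_one, one_mul]
  exact mul_lt_one_of_nonneg_of_lt_one_left zero_le h (h4_val_algebraMap_le v ξ⁻¹)

end Val

/-! ### The data of (D5) -/

section D5

variable {K F : Type*} [Field K] [Field F] [Algebra K F]

/-- The data of (D5): `u = a / (a - h)`, `w = 1 - u`, `y = g * u ^ n + w ^ n`, `a ≠ 0`. -/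
structure H4D5 (a : K) (h g u w y : F) (n : ℕ) : Prop where
  ha : a ≠ 0
  hu : u * (algebraMap K F a - h) = algebraMap K F a
  hw : u + w = 1
  hy : y = g * u ^ n + w ^ n

/-- The standard instance. -/
theorem h4D5_mk (a : K) (ha : a ≠ 0) (h g : F) (hne : h ≠ algebraMap K F a) (n : ℕ) :
    H4D5 a h g (algebraMap K F a / (algebraMap K F a - h)) (h / (h - algebraMap K F a))
      (g * (algebraMap K F a / (algebraMap K F a - h)) ^ n +
        (h / (h - algebraMap K F a)) ^ n) n := by
  have h1 : algebraMap K F a - h ≠ 0 := sub_ne_zero.mpr (Ne.symm hne)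
  have h2 : h - algebraMap K F a ≠ 0 := sub_ne_zero.mpr hne
  refine ⟨ha, ?_, ?_, rfl⟩
  · field_simp
  · field_simp
    ring

variable {a : K} {h g u w y : F} {n : ℕ}

namespace H4D5

theorem aF_ne_zero (d : H4D5 a h g u w y n) : algebraMap K F a ≠ 0 := by
  have := d.ha
  rwa [Ne, map_eq_zero_iff _ (algebraMap K F).injective]

theorem aSub_ne_zero (d : H4D5 a h g u w y n) : algebraMap K F a - h ≠ 0 := by
  intro h0
  have := d.hu
  rw [h0, mul_zero] at this
  exact d.aF_ne_zero this.symm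

theorem u_ne_zero (d : H4D5 a h g u w y n) : u ≠ 0 := by
  rintro rfl
  have := d.hu
  rw [zero_mul] at this
  exact d.aF_ne_zero this.symm

theorem u_eq (d : H4D5 a h g u w y n) : u = algebraMap K F a / (algebraMap K F a - h) := by
  rw [eq_div_iff d.aSub_ne_zero]
  exact d.hu

theorem w_eq_sub (d : H4D5 a h g u w y n) : w = 1 - u := by
  rw [← d.hw]; ring

theorem w_mul (d : H4D5 a h g u w y n) : w * (algebraMap K F a - h) = -h := by
  rw [d.w_eq_sub, sub_mul, one_mul, d.hu]; ring

theorem w_eq (d : H4D5 a h g u w y n) : w = h / (h - algebraMap K F a) := by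
  have h2 : h - algebraMap K F a ≠ 0 := by
    intro h0
    apply d.aSub_ne_zero
    rw [← neg_sub, h0, neg_zero]
  rw [eq_div_iff h2]
  have := d.w_mul
  linear_combination -this

theorem u_sub_one (d : H4D5 a h g u w y n) : (u - 1) * (algebraMap K F a - h) = h := by
  rw [sub_mul, one_mul, d.hu]; ring

/-! #### At a pole of `h` -/

theorem ord_u_of_pole (d : H4D5 a h g u w y n) (v : Place K F) (hh : v.ord h < 0) :
    v.ord u = -v.ord h := by
  rw [d.u_eq]
  exact h4_ord_const_div_sub v h hh a d.ha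

theorem val_u_of_pole (d : H4D5 a h g u w y n) (v : Place K F) (hh : v.ord h < 0) :
    v.toValuationSubring.valuation u < 1 := by
  rw [h4_val_lt_one_iff]
  right
  rw [d.ord_u_of_pole v hh]
  omega

/-- At a pole of `h`: `w ≡ 1`. -/
theorem cong_w_of_pole (d : H4D5 a h g u w y n) (v : Place K F) (hh : v.ord h < 0) :
    H4Cong v w 1 := by
  have h1 : w - algebraMap K F 1 = -u := by
    rw [map_one, d.w_eq_sub]; ring
  rw [H4Cong, h1, Valuation.map_neg]
  exact d.val_u_of_pole v hh

/-- **(Y-∞)** At a pole of `h`, for `n` larger than a pole-order bound `m` of `g`: `y ≡ 1`. -/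
theorem cong_y_of_pole (d : H4D5 a h g u w y n) (v : Place K F) (hh : v.ord h < 0) (m : ℕ)
    (hmn : m < n) (hb : g = 0 ∨ (m : ℤ) * v.ord h ≤ v.ord g) : H4Cong v y 1 := by
  have h1 : v.toValuationSubring.valuation (g * u ^ n) < 1 := by
    rw [h4_val_lt_one_iff]
    rcases hb with rfl | hb
    · left; rw [zero_mul]
    · by_cases hg0 : g = 0
      · left; rw [hg0, zero_mul]
      · right
        exact h4_ord_mul_pow_pos v h g u hh (d.ord_u_of_pole v hh) hg0 m n hmn hb
  have h2 : H4Cong v (w ^ n) (1 ^ n) := (d.cong_w_of_pole v hh).pow n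
  rw [one_pow] at h2
  have h3 : y - algebraMap K F 1 = g * u ^ n + (w ^ n - algebraMap K F 1) := by
    rw [d.hy]; ring
  rw [H4Cong, h3]
  exact Valuation.map_add_lt _ h1 h2

theorem ord_y_of_pole (d : H4D5 a h g u w y n) (v : Place K F) (hh : v.ord h < 0) (m : ℕ)
    (hmn : m < n) (hb : g = 0 ∨ (m : ℤ) * v.ord h ≤ v.ord g) : y ≠ 0 ∧ v.ord y = 0 :=
  (h4_val_eq_one_iff v y).mp ((d.cong_y_of_pole v hh m hmn hb).val_eq_one one_ne_zero)

/-! #### Where `h` is regular with value `≠ a` -/

/-- `u ≡ a / (a - c)` where `h ≡ c`, `c ≠ a`. -/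
theorem cong_u (d : H4D5 a h g u w y n) (v : Place K F) {c : K} (hc : H4Cong v h c)
    (hca : c ≠ a) : H4Cong v u (a / (a - c)) := by
  have h1 : H4Cong v (algebraMap K F a - h) (a - c) := (h4Cong_const v a).sub hc
  have h2 : a - c ≠ 0 := sub_ne_zero.mpr (Ne.symm hca)
  have h3 := (h4Cong_const v a).mul (h1.inv h2)
  rw [d.u_eq, div_eq_mul_inv, div_eq_mul_inv]
  exact h3

/-- `w ≡ c / (c - a)` where `h ≡ c`, `c ≠ a`. -/
theorem cong_w (d : H4D5 a h g u w y n) (v : Place K F) {c : K} (hc : H4Cong v h c)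
    (hca : c ≠ a) : H4Cong v w (c / (c - a)) := by
  have h1 := (h4Cong_const v 1).sub (d.cong_u v hc hca)
  rw [map_one, ← d.w_eq_sub] at h1
  have h2 : a - c ≠ 0 := sub_ne_zero.mpr (Ne.symm hca)
  have h3 : c - a ≠ 0 := sub_ne_zero.mpr hca
  have h4 : 1 - a / (a - c) = c / (c - a) := by
    field_simp
    ring
  rwa [h4] at h1

/-- **(Y-val)** the value of `y` where `h ≡ c ≠ a` and `g ≡ b`. -/
theorem cong_y (d : H4D5 a h g u w y n) (v : Place K F) {c b : K} (hc : H4Cong v h c)
    (hca : c ≠ a) (hg : H4Cong v g b) :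
    H4Cong v y (b * (a / (a - c)) ^ n + (c / (c - a)) ^ n) := by
  rw [d.hy]
  exact (hg.mul ((d.cong_u v hc hca).pow n)).add ((d.cong_w v hc hca).pow n)

/-- `u` and `w` are regular wherever `h` is regular with `h - a` a unit. -/
theorem val_u_of_reg (d : H4D5 a h g u w y n) (v : Place K F)
    (hha : v.ord (h - algebraMap K F a) ≤ 0) :
    v.toValuationSubring.valuation u ≤ 1 := by
  have h0 : h - algebraMap K F a ≠ 0 := by
    intro h0
    apply d.aSub_ne_zero
    rw [← neg_sub, h0, neg_zero]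
  have h1 : u = -(algebraMap K F a) * (h - algebraMap K F a)⁻¹ := by
    rw [d.u_eq, ← neg_sub h, div_neg, div_eq_mul_inv]
    ring
  rw [h1, map_mul, Valuation.map_neg]
  refine mul_le_one₀ (h4_val_algebraMap_le v a) zero_le ?_
  rw [h4_val_le_one_iff, v.ord_inv]
  omega

theorem ord_u_nonneg (d : H4D5 a h g u w y n) (v : Place K F)
    (hha : v.ord (h - algebraMap K F a) ≤ 0) : 0 ≤ v.ord u :=
  (h4_val_le_one_iff v u).mp (d.val_u_of_reg v hha)

theorem val_w_of_reg (d : H4D5 a h g u w y n) (v : Place K F)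
    (hha : v.ord (h - algebraMap K F a) ≤ 0) :
    v.toValuationSubring.valuation w ≤ 1 := by
  rw [d.w_eq_sub]
  have h1 : (1 : F) - u = 1 + -u := by ring
  rw [h1]
  apply Valuation.map_add_le
  · rw [map_one]
  · rw [Valuation.map_neg]
    exact d.val_u_of_reg v hha

theorem ord_w_nonneg (d : H4D5 a h g u w y n) (v : Place K F)
    (hha : v.ord (h - algebraMap K F a) ≤ 0) : 0 ≤ v.ord w :=
  (h4_val_le_one_iff v w).mp (d.val_w_of_reg v hha)

/-- **(Y-reg)** `y` is regular wherever `g` is regular and `h - a` has no zero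
(this includes the poles of `h`). -/
theorem ord_y_nonneg (d : H4D5 a h g u w y n) (v : Place K F)
    (hha : v.ord (h - algebraMap K F a) ≤ 0) (hg : 0 ≤ v.ord g) : 0 ≤ v.ord y := by
  rw [← h4_val_le_one_iff, d.hy]
  apply Valuation.map_add_le
  · rw [map_mul, map_pow]
    exact mul_le_one₀ ((h4_val_le_one_iff v g).mpr hg) zero_le
      (pow_le_one₀ zero_le (d.val_u_of_reg v hha))
  · rw [map_pow]
    exact pow_le_one₀ zero_le (d.val_w_of_reg v hha)

/-! #### At a zero of `h` -/

theorem cong_h_of_zero (v : Place K F) (hh : 0 < v.ord h) : H4Cong v h 0 := by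
  rw [h4Cong_iff, map_zero, sub_zero]
  exact Or.inr hh

/-- At a zero of `h`: `u ≡ 1`. -/
theorem cong_u_of_zero (d : H4D5 a h g u w y n) (v : Place K F) (hh : 0 < v.ord h) :
    H4Cong v u 1 := by
  have := d.cong_u v (cong_h_of_zero v hh) (Ne.symm d.ha)
  rwa [sub_zero, div_self d.ha] at this

theorem ord_u_of_zero (d : H4D5 a h g u w y n) (v : Place K F) (hh : 0 < v.ord h) :
    v.ord u = 0 :=
  ((h4_val_eq_one_iff v u).mp ((d.cong_u_of_zero v hh).val_eq_one one_ne_zero)).2

/-- At a zero of `h`: `ord w = ord h`. -/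
theorem ord_w_of_zero (d : H4D5 a h g u w y n) (v : Place K F) (hh : 0 < v.ord h) :
    w ≠ 0 ∧ v.ord w = v.ord h := by
  have hh0 : h ≠ 0 := by rintro rfl; simp at hh
  have h1 : H4Cong v (algebraMap K F a - h) (a - 0) :=
    (h4Cong_const v a).sub (cong_h_of_zero v hh)
  rw [sub_zero] at h1
  have h2 := ((h4_val_eq_one_iff v _).mp (h1.val_eq_one d.ha)).2
  have h3 := d.w_mul
  have hw0 : w ≠ 0 := by
    rintro rfl
    rw [zero_mul] at h3
    exact hh0 (neg_eq_zero.mp h3.symm)
  refine ⟨hw0, ?_⟩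
  have h4 := congrArg v.ord h3
  rw [v.ord_mul hw0 d.aSub_ne_zero, h2, add_zero, h4_ord_neg] at h4
  exact h4

/-- **(Y-0)** At a zero of `h`: `ord y = ord g` as soon as `ord g < n * ord h`. -/
theorem ord_y_of_zero (d : H4D5 a h g u w y n) (v : Place K F) (hh : 0 < v.ord h)
    (hg0 : g ≠ 0) (hgn : v.ord g < n * v.ord h) : y ≠ 0 ∧ v.ord y = v.ord g := by
  obtain ⟨hw0, hw⟩ := d.ord_w_of_zero v hh
  have h1 : v.ord (g * u ^ n) = v.ord g := by
    rw [v.ord_mul hg0 (pow_ne_zero n d.u_ne_zero), h4_ord_npow, d.ord_u_of_zero v hh, mul_zero,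
      add_zero]
  have h2 : v.ord (w ^ n) = n * v.ord h := by
    rw [h4_ord_npow, hw]
  have h3 := h4_ord_add_of_lt v (mul_ne_zero hg0 (pow_ne_zero n d.u_ne_zero))
    (pow_ne_zero n hw0) (by rw [h1, h2]; exact hgn)
  rw [← d.hy, h1] at h3
  exact h3

/-- (uni) `ord y = 1` at a zero of `h` where `ord g = 1`, `n ≥ 2`. -/
theorem ord_y_eq_one (d : H4D5 a h g u w y n) (v : Place K F) (hh : 0 < v.ord h)
    (hg : v.ord g = 1) (hn : 2 ≤ n) : v.ord y = 1 := by
  have hg0 : g ≠ 0 := by rintro rfl; simp at hg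
  have h1 : (2 : ℤ) ≤ n := by exact_mod_cast hn
  have := (d.ord_y_of_zero v hh hg0 (by rw [hg]; nlinarith)).2
  rw [this, hg]

/-- (off) `ord y = 0` at a zero of `h` where `g` is a unit, `n ≥ 1`. -/
theorem ord_y_eq_zero (d : H4D5 a h g u w y n) (v : Place K F) (hh : 0 < v.ord h)
    (hg0 : g ≠ 0) (hg : v.ord g = 0) (hn : 1 ≤ n) : y ≠ 0 ∧ v.ord y = 0 := by
  have h1 : (1 : ℤ) ≤ n := by exact_mod_cast hn
  have := d.ord_y_of_zero v hh hg0 (by rw [hg]; nlinarith)
  rw [hg] at this
  exact this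

end H4D5

end D5

/-! ### The value of `y` reduces to zero -/

section Beta

variable {K : Type*} [Field K]

/-- If `a ∈ Aˣ`, `c, b ∈ 𝔪_A` and `n ≥ 1` then `b * (a / (a - c)) ^ n + (c / (c - a)) ^ n ∈ 𝔪_A`. -/
theorem h4_beta_val (A : ValuationSubring K) {a c b : K} (ha : A.valuation a = 1)
    (hc : A.valuation c < 1) (hb : A.valuation b < 1) {n : ℕ} (hn : 1 ≤ n) :
    A.valuation (b * (a / (a - c)) ^ n + (c / (c - a)) ^ n) < 1 := by
  have h1 : A.valuation (a - c) = 1 := by
    rw [Valuation.map_sub_eq_of_lt_left _ (by rw [ha]; exact hc), ha]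
  have h2 : A.valuation (c - a) = 1 := by
    rw [← neg_sub, Valuation.map_neg, h1]
  apply Valuation.map_add_lt
  · rw [map_mul, map_pow, map_div₀, ha, h1, div_one, one_pow, mul_one]
    exact hb
  · rw [map_pow, map_div₀, h2, div_one]
    exact pow_lt_one₀ zero_le hc (by omega)

theorem h4_beta_mem (A : ValuationSubring K) {a c b : K} (ha : A.valuation a = 1)
    (hc : A.valuation c < 1) (hb : A.valuation b < 1) {n : ℕ} (hn : 1 ≤ n) :
    ∃ hβ : b * (a / (a - c)) ^ n + (c / (c - a)) ^ n ∈ A,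
      IsLocalRing.residue A ⟨b * (a / (a - c)) ^ n + (c / (c - a)) ^ n, hβ⟩ = 0 := by
  have h := h4_beta_val A ha hc hb hn
  refine ⟨(A.valuation_le_one_iff _).mp h.le, ?_⟩
  rw [IsLocalRing.residue_eq_zero_iff]
  exact (A.valuation_lt_one_iff _).mpr h

end Beta

end Fermat.Agent.S37x.Red.H4
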