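import Mathlib
import Fermat.Prelude.Def_AlgebraicCurve_DivisorClassGroup
import Fermat.Agent.S24.H15_Kaehler
import Fermat.Agent.S37x.Red.H4_PoleBound
import Fermat.Agent.S37x.Red.H4_D5

/-!
# S37 [RED-M] (c2): chart elements at a place (helper4)

`F / K` a function field, `v` a place, `O` a ring of constants (`O → K → F`), `h, g ∈ F` with
`g` integral over `O[h]`.

* `h4_regular_of_integral` : `g` is regular wherever `h` is;
* `h4Cong_aeval`           : `h ≡ c ⟹ q(h) ≡ q(c)` for `q ∈ O[X]`;
* `h4_value_equation`      : if `h ≡ c` and `g ≡ b` at `v` then `b` satisfies the integral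
                             equation of `g` specialised at `h = c`;
* `h4_value_mem`           : for `O = A` a valuation ring of `K` and `c ∈ A`: `b ∈ A`;
* `h4_exists_cong`         : at a place with trivial residue field every regular function is
                             congruent to a constant.
-/

set_option autoImplicit false

open AlgebraicCurve IsLocalRing Polynomial

namespace Fermat.Agent.S37x.Red.H4

open Fermat.Agent.S24.RH

section Cong

variable {K F : Type*} [Field K] [Field F] [Algebra K F]

theorem H4Cong.sum {v : Place K F} {ι : Type*} (s : Finset ι) (f : ι → F) (ξ : ι → K)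
    (h : ∀ i ∈ s, H4Cong v (f i) (ξ i)) : H4Cong v (∑ i ∈ s, f i) (∑ i ∈ s, ξ i) := by
  classical
  induction s using Finset.induction_on with
  | empty =>
    simp only [Finset.sum_empty]
    have := h4Cong_const v (0 : K)
    rwa [map_zero] at this
  | insert a s ha ih =>
    rw [Finset.sum_insert ha, Finset.sum_insert ha]
    exact (h a (Finset.mem_insert_self a s)).add
      (ih fun i hi => h i (Finset.mem_insert_of_mem hi))

/-- A constant congruent to `0` is `0`. -/
theorem H4Cong.eq_zero_of_zero {v : Place K F} {ξ : K} (h : H4Cong v 0 ξ) : ξ = 0 := by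
  by_contra hξ
  have h1 := h4_val_algebraMap v hξ
  rw [H4Cong, zero_sub, Valuation.map_neg, h1] at h
  exact lt_irrefl _ h

/-- The value at a place is unique. -/
theorem H4Cong.unique {v : Place K F} {x : F} {ξ ξ' : K} (h : H4Cong v x ξ)
    (h' : H4Cong v x ξ') : ξ = ξ' := by
  have h1 := h.sub h'
  rw [sub_self] at h1
  exact sub_eq_zero.mp h1.eq_zero_of_zero

theorem h4Cong_of_ord_pos {v : Place K F} {x : F} {ξ : K}
    (h : 0 < v.ord (x - algebraMap K F ξ)) : H4Cong v x ξ :=
  (h4Cong_iff v x ξ).mpr (Or.inr h)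

theorem h4Cong_zero_of_ord_pos {v : Place K F} {x : F} (h : 0 < v.ord x) : H4Cong v x 0 := by
  apply h4Cong_of_ord_pos
  rwa [map_zero, sub_zero]

/-- At a place with trivial residue field every regular function has a value. -/
theorem h4_exists_cong (v : Place K F) (hres : ResidueTrivial v) {g : F} (hg : 0 ≤ v.ord g) :
    ∃ b : K, H4Cong v g b := by
  have hgm : g ∈ v.toValuationSubring := mem_of_ord_nonneg v hg
  obtain ⟨b, hb⟩ := hres ⟨g, hgm⟩
  refine ⟨b, ?_⟩
  rw [ValuationSubring.valuation_lt_one_iff] at hb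
  have h1 : ((⟨g, hgm⟩ - algebraMap K v.toValuationSubring b : v.toValuationSubring) : F) =
      g - algebraMap K F b := by
    rw [AddSubgroupClass.coe_sub, v.coe_algebraMap]
  rw [h1] at hb
  exact hb

end Cong

section Chart

variable {K F : Type*} [Field K] [Field F] [Algebra K F]
variable {O : Type*} [CommRing O] [Algebra O K] [Algebra O F] [IsScalarTower O K F]

omit [Algebra O K] [IsScalarTower O K F] in
/-- A polynomial in a regular function with regular coefficients is regular. -/
theorem h4_aeval_mem_of_mem (v : Place K F)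
    (hO : ∀ c : O, algebraMap O F c ∈ v.toValuationSubring) {h : F}
    (hh : h ∈ v.toValuationSubring) (q : O[X]) : aeval h q ∈ v.toValuationSubring := by
  rw [aeval_eq_sum_range]
  refine sum_mem fun i _ => ?_
  rw [Algebra.smul_def]
  exact mul_mem (hO _) (pow_mem hh i)

omit [Algebra O K] [IsScalarTower O K F] in
/-- **Chart elements are regular where the coordinate is.** -/
theorem h4_regular_of_integral (v : Place K F)
    (hO : ∀ c : O, algebraMap O F c ∈ v.toValuationSubring) (h g : F) (hh : 0 ≤ v.ord h)
    (hg : IsIntegral (Algebra.adjoin O {h}) g) : 0 ≤ v.ord g := by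
  have hhm : h ∈ v.toValuationSubring := mem_of_ord_nonneg v hh
  obtain ⟨P, hP, hPg⟩ := hg
  set p : F[X] := P.map (algebraMap (Algebra.adjoin O {h}) F) with hp
  have hpm : p.Monic := hP.map _
  have hroot : p.eval g = 0 := by
    rw [hp, eval_map]
    exact hPg
  have hmem : (1 : F) ^ 0 * g ∈ v.toValuationSubring := by
    refine h4_scaled_mem v.toValuationSubring p hpm g hroot 1 (one_mem _) 0 fun i _ => ?_
    rw [pow_zero, mul_one, hp, coeff_map]
    have hmem : ((P.coeff i : Algebra.adjoin O {h}) : F) ∈
        (aeval h : O[X] →ₐ[O] F).range := by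
      rw [← Algebra.adjoin_singleton_eq_range_aeval]
      exact (P.coeff i).2
    obtain ⟨q, hq⟩ := hmem
    have h1 : algebraMap (Algebra.adjoin O {h}) F (P.coeff i) = aeval h q := hq.symm
    rw [h1]
    exact h4_aeval_mem_of_mem v hO hhm q
  rw [pow_zero, one_mul] at hmem
  exact ord_nonneg_of_mem v hmem

/-- `h ≡ c ⟹ q(h) ≡ q(c)`. -/
theorem h4Cong_aeval {v : Place K F} {h : F} {c : K} (hc : H4Cong v h c) (q : O[X]) :
    H4Cong v (aeval h q) (aeval c q) := by
  rw [aeval_eq_sum_range, aeval_eq_sum_range]
  refine H4Cong.sum _ _ _ fun i _ => ?_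
  rw [Algebra.smul_def, Algebra.smul_def, IsScalarTower.algebraMap_apply O K F]
  exact (h4Cong_const v _).mul (hc.pow i)

/-- The values of `h` and `g` satisfy the specialised integral equation. -/
theorem h4_value_equation {v : Place K F} {h g : F} {c b : K} (hc : H4Cong v h c)
    (hb : H4Cong v g b) (n : ℕ) (q : ℕ → O[X])
    (heq : g ^ n + ∑ i ∈ Finset.range n, aeval h (q i) * g ^ i = 0) :
    b ^ n + ∑ i ∈ Finset.range n, aeval c (q i) * b ^ i = 0 := by
  have h1 : H4Cong v (g ^ n + ∑ i ∈ Finset.range n, aeval h (q i) * g ^ i)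
      (b ^ n + ∑ i ∈ Finset.range n, aeval c (q i) * b ^ i) :=
    (hb.pow n).add (H4Cong.sum _ _ _ fun i _ => (h4Cong_aeval hc (q i)).mul (hb.pow i))
  rw [heq] at h1
  exact h1.eq_zero_of_zero

end Chart

section ValueMem

variable {K F : Type*} [Field K] [Field F] [Algebra K F]

/-- An element of `K` satisfying a monic equation with coefficients in the valuation ring `A`
lies in `A`. -/
theorem h4_mem_of_equation (A : ValuationSubring K) (b : K) (n : ℕ) (a : ℕ → A)
    (heq : b ^ n + ∑ i ∈ Finset.range n, (a i : K) * b ^ i = 0) : b ∈ A := by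
  set s : A[X] := ∑ i ∈ Finset.range n, C (a i) * X ^ i with hs
  have hdeg : s.degree < n := by
    refine lt_of_le_of_lt (degree_sum_le _ _) ?_
    refine (Finset.sup_lt_iff (WithBot.bot_lt_coe n)).mpr ?_
    intro i hi
    refine lt_of_le_of_lt (degree_C_mul_X_pow_le i (a i)) ?_
    exact Nat.cast_lt.mpr (Finset.mem_range.mp hi)
  have hmon : (X ^ n + s).Monic := monic_X_pow_add hdeg
  have hint : IsIntegral A b := by
    refine ⟨X ^ n + s, hmon, ?_⟩
    rw [eval₂_add, eval₂_X_pow, hs, eval₂_finsetSum]
    rw [← heq]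
    congr 1
    refine Finset.sum_congr rfl fun i _ => ?_
    rw [eval₂_mul, eval₂_C, eval₂_X_pow]
    rfl
  obtain ⟨y, hy⟩ := IsIntegrallyClosed.isIntegral_iff.mp hint
  rw [← hy]
  exact y.2

/-- **The value of a chart element at a place where the coordinate has a value in `A` lies
in `A`.** -/
theorem h4_value_mem (A : ValuationSubring K) {v : Place K F} {h g : F} {c b : K}
    (hg : IsIntegral (Algebra.adjoin A {h}) g) (hcA : c ∈ A) (hc : H4Cong v h c)
    (hb : H4Cong v g b) : b ∈ A := by
  obtain ⟨n, m, q, -, heq⟩ := h4_exists_equation (O := A) h g hg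
  have h1 := h4_value_equation hc hb n q heq
  refine h4_mem_of_equation A b n (fun i => (q i).eval ⟨c, hcA⟩) ?_
  rw [← h1]
  congr 1
  refine Finset.sum_congr rfl fun i _ => ?_
  congr 1
  have h2 := aeval_algebraMap_apply (A := A) (B := K) (⟨c, hcA⟩ : A) (q i)
  rw [show algebraMap A K ⟨c, hcA⟩ = c from rfl] at h2
  rw [h2]
  rfl

end ValueMem

end Fermat.Agent.S37x.Red.H4
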