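import Fermat.Agent.S37x.Red.H20_ConsG
import Fermat.Agent.S37x.Red.H4_ChartVal
import Fermat.Agent.S37x.Red.H4_D5
import Fermat.Agent.S37x.Red.H4_PoleBound
import Fermat.Agent.S37x.Asm.DefsLeaves

/-!
# S37 [RED-M] (c2), (ε), Gauss form: the cusp clause of `StSepOne` via (D5) (helper20)

Port of helper4's `h4_sep_chart` / `h4_stSep_cusp` to chart elements in the Gauss ring
`gaussL A M` of `F_L` (helper22), with the reduction `redL` (a ring homomorphism).

* `gaussLC`        : the constants `A →+* gaussL A M`;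
* `red_equation_g` : the reduction of the integral equation of a chart element;
* `sep_chart_g`    : **chart form of (D5)**;
* `stSep_cusp_g`   : **the cusp clause of `Asm.StSepOne A r`**.
-/

set_option autoImplicit false
set_option synthInstance.maxHeartbeats 400000
set_option maxHeartbeats 1000000

open HahnSeries IntermediateField AlgebraicCurve ModularCurve Polynomial

noncomputable section

namespace Fermat.Agent.S37x.Red.H20

open Fermat.Agent.S24.RH Fermat.Agent.S37x.Red.H22 Fermat.Agent.S37x.Red.H4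

local notation "Lbar" => AlgebraicClosure ℚ

variable (A : ValuationSubring (AlgebraicClosure ℚ)) (M : ℕ) [NeZero M]
  {ℓ : ℕ} (hℓ : ℓ.Prime) (hA : A.LiesOverPrime ℓ) (hℓM : ¬ ℓ ∣ M)

local notation "kA" => IsLocalRing.ResidueField A

/-- The constants of `A` in the Gauss ring of `F_L`. -/
def gaussLC : A →+* gaussL A M :=
  (algebraMap A (modularFunctionFieldBar M)).codRestrict (gaussL A M)
    (fun a => algebraMap_mem_gaussL A M a)

theorem coe_gaussLC (a : A) :
    ((gaussLC A M a : gaussL A M) : modularFunctionFieldBar M) =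
      algebraMap Lbar (modularFunctionFieldBar M) (a : Lbar) := rfl

theorem redL_gaussLC (a : A) :
    redL A M hℓ hA hℓM (gaussLC A M a) =
      algebraMap kA (modularFunctionFieldFullC kA M) (IsLocalRing.residue A a) :=
  redL_algebraMap A M hℓ hA hℓM a

theorem redL_comp_gaussLC :
    (redL A M hℓ hA hℓM).comp (gaussLC A M) =
      (algebraMap kA (modularFunctionFieldFullC kA M)).comp (IsLocalRing.residue A) :=
  RingHom.ext (fun a => redL_gaussLC A M hℓ hA hℓM a)

/-- the coercion of a polynomial expression in the Gauss ring -/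
theorem coe_eval₂_gaussLC (xg : gaussL A M) (p : A[X]) :
    ((p.eval₂ (gaussLC A M) xg : gaussL A M) : modularFunctionFieldBar M) =
      aeval (xg : modularFunctionFieldBar M) p := by
  have h := hom_eval₂ p (gaussLC A M) (gaussL A M).subtype xg
  rw [aeval_def]
  exact h

/-- the reduction of a polynomial expression in the Gauss ring -/
theorem redL_eval₂_gaussLC (xg : gaussL A M) (p : A[X]) :
    redL A M hℓ hA hℓM (p.eval₂ (gaussLC A M) xg) =
      aeval (redL A M hℓ hA hℓM xg) (p.map (IsLocalRing.residue A)) := by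
  rw [hom_eval₂, redL_comp_gaussLC, aeval_def, eval₂_map]

/-- **The reduction of the integral equation of a chart element.** -/
theorem red_equation_g (xg g : gaussL A M) (n : ℕ) (q : ℕ → A[X])
    (heq : (g : modularFunctionFieldBar M) ^ n + ∑ i ∈ Finset.range n,
      aeval (xg : modularFunctionFieldBar M) (q i) * (g : modularFunctionFieldBar M) ^ i = 0) :
    (redL A M hℓ hA hℓM g) ^ n + ∑ i ∈ Finset.range n,
      aeval (redL A M hℓ hA hℓM xg) ((q i).map (IsLocalRing.residue A)) *
        (redL A M hℓ hA hℓM g) ^ i = 0 := by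
  have hG : g ^ n + ∑ i ∈ Finset.range n, (q i).eval₂ (gaussLC A M) xg * g ^ i = 0 := by
    apply Subtype.ext
    rw [Subring.coe_add, Subring.coe_pow, Subring.coe_zero, ← heq]
    congr 1
    rw [← Subring.coe_subtype, map_sum]
    refine Finset.sum_congr rfl fun i _ => ?_
    rw [Subring.coe_subtype, Subring.coe_mul, Subring.coe_pow, coe_eval₂_gaussLC]
  have h1 := congrArg (redL A M hℓ hA hℓM) hG
  rw [map_zero, map_add, map_pow, map_sum] at h1
  rw [← h1]
  congr 1
  refine Finset.sum_congr rfl fun i _ => ?_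
  rw [map_mul, map_pow, redL_eval₂_gaussLC]

/-- **(D5), chart form, Gauss form.**  `xL` a chart coordinate with `1 - xL` a unit of the
Gauss ring, `P` a place at which `xL` has a value in `𝔪_A`.  Then there is a function with a
simple zero at `P` all of whose other zeros and poles reduce away from the zeros and poles of
`x̄`. -/
theorem sep_chart_g
    (r : Place Lbar (modularFunctionFieldBar M) → Place kA (modularFunctionFieldFullC kA M))
    (hr : IsPlaceReductionModL A M r)
    (hdiv : ∀ f : modularFunctionFieldBar M, f ≠ 0 →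
      ∃ D : Divisor Lbar (modularFunctionFieldBar M),
        ∀ P : Place Lbar (modularFunctionFieldBar M), D P = P.ord f)
    (hdivk : ∀ f : modularFunctionFieldFullC kA M, f ≠ 0 →
      ∃ D : Divisor kA (modularFunctionFieldFullC kA M),
        ∀ Q : Place kA (modularFunctionFieldFullC kA M), D Q = Q.ord f)
    (hres : ∀ P : Place Lbar (modularFunctionFieldBar M), ResidueTrivial P)
    (xL : modularFunctionFieldBar M) (hxV : xL ∈ gaussL A M)
    (u : gaussL A M) (hu : (u : modularFunctionFieldBar M) * (1 - xL) = 1)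
    (hxnc : ∀ β : kA, redL A M hℓ hA hℓM ⟨xL, hxV⟩ ≠
      algebraMap kA (modularFunctionFieldFullC kA M) β)
    (hVal : StValG A M hℓ hA hℓM r xL) (hWA : StWAG A M hℓ hA hℓM xL hxV)
    (P : Place Lbar (modularFunctionFieldBar M)) (c : A) (hc : IsLocalRing.residue A c = 0)
    (hPc : 0 < P.ord (xL - algebraMap Lbar (modularFunctionFieldBar M) (c : Lbar))) :
    ∃ f : modularFunctionFieldBar M, f ≠ 0 ∧ P.ord f = 1 ∧
      ∀ P' : Place Lbar (modularFunctionFieldBar M), P' ≠ P → P'.ord f ≠ 0 →
        (r P').ord (redL A M hℓ hA hℓM ⟨xL, hxV⟩) = 0 := by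
  classical
  set xg : gaussL A M := ⟨xL, hxV⟩ with hxg
  set xk : modularFunctionFieldFullC kA M := redL A M hℓ hA hℓM xg with hxkd
  -- (0) `x` lies in its own chart
  have hinx : IsIntegral (Algebra.adjoin A {xL}) (xg : modularFunctionFieldBar M) := by
    have hmem : xL ∈ Algebra.adjoin A {xL} := Algebra.subset_adjoin (Set.mem_singleton _)
    exact isIntegral_algebraMap (R := Algebra.adjoin A {xL}) (x := ⟨xL, hmem⟩)
  -- (1) `r P` is a zero of `x̄`
  have hxk0 : xk ≠ 0 := by
    have := hxnc 0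
    rwa [map_zero] at this
  have hQ0 : 0 < (r P).ord xk := by
    rcases hVal P c (Or.inr hPc) xg hinx c (Or.inr hPc) with h | h
    · exact absurd h (hxnc _)
    · rwa [hc, map_zero, sub_zero] at h
  -- (2) the finitely many zeros of `x̄`
  obtain ⟨Dx, hDx⟩ := hdivk xk hxk0
  set T0 : Finset (Place kA (modularFunctionFieldFullC kA M)) :=
    Dx.support.filter (fun Q' => 0 ≤ Q'.ord xk) with hT0
  -- (3) weak approximation
  obtain ⟨g, hin, hg1, hg0⟩ := hWA (r P) T0 (by
    rintro Q' (rfl | hQ')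
    · exact hQ0.le
    · exact (Finset.mem_filter.mp hQ').2)
  set gL : modularFunctionFieldBar M := (g : modularFunctionFieldBar M) with hgL
  set gk : modularFunctionFieldFullC kA M := redL A M hℓ hA hℓM g with hgkd
  have hgk0 : gk ≠ 0 := by
    intro h
    rw [h, Place.ord_zero] at hg1
    exact zero_ne_one hg1
  -- (4) the pole-order bound, upstairs and downstairs
  obtain ⟨n0, m0, q, hq, heq⟩ := h4_exists_equation (O := A) xL gL hin
  have heqk := red_equation_g A M hℓ hA hℓM xg g n0 q heq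
  have hbL : ∀ v : Place Lbar (modularFunctionFieldBar M), v.ord xL < 0 →
      (m0 : ℤ) * v.ord xL ≤ v.ord gL := fun v hv =>
    h4_pole_bound_of_equation (O := A) v (fun c => v.algebraMap_mem' _) xL gL hv n0 m0 q hq heq
  have hbk : ∀ v : Place kA (modularFunctionFieldFullC kA M), v.ord xk < 0 →
      (m0 : ℤ) * v.ord xk ≤ v.ord gk := fun v hv =>
    h4_pole_bound_of_equation (O := kA) v (fun c => v.algebraMap_mem' _) xk gk hv n0 m0
      (fun i => (q i).map (IsLocalRing.residue A))
      (fun i => le_trans natDegree_map_le (hq i)) heqk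
  -- (5) the element `y`
  set n : ℕ := m0 + 2 with hn
  set w : gaussL A M := 1 - u with hw
  set y : gaussL A M := g * u ^ n + w ^ n with hy
  have huG : u * (1 - xg) = 1 := Subtype.ext hu
  have dL : H4D5 (1 : Lbar) xL gL (u : modularFunctionFieldBar M)
      (w : modularFunctionFieldBar M) (y : modularFunctionFieldBar M) n := by
    refine ⟨one_ne_zero, ?_, ?_, ?_⟩
    · rw [map_one]; exact hu
    · have : u + w = 1 := by rw [hw]; ring
      exact congrArg Subtype.val this
    · rfl
  have dk : H4D5 (1 : kA) xk gk (redL A M hℓ hA hℓM u) (redL A M hℓ hA hℓM w)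
      (redL A M hℓ hA hℓM y) n := by
    refine ⟨one_ne_zero, ?_, ?_, ?_⟩
    · have := congrArg (redL A M hℓ hA hℓM) huG
      rw [map_mul, map_sub, map_one] at this
      rw [map_one]
      exact this
    · rw [← map_add]
      have : u + w = 1 := by rw [hw]; ring
      rw [this, map_one]
    · rw [hy, map_add, map_mul, map_pow, map_pow]
  -- (6) `ord_{r P} ȳ = 1`
  have huni := dk.ord_y_eq_one (r P) hQ0 hg1 (by omega)
  -- (7) `ord_{Q'} ȳ = 0` at the other zeros and poles of `x̄`
  have hoff : ∀ Q' ∈ {Q' : Place kA (modularFunctionFieldFullC kA M) | Q'.ord xk ≠ 0},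
      Q' ≠ r P → Q'.ord (redL A M hℓ hA hℓM y) = 0 := by
    intro Q' hQ' hne
    rcases lt_or_gt_of_ne (show Q'.ord xk ≠ 0 from hQ') with hneg | hpos
    · exact (dk.ord_y_of_pole Q' hneg m0 (by omega) (Or.inr (hbk Q' hneg))).2
    · have hmem : Q' ∈ T0 :=
        Finset.mem_filter.mpr ⟨Finsupp.mem_support_iff.mpr (by rw [hDx]; exact hpos.ne'),
          hpos.le⟩
      exact (dk.ord_y_eq_zero Q' hpos hgk0 (hg0 Q' hmem hne) (by omega)).2
  -- (8) `y` is regular at the places reducing to a zero or pole of `x̄`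
  have hreg : ∀ P'' : Place Lbar (modularFunctionFieldBar M),
      (r P'' ∈ {Q' : Place kA (modularFunctionFieldFullC kA M) | Q'.ord xk ≠ 0} ∨
        r P'' = r P) →
      0 ≤ P''.ord (y : modularFunctionFieldBar M) := by
    intro P'' hP''
    have hne : (r P'').ord xk ≠ 0 := by
      rcases hP'' with h | h
      · exact h
      · rw [h]; exact hQ0.ne'
    rcases lt_or_ge (P''.ord xL) 0 with hpole | hregx
    · exact (dL.ord_y_of_pole P'' hpole m0 (by omega) (Or.inr (hbL P'' hpole))).2.ge
    · have hle : P''.ord (xL - algebraMap Lbar (modularFunctionFieldBar M) 1) ≤ 0 := by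
        by_contra hpos
        rw [not_le] at hpos
        have hpos' : 0 < P''.ord (xL - algebraMap Lbar (modularFunctionFieldBar M)
            (((1 : A) : Lbar))) := hpos
        rcases hVal P'' 1 (Or.inr hpos') xg hinx 1 (Or.inr hpos') with h | h
        · exact hxnc _ h
        · have h1 : H4Cong (r P'') xk (IsLocalRing.residue A 1) := h4Cong_of_ord_pos h
          rw [map_one] at h1
          exact hne ((h4_val_eq_one_iff _ _).mp (h1.val_eq_one one_ne_zero)).2
      have hgreg : 0 ≤ P''.ord gL :=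
        h4_regular_of_integral (O := A) P'' (fun c => P''.algebraMap_mem' _) xL gL hregx hin
      exact dL.ord_y_nonneg P'' hle hgreg
  -- (9) the value of `y` at `P`
  have hcL : H4Cong P xL (c : Lbar) := h4Cong_of_ord_pos hPc
  have hgreg : 0 ≤ P.ord gL :=
    h4_regular_of_integral (O := A) P (fun c => P.algebraMap_mem' _) xL gL hcL.ord_nonneg hin
  obtain ⟨b1, hb1⟩ := h4_exists_cong P (hres P) hgreg
  have hb1A : b1 ∈ A := h4_value_mem A hin c.2 hcL hb1
  have hres1 : IsLocalRing.residue A ⟨b1, hb1A⟩ = 0 := by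
    rcases hVal P c (Or.inr hPc) g hin ⟨b1, hb1A⟩ ((h4Cong_iff _ _ _).mp hb1) with h | h
    · exfalso
      have h' : gk = algebraMap kA (modularFunctionFieldFullC kA M)
          (IsLocalRing.residue A ⟨b1, hb1A⟩) := h
      rw [h', ord_algebraMap] at hg1
      exact zero_ne_one hg1
    · exact H4Cong.unique (h4Cong_of_ord_pos h)
        (h4Cong_zero_of_ord_pos (by rw [hg1]; exact one_pos))
  have hvalc : A.valuation (c : Lbar) < 1 :=
    (A.valuation_lt_one_iff c).mp ((IsLocalRing.residue_eq_zero_iff c).mp hc)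
  have hvalb : A.valuation b1 < 1 :=
    (A.valuation_lt_one_iff ⟨b1, hb1A⟩).mp ((IsLocalRing.residue_eq_zero_iff _).mp hres1)
  obtain ⟨hβ, hβres⟩ := h4_beta_mem A (a := 1) (c := (c : Lbar)) (b := b1)
    (A.valuation.map_one) hvalc hvalb (n := n) (by omega)
  have hc1 : (c : Lbar) ≠ 1 := by
    intro h
    rw [h, map_one] at hvalc
    exact lt_irrefl _ hvalc
  have hyc := dL.cong_y P hcL hc1 hb1
  have hynot : (y : modularFunctionFieldBar M) ≠ algebraMap Lbar (modularFunctionFieldBar M)
        (b1 * (1 / (1 - (c : Lbar))) ^ n + ((c : Lbar) / ((c : Lbar) - 1)) ^ n) := by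
    intro h
    have hyG : y = gaussLC A M ⟨_, hβ⟩ := Subtype.ext h
    rw [hyG, redL_gaussLC, ord_algebraMap] at huni
    exact zero_ne_one huni
  have hval := ((h4Cong_iff _ _ _).mp hyc).resolve_left hynot
  -- (10) the separation lemma
  obtain ⟨f, hf0, hf1, hf2⟩ := sep_of_lift_g A M hℓ hA hℓM r hr hdiv P
    {Q' : Place kA (modularFunctionFieldFullC kA M) | Q'.ord xk ≠ 0}
    y hreg ⟨_, hβ⟩ hβres hval huni hoff
  refine ⟨f, hf0, hf1, fun P' hP' hord => ?_⟩
  have h1 := (hf2 P' hP' hord).1
  exact not_not.mp h1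

/-- `sep_chart_g` with the unit hypothesis in the form `(1 - xL)⁻¹ ∈ gaussL A M`. -/
theorem sep_chart_g'
    (r : Place Lbar (modularFunctionFieldBar M) → Place kA (modularFunctionFieldFullC kA M))
    (hr : IsPlaceReductionModL A M r)
    (hdiv : ∀ f : modularFunctionFieldBar M, f ≠ 0 →
      ∃ D : Divisor Lbar (modularFunctionFieldBar M),
        ∀ P : Place Lbar (modularFunctionFieldBar M), D P = P.ord f)
    (hdivk : ∀ f : modularFunctionFieldFullC kA M, f ≠ 0 →
      ∃ D : Divisor kA (modularFunctionFieldFullC kA M),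
        ∀ Q : Place kA (modularFunctionFieldFullC kA M), D Q = Q.ord f)
    (hres : ∀ P : Place Lbar (modularFunctionFieldBar M), ResidueTrivial P)
    (xL : modularFunctionFieldBar M) (hxV : xL ∈ gaussL A M)
    (hu : (1 - xL)⁻¹ ∈ gaussL A M)
    (hxnc : ∀ β : kA, redL A M hℓ hA hℓM ⟨xL, hxV⟩ ≠
      algebraMap kA (modularFunctionFieldFullC kA M) β)
    (hVal : StValG A M hℓ hA hℓM r xL) (hWA : StWAG A M hℓ hA hℓM xL hxV)
    (P : Place Lbar (modularFunctionFieldBar M)) (c : A) (hc : IsLocalRing.residue A c = 0)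
    (hPc : 0 < P.ord (xL - algebraMap Lbar (modularFunctionFieldBar M) (c : Lbar))) :
    ∃ f : modularFunctionFieldBar M, f ≠ 0 ∧ P.ord f = 1 ∧
      ∀ P' : Place Lbar (modularFunctionFieldBar M), P' ≠ P → P'.ord f ≠ 0 →
        (r P').ord (redL A M hℓ hA hℓM ⟨xL, hxV⟩) = 0 := by
  have h1 : (1 : modularFunctionFieldBar M) - xL ≠ 0 := by
    intro h0
    have hx1 : xL = 1 := (sub_eq_zero.mp h0).symm
    apply hxnc 1
    have : (⟨xL, hxV⟩ : gaussL A M) = 1 := Subtype.ext hx1
    rw [this, map_one, map_one]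
  exact sep_chart_g A M hℓ hA hℓM r hr hdiv hdivk hres xL hxV ⟨(1 - xL)⁻¹, hu⟩
    (inv_mul_cancel₀ h1) hxnc hVal hWA P c hc hPc

/-- **(ε) The cusp clause of `StSepOne`** from the two charts `xL`, `xL'` of a Hauptmodul. -/
theorem stSep_cusp_g
    (r : Place Lbar (modularFunctionFieldBar M) → Place kA (modularFunctionFieldFullC kA M))
    (hr : IsPlaceReductionModL A M r)
    (hdiv : ∀ f : modularFunctionFieldBar M, f ≠ 0 →
      ∃ D : Divisor Lbar (modularFunctionFieldBar M),
        ∀ P : Place Lbar (modularFunctionFieldBar M), D P = P.ord f)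
    (hdivk : ∀ f : modularFunctionFieldFullC kA M, f ≠ 0 →
      ∃ D : Divisor kA (modularFunctionFieldFullC kA M),
        ∀ Q : Place kA (modularFunctionFieldFullC kA M), D Q = Q.ord f)
    (hres : ∀ P : Place Lbar (modularFunctionFieldBar M), ResidueTrivial P)
    (xL : modularFunctionFieldBar M) (hxV : xL ∈ gaussL A M)
    (hu : (1 - xL)⁻¹ ∈ gaussL A M)
    (hxnc : ∀ β : kA, redL A M hℓ hA hℓM ⟨xL, hxV⟩ ≠
      algebraMap kA (modularFunctionFieldFullC kA M) β)
    (hVal : StValG A M hℓ hA hℓM r xL) (hWA : StWAG A M hℓ hA hℓM xL hxV)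
    (xL' : modularFunctionFieldBar M) (hxV' : xL' ∈ gaussL A M)
    (hu' : (1 - xL')⁻¹ ∈ gaussL A M)
    (hxnc' : ∀ β : kA, redL A M hℓ hA hℓM ⟨xL', hxV'⟩ ≠
      algebraMap kA (modularFunctionFieldFullC kA M) β)
    (hVal' : StValG A M hℓ hA hℓM r xL') (hWA' : StWAG A M hℓ hA hℓM xL' hxV')
    (hcuspL : ∀ P : Place Lbar (modularFunctionFieldBar M), Asm.JCusp A P →
      (∃ c : A, IsLocalRing.residue A c = 0 ∧
        0 < P.ord (xL - algebraMap Lbar (modularFunctionFieldBar M) (c : Lbar))) ∨
      (∃ c : A, IsLocalRing.residue A c = 0 ∧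
        0 < P.ord (xL' - algebraMap Lbar (modularFunctionFieldBar M) (c : Lbar))))
    (hcuspk : ∀ Q : Place kA (modularFunctionFieldFullC kA M), Q.ord (Asm.jk A M) < 0 →
      Q.ord (redL A M hℓ hA hℓM ⟨xL, hxV⟩) ≠ 0 ∧
      Q.ord (redL A M hℓ hA hℓM ⟨xL', hxV'⟩) ≠ 0) :
    ∀ P : Place Lbar (modularFunctionFieldBar M), Asm.JCusp A P →
      ∃ f : modularFunctionFieldBar M, f ≠ 0 ∧ P.ord f = 1 ∧
        ∀ P' : Place Lbar (modularFunctionFieldBar M), P' ≠ P →
          P'.ord f ≠ 0 → ¬ (r P').ord (Asm.jk A M) < 0 := by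
  intro P hP
  rcases hcuspL P hP with ⟨c, hc, hPc⟩ | ⟨c, hc, hPc⟩
  · obtain ⟨f, hf0, hf1, hf2⟩ := sep_chart_g' A M hℓ hA hℓM r hr hdiv hdivk hres xL hxV hu hxnc
      hVal hWA P c hc hPc
    exact ⟨f, hf0, hf1, fun P' hP' hord hpole => (hcuspk (r P') hpole).1 (hf2 P' hP' hord)⟩
  · obtain ⟨f, hf0, hf1, hf2⟩ := sep_chart_g' A M hℓ hA hℓM r hr hdiv hdivk hres xL' hxV' hu'
      hxnc' hVal' hWA' P c hc hPc
    exact ⟨f, hf0, hf1, fun P' hP' hord hpole => (hcuspk (r P') hpole).2 (hf2 P' hP' hord)⟩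

end Fermat.Agent.S37x.Red.H20
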