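import Fermat.Agent.S37x.Red.H21_U1

/-!
# S37 [RED-M] (c2), inputs of the cusp clause (helper21): the cusps in the two `h`-charts

`j * D(h) = N(h)` with `D = X ^ e`.  No place reduction is involved.

* `h21_hcuspL_two / _three` : a place `P` of `F_M` which reduces to a cusp (`j` has a pole at
  `P`, or its value is not in `A`) has `h(P) ∈ 𝔪_A` or `h⁻¹(P) ∈ 𝔪_A`;
* `h21_hcuspk_two / _three` : a pole of `j̄` is a zero or a pole of `h̄`;
* `h21_pole_of_ord_ne_zero_two / _three` : conversely a zero or pole of `h̄` is a pole of `j̄`.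
-/

set_option autoImplicit false
set_option synthInstance.maxHeartbeats 400000
set_option maxHeartbeats 1000000
set_option linter.unusedSectionVars false

noncomputable section

namespace Fermat.Agent.S37x.Red.H21

open AlgebraicCurve Polynomial ModularCurve
open Fermat.Agent.S24.RH Fermat.Agent.S18x.IG Fermat.Agent.S18x.IG.H4
  Fermat.Agent.S18x.Dict.H22 Fermat.Agent.S18x.Dict.H23

local notation "Lbar" => AlgebraicClosure ℚ

/-! ### generic statements -/

section GenericL

variable {L F : Type*} [Field L] [Field F] [Algebra L F]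

/-- **the cusps in the two charts, characteristic `0` side.** -/
theorem h21_cusp_chart (A : ValuationSubring L) (P : Place L F) (hres : ResidueTrivial P)
    {j h : F} {N D : A[X]} (hnc : h ∉ Set.range (algebraMap L F))
    (hDt : aeval h (D.map (algebraMap A L)) ≠ 0)
    (idL : j * aeval h (D.map (algebraMap A L)) = aeval h (N.map (algebraMap A L)))
    (hDu : ∀ c : A, IsUnit c → IsUnit (D.eval c))
    (hP : P.ord j < 0 ∨ ∃ a : L, a ∉ A ∧ 0 < P.ord (j - algebraMap L F a)) :
    (∃ c : A, ¬ IsUnit c ∧ 0 < P.ord (h - algebraMap L F (c : L))) ∨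
      ∃ c : A, ¬ IsUnit c ∧ 0 < P.ord (h⁻¹ - algebraMap L F (c : L)) := by
  rcases ord_pos_or_ord_neg P hres hnc with hneg | ⟨c, hc⟩
  · -- `h` has a pole at `P`
    right
    refine ⟨0, not_isUnit_zero, ?_⟩
    rw [ZeroMemClass.coe_zero, map_zero, sub_zero, P.ord_inv]
    omega
  by_cases hcA : c ∈ A
  · -- the value of `h` lies in `A`: `D(c)` is not a unit
    left
    refine ⟨⟨c, hcA⟩, fun hcu => ?_, hc⟩
    have hDz : ¬ IsUnit (D.eval (⟨c, hcA⟩ : A)) := by
      rcases hP with hpole | ⟨a, haA, ha⟩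
      · have hDc : (D.map (algebraMap A L)).eval c = 0 := by
          by_contra hne
          obtain ⟨hD1, hD2⟩ := h4_ord_aeval_eq_zero P hc hne
          have hj0 : j ≠ 0 := by
            rintro rfl
            rw [P.ord_zero] at hpole
            exact lt_irrefl _ hpole
          have h1 := congrArg P.ord idL
          rw [P.ord_mul hj0 hD2, hD1, add_zero] at h1
          have h2 : 0 ≤ P.ord (aeval h (N.map (algebraMap A L))) :=
            ord_nonneg_of_mem P (h4_aeval_mem P (h4_mem_of_ord_sub_pos P hc) _)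
          omega
        have h0 : D.eval (⟨c, hcA⟩ : A) = 0 := by
          apply Subtype.ext
          rw [← H21U1Data.evalL]
          exact hDc
        rw [h0]
        exact not_isUnit_zero
      · intro hu
        apply haA
        have hv := h21_value_eq P idL hDt hc ha
        have e1 : (N.map (algebraMap A L)).eval c = ((N.eval (⟨c, hcA⟩ : A) : A) : L) :=
          H21U1Data.evalL (⟨c, hcA⟩ : A) N
        have e2 : (D.map (algebraMap A L)).eval c = ((D.eval (⟨c, hcA⟩ : A) : A) : L) :=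
          H21U1Data.evalL (⟨c, hcA⟩ : A) D
        rw [e1, e2] at hv
        obtain ⟨u, hu'⟩ := hu
        have h3 : a = ((N.eval (⟨c, hcA⟩ : A) * ((u⁻¹ : Aˣ) : A) : A) : L) := by
          have hu1 : ((D.eval (⟨c, hcA⟩ : A) : A) : L) * (((u⁻¹ : Aˣ) : A) : L) = 1 := by
            rw [← hu']
            have h9 := congrArg (Subtype.val) (Units.mul_inv u)
            rw [MulMemClass.coe_mul] at h9
            exact h9
          push_cast
          rw [hv, mul_assoc, hu1, mul_one]
        rw [h3]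
        exact (N.eval (⟨c, hcA⟩ : A) * ((u⁻¹ : Aˣ) : A) : A).2
    exact hDz (hDu _ hcu)
  · -- the value of `h` is not in `A`: its inverse lies in the maximal ideal
    right
    have hc0 : c ≠ 0 := by
      rintro rfl
      exact hcA A.zero_mem
    have hci : c⁻¹ ∈ A := (A.mem_or_inv_mem c).resolve_left hcA
    refine ⟨⟨c⁻¹, hci⟩, fun hu => ?_, h21_ord_inv_sub P hc0 hc⟩
    apply hcA
    obtain ⟨u, hu'⟩ := hu
    have h1 : ((u : A) : L) * (((u⁻¹ : Aˣ) : A) : L) = 1 := by
      have h9 := congrArg (Subtype.val) (Units.mul_inv u)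
      rw [MulMemClass.coe_mul] at h9
      exact h9
    rw [hu'] at h1
    have h2 : (((u⁻¹ : Aˣ) : A) : L) = c := by
      have h3 : c⁻¹ * (((u⁻¹ : Aˣ) : A) : L) = 1 := h1
      have h4 : c * (c⁻¹ * (((u⁻¹ : Aˣ) : A) : L)) = c * 1 := by rw [h3]
      rw [← mul_assoc, mul_inv_cancel₀ hc0, one_mul, mul_one] at h4
      exact h4
    rw [← h2]
    exact ((u⁻¹ : Aˣ) : A).2

end GenericL

section Generick

variable {K F : Type*} [Field K] [Field F] [Algebra K F]

/-- a pole of `j = N(t) / t ^ e` is a zero or a pole of `t` -/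
theorem h21_ord_ne_zero_of_pole (v : Place K F) {j t : F} {N : K[X]} {e : ℕ} (ht0 : t ≠ 0)
    (hid : j * aeval t ((X : K[X]) ^ e) = aeval t N) (hj : v.ord j < 0) : v.ord t ≠ 0 := by
  intro h0
  have htm : t ∈ v.toValuationSubring := mem_of_ord_nonneg v h0.ge
  have hN : 0 ≤ v.ord (aeval t N) := ord_nonneg_of_mem v (h4_aeval_mem v htm N)
  have hj0 : j ≠ 0 := by
    rintro rfl
    rw [v.ord_zero] at hj
    exact lt_irrefl _ hj
  have hte : t ^ e ≠ 0 := pow_ne_zero e ht0
  have h1 := congrArg v.ord hid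
  rw [map_pow, aeval_X, v.ord_mul hj0 hte, h4_ord_pow, h0, mul_zero, add_zero] at h1
  omega

/-- a zero or a pole of `t` is a pole of `j = N(t) / D(t)` when `D(0) = 0 ≠ N(0)` and
`deg D < deg N` -/
theorem h21_pole_of_ord_ne_zero (v : Place K F) {j t : F} {N D : K[X]} (hN : N ≠ 0)
    (hD : D ≠ 0) (hdeg : D.natDegree < N.natDegree) (hDt : aeval t D ≠ 0)
    (hid : j * aeval t D = aeval t N) (hD0 : D.eval 0 = 0) (hN0 : N.eval 0 ≠ 0)
    (ht : v.ord t ≠ 0) : v.ord j < 0 := by
  rcases lt_or_gt_of_ne ht with h | h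
  · exact h21_pole_of_pole v hN hD hdeg hid h
  · refine h21_pole_of_root v hid hDt (c := 0) ?_ hD0 hN0
    rw [map_zero, sub_zero]
    exact h

end Generick

/-! ### subfields of `K((q))` -/

section Sub

variable {K : Type*} [Field K] (E : IntermediateField K (LaurentSeries K))

theorem h21_not_const_of_order (T : E) (hT : (T : LaurentSeries K).order ≠ 0) :
    T ∉ Set.range (algebraMap K E) := by
  rintro ⟨c, rfl⟩
  exact h21_transcendental_of_order E _ hT (isAlgebraic_algebraMap c)

theorem h21_aeval_ne_zero_of_order (T : E) (hT : (T : LaurentSeries K).order ≠ 0) {p : K[X]}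
    (hp : p ≠ 0) : aeval T p ≠ 0 :=
  fun h0 => hp ((transcendental_iff.mp (h21_transcendental_of_order E T hT)) p h0)

theorem h21_ne_zero_of_order (T : E) (hT : (T : LaurentSeries K).order ≠ 0) : T ≠ 0 := by
  rintro rfl
  apply hT
  rw [ZeroMemClass.coe_zero, HahnSeries.order_zero]

end Sub

/-! ### the levels `2` and `3` -/

section Levels

variable (A : ValuationSubring Lbar) (M : ℕ) [NeZero M]

theorem h21_isUnit_D2 (c : A) (hc : IsUnit c) : IsUnit ((h21D2 A).eval c) := by
  rw [h21D2, eval_pow, eval_X]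
  exact hc.pow 2

theorem h21_isUnit_D3 (c : A) (hc : IsUnit c) : IsUnit ((h21D3 A).eval c) := by
  rw [h21D3, eval_pow, eval_X]
  exact hc.pow 3

/-- **Level 2, `hcuspL`**: a place reducing to a cusp has `h(P) ∈ 𝔪_A` or `h⁻¹(P) ∈ 𝔪_A`. -/
theorem h21_hcuspL_two (T : ↥(modularFunctionFieldBar M))
    (hT : (T : LaurentSeries Lbar) = H28.h2R Lbar)
    (P : Place Lbar ↥(modularFunctionFieldBar M)) (hP : Asm.JCusp A P) :
    (∃ c : A, IsLocalRing.residue A c = 0 ∧
        0 < P.ord (T - algebraMap Lbar ↥(modularFunctionFieldBar M) (c : Lbar))) ∨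
      ∃ c : A, IsLocalRing.residue A c = 0 ∧
        0 < P.ord (T⁻¹ - algebraMap Lbar ↥(modularFunctionFieldBar M) (c : Lbar)) := by
  have hord : (T : LaurentSeries Lbar).order ≠ 0 := by rw [hT, h21_order_h2R]; decide
  have key := h21_cusp_chart A P (residueTrivial_FK embQbar M P) (j := Asm.jL M) (h := T)
    (N := h21N2 A) (D := h21D2 A) (h21_not_const_of_order _ T hord)
    (by rw [h21D2_map]; exact h21_aeval_ne_zero_of_order _ T hord (h21D2_ne_zero _))
    (by rw [h21D2_map, h21N2_map]; exact h21_id_two _ (Asm.jL M) T rfl hT)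
    (h21_isUnit_D2 A) hP
  rcases key with ⟨c, hc, h⟩ | ⟨c, hc, h⟩
  · exact Or.inl ⟨c, (h21_residue_eq_zero_iff c).mpr hc, h⟩
  · exact Or.inr ⟨c, (h21_residue_eq_zero_iff c).mpr hc, h⟩

/-- **Level 3, `hcuspL`.** -/
theorem h21_hcuspL_three (T : ↥(modularFunctionFieldBar M))
    (hT : (T : LaurentSeries Lbar) = H28.h3R Lbar)
    (P : Place Lbar ↥(modularFunctionFieldBar M)) (hP : Asm.JCusp A P) :
    (∃ c : A, IsLocalRing.residue A c = 0 ∧
        0 < P.ord (T - algebraMap Lbar ↥(modularFunctionFieldBar M) (c : Lbar))) ∨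
      ∃ c : A, IsLocalRing.residue A c = 0 ∧
        0 < P.ord (T⁻¹ - algebraMap Lbar ↥(modularFunctionFieldBar M) (c : Lbar)) := by
  have hord : (T : LaurentSeries Lbar).order ≠ 0 := by rw [hT, h21_order_h3R]; decide
  have key := h21_cusp_chart A P (residueTrivial_FK embQbar M P) (j := Asm.jL M) (h := T)
    (N := h21N3 A) (D := h21D3 A) (h21_not_const_of_order _ T hord)
    (by rw [h21D3_map]; exact h21_aeval_ne_zero_of_order _ T hord (h21D3_ne_zero _))
    (by rw [h21D3_map, h21N3_map]; exact h21_id_three _ (Asm.jL M) T rfl hT)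
    (h21_isUnit_D3 A) hP
  rcases key with ⟨c, hc, h⟩ | ⟨c, hc, h⟩
  · exact Or.inl ⟨c, (h21_residue_eq_zero_iff c).mpr hc, h⟩
  · exact Or.inr ⟨c, (h21_residue_eq_zero_iff c).mpr hc, h⟩

/-- **Level 2, `hcuspk`**: a pole of `j̄` is a zero or a pole of `h̄`. -/
theorem h21_hcuspk_two
    (T' : ↥(modularFunctionFieldFullC (IsLocalRing.ResidueField A) M))
    (hT' : (T' : LaurentSeries (IsLocalRing.ResidueField A)) =
      H28.h2R (IsLocalRing.ResidueField A))
    (Q : Place (IsLocalRing.ResidueField A)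
      ↥(modularFunctionFieldFullC (IsLocalRing.ResidueField A) M))
    (hQ : Q.ord (Asm.jk A M) < 0) : Q.ord T' ≠ 0 ∧ Q.ord T'⁻¹ ≠ 0 := by
  have hord : (T' : LaurentSeries (IsLocalRing.ResidueField A)).order ≠ 0 := by
    rw [hT', h21_order_h2R]; decide
  have h1 : Q.ord T' ≠ 0 :=
    h21_ord_ne_zero_of_pole Q (N := h21N2 _) (e := 2) (h21_ne_zero_of_order _ T' hord)
      (h21_id_two _ (Asm.jk A M) T' rfl hT') hQ
  refine ⟨h1, ?_⟩
  rw [Q.ord_inv]
  omega

/-- **Level 3, `hcuspk`.** -/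
theorem h21_hcuspk_three
    (T' : ↥(modularFunctionFieldFullC (IsLocalRing.ResidueField A) M))
    (hT' : (T' : LaurentSeries (IsLocalRing.ResidueField A)) =
      H28.h3R (IsLocalRing.ResidueField A))
    (Q : Place (IsLocalRing.ResidueField A)
      ↥(modularFunctionFieldFullC (IsLocalRing.ResidueField A) M))
    (hQ : Q.ord (Asm.jk A M) < 0) : Q.ord T' ≠ 0 ∧ Q.ord T'⁻¹ ≠ 0 := by
  have hord : (T' : LaurentSeries (IsLocalRing.ResidueField A)).order ≠ 0 := by
    rw [hT', h21_order_h3R]; decide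
  have h1 : Q.ord T' ≠ 0 :=
    h21_ord_ne_zero_of_pole Q (N := h21N3 _) (e := 3) (h21_ne_zero_of_order _ T' hord)
      (h21_id_three _ (Asm.jk A M) T' rfl hT') hQ
  refine ⟨h1, ?_⟩
  rw [Q.ord_inv]
  omega

/-- **Level 2**: a zero or a pole of `h̄` is a pole of `j̄` (`ℓ ≠ 2`). -/
theorem h21_pole_of_ord_ne_zero_two (h2 : (2 : IsLocalRing.ResidueField A) ≠ 0)
    (T' : ↥(modularFunctionFieldFullC (IsLocalRing.ResidueField A) M))
    (hT' : (T' : LaurentSeries (IsLocalRing.ResidueField A)) =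
      H28.h2R (IsLocalRing.ResidueField A))
    (Q : Place (IsLocalRing.ResidueField A)
      ↥(modularFunctionFieldFullC (IsLocalRing.ResidueField A) M))
    (hQ : Q.ord T' ≠ 0) : Q.ord (Asm.jk A M) < 0 := by
  have hord : (T' : LaurentSeries (IsLocalRing.ResidueField A)).order ≠ 0 := by
    rw [hT', h21_order_h2R]; decide
  have hD0 : (h21D2 (IsLocalRing.ResidueField A)).eval 0 = 0 := by
    simp [h21D2]
  exact h21_pole_of_ord_ne_zero Q (h21N2_monic _).ne_zero (h21D2_ne_zero _) (h21_deg2 _)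
    (h21_aeval_ne_zero_of_order _ T' hord (h21D2_ne_zero _))
    (h21_id_two _ (Asm.jk A M) T' rfl hT') hD0 (h21_cop2 h2 0 hD0) hQ

/-- **Level 3**: a zero or a pole of `h̄` is a pole of `j̄` (`ℓ ≠ 3`). -/
theorem h21_pole_of_ord_ne_zero_three (h3 : (3 : IsLocalRing.ResidueField A) ≠ 0)
    (T' : ↥(modularFunctionFieldFullC (IsLocalRing.ResidueField A) M))
    (hT' : (T' : LaurentSeries (IsLocalRing.ResidueField A)) =
      H28.h3R (IsLocalRing.ResidueField A))
    (Q : Place (IsLocalRing.ResidueField A)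
      ↥(modularFunctionFieldFullC (IsLocalRing.ResidueField A) M))
    (hQ : Q.ord T' ≠ 0) : Q.ord (Asm.jk A M) < 0 := by
  have hord : (T' : LaurentSeries (IsLocalRing.ResidueField A)).order ≠ 0 := by
    rw [hT', h21_order_h3R]; decide
  have hD0 : (h21D3 (IsLocalRing.ResidueField A)).eval 0 = 0 := by
    simp [h21D3]
  exact h21_pole_of_ord_ne_zero Q (h21N3_monic _).ne_zero (h21D3_ne_zero _) (h21_deg3 _)
    (h21_aeval_ne_zero_of_order _ T' hord (h21D3_ne_zero _))
    (h21_id_three _ (Asm.jk A M) T' rfl hT') hD0 (h21_cop3 h3 0 hD0) hQ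

end Levels

end Fermat.Agent.S37x.Red.H21
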