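import Mathlib
import Fermat.Prelude.Def_AlgebraicCurve_DivisorClassGroup
import Fermat.Agent.S24.H15_Kaehler

/-!
# S37 [RED-M] (c2): chart elements at a place (helper20)

`F / L` a function field, `A` a valuation ring of the constants `L`, `P` a place of `F / L`
with residue field `L`.

* `integral_mem_valuationSubring` : a valuation subring `V` of `F` containing the constants `O`
  and `x` contains every element integral over `O[x]`;
* `compositeVal A P` : the composite valuation ring `{f ∈ O_P | f(P) ∈ A}`;
* `value_mem_of_integral` : if `x` has a value in `A` at `P`, every `g` integral over `A[x]`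
  is regular at `P` and has a value in `A`.
-/

set_option autoImplicit false

open AlgebraicCurve IsLocalRing

namespace Fermat.Agent.S37x.Red.H20

section Integral

variable {O F : Type*} [CommRing O] [Field F] [Algebra O F]

theorem adjoin_le_valuationSubring (V : ValuationSubring F)
    (hO : ∀ c : O, algebraMap O F c ∈ V) (x : F) (hx : x ∈ V) :
    ∀ a ∈ Algebra.adjoin O {x}, a ∈ V := by
  intro a ha
  induction ha using Algebra.adjoin_induction with
  | mem g hg =>
    rw [Set.mem_singleton_iff] at hg
    rw [hg]; exact hx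
  | algebraMap r => exact hO r
  | add u v _ _ hu hv => exact V.add_mem _ _ hu hv
  | mul u v _ _ hu hv => exact V.mul_mem _ _ hu hv

/-- A valuation subring containing `O` and `x` contains the integral closure of `O[x]`. -/
theorem integral_mem_valuationSubring (V : ValuationSubring F)
    (hO : ∀ c : O, algebraMap O F c ∈ V) (x : F) (hx : x ∈ V) (g : F)
    (hg : IsIntegral (Algebra.adjoin O {x}) g) : g ∈ V := by
  obtain ⟨p, hp, hpg⟩ := hg
  let φ : (Algebra.adjoin O {x}) →+* V :=
    { toFun := fun a => ⟨(a : F), adjoin_le_valuationSubring V hO x hx a a.2⟩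
      map_one' := rfl
      map_mul' := fun _ _ => rfl
      map_zero' := rfl
      map_add' := fun _ _ => rfl }
  have hint : IsIntegral V g := by
    refine ⟨p.map φ, hp.map φ, ?_⟩
    rw [Polynomial.eval₂_map]
    exact hpg
  obtain ⟨y, hy⟩ := (IsIntegrallyClosed.isIntegral_iff (R := V) (K := F)).mp hint
  rw [← hy]
  exact y.2

end Integral

section Composite

variable {L F : Type*} [Field L] [Field F] [Algebra L F]

open Fermat.Agent.S24.RH

/-- `f` is regular at `P` with value `b`. -/
def HasValue (P : Place L F) (f : F) (b : L) : Prop :=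
  ∃ hf : f - algebraMap L F b ∈ P.toValuationSubring,
    (⟨f - algebraMap L F b, hf⟩ : P.toValuationSubring) ∈ maximalIdeal P.toValuationSubring

theorem hasValue_const (P : Place L F) (b : L) : HasValue P (algebraMap L F b) b := by
  refine ⟨by rw [sub_self]; exact zero_mem _, ?_⟩
  have : (⟨algebraMap L F b - algebraMap L F b, by rw [sub_self]; exact zero_mem _⟩ :
      P.toValuationSubring) = 0 := Subtype.ext (sub_self _)
  rw [this]
  exact zero_mem _

theorem hasValue_iff (P : Place L F) (f : F) (b : L) :
    HasValue P f b ↔ f = algebraMap L F b ∨ 0 < P.ord (f - algebraMap L F b) := by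
  constructor
  · rintro ⟨hf, hm⟩
    by_cases h0 : f - algebraMap L F b = 0
    · left; exact sub_eq_zero.mp h0
    · right
      have h1 : (⟨f - algebraMap L F b, hf⟩ : P.toValuationSubring) ≠ 0 := by
        intro h; exact h0 (congrArg Subtype.val h)
      exact ord_pos_of_mem_maximalIdeal P hm h1
  · rintro (h | h)
    · rw [h]
      exact hasValue_const P b
    · exact mem_maximalIdeal_of_ord_pos P h

theorem HasValue.mem {P : Place L F} {f : F} {b : L} (h : HasValue P f b) :
    f ∈ P.toValuationSubring := by
  obtain ⟨hf, -⟩ := h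
  have := add_mem hf (P.algebraMap_mem' b)
  simpa using this

theorem HasValue.add {P : Place L F} {f g : F} {b c : L} (hf : HasValue P f b)
    (hg : HasValue P g c) : HasValue P (f + g) (b + c) := by
  obtain ⟨hf1, hf2⟩ := hf
  obtain ⟨hg1, hg2⟩ := hg
  have e : f + g - algebraMap L F (b + c) = (f - algebraMap L F b) + (g - algebraMap L F c) := by
    rw [map_add]; ring
  refine ⟨by rw [e]; exact add_mem hf1 hg1, ?_⟩
  have : (⟨f + g - algebraMap L F (b + c), by rw [e]; exact add_mem hf1 hg1⟩ :
      P.toValuationSubring) = ⟨f - algebraMap L F b, hf1⟩ + ⟨g - algebraMap L F c, hg1⟩ :=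
    Subtype.ext e
  rw [this]
  exact Ideal.add_mem _ hf2 hg2

theorem HasValue.neg {P : Place L F} {f : F} {b : L} (hf : HasValue P f b) :
    HasValue P (-f) (-b) := by
  obtain ⟨hf1, hf2⟩ := hf
  have e : -f - algebraMap L F (-b) = -(f - algebraMap L F b) := by
    rw [map_neg]; ring
  refine ⟨by rw [e]; exact neg_mem hf1, ?_⟩
  have : (⟨-f - algebraMap L F (-b), by rw [e]; exact neg_mem hf1⟩ :
      P.toValuationSubring) = -⟨f - algebraMap L F b, hf1⟩ := Subtype.ext e
  rw [this]
  exact Ideal.neg_mem_iff _ |>.mpr hf2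

theorem HasValue.mul {P : Place L F} {f g : F} {b c : L} (hf : HasValue P f b)
    (hg : HasValue P g c) : HasValue P (f * g) (b * c) := by
  have hgm := hg.mem
  obtain ⟨hf1, hf2⟩ := hf
  obtain ⟨hg1, hg2⟩ := hg
  have e : f * g - algebraMap L F (b * c) =
      (f - algebraMap L F b) * g + algebraMap L F b * (g - algebraMap L F c) := by
    rw [map_mul]; ring
  have hmem : f * g - algebraMap L F (b * c) ∈ P.toValuationSubring := by
    rw [e]
    exact add_mem (mul_mem hf1 hgm) (mul_mem (P.algebraMap_mem' b) hg1)
  refine ⟨hmem, ?_⟩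
  have : (⟨f * g - algebraMap L F (b * c), hmem⟩ : P.toValuationSubring) =
      ⟨f - algebraMap L F b, hf1⟩ * ⟨g, hgm⟩ +
        ⟨algebraMap L F b, P.algebraMap_mem' b⟩ * ⟨g - algebraMap L F c, hg1⟩ :=
    Subtype.ext e
  rw [this]
  exact Ideal.add_mem _ (Ideal.mul_mem_right _ _ hf2) (Ideal.mul_mem_left _ _ hg2)

/-- The value is unique. -/
theorem HasValue.unique {P : Place L F} {f : F} {b c : L} (hb : HasValue P f b)
    (hc : HasValue P f c) : b = c := by
  by_contra hne
  have h1 := hc.add hb.neg
  rw [add_neg_cancel] at h1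
  obtain ⟨h2, h3⟩ := h1
  have h4 : (⟨0 - algebraMap L F (c + -b), h2⟩ : P.toValuationSubring) =
      algebraMap L P.toValuationSubring (b - c) := by
    apply Subtype.ext
    show 0 - algebraMap L F (c + -b) = algebraMap L F (b - c)
    rw [map_add, map_neg, map_sub]
    ring
  rw [h4] at h3
  exact (IsLocalRing.mem_maximalIdeal _).mp h3
    ((IsUnit.mk0 _ (sub_ne_zero.mpr hne)).map (algebraMap L P.toValuationSubring))

theorem hasValue_of_mem {P : Place L F} (hres : ResidueTrivial P) {f : F}
    (hf : f ∈ P.toValuationSubring) : ∃ b : L, HasValue P f b := by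
  obtain ⟨c, hc⟩ := hres ⟨f, hf⟩
  refine ⟨c, sub_mem hf (P.algebraMap_mem' c), ?_⟩
  exact hc

/-- The inverse of a function with a nonzero value. -/
theorem HasValue.inv {P : Place L F} {f : F} {b : L} (hf : HasValue P f b) (hb : b ≠ 0) :
    HasValue P f⁻¹ b⁻¹ := by
  have hfm := hf.mem
  have hbu : IsUnit (algebraMap L P.toValuationSubring b) :=
    (IsUnit.mk0 _ hb).map (algebraMap L P.toValuationSubring)
  obtain ⟨hf1, hf2⟩ := hf
  -- `f` is a unit of `O_P`
  have hfu : IsUnit (⟨f, hfm⟩ : P.toValuationSubring) := by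
    have e : (⟨f, hfm⟩ : P.toValuationSubring) =
        algebraMap L P.toValuationSubring b + ⟨f - algebraMap L F b, hf1⟩ := by
      apply Subtype.ext
      simp only [AddMemClass.coe_add, P.coe_algebraMap]
      ring
    rw [e]
    exact isUnit_add_of_mem_maximalIdeal hbu hf2
  obtain ⟨u, hu⟩ := hfu
  have hf0 : f ≠ 0 := by
    intro h0
    have : (u : P.toValuationSubring) = 0 := by rw [hu]; exact Subtype.ext h0
    exact u.ne_zero this
  have huinv : ((u⁻¹ : (P.toValuationSubring)ˣ) : F) = f⁻¹ := by
    have h1 : ((u : P.toValuationSubring) : F) * ((u⁻¹ : (P.toValuationSubring)ˣ) : F) = 1 := by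
      have h0 : (u : P.toValuationSubring) * ((u⁻¹ : (P.toValuationSubring)ˣ) :
          P.toValuationSubring) = 1 := u.mul_inv
      exact congrArg Subtype.val h0
    rw [hu] at h1
    exact eq_inv_of_mul_eq_one_right h1
  have hbF : algebraMap L F b ≠ 0 := by
    rw [Ne, map_eq_zero]; exact hb
  have e : f⁻¹ - algebraMap L F b⁻¹ =
      -(f - algebraMap L F b) * (f⁻¹ * algebraMap L F b⁻¹) := by
    rw [map_inv₀]
    field_simp
    ring
  have hinvm : f⁻¹ ∈ P.toValuationSubring := by rw [← huinv]; exact (u⁻¹ : _ˣ).1.2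
  have hmem : f⁻¹ - algebraMap L F b⁻¹ ∈ P.toValuationSubring :=
    sub_mem hinvm (P.algebraMap_mem' _)
  refine ⟨hmem, ?_⟩
  have : (⟨f⁻¹ - algebraMap L F b⁻¹, hmem⟩ : P.toValuationSubring) =
      -⟨f - algebraMap L F b, hf1⟩ * (⟨f⁻¹, hinvm⟩ * ⟨algebraMap L F b⁻¹, P.algebraMap_mem' _⟩) :=
    Subtype.ext e
  rw [this]
  exact Ideal.mul_mem_right _ _ ((Ideal.neg_mem_iff _).mpr hf2)

/-- The composite valuation ring `{f ∈ O_P | f(P) ∈ A}`, as a subring. -/
def compositeSubring (A : ValuationSubring L) (P : Place L F) : Subring F where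
  carrier := {f | ∃ b : A, HasValue P f (b : L)}
  mul_mem' := by
    rintro f g ⟨b, hb⟩ ⟨c, hc⟩
    exact ⟨b * c, hb.mul hc⟩
  one_mem' := ⟨1, by
    have := hasValue_const P (1 : L)
    rwa [map_one] at this⟩
  add_mem' := by
    rintro f g ⟨b, hb⟩ ⟨c, hc⟩
    exact ⟨b + c, hb.add hc⟩
  zero_mem' := ⟨0, by
    have := hasValue_const P (0 : L)
    rwa [map_zero] at this⟩
  neg_mem' := by
    rintro f ⟨b, hb⟩
    exact ⟨-b, hb.neg⟩

/-- The composite valuation ring `{f ∈ O_P | f(P) ∈ A}`. -/
def compositeVal (A : ValuationSubring L) (P : Place L F) (hres : ResidueTrivial P) :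
    ValuationSubring F :=
  { compositeSubring A P with
    mem_or_inv_mem' := by
      intro f
      by_cases hf : f ∈ P.toValuationSubring
      · obtain ⟨c, hc⟩ := hasValue_of_mem hres hf
        rcases A.mem_or_inv_mem c with hcA | hcA
        · exact Or.inl ⟨⟨c, hcA⟩, hc⟩
        · by_cases hc0 : c = 0
          · left
            exact ⟨0, by rw [hc0] at hc; exact hc⟩
          · right
            exact ⟨⟨c⁻¹, hcA⟩, hc.inv hc0⟩
      · right
        refine ⟨0, ?_⟩
        have hinv : f⁻¹ ∈ P.toValuationSubring :=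
          (P.toValuationSubring.mem_or_inv_mem f).resolve_left hf
        have hnu : (⟨f⁻¹, hinv⟩ : P.toValuationSubring) ∈ maximalIdeal P.toValuationSubring := by
          rw [IsLocalRing.mem_maximalIdeal, mem_nonunits_iff]
          rintro ⟨u, hu⟩
          apply hf
          have h1 : ((u : P.toValuationSubring) : F) *
              ((u⁻¹ : (P.toValuationSubring)ˣ) : F) = 1 := by
            have h0 : (u : P.toValuationSubring) * ((u⁻¹ : (P.toValuationSubring)ˣ) :
                P.toValuationSubring) = 1 := u.mul_inv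
            exact congrArg Subtype.val h0
          rw [hu] at h1
          have h2 : ((u⁻¹ : (P.toValuationSubring)ˣ) : F) = f := by
            have := eq_inv_of_mul_eq_one_right h1
            rw [inv_inv] at this
            exact this
          rw [← h2]
          exact (u⁻¹ : _ˣ).1.2
        have e : f⁻¹ - algebraMap L F ((0 : A) : L) = f⁻¹ := by simp
        refine ⟨by rw [e]; exact hinv, ?_⟩
        have : (⟨f⁻¹ - algebraMap L F ((0 : A) : L), by rw [e]; exact hinv⟩ :
            P.toValuationSubring) = ⟨f⁻¹, hinv⟩ := Subtype.ext e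
        rw [this]
        exact hnu }

theorem mem_compositeVal (A : ValuationSubring L) (P : Place L F) (hres : ResidueTrivial P)
    (f : F) : f ∈ compositeVal A P hres ↔ ∃ b : A, HasValue P f (b : L) := Iff.rfl

/-- **The value of a chart element lies in `A`.** -/
theorem value_mem_of_integral (A : ValuationSubring L) (P : Place L F) (hres : ResidueTrivial P)
    (x : F) (c : A) (hx : HasValue P x (c : L)) (g : F)
    (hg : IsIntegral (Algebra.adjoin A {x}) g) : ∃ b : A, HasValue P g (b : L) := by
  have h1 := integral_mem_valuationSubring (O := A) (compositeVal A P hres)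
    (fun a => ⟨a, hasValue_const P (a : L)⟩) x ⟨c, hx⟩ g hg
  exact h1

/-- Chart elements are regular where the coordinate is. -/
theorem mem_of_integral (A : ValuationSubring L) (P : Place L F)
    (x : F) (hx : x ∈ P.toValuationSubring) (g : F)
    (hg : IsIntegral (Algebra.adjoin A {x}) g) : g ∈ P.toValuationSubring :=
  integral_mem_valuationSubring (O := A) P.toValuationSubring
    (fun a => P.algebraMap_mem' (a : L)) x hx g hg

end Composite

end Fermat.Agent.S37x.Red.H20
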