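import Mathlib
import Fermat.Prelude.Def_ModularCurve_ReductionModL

/-!
# S37 [RED-M] (c2): interface Props of the separation package (helper20)

`L = ℚ̄`, `F_L = modularFunctionFieldBar M`, `A` a valuation ring of `L`, `k = ResidueField A`,
`F̄ = modularFunctionFieldFullC k M`; `ι = coeffMap A.subtype`, `red = coeffMap (residue A)`.
A chart coordinate is an integral series `x : LaurentSeries A` with `ι x ∈ F_L`, `red x ∈ F̄`.

* `InChart A M x g`   : `g ∈ F_L` is integral over `A[x]` (`= g ∈ Spec.H26.chart A x`);
* `StVal A M r x`     : **(U2)** for the chart of `x`: at a place `P` where `x` has a value in `A`,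
                        the value `b` of a chart element `ι y` reduces to the value of `red y` at
                        `r P`  (in the form `red y - b̄ ∈ 𝔪_{r P}`: the difference may vanish);
* `StWA A M x`        : **(WA)** weak approximation by chart elements: for a place `Q` of `F̄` and
                        finitely many places `Q'`, all with `x̄` regular, there is a chart element
                        `ι y` with `ord_Q (red y) = 1` and `ord_Q' (red y) = 0`.
-/

set_option autoImplicit false
set_option synthInstance.maxHeartbeats 400000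
set_option maxHeartbeats 1000000

open HahnSeries IntermediateField AlgebraicCurve ModularCurve

noncomputable section

namespace Fermat.Agent.S37x.Red.H20

local notation "Lbar" => AlgebraicClosure ℚ

variable (A : ValuationSubring (AlgebraicClosure ℚ)) (M : ℕ)

local notation "kA" => IsLocalRing.ResidueField A

/-- `g` lies in the chart of the coordinate `x` over `A`: it is integral over `A[x]`. -/
def InChart (x g : modularFunctionFieldBar M) : Prop :=
  IsIntegral (Algebra.adjoin A {x}) g

/-- **(U2)** value compatibility of `r` on the chart of `x`. -/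
def StVal
    (r : Place Lbar (modularFunctionFieldBar M) → Place kA (modularFunctionFieldFullC kA M))
    (x : LaurentSeries A) (hx : coeffMap A.subtype x ∈ modularFunctionFieldBar M) : Prop :=
  ∀ (P : Place Lbar (modularFunctionFieldBar M)) (c : A),
    0 < P.ord ((⟨coeffMap A.subtype x, hx⟩ : modularFunctionFieldBar M) -
      algebraMap Lbar (modularFunctionFieldBar M) (c : Lbar)) →
    ∀ (y : LaurentSeries A) (hy : coeffMap A.subtype y ∈ modularFunctionFieldBar M)
      (hyk : coeffMap (IsLocalRing.residue A) y ∈ modularFunctionFieldFullC kA M),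
      InChart A M ⟨coeffMap A.subtype x, hx⟩ ⟨coeffMap A.subtype y, hy⟩ →
      ∀ b : A, 0 < P.ord ((⟨coeffMap A.subtype y, hy⟩ : modularFunctionFieldBar M) -
          algebraMap Lbar (modularFunctionFieldBar M) (b : Lbar)) →
        ((⟨coeffMap (IsLocalRing.residue A) y, hyk⟩ : modularFunctionFieldFullC kA M) -
            algebraMap kA (modularFunctionFieldFullC kA M) (IsLocalRing.residue A b) = 0 ∨
          0 < (r P).ord ((⟨coeffMap (IsLocalRing.residue A) y, hyk⟩ :
              modularFunctionFieldFullC kA M) -
            algebraMap kA (modularFunctionFieldFullC kA M) (IsLocalRing.residue A b)))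

/-- **(WA)** weak approximation by elements of the chart of `x`. -/
def StWA (x : LaurentSeries A) (hx : coeffMap A.subtype x ∈ modularFunctionFieldBar M)
    (hxk : coeffMap (IsLocalRing.residue A) x ∈ modularFunctionFieldFullC kA M) : Prop :=
  ∀ (Q : Place kA (modularFunctionFieldFullC kA M))
    (𝒯 : Finset (Place kA (modularFunctionFieldFullC kA M))),
    (∀ Q', (Q' = Q ∨ Q' ∈ 𝒯) →
      0 ≤ Q'.ord (⟨coeffMap (IsLocalRing.residue A) x, hxk⟩ : modularFunctionFieldFullC kA M)) →
    ∃ (y : LaurentSeries A) (hy : coeffMap A.subtype y ∈ modularFunctionFieldBar M)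
      (hyk : coeffMap (IsLocalRing.residue A) y ∈ modularFunctionFieldFullC kA M),
      InChart A M ⟨coeffMap A.subtype x, hx⟩ ⟨coeffMap A.subtype y, hy⟩ ∧
      Q.ord (⟨coeffMap (IsLocalRing.residue A) y, hyk⟩ : modularFunctionFieldFullC kA M) = 1 ∧
      ∀ Q' ∈ 𝒯, Q' ≠ Q →
        Q'.ord (⟨coeffMap (IsLocalRing.residue A) y, hyk⟩ : modularFunctionFieldFullC kA M) = 0

end Fermat.Agent.S37x.Red.H20
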