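import Mathlib
import Fermat.Agent.S18x.IG.H4_HorCore

/-!
# S37 [RED-M] (c1), generic core (helper21): `j`-compatibility of a place reduction from its
compatibility with a Hauptmodul

`F / L` and `F' / k` function fields, `A` a valuation ring of `L` with residue map `ρ : A → k`,
`r : Place L F → Place k F'` any map.  `j, h ∈ F`, `j', h' ∈ F'` with
`j * D(h) = N(h)`, `j' * D̄(h') = N̄(h')` (`N, D ∈ A[X]`, `N` monic, `deg D < deg N`, `N̄`, `D̄`
without common root).  If `r` is compatible with the values of `h` and of `h⁻¹`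
(`(U2h)`, `(U2w)`), then it is compatible with the values of `j`:

* `j(P) = a ∈ A  ⟹  j'(r P) = ρ a`;
* `j` has a pole at `P`, or `j(P) ∉ A`  ⟹  `j'` has a pole at `r P`.
-/

set_option autoImplicit false

noncomputable section

namespace Fermat.Agent.S37x.Red.H21

open AlgebraicCurve Polynomial
open Fermat.Agent.S24.RH Fermat.Agent.S18x.IG.H4

section Generic

variable {K F : Type*} [Field K] [Field F] [Algebra K F]

/-- a pole of `t` is a pole of `N(t) / D(t)` when `deg D < deg N` -/
theorem h21_pole_of_pole (v : Place K F) {j t : F} {N D : K[X]} (hN : N ≠ 0) (hD : D ≠ 0)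
    (hdeg : D.natDegree < N.natDegree) (hid : j * aeval t D = aeval t N) (ht : v.ord t < 0) :
    v.ord j < 0 := by
  obtain ⟨hD1, hD2⟩ := h4_ord_aeval_of_ord_neg v ht hD
  obtain ⟨hN1, hN2⟩ := h4_ord_aeval_of_ord_neg v ht hN
  have hj0 : j ≠ 0 := by
    rintro rfl
    rw [zero_mul] at hid
    exact hN2 hid.symm
  have h1 := congrArg v.ord hid
  rw [v.ord_mul hj0 hD2, hD1, hN1] at h1
  have h2 : v.ord j = ((N.natDegree : ℤ) - D.natDegree) * v.ord t := by linarith
  have h3 : (0 : ℤ) < (N.natDegree : ℤ) - D.natDegree := by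
    have : (D.natDegree : ℤ) < N.natDegree := by exact_mod_cast hdeg
    linarith
  rw [h2]
  exact mul_neg_of_pos_of_neg h3 ht

/-- a zero of `D(t)` which is not a zero of `N(t)` is a pole of `N(t) / D(t)` -/
theorem h21_pole_of_root (v : Place K F) {j t : F} {N D : K[X]} {c : K}
    (hid : j * aeval t D = aeval t N) (hDt : aeval t D ≠ 0)
    (hc : 0 < v.ord (t - algebraMap K F c)) (hDc : D.eval c = 0) (hNc : N.eval c ≠ 0) :
    v.ord j < 0 := by
  obtain ⟨hN1, hN2⟩ := h4_ord_aeval_eq_zero v hc hNc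
  have hD1 := h4_le_ord_aeval v hc hDc hDt
  have hj0 : j ≠ 0 := by
    rintro rfl
    rw [zero_mul] at hid
    exact hN2 hid.symm
  have h1 := congrArg v.ord hid
  rw [v.ord_mul hj0 hDt, hN1] at h1
  omega

/-- at a place where `t ≡ c` and `j ≡ a`: `N(c) = a D(c)` -/
theorem h21_value_eq (v : Place K F) {j t : F} {N D : K[X]} {c a : K}
    (hid : j * aeval t D = aeval t N) (hDt : aeval t D ≠ 0)
    (hc : 0 < v.ord (t - algebraMap K F c)) (ha : 0 < v.ord (j - algebraMap K F a)) :
    N.eval c = a * D.eval c := by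
  by_contra hne
  have hG : (N - C a * D).eval c ≠ 0 := by
    rw [eval_sub, eval_mul, eval_C]
    exact sub_ne_zero.mpr hne
  obtain ⟨h0, -⟩ := h4_ord_aeval_eq_zero v hc hG
  have hja : j - algebraMap K F a ≠ 0 := by
    intro h
    rw [h, v.ord_zero] at ha
    exact lt_irrefl _ ha
  have h1 : aeval t (N - C a * D) = (j - algebraMap K F a) * aeval t D := by
    rw [map_sub, map_mul, aeval_C, ← hid]
    ring
  rw [h1, v.ord_mul hja hDt] at h0
  have h2 : 0 ≤ v.ord (aeval t D) :=
    ord_nonneg_of_mem v (h4_aeval_mem v (h4_mem_of_ord_sub_pos v hc) D)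
  omega

/-- at a place where `t ≡ c` with `D(c) ≠ 0` and `N(c) = a D(c)`: `j ≡ a` -/
theorem h21_value_of_eq (v : Place K F) {j t : F} {N D : K[X]} {c a : K}
    (hid : j * aeval t D = aeval t N) (hja : j - algebraMap K F a ≠ 0)
    (hc : 0 < v.ord (t - algebraMap K F c)) (hDc : D.eval c ≠ 0)
    (hNc : N.eval c = a * D.eval c) :
    0 < v.ord (j - algebraMap K F a) := by
  obtain ⟨hD1, hD2⟩ := h4_ord_aeval_eq_zero v hc hDc
  have h1 : aeval t (N - C a * D) = (j - algebraMap K F a) * aeval t D := by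
    rw [map_sub, map_mul, aeval_C, ← hid]
    ring
  have hG0 : aeval t (N - C a * D) ≠ 0 := by
    rw [h1]
    exact mul_ne_zero hja hD2
  have hGc : (N - C a * D).eval c = 0 := by
    rw [eval_sub, eval_mul, eval_C, hNc, sub_self]
  have h2 := h4_le_ord_aeval v hc hGc hG0
  rw [h1, v.ord_mul hja hD2, hD1] at h2
  omega

/-- `ord (t⁻¹ - c⁻¹) = ord (t - c)` when `t ≡ c ≠ 0` -/
theorem h21_ord_inv_sub (v : Place K F) {t : F} {c : K} (hc0 : c ≠ 0)
    (hc : 0 < v.ord (t - algebraMap K F c)) :
    0 < v.ord (t⁻¹ - algebraMap K F c⁻¹) := by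
  have hX : (X : K[X]).eval c ≠ 0 := by rw [eval_X]; exact hc0
  obtain ⟨ht0, ht1⟩ := h4_ord_aeval_eq_zero v hc hX
  rw [aeval_X] at ht0 ht1
  have hC : algebraMap K F c ≠ 0 := by
    rw [Ne, map_eq_zero]; exact hc0
  have htc : t - algebraMap K F c ≠ 0 := by
    intro h
    rw [h, v.ord_zero] at hc
    exact lt_irrefl _ hc
  have e : t⁻¹ - algebraMap K F c⁻¹
      = (-(algebraMap K F c)⁻¹ * t⁻¹) * (t - algebraMap K F c) := by
    rw [map_inv₀]
    field_simp
    ring
  have hne : -(algebraMap K F c)⁻¹ * t⁻¹ ≠ 0 :=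
    mul_ne_zero (neg_ne_zero.mpr (inv_ne_zero hC)) (inv_ne_zero ht1)
  have h1 : v.ord (-(algebraMap K F c)⁻¹ * t⁻¹) = 0 := by
    rw [v.ord_mul (neg_ne_zero.mpr (inv_ne_zero hC)) (inv_ne_zero ht1), v.ord_inv, ht0]
    have : v.ord (-(algebraMap K F c)⁻¹) = 0 := by
      rw [← map_inv₀, ← map_neg]
      exact ord_algebraMap v _
    rw [this]
    simp
  rw [e, v.ord_mul hne htc, h1, zero_add]
  exact hc

end Generic

section Main

variable {L F k F' : Type*} [Field L] [Field F] [Algebra L F] [Field k] [Field F']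
  [Algebra k F']

/-- The data: a map `r` between the places of two function fields, compatible with the values of
a coordinate `h` and of `h⁻¹`, and a function `j = N(h) / D(h)`. -/
structure H21U1Data (A : ValuationSubring L) (ρ : A →+* k) (r : Place L F → Place k F')
    (j h : F) (j' h' : F') (N D : A[X]) : Prop where
  hρ : ∀ a : A, ρ a = 0 ↔ ¬ IsUnit a
  res : ∀ P : Place L F, ResidueTrivial P
  trL : Transcendental L h
  trk : Transcendental k h'
  monic : N.Monic
  deg : D.natDegree < N.natDegree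
  hD : D.map ρ ≠ 0
  idL : j * aeval h (D.map (algebraMap A L)) = aeval h (N.map (algebraMap A L))
  idk : j' * aeval h' (D.map ρ) = aeval h' (N.map ρ)
  cop : ∀ c' : k, (D.map ρ).eval c' = 0 → (N.map ρ).eval c' ≠ 0
  U2h : ∀ (P : Place L F) (c : A), 0 < P.ord (h - algebraMap L F (c : L)) →
    0 < (r P).ord (h' - algebraMap k F' (ρ c))
  U2w : ∀ (P : Place L F) (c : A), 0 < P.ord (h⁻¹ - algebraMap L F (c : L)) →
    0 < (r P).ord (h'⁻¹ - algebraMap k F' (ρ c))

namespace H21U1Data

variable {A : ValuationSubring L} {ρ : A →+* k} {r : Place L F → Place k F'}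
  {j h : F} {j' h' : F'} {N D : A[X]}

theorem D_ne_zero (d : H21U1Data A ρ r j h j' h' N D) : D ≠ 0 := by
  intro h0
  apply d.hD
  rw [h0, Polynomial.map_zero]

theorem DL_ne_zero (d : H21U1Data A ρ r j h j' h' N D) : D.map (algebraMap A L) ≠ 0 := by
  rw [Ne, Polynomial.map_eq_zero_iff (FaithfulSMul.algebraMap_injective A L)]
  exact d.D_ne_zero

theorem NL_monic (d : H21U1Data A ρ r j h j' h' N D) : (N.map (algebraMap A L)).Monic :=
  d.monic.map _

theorem Nk_monic (d : H21U1Data A ρ r j h j' h' N D) : (N.map ρ).Monic :=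
  d.monic.map _

theorem degL (d : H21U1Data A ρ r j h j' h' N D) :
    (D.map (algebraMap A L)).natDegree < (N.map (algebraMap A L)).natDegree := by
  rw [d.monic.natDegree_map]
  exact lt_of_le_of_lt natDegree_map_le d.deg

theorem degk (d : H21U1Data A ρ r j h j' h' N D) :
    (D.map ρ).natDegree < (N.map ρ).natDegree := by
  rw [d.monic.natDegree_map]
  exact lt_of_le_of_lt natDegree_map_le d.deg

theorem aeval_DL_ne_zero (d : H21U1Data A ρ r j h j' h' N D) :
    aeval h (D.map (algebraMap A L)) ≠ 0 :=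
  fun h0 => d.DL_ne_zero ((transcendental_iff.mp d.trL) _ h0)

theorem aeval_Dk_ne_zero (d : H21U1Data A ρ r j h j' h' N D) : aeval h' (D.map ρ) ≠ 0 :=
  fun h0 => d.hD ((transcendental_iff.mp d.trk) _ h0)

theorem hnc (d : H21U1Data A ρ r j h j' h' N D) : h ∉ Set.range (algebraMap L F) := by
  rintro ⟨c, rfl⟩
  exact d.trL (isAlgebraic_algebraMap c)

/-- `j'` is not a constant -/
theorem j'_sub_ne_zero (d : H21U1Data A ρ r j h j' h' N D) (a' : k) :
    j' - algebraMap k F' a' ≠ 0 := by
  intro h0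
  have h1 : aeval h' (N.map ρ - C a' * D.map ρ) = (j' - algebraMap k F' a') * aeval h' (D.map ρ) := by
    rw [map_sub, map_mul, aeval_C, ← d.idk]
    ring
  rw [h0, zero_mul] at h1
  have h2 := (transcendental_iff.mp d.trk) _ h1
  have hm : (N.map ρ - C a' * D.map ρ).Monic := by
    refine d.Nk_monic.sub_of_left ?_
    refine lt_of_le_of_lt (degree_mul_le _ _) ?_
    have h1 : (C a' : k[X]).degree ≤ 0 := degree_C_le
    have h2 : (D.map ρ).degree < (N.map ρ).degree := degree_lt_degree d.degk
    calc (C a' : k[X]).degree + (D.map ρ).degree ≤ 0 + (D.map ρ).degree := by gcongr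
      _ = (D.map ρ).degree := zero_add _
      _ < _ := h2
  exact hm.ne_zero h2

/-- evaluation at an element of `A` commutes with the two maps -/
theorem evalL (c : A) (P : A[X]) : (P.map (algebraMap A L)).eval (c : L) = ((P.eval c : A) : L) := by
  rw [eval_map]
  exact eval₂_at_apply (algebraMap A L) c

theorem evalk (ρ : A →+* k) (c : A) (P : A[X]) : (P.map ρ).eval (ρ c) = ρ (P.eval c) := by
  rw [eval_map]
  exact eval₂_at_apply ρ c

/-- the value of `h` at a place where `j` has a value in `A` lies in `A` -/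
theorem value_mem (d : H21U1Data A ρ r j h j' h' N D) (P : Place L F) (a : A) {c : L}
    (hc : 0 < P.ord (h - algebraMap L F c))
    (ha : 0 < P.ord (j - algebraMap L F (a : L))) :
    ∃ z : A, (z : L) = c ∧ N.eval z = a * D.eval z := by
  have hv := h21_value_eq P d.idL d.aeval_DL_ne_zero hc ha
  have hm : (N - C a * D).Monic := by
    refine d.monic.sub_of_left ?_
    refine lt_of_le_of_lt (degree_mul_le _ _) ?_
    have h1 : (C a : A[X]).degree ≤ 0 := degree_C_le
    have h2 : D.degree < N.degree := degree_lt_degree d.deg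
    calc (C a : A[X]).degree + D.degree ≤ 0 + D.degree := by gcongr
      _ = D.degree := zero_add _
      _ < _ := h2
  have hint : IsIntegral A c := by
    refine ⟨N - C a * D, hm, ?_⟩
    rw [eval₂_sub, eval₂_mul, eval₂_C, ← eval_map, ← eval_map, hv]
    exact sub_self _
  obtain ⟨z, hz⟩ := (IsIntegrallyClosed.isIntegral_iff (R := A) (K := L)).mp hint
  refine ⟨z, hz, ?_⟩
  have hz' : (z : L) = c := hz
  have h1 : ((N.eval z : A) : L) = ((a * D.eval z : A) : L) := by
    rw [← evalL, hz', hv]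
    push_cast
    rw [← evalL, hz']
  exact Subtype.ext h1

/-- **Part 1.** `j(P) = a ∈ A ⟹ j'(r P) = ρ a`. -/
theorem jAt (d : H21U1Data A ρ r j h j' h' N D) (P : Place L F) (a : A)
    (ha : 0 < P.ord (j - algebraMap L F (a : L))) :
    0 < (r P).ord (j' - algebraMap k F' (ρ a)) := by
  -- `h` is regular at `P`
  have hj0 : ¬ P.ord j < 0 := by
    have h1 : j - algebraMap L F (a : L) ∈ P.toValuationSubring := mem_of_ord_nonneg P ha.le
    have h2 : j ∈ P.toValuationSubring := by
      have := add_mem h1 (P.algebraMap_mem' (a : L))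
      simpa using this
    have := ord_nonneg_of_mem P h2
    omega
  rcases ord_pos_or_ord_neg P (d.res P) d.hnc with hneg | ⟨c, hc⟩
  · exact absurd (h21_pole_of_pole P d.NL_monic.ne_zero d.DL_ne_zero d.degL d.idL hneg) hj0
  obtain ⟨z, hz, hNz⟩ := d.value_mem P a hc ha
  have hU := d.U2h P z (by rw [hz]; exact hc)
  have hNk : (N.map ρ).eval (ρ z) = ρ a * (D.map ρ).eval (ρ z) := by
    rw [evalk, evalk, hNz, map_mul]
  have hDk : (D.map ρ).eval (ρ z) ≠ 0 := by
    intro h0
    apply d.cop _ h0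
    rw [hNk, h0, mul_zero]
  exact h21_value_of_eq (r P) d.idk (d.j'_sub_ne_zero _) hU hDk hNk

/-- a pole of `h'` is a pole of `j'` -/
theorem pole_k (d : H21U1Data A ρ r j h j' h' N D) (Q : Place k F') (hQ : Q.ord h' < 0) :
    Q.ord j' < 0 :=
  h21_pole_of_pole Q d.Nk_monic.ne_zero d.hD d.degk d.idk hQ

/-- **Part 2.** If `j` has a pole at `P`, or a value outside `A`, then `j'` has a pole at
`r P`. -/
theorem jCusp (d : H21U1Data A ρ r j h j' h' N D) (P : Place L F)
    (hP : P.ord j < 0 ∨ ∃ a : L, a ∉ A ∧ 0 < P.ord (j - algebraMap L F a)) :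
    (r P).ord j' < 0 := by
  have hzero : ρ 0 = 0 := map_zero ρ
  rcases ord_pos_or_ord_neg P (d.res P) d.hnc with hneg | ⟨c, hc⟩
  · -- `h` has a pole at `P`
    have hw : 0 < P.ord (h⁻¹ - algebraMap L F ((0 : A) : L)) := by
      rw [ZeroMemClass.coe_zero, map_zero, sub_zero, P.ord_inv]
      omega
    have hU := d.U2w P 0 hw
    rw [hzero, map_zero, sub_zero, (r P).ord_inv] at hU
    exact d.pole_k (r P) (by omega)
  by_cases hcA : c ∈ A
  · -- the value of `h` lies in `A`: it reduces to a root of `D̄`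
    have hU := d.U2h P ⟨c, hcA⟩ hc
    have hDz : ¬ IsUnit (D.eval (⟨c, hcA⟩ : A)) := by
      rcases hP with hpole | ⟨a, haA, ha⟩
      · -- `D(c) = 0`
        have hDc : (D.map (algebraMap A L)).eval c = 0 := by
          by_contra hne
          obtain ⟨hD1, hD2⟩ := h4_ord_aeval_eq_zero P hc hne
          have hj0 : j ≠ 0 := by
            rintro rfl
            rw [P.ord_zero] at hpole
            exact lt_irrefl _ hpole
          have h1 := congrArg P.ord d.idL
          rw [P.ord_mul hj0 hD2, hD1, add_zero] at h1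
          have h2 : 0 ≤ P.ord (aeval h (N.map (algebraMap A L))) :=
            ord_nonneg_of_mem P (h4_aeval_mem P (h4_mem_of_ord_sub_pos P hc) _)
          omega
        have h0 : D.eval (⟨c, hcA⟩ : A) = 0 := by
          apply Subtype.ext
          rw [← evalL]
          exact hDc
        rw [h0]
        exact not_isUnit_zero
      · -- `N(c) = a D(c)` with `a ∉ A`
        intro hu
        apply haA
        have hv := h21_value_eq P d.idL d.aeval_DL_ne_zero hc ha
        have e1 : (N.map (algebraMap A L)).eval c = ((N.eval (⟨c, hcA⟩ : A) : A) : L) :=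
          evalL (⟨c, hcA⟩ : A) N
        have e2 : (D.map (algebraMap A L)).eval c = ((D.eval (⟨c, hcA⟩ : A) : A) : L) :=
          evalL (⟨c, hcA⟩ : A) D
        rw [e1, e2] at hv
        obtain ⟨u, hu'⟩ := hu
        have h3 : a = ((N.eval (⟨c, hcA⟩ : A) * ((u⁻¹ : Aˣ) : A) : A) : L) := by
          have hu1 : ((D.eval (⟨c, hcA⟩ : A) : A) : L) * (((u⁻¹ : Aˣ) : A) : L) = 1 := by
            rw [← hu']
            have h9 := congrArg (Subtype.val) (Units.mul_inv u)
            rw [MulMemClass.coe_mul] at h9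
            exact h9
          push_cast
          rw [hv, mul_assoc, hu1, mul_one]
        rw [h3]
        exact (N.eval (⟨c, hcA⟩ : A) * ((u⁻¹ : Aˣ) : A) : A).2
    have hDk : (D.map ρ).eval (ρ ⟨c, hcA⟩) = 0 := by
      rw [evalk]
      exact (d.hρ _).mpr hDz
    exact h21_pole_of_root (r P) d.idk d.aeval_Dk_ne_zero hU hDk (d.cop _ hDk)
  · -- the value of `h` is not in `A`: its inverse lies in the maximal ideal
    have hc0 : c ≠ 0 := by
      rintro rfl
      exact hcA A.zero_mem
    have hci : c⁻¹ ∈ A := (A.mem_or_inv_mem c).resolve_left hcA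
    have hnu : ¬ IsUnit (⟨c⁻¹, hci⟩ : A) := by
      intro hu
      apply hcA
      obtain ⟨u, hu'⟩ := hu
      have h1 : ((u : A) : L) * (((u⁻¹ : Aˣ) : A) : L) = 1 := by
        have h9 := congrArg (Subtype.val) (Units.mul_inv u)
        rw [MulMemClass.coe_mul] at h9
        exact h9
      rw [hu'] at h1
      have h2 : (((u⁻¹ : Aˣ) : A) : L) = c := by
        have h3 : c⁻¹ * (((u⁻¹ : Aˣ) : A) : L) = 1 := h1
        have h4 : c * (c⁻¹ * (((u⁻¹ : Aˣ) : A) : L)) = c * 1 := by rw [h3]
        rw [← mul_assoc, mul_inv_cancel₀ hc0, one_mul, mul_one] at h4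
        exact h4
      rw [← h2]
      exact ((u⁻¹ : Aˣ) : A).2
    have hw := h21_ord_inv_sub P hc0 hc
    have hU := d.U2w P ⟨c⁻¹, hci⟩ hw
    rw [(d.hρ _).mpr hnu, map_zero, sub_zero, (r P).ord_inv] at hU
    exact d.pole_k (r P) (by omega)

end H21U1Data

end Main

end Fermat.Agent.S37x.Red.H21
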