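import Fermat.Agent.S37x.Red.H20_SepRed
import Fermat.Agent.S37x.Red.H20_Defs
import Fermat.Agent.S37x.Red.H20_ChartVal
import Fermat.Agent.S37x.Red.H21_U1Core
import Fermat.Agent.S37x.Asm.DefsLeaves

/-!
# S37 [RED-M] (c2), part (δ): the non-cusp clause of `StSep` (helper20)

`r` a place reduction at level `M`, `x` a chart coordinate (`h` the Hauptmodul) with the data
`H21U1Data` of helper21 (`j = N(h) / D(h)`, `r` compatible with the values of `h`, `h⁻¹`), the
value compatibility `StVal` of `r` on the chart of `x` and the weak approximation `StWA` by chart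
elements.  Then for a place `P` which is not a cusp and a finite set `T` of values of `j̄` there
is a function `f` with a simple zero at `P`, all of whose other zeros and poles reduce away from
the places over `T`.
-/

set_option autoImplicit false
set_option synthInstance.maxHeartbeats 400000
set_option maxHeartbeats 1000000

open HahnSeries IntermediateField AlgebraicCurve ModularCurve Polynomial

noncomputable section

namespace Fermat.Agent.S37x.Red.H20

open Fermat.Agent.S24.RH Fermat.Agent.S37x.Red.H21 Fermat.Agent.S18x.IG.H4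

section Generic

variable {L F k F' : Type*} [Field L] [Field F] [Algebra L F] [Field k] [Field F']
  [Algebra k F']

/-- a function with a value at `v` is regular at `v` -/
theorem ord_nonneg_of_value (v : Place L F) {f : F} {c : L}
    (h : 0 < v.ord (f - algebraMap L F c)) : 0 ≤ v.ord f :=
  ord_nonneg_of_mem v (h4_mem_of_ord_sub_pos v h)

/-- a constant does not have a simple zero -/
theorem ord_ne_one_of_sub_const_eq_zero (v : Place L F) {f : F} {c : L}
    (h : f - algebraMap L F c = 0) : v.ord f ≠ 1 := by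
  rw [sub_eq_zero.mp h, ord_algebraMap]
  exact zero_ne_one

variable {A : ValuationSubring L} {ρ : A →+* k} {r : Place L F → Place k F'}
  {j h : F} {j' h' : F'} {N D : A[X]}

/-- `j` is not a constant -/
theorem data_j_sub_ne_zero (d : H21U1Data A ρ r j h j' h' N D) (a : L) :
    j - algebraMap L F a ≠ 0 := by
  intro h0
  have h1 : aeval h (N.map (algebraMap A L) - C a * D.map (algebraMap A L)) =
      (j - algebraMap L F a) * aeval h (D.map (algebraMap A L)) := by
    rw [map_sub, map_mul, aeval_C, ← d.idL]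
    ring
  rw [h0, zero_mul] at h1
  have h2 := (transcendental_iff.mp d.trL) _ h1
  have hm : (N.map (algebraMap A L) - C a * D.map (algebraMap A L)).Monic := by
    refine d.NL_monic.sub_of_left ?_
    refine lt_of_le_of_lt (degree_mul_le _ _) ?_
    have h1 : (C a : L[X]).degree ≤ 0 := degree_C_le
    have h2 : (D.map (algebraMap A L)).degree < (N.map (algebraMap A L)).degree :=
      degree_lt_degree d.degL
    calc (C a : L[X]).degree + (D.map (algebraMap A L)).degree
        ≤ 0 + (D.map (algebraMap A L)).degree := by gcongr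
      _ = (D.map (algebraMap A L)).degree := zero_add _
      _ < _ := h2
  exact hm.ne_zero h2

/-- at a place which is not a cusp, `j` and `h` have values in `A` -/
theorem data_value_of_not_cusp (d : H21U1Data A ρ r j h j' h' N D) (P : Place L F)
    (hP : ¬ (P.ord j < 0 ∨ ∃ a : L, a ∉ A ∧ 0 < P.ord (j - algebraMap L F a))) :
    ∃ (a : A) (z : A), 0 < P.ord (j - algebraMap L F (a : L)) ∧
      0 < P.ord (h - algebraMap L F (z : L)) := by
  have hP1 : 0 ≤ P.ord j := by
    by_contra hn
    exact hP (Or.inl (not_le.mp hn))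
  have hjm : j ∈ P.toValuationSubring := mem_of_ord_nonneg P hP1
  obtain ⟨a, ha⟩ := hasValue_of_mem (d.res P) hjm
  rcases (hasValue_iff P j a).mp ha with h0 | hpos
  · exact absurd (sub_eq_zero.mpr h0) (data_j_sub_ne_zero d a)
  have haA : a ∈ A := by
    by_contra hn
    exact hP (Or.inr ⟨a, hn, hpos⟩)
  rcases ord_pos_or_ord_neg P (d.res P) d.hnc with hneg | ⟨c, hc⟩
  · have := h21_pole_of_pole P d.NL_monic.ne_zero d.DL_ne_zero d.degL d.idL hneg
    omega
  obtain ⟨z, hz, -⟩ := d.value_mem P ⟨a, haA⟩ hc hpos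
  exact ⟨⟨a, haA⟩, z, hpos, by rw [hz]; exact hc⟩

/-- `h'` is regular where `j'` has a value -/
theorem data_regular_k (d : H21U1Data A ρ r j h j' h' N D) (Q : Place k F') {c : k}
    (hQ : 0 < Q.ord (j' - algebraMap k F' c)) : 0 ≤ Q.ord h' := by
  by_contra hn
  have h1 := d.pole_k Q (not_le.mp hn)
  have h2 := ord_nonneg_of_value Q hQ
  omega

end Generic

section Main

local notation "Lbar" => AlgebraicClosure ℚ

variable (A : ValuationSubring (AlgebraicClosure ℚ)) (M : ℕ)

local notation "kA" => IsLocalRing.ResidueField A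

/-- the reduction of a constant series -/
theorem red_eq_const_of_eq_const (y : LaurentSeries A)
    (hy : coeffMap A.subtype y ∈ modularFunctionFieldBar M)
    (hyk : coeffMap (IsLocalRing.residue A) y ∈ modularFunctionFieldFullC kA M) (b : A)
    (h0 : (⟨coeffMap A.subtype y, hy⟩ : modularFunctionFieldBar M) =
      algebraMap Lbar (modularFunctionFieldBar M) (b : Lbar)) :
    (⟨coeffMap (IsLocalRing.residue A) y, hyk⟩ : modularFunctionFieldFullC kA M) -
      algebraMap kA (modularFunctionFieldFullC kA M) (IsLocalRing.residue A b) = 0 := by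
  have h1 : coeffMap A.subtype (y - HahnSeries.C b) = 0 := by
    rw [coeffMap_subtype_sub_C]
    have := congrArg Subtype.val h0
    rw [sub_eq_zero]
    exact this
  have h2 : y = HahnSeries.C b := by
    have := coeffMap_subtype_injective A (h1.trans (map_zero _).symm)
    exact sub_eq_zero.mp this
  apply Subtype.ext
  show coeffMap (IsLocalRing.residue A) y -
    algebraMap kA (LaurentSeries kA) (IsLocalRing.residue A b) = 0
  rw [h2, algebraMap_laurentSeries_eq_single, sub_eq_zero]
  exact coeffMap_single _ _ _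

/-- **(δ) The non-cusp clause of `StSep`**, with a simple zero at `P`. -/
theorem stSep_noncusp
    (r : Place Lbar (modularFunctionFieldBar M) → Place kA (modularFunctionFieldFullC kA M))
    (hr : IsPlaceReductionModL A M r)
    (hdivL : ∀ f : modularFunctionFieldBar M, f ≠ 0 →
      ∃ D : Divisor Lbar (modularFunctionFieldBar M),
        ∀ P : Place Lbar (modularFunctionFieldBar M), D P = P.ord f)
    (hdivk : ∀ f : modularFunctionFieldFullC kA M, f ≠ 0 →
      ∃ D : Divisor kA (modularFunctionFieldFullC kA M),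
        ∀ Q : Place kA (modularFunctionFieldFullC kA M), D Q = Q.ord f)
    (x : LaurentSeries A) (hx : coeffMap A.subtype x ∈ modularFunctionFieldBar M)
    (hxk : coeffMap (IsLocalRing.residue A) x ∈ modularFunctionFieldFullC kA M)
    {N D : A[X]}
    (d : H21U1Data A (IsLocalRing.residue A) r (Asm.jL M)
      (⟨coeffMap A.subtype x, hx⟩ : modularFunctionFieldBar M) (Asm.jk A M)
      (⟨coeffMap (IsLocalRing.residue A) x, hxk⟩ : modularFunctionFieldFullC kA M) N D)
    (hval : StVal A M r x hx) (hwa : StWA A M x hx hxk)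
    (P : Place Lbar (modularFunctionFieldBar M)) (hP : ¬ Asm.JCusp A P)
    (T : Finset kA) :
    ∃ f : modularFunctionFieldBar M, f ≠ 0 ∧ P.ord f = 1 ∧
      ∀ P' : Place Lbar (modularFunctionFieldBar M), P' ≠ P → P'.ord f ≠ 0 →
        ∀ c ∈ T, ¬ Asm.JbarAt (r P') c := by
  classical
  -- the finite set of the places over `T`
  have hfin : ∀ c : kA, ∃ S : Finset (Place kA (modularFunctionFieldFullC kA M)),
      ∀ Q, Asm.JbarAt Q c → Q ∈ S := by
    intro c
    obtain ⟨Dc, hDc⟩ := hdivk _ (d.j'_sub_ne_zero c)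
    refine ⟨Dc.support, fun Q hQ => ?_⟩
    rw [Finsupp.mem_support_iff, hDc]
    exact (ne_of_gt hQ)
  choose S hS using hfin
  set 𝒯 : Finset (Place kA (modularFunctionFieldFullC kA M)) :=
    (T.biUnion S).filter (fun Q => ∃ c ∈ T, Asm.JbarAt Q c) with h𝒯
  have hmem𝒯 : ∀ Q, Q ∈ 𝒯 ↔ ∃ c ∈ T, Asm.JbarAt Q c := by
    intro Q
    rw [h𝒯, Finset.mem_filter]
    constructor
    · exact fun h => h.2
    · rintro ⟨c, hc, hQ⟩
      exact ⟨Finset.mem_biUnion.mpr ⟨c, hc, hS c Q hQ⟩, c, hc, hQ⟩
  -- the values of `j` and `h` at `P`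
  obtain ⟨a, z, ha, hz⟩ := data_value_of_not_cusp d P hP
  have hJrP : Asm.JbarAt (r P) (IsLocalRing.residue A a) := d.jAt P a ha
  -- every place of `𝒯 ∪ {r P}` lies over a value of `j̄`
  have hover : ∀ Q', (Q' = r P ∨ Q' ∈ 𝒯) → ∃ c : kA, Asm.JbarAt Q' c := by
    rintro Q' (rfl | hQ')
    · exact ⟨_, hJrP⟩
    · obtain ⟨c, -, hc⟩ := (hmem𝒯 Q').mp hQ'
      exact ⟨c, hc⟩
  -- weak approximation
  obtain ⟨y, hy, hyk, hch, huni, hoff⟩ := hwa (r P) 𝒯 (fun Q' hQ' => by
    obtain ⟨c, hc⟩ := hover Q' hQ'
    exact data_regular_k d Q' hc)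
  -- regularity of `ι y` at the places reducing into `𝒯 ∪ {r P}`
  have hreg : ∀ P'', (r P'' ∈ (𝒯 : Set (Place kA (modularFunctionFieldFullC kA M))) ∨
      r P'' = r P) →
      0 ≤ P''.ord (⟨coeffMap A.subtype y, hy⟩ : modularFunctionFieldBar M) := by
    intro P'' h''
    obtain ⟨c, hc⟩ := hover (r P'') (h''.symm.imp id (fun h => Finset.mem_coe.mp h))
    have hnc : ¬ Asm.JCusp A P'' := by
      intro hcusp
      have h1 := d.jCusp P'' hcusp
      have h2 := ord_nonneg_of_value (r P'') hc
      omega
    obtain ⟨-, z'', -, hz''⟩ := data_value_of_not_cusp d P'' hnc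
    exact ord_nonneg_of_mem P''
      (mem_of_integral A P'' _ (h4_mem_of_ord_sub_pos P'' hz'') _ hch)
  -- the value of `ι y` at `P`
  obtain ⟨b, hb⟩ := value_mem_of_integral A P (d.res P) _ z
    ((hasValue_iff P _ _).mpr (Or.inr hz)) _ hch
  have hvalb : 0 < P.ord ((⟨coeffMap A.subtype y, hy⟩ : modularFunctionFieldBar M) -
      algebraMap Lbar (modularFunctionFieldBar M) (b : Lbar)) := by
    rcases (hasValue_iff P _ _).mp hb with h0 | hpos
    · exact absurd huni
        (ord_ne_one_of_sub_const_eq_zero (r P) (red_eq_const_of_eq_const A M y hy hyk b h0))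
    · exact hpos
  have hb0 : IsLocalRing.residue A b = 0 := by
    rcases hval P z hz y hy hyk hch b hvalb with h0 | hpos
    · exact absurd huni (ord_ne_one_of_sub_const_eq_zero (r P) h0)
    · have h1 : HasValue (r P)
          (⟨coeffMap (IsLocalRing.residue A) y, hyk⟩ : modularFunctionFieldFullC kA M)
          (IsLocalRing.residue A b) := (hasValue_iff _ _ _).mpr (Or.inr hpos)
      have h2 : HasValue (r P)
          (⟨coeffMap (IsLocalRing.residue A) y, hyk⟩ : modularFunctionFieldFullC kA M)
          (0 : kA) := by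
        refine (hasValue_iff _ _ _).mpr (Or.inr ?_)
        rw [map_zero, sub_zero, huni]
        exact one_pos
      exact h1.unique h2
  obtain ⟨f, hf0, hf1, hf2⟩ := sep_of_lift A M r hr hdivL P
    (𝒯 : Set (Place kA (modularFunctionFieldFullC kA M))) y hy hyk hreg b hb0 hvalb huni
    (fun Q' hQ' hne => hoff Q' (Finset.mem_coe.mp hQ') hne)
  refine ⟨f, hf0, hf1, fun P' hP' hord c hc hJ => ?_⟩
  exact (hf2 P' hP' hord).1 (Finset.mem_coe.mpr ((hmem𝒯 _).mpr ⟨c, hc, hJ⟩))

end Main

end Fermat.Agent.S37x.Red.H20
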