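import Fermat.Agent.S37x.Red.H20_ConsG
import Fermat.Agent.S37x.Red.H20_SepFin

/-!
# S37 [RED-M] (c2), part (δ), Gauss form: the non-cusp clause of `StSepOne` (helper20)

The statement of `H20_SepFin` with the chart elements taken in the Gauss ring `gaussL A M` of
`F_L` (helper22) instead of the `A`-integral Laurent series: hypotheses `StValG`, `StWAG`.
-/

set_option autoImplicit false
set_option synthInstance.maxHeartbeats 400000
set_option maxHeartbeats 1000000

open HahnSeries IntermediateField AlgebraicCurve ModularCurve Polynomial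

noncomputable section

namespace Fermat.Agent.S37x.Red.H20

open Fermat.Agent.S24.RH Fermat.Agent.S37x.Red.H21 Fermat.Agent.S18x.IG.H4
open Fermat.Agent.S37x.Red.H22

local notation "Lbar" => AlgebraicClosure ℚ

variable (A : ValuationSubring (AlgebraicClosure ℚ)) (M : ℕ) [NeZero M]
  {ℓ : ℕ} (hℓ : ℓ.Prime) (hA : A.LiesOverPrime ℓ) (hℓM : ¬ ℓ ∣ M)

local notation "kA" => IsLocalRing.ResidueField A

/-- **(δ) The non-cusp clause of `StSepOne`**, Gauss form. -/
theorem stSep_noncusp_g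
    (r : Place Lbar (modularFunctionFieldBar M) → Place kA (modularFunctionFieldFullC kA M))
    (hr : IsPlaceReductionModL A M r)
    (hdivL : ∀ f : modularFunctionFieldBar M, f ≠ 0 →
      ∃ D : Divisor Lbar (modularFunctionFieldBar M),
        ∀ P : Place Lbar (modularFunctionFieldBar M), D P = P.ord f)
    (hdivk : ∀ f : modularFunctionFieldFullC kA M, f ≠ 0 →
      ∃ D : Divisor kA (modularFunctionFieldFullC kA M),
        ∀ Q : Place kA (modularFunctionFieldFullC kA M), D Q = Q.ord f)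
    (xL : modularFunctionFieldBar M) (hxV : xL ∈ gaussL A M)
    {N D : A[X]}
    (d : H21U1Data A (IsLocalRing.residue A) r (Asm.jL M) xL (Asm.jk A M)
      (redL A M hℓ hA hℓM ⟨xL, hxV⟩) N D)
    (hval : StValG A M hℓ hA hℓM r xL) (hwa : StWAG A M hℓ hA hℓM xL hxV)
    (P : Place Lbar (modularFunctionFieldBar M)) (hP : ¬ Asm.JCusp A P)
    (T : Finset kA) :
    ∃ f : modularFunctionFieldBar M, f ≠ 0 ∧ P.ord f = 1 ∧
      ∀ P' : Place Lbar (modularFunctionFieldBar M), P' ≠ P → P'.ord f ≠ 0 →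
        ∀ c ∈ T, ¬ Asm.JbarAt (r P') c := by
  classical
  -- the finite set of the places over `T`
  have hfin : ∀ c : kA, ∃ S : Finset (Place kA (modularFunctionFieldFullC kA M)),
      ∀ Q, Asm.JbarAt Q c → Q ∈ S := by
    intro c
    obtain ⟨Dc, hDc⟩ := hdivk _ (d.j'_sub_ne_zero c)
    refine ⟨Dc.support, fun Q hQ => ?_⟩
    rw [Finsupp.mem_support_iff, hDc]
    exact (ne_of_gt hQ)
  choose S hS using hfin
  set 𝒯 : Finset (Place kA (modularFunctionFieldFullC kA M)) :=
    (T.biUnion S).filter (fun Q => ∃ c ∈ T, Asm.JbarAt Q c) with h𝒯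
  have hmem𝒯 : ∀ Q, Q ∈ 𝒯 ↔ ∃ c ∈ T, Asm.JbarAt Q c := by
    intro Q
    rw [h𝒯, Finset.mem_filter]
    constructor
    · exact fun h => h.2
    · rintro ⟨c, hc, hQ⟩
      exact ⟨Finset.mem_biUnion.mpr ⟨c, hc, hS c Q hQ⟩, c, hc, hQ⟩
  -- the values of `j` and `h` at `P`
  obtain ⟨a, z, ha, hz⟩ := data_value_of_not_cusp d P hP
  have hJrP : Asm.JbarAt (r P) (IsLocalRing.residue A a) := d.jAt P a ha
  -- every place of `𝒯 ∪ {r P}` lies over a value of `j̄`
  have hover : ∀ Q', (Q' = r P ∨ Q' ∈ 𝒯) → ∃ c : kA, Asm.JbarAt Q' c := by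
    rintro Q' (rfl | hQ')
    · exact ⟨_, hJrP⟩
    · obtain ⟨c, -, hc⟩ := (hmem𝒯 Q').mp hQ'
      exact ⟨c, hc⟩
  -- weak approximation
  obtain ⟨g, hch, huni, hoff⟩ := hwa (r P) 𝒯 (fun Q' hQ' => by
    obtain ⟨c, hc⟩ := hover Q' hQ'
    exact data_regular_k d Q' hc)
  have hbar0 : redL A M hℓ hA hℓM g ≠ 0 := by
    intro h0
    rw [h0, Place.ord_zero] at huni
    exact zero_ne_one huni
  -- regularity of `g` at the places reducing into `𝒯 ∪ {r P}`
  have hreg : ∀ P'', (r P'' ∈ (𝒯 : Set (Place kA (modularFunctionFieldFullC kA M))) ∨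
      r P'' = r P) → 0 ≤ P''.ord (g : modularFunctionFieldBar M) := by
    intro P'' h''
    obtain ⟨c, hc⟩ := hover (r P'') (h''.symm.imp id (fun h => Finset.mem_coe.mp h))
    have hnc : ¬ Asm.JCusp A P'' := by
      intro hcusp
      have h1 := d.jCusp P'' hcusp
      have h2 := ord_nonneg_of_value (r P'') hc
      omega
    obtain ⟨-, z'', -, hz''⟩ := data_value_of_not_cusp d P'' hnc
    exact ord_nonneg_of_mem P''
      (mem_of_integral A P'' _ (h4_mem_of_ord_sub_pos P'' hz'') _ hch)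
  -- the value of `g` at `P`
  obtain ⟨b, hb⟩ := value_mem_of_integral A P (d.res P) xL z
    ((hasValue_iff P _ _).mpr (Or.inr hz)) _ hch
  have hbV : ValAt P (g : modularFunctionFieldBar M) (b : Lbar) := (hasValue_iff P _ _).mp hb
  have hvk : ValAt (r P) (redL A M hℓ hA hℓM g) (IsLocalRing.residue A b) :=
    hval P z (Or.inr hz) g hch b hbV
  have hb0 : IsLocalRing.residue A b = 0 := by
    have h1 : HasValue (r P) (redL A M hℓ hA hℓM g) (IsLocalRing.residue A b) :=
      (hasValue_iff _ _ _).mpr hvk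
    have h2 : HasValue (r P) (redL A M hℓ hA hℓM g) (0 : kA) := by
      refine (hasValue_iff _ _ _).mpr (Or.inr ?_)
      rw [map_zero, sub_zero, huni]
      exact one_pos
    exact h1.unique h2
  have hvalb : 0 < P.ord ((g : modularFunctionFieldBar M) -
      algebraMap Lbar (modularFunctionFieldBar M) (b : Lbar)) := by
    rcases hbV with h0 | hpos
    · exfalso
      apply hbar0
      have hg : g = ⟨algebraMap Lbar (modularFunctionFieldBar M) (b : Lbar),
          algebraMap_mem_gaussL A M b⟩ := Subtype.ext h0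
      rw [hg, redL_algebraMap, hb0, map_zero]
    · exact hpos
  obtain ⟨f, hf0, hf1, hf2⟩ := sep_of_lift_g A M hℓ hA hℓM r hr hdivL P
    (𝒯 : Set (Place kA (modularFunctionFieldFullC kA M))) g hreg b hb0 hvalb huni
    (fun Q' hQ' hne => hoff Q' (Finset.mem_coe.mp hQ') hne)
  refine ⟨f, hf0, hf1, fun P' hP' hord c hc hJ => ?_⟩
  exact (hf2 P' hP' hord).1 (Finset.mem_coe.mpr ((hmem𝒯 _).mpr ⟨c, hc, hJ⟩))

end Fermat.Agent.S37x.Red.H20
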