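import Fermat.Agent.S37x.Red.H21_U1Core
import Fermat.Agent.S37x.Asm.DefsLeaves
import Fermat.Agent.S18x.IG.H28_HmInst
import Fermat.Agent.S18x.Dict.H22_Ext
import Fermat.Agent.S18x.Dict.H23_Dvr
import Fermat.Agent.S24.H15_DiffFK

/-!
# S37 [RED-M] (c1) (helper21): `StU1` at the Hauptmodul levels

`L = ℚ̄`, `F_M = modularFunctionFieldBar M`, `A` a valuation ring of `L` over `ℓ`,
`k = ResidueField A`, `F̄_M = modularFunctionFieldFullC k M`, `r : Place L F_M → Place k F̄_M`
ANY map.  `T ∈ F_M` and `T' ∈ F̄_M` are the Hauptmoduln of level `2` (`ℓ ≠ 2`) resp. `3`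
(`ℓ ≠ 3`), given by their `q`-expansions (helper28's `h2R`, `h3R`).  If `r` is compatible with
the values of `T` and of `T⁻¹`,

* `(U2h)`: `T(P) = c ∈ A ⟹ T'(r P) = c̄`,
* `(U2w)`: `T⁻¹(P) = c ∈ A ⟹ T'⁻¹(r P) = c̄`,

then `r` is compatible with the values of `j`: `Asm.StU1 A r` (helper14's Prop, verbatim).
-/

set_option autoImplicit false
set_option synthInstance.maxHeartbeats 400000
set_option maxHeartbeats 1000000

noncomputable section

namespace Fermat.Agent.S37x.Red.H21

open AlgebraicCurve Polynomial ModularCurve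
open Fermat.Agent.S24.RH Fermat.Agent.S18x.IG Fermat.Agent.S18x.Dict.H22
  Fermat.Agent.S18x.Dict.H23

local notation "Lbar" => AlgebraicClosure ℚ

/-! ### generic facts -/

section Gen

/-- an element of a subfield of `K((q))` whose `q`-expansion has non-zero order is
transcendental over `K` -/
theorem h21_transcendental_of_order {K : Type*} [Field K]
    (E : IntermediateField K (LaurentSeries K)) (T : E)
    (hT : (T : LaurentSeries K).order ≠ 0) : Transcendental K T := by
  intro halg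
  have h1 : IsAlgebraic K ((T : E) : LaurentSeries K) := halg.algebraMap (A := LaurentSeries K)
  exact H29.transcendental_of_order_ne_zero _ hT h1

theorem h21_order_h2R (R : Type*) [CommRing R] [Nontrivial R] : (H28.h2R R).order = -1 :=
  H29.order_coeffMap (Int.castRingHom R) H28.h2 H28.order_h2 H28.coeff_h2_neg_one

theorem h21_order_h3R (R : Type*) [CommRing R] [Nontrivial R] : (H28.h3R R).order = -1 :=
  H29.order_coeffMap (Int.castRingHom R) H28.h3 H28.order_h3 H28.coeff_h3_neg_one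

/-- the residue map of a local ring kills exactly the non-units -/
theorem h21_residue_eq_zero_iff {R : Type*} [CommRing R] [IsLocalRing R] (a : R) :
    IsLocalRing.residue R a = 0 ↔ ¬ IsUnit a := by
  rw [IsLocalRing.residue_eq_zero_iff, IsLocalRing.mem_maximalIdeal, mem_nonunits_iff]

end Gen

/-! ### the polynomials -/

section Polys

variable (R : Type*) [CommRing R]

/-- `N = (X + 256)³` (level 2) -/
def h21N2 : R[X] := (X + C 256) ^ 3

/-- `D = X²` (level 2) -/
def h21D2 : R[X] := X ^ 2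

/-- `N = (X + 243)³ (X + 27)` (level 3) -/
def h21N3 : R[X] := (X + C 243) ^ 3 * (X + C 27)

/-- `D = X³` (level 3) -/
def h21D3 : R[X] := X ^ 3

variable {R}

theorem h21N2_map {S : Type*} [CommRing S] (f : R →+* S) : (h21N2 R).map f = h21N2 S := by
  simp only [h21N2, Polynomial.map_pow, Polynomial.map_add, Polynomial.map_X, map_ofNat,
    Polynomial.map_ofNat]

theorem h21D2_map {S : Type*} [CommRing S] (f : R →+* S) : (h21D2 R).map f = h21D2 S := by
  simp [h21D2]

theorem h21N3_map {S : Type*} [CommRing S] (f : R →+* S) : (h21N3 R).map f = h21N3 S := by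
  simp only [h21N3, Polynomial.map_pow, Polynomial.map_add, Polynomial.map_X,
    Polynomial.map_mul, map_ofNat, Polynomial.map_ofNat]

theorem h21D3_map {S : Type*} [CommRing S] (f : R →+* S) : (h21D3 R).map f = h21D3 S := by
  simp [h21D3]

variable (R)

theorem h21N2_monic : (h21N2 R).Monic := (monic_X_add_C _).pow 3

theorem h21N3_monic : (h21N3 R).Monic := ((monic_X_add_C _).pow 3).mul (monic_X_add_C _)

theorem h21_deg2 [Nontrivial R] : (h21D2 R).natDegree < (h21N2 R).natDegree := by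
  rw [h21D2, h21N2, natDegree_X_pow, (monic_X_add_C (256 : R)).natDegree_pow,
    natDegree_X_add_C]
  norm_num

theorem h21_deg3 [Nontrivial R] : (h21D3 R).natDegree < (h21N3 R).natDegree := by
  rw [h21D3, h21N3, natDegree_X_pow,
    ((monic_X_add_C (243 : R)).pow 3).natDegree_mul (monic_X_add_C (27 : R)),
    (monic_X_add_C (243 : R)).natDegree_pow, natDegree_X_add_C, natDegree_X_add_C]
  norm_num

theorem h21D2_ne_zero [Nontrivial R] : h21D2 R ≠ 0 := (monic_X_pow 2).ne_zero

theorem h21D3_ne_zero [Nontrivial R] : h21D3 R ≠ 0 := (monic_X_pow 3).ne_zero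

theorem h21_cop2 {κ : Type*} [Field κ] (h2 : (2 : κ) ≠ 0) (c : κ)
    (hc : (h21D2 κ).eval c = 0) : (h21N2 κ).eval c ≠ 0 := by
  have hc0 : c = 0 := by
    simpa [h21D2] using hc
  rw [hc0]
  simp only [h21N2, eval_pow, eval_add, eval_X, eval_C, zero_add]
  have : (256 : κ) = 2 ^ 8 := by norm_num
  rw [this]
  exact pow_ne_zero _ (pow_ne_zero _ h2)

theorem h21_cop3 {κ : Type*} [Field κ] (h3 : (3 : κ) ≠ 0) (c : κ)
    (hc : (h21D3 κ).eval c = 0) : (h21N3 κ).eval c ≠ 0 := by
  have hc0 : c = 0 := by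
    simpa [h21D3] using hc
  rw [hc0]
  simp only [h21N3, eval_pow, eval_add, eval_X, eval_C, zero_add, eval_mul]
  have e1 : (243 : κ) = 3 ^ 5 := by norm_num
  have e2 : (27 : κ) = 3 ^ 3 := by norm_num
  rw [e1, e2]
  exact mul_ne_zero (pow_ne_zero _ (pow_ne_zero _ h3)) (pow_ne_zero _ h3)

end Polys

/-! ### the identities in a subfield of `K((q))` -/

section Ident

variable {K : Type*} [Field K] (E : IntermediateField K (LaurentSeries K))

theorem h21_id_two (J T : E) (hJ : (J : LaurentSeries K) = jqModC K)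
    (hT : (T : LaurentSeries K) = H28.h2R K) :
    J * aeval T (h21D2 K) = aeval T (h21N2 K) := by
  apply Subtype.ext
  simp only [h21D2, h21N2, map_pow, map_add, aeval_X, map_ofNat]
  simp only [IntermediateField.coe_mul, IntermediateField.coe_pow, IntermediateField.coe_add]
  rw [hJ, hT]
  exact H28.j_h2R K

theorem h21_id_three (J T : E) (hJ : (J : LaurentSeries K) = jqModC K)
    (hT : (T : LaurentSeries K) = H28.h3R K) :
    J * aeval T (h21D3 K) = aeval T (h21N3 K) := by
  apply Subtype.ext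
  simp only [h21D3, h21N3, map_pow, map_add, map_mul, aeval_X, map_ofNat]
  simp only [IntermediateField.coe_mul, IntermediateField.coe_pow, IntermediateField.coe_add]
  rw [hJ, hT]
  exact H28.j_h3R K

end Ident

/-! ### the data at the levels `2` and `3` -/

section Levels

variable (A : ValuationSubring Lbar) (M : ℕ) [NeZero M]

theorem h21_two_ne_zero {ℓ : ℕ} (hℓ : ℓ.Prime) (hA : A.LiesOverPrime ℓ) (hℓ2 : ℓ ≠ 2) :
    (2 : IsLocalRing.ResidueField A) ≠ 0 := by
  have hch := h23_charP_residueField' hℓ A hA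
  intro h0
  have h1 : ((2 : ℕ) : IsLocalRing.ResidueField A) = 0 := by exact_mod_cast h0
  rw [CharP.cast_eq_zero_iff (IsLocalRing.ResidueField A) ℓ] at h1
  rcases (Nat.dvd_prime Nat.prime_two).mp h1 with h | h
  · exact hℓ.one_lt.ne' h
  · exact hℓ2 h

theorem h21_three_ne_zero {ℓ : ℕ} (hℓ : ℓ.Prime) (hA : A.LiesOverPrime ℓ) (hℓ3 : ℓ ≠ 3) :
    (3 : IsLocalRing.ResidueField A) ≠ 0 := by
  have hch := h23_charP_residueField' hℓ A hA
  intro h0
  have h1 : ((3 : ℕ) : IsLocalRing.ResidueField A) = 0 := by exact_mod_cast h0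
  rw [CharP.cast_eq_zero_iff (IsLocalRing.ResidueField A) ℓ] at h1
  rcases (Nat.dvd_prime Nat.prime_three).mp h1 with h | h
  · exact hℓ.one_lt.ne' h
  · exact hℓ3 h

/-- **Level 2**: the data of the generic core. -/
theorem h21_data_two (h2 : (2 : IsLocalRing.ResidueField A) ≠ 0)
    (r : Place Lbar ↥(modularFunctionFieldBar M) →
      Place (IsLocalRing.ResidueField A)
        ↥(modularFunctionFieldFullC (IsLocalRing.ResidueField A) M))
    (T : ↥(modularFunctionFieldBar M)) (hT : (T : LaurentSeries Lbar) = H28.h2R Lbar)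
    (T' : ↥(modularFunctionFieldFullC (IsLocalRing.ResidueField A) M))
    (hT' : (T' : LaurentSeries (IsLocalRing.ResidueField A)) =
      H28.h2R (IsLocalRing.ResidueField A))
    (U2h : ∀ (P : Place Lbar ↥(modularFunctionFieldBar M)) (c : Lbar) (hc : c ∈ A),
      0 < P.ord (T - algebraMap Lbar ↥(modularFunctionFieldBar M) c) →
      0 < (r P).ord (T' - algebraMap (IsLocalRing.ResidueField A)
        ↥(modularFunctionFieldFullC (IsLocalRing.ResidueField A) M) (Asm.res A c hc)))
    (U2w : ∀ (P : Place Lbar ↥(modularFunctionFieldBar M)) (c : Lbar) (hc : c ∈ A),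
      0 < P.ord (T⁻¹ - algebraMap Lbar ↥(modularFunctionFieldBar M) c) →
      0 < (r P).ord (T'⁻¹ - algebraMap (IsLocalRing.ResidueField A)
        ↥(modularFunctionFieldFullC (IsLocalRing.ResidueField A) M) (Asm.res A c hc))) :
    H21U1Data A (IsLocalRing.residue A) r (Asm.jL M) T (Asm.jk A M) T' (h21N2 A) (h21D2 A) where
  hρ := h21_residue_eq_zero_iff
  res := fun P => residueTrivial_FK embQbar M P
  trL := h21_transcendental_of_order _ T (by rw [hT, h21_order_h2R]; decide)
  trk := h21_transcendental_of_order _ T' (by rw [hT', h21_order_h2R]; decide)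
  monic := h21N2_monic A
  deg := h21_deg2 A
  hD := by rw [h21D2_map]; exact h21D2_ne_zero _
  idL := by
    rw [h21D2_map, h21N2_map]
    exact h21_id_two _ (Asm.jL M) T rfl hT
  idk := by
    rw [h21D2_map, h21N2_map]
    exact h21_id_two _ (Asm.jk A M) T' rfl hT'
  cop := by
    rw [h21D2_map, h21N2_map]
    exact h21_cop2 h2
  U2h := fun P c hc => U2h P (c : Lbar) c.2 hc
  U2w := fun P c hc => U2w P (c : Lbar) c.2 hc

/-- **Level 3**: the data of the generic core. -/
theorem h21_data_three (h3 : (3 : IsLocalRing.ResidueField A) ≠ 0)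
    (r : Place Lbar ↥(modularFunctionFieldBar M) →
      Place (IsLocalRing.ResidueField A)
        ↥(modularFunctionFieldFullC (IsLocalRing.ResidueField A) M))
    (T : ↥(modularFunctionFieldBar M)) (hT : (T : LaurentSeries Lbar) = H28.h3R Lbar)
    (T' : ↥(modularFunctionFieldFullC (IsLocalRing.ResidueField A) M))
    (hT' : (T' : LaurentSeries (IsLocalRing.ResidueField A)) =
      H28.h3R (IsLocalRing.ResidueField A))
    (U2h : ∀ (P : Place Lbar ↥(modularFunctionFieldBar M)) (c : Lbar) (hc : c ∈ A),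
      0 < P.ord (T - algebraMap Lbar ↥(modularFunctionFieldBar M) c) →
      0 < (r P).ord (T' - algebraMap (IsLocalRing.ResidueField A)
        ↥(modularFunctionFieldFullC (IsLocalRing.ResidueField A) M) (Asm.res A c hc)))
    (U2w : ∀ (P : Place Lbar ↥(modularFunctionFieldBar M)) (c : Lbar) (hc : c ∈ A),
      0 < P.ord (T⁻¹ - algebraMap Lbar ↥(modularFunctionFieldBar M) c) →
      0 < (r P).ord (T'⁻¹ - algebraMap (IsLocalRing.ResidueField A)
        ↥(modularFunctionFieldFullC (IsLocalRing.ResidueField A) M) (Asm.res A c hc))) :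
    H21U1Data A (IsLocalRing.residue A) r (Asm.jL M) T (Asm.jk A M) T' (h21N3 A) (h21D3 A) where
  hρ := h21_residue_eq_zero_iff
  res := fun P => residueTrivial_FK embQbar M P
  trL := h21_transcendental_of_order _ T (by rw [hT, h21_order_h3R]; decide)
  trk := h21_transcendental_of_order _ T' (by rw [hT', h21_order_h3R]; decide)
  monic := h21N3_monic A
  deg := h21_deg3 A
  hD := by rw [h21D3_map]; exact h21D3_ne_zero _
  idL := by
    rw [h21D3_map, h21N3_map]
    exact h21_id_three _ (Asm.jL M) T rfl hT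
  idk := by
    rw [h21D3_map, h21N3_map]
    exact h21_id_three _ (Asm.jk A M) T' rfl hT'
  cop := by
    rw [h21D3_map, h21N3_map]
    exact h21_cop3 h3
  U2h := fun P c hc => U2h P (c : Lbar) c.2 hc
  U2w := fun P c hc => U2w P (c : Lbar) c.2 hc

omit [NeZero M] in
/-- `StU1` from the data of the generic core. -/
theorem h21_stU1_of_data
    {r : Place Lbar ↥(modularFunctionFieldBar M) →
      Place (IsLocalRing.ResidueField A)
        ↥(modularFunctionFieldFullC (IsLocalRing.ResidueField A) M)}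
    {T : ↥(modularFunctionFieldBar M)}
    {T' : ↥(modularFunctionFieldFullC (IsLocalRing.ResidueField A) M)} {N D : A[X]}
    (d : H21U1Data A (IsLocalRing.residue A) r (Asm.jL M) T (Asm.jk A M) T' N D) :
    Asm.StU1 A r :=
  ⟨fun P a ha hJ => d.jAt P ⟨a, ha⟩ hJ, fun P hP => d.jCusp P hP⟩

/-- **[RED-M] (c1), level 2** (`ℓ ≠ 2`): a map `r` between places that is compatible with the
values of the Hauptmodul `h₂` and of `h₂⁻¹` satisfies `StU1`. -/
theorem h21_stU1_two {ℓ : ℕ} (hℓ : ℓ.Prime) (hA : A.LiesOverPrime ℓ) (hℓ2 : ℓ ≠ 2)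
    (r : Place Lbar ↥(modularFunctionFieldBar M) →
      Place (IsLocalRing.ResidueField A)
        ↥(modularFunctionFieldFullC (IsLocalRing.ResidueField A) M))
    (T : ↥(modularFunctionFieldBar M)) (hT : (T : LaurentSeries Lbar) = H28.h2R Lbar)
    (T' : ↥(modularFunctionFieldFullC (IsLocalRing.ResidueField A) M))
    (hT' : (T' : LaurentSeries (IsLocalRing.ResidueField A)) =
      H28.h2R (IsLocalRing.ResidueField A))
    (U2h : ∀ (P : Place Lbar ↥(modularFunctionFieldBar M)) (c : Lbar) (hc : c ∈ A),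
      0 < P.ord (T - algebraMap Lbar ↥(modularFunctionFieldBar M) c) →
      0 < (r P).ord (T' - algebraMap (IsLocalRing.ResidueField A)
        ↥(modularFunctionFieldFullC (IsLocalRing.ResidueField A) M) (Asm.res A c hc)))
    (U2w : ∀ (P : Place Lbar ↥(modularFunctionFieldBar M)) (c : Lbar) (hc : c ∈ A),
      0 < P.ord (T⁻¹ - algebraMap Lbar ↥(modularFunctionFieldBar M) c) →
      0 < (r P).ord (T'⁻¹ - algebraMap (IsLocalRing.ResidueField A)
        ↥(modularFunctionFieldFullC (IsLocalRing.ResidueField A) M) (Asm.res A c hc))) :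
    Asm.StU1 A r :=
  h21_stU1_of_data A M
    (h21_data_two A M (h21_two_ne_zero A hℓ hA hℓ2) r T hT T' hT' U2h U2w)

/-- **[RED-M] (c1), level 3** (`ℓ ≠ 3`). -/
theorem h21_stU1_three {ℓ : ℕ} (hℓ : ℓ.Prime) (hA : A.LiesOverPrime ℓ) (hℓ3 : ℓ ≠ 3)
    (r : Place Lbar ↥(modularFunctionFieldBar M) →
      Place (IsLocalRing.ResidueField A)
        ↥(modularFunctionFieldFullC (IsLocalRing.ResidueField A) M))
    (T : ↥(modularFunctionFieldBar M)) (hT : (T : LaurentSeries Lbar) = H28.h3R Lbar)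
    (T' : ↥(modularFunctionFieldFullC (IsLocalRing.ResidueField A) M))
    (hT' : (T' : LaurentSeries (IsLocalRing.ResidueField A)) =
      H28.h3R (IsLocalRing.ResidueField A))
    (U2h : ∀ (P : Place Lbar ↥(modularFunctionFieldBar M)) (c : Lbar) (hc : c ∈ A),
      0 < P.ord (T - algebraMap Lbar ↥(modularFunctionFieldBar M) c) →
      0 < (r P).ord (T' - algebraMap (IsLocalRing.ResidueField A)
        ↥(modularFunctionFieldFullC (IsLocalRing.ResidueField A) M) (Asm.res A c hc)))
    (U2w : ∀ (P : Place Lbar ↥(modularFunctionFieldBar M)) (c : Lbar) (hc : c ∈ A),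
      0 < P.ord (T⁻¹ - algebraMap Lbar ↥(modularFunctionFieldBar M) c) →
      0 < (r P).ord (T'⁻¹ - algebraMap (IsLocalRing.ResidueField A)
        ↥(modularFunctionFieldFullC (IsLocalRing.ResidueField A) M) (Asm.res A c hc))) :
    Asm.StU1 A r :=
  h21_stU1_of_data A M
    (h21_data_three A M (h21_three_ne_zero A hℓ hA hℓ3) r T hT T' hT' U2h U2w)

/-! ### the canonical Hauptmoduln as elements of `F_M` and `F̄_M` -/

/-- the Hauptmodul of level 2 in `F_M`, `2 ∣ M` -/
def h21TL2 (hM : 2 ∣ M) : ↥(modularFunctionFieldBar M) :=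
  ⟨H28.h2R Lbar, H28.h2_mem_FK M hM⟩

/-- the Hauptmodul of level 3 in `F_M`, `3 ∣ M` -/
def h21TL3 (hM : 3 ∣ M) : ↥(modularFunctionFieldBar M) :=
  ⟨H28.h3R Lbar, H28.h3_mem_FK M hM⟩

theorem h21_h2R_mem_k {ℓ : ℕ} (hℓ : ℓ.Prime) (hA : A.LiesOverPrime ℓ) (hℓ2 : ℓ ≠ 2)
    (hM : 2 ∣ M) :
    H28.h2R (IsLocalRing.ResidueField A) ∈
      modularFunctionFieldFullC (IsLocalRing.ResidueField A) M := by
  have hch := h23_charP_residueField' hℓ A hA
  have hf : Fact ℓ.Prime := ⟨hℓ⟩
  exact H28.h2R_mem_full_l (IsLocalRing.ResidueField A) ℓ hℓ2 M hM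

theorem h21_h3R_mem_k {ℓ : ℕ} (hℓ : ℓ.Prime) (hA : A.LiesOverPrime ℓ) (hℓ3 : ℓ ≠ 3)
    (hM : 3 ∣ M) :
    H28.h3R (IsLocalRing.ResidueField A) ∈
      modularFunctionFieldFullC (IsLocalRing.ResidueField A) M := by
  have hch := h23_charP_residueField' hℓ A hA
  have hf : Fact ℓ.Prime := ⟨hℓ⟩
  exact H28.h3R_mem_full_l (IsLocalRing.ResidueField A) ℓ hℓ3 M hM

/-- the Hauptmodul of level 2 in `F̄_M`, `2 ∣ M`, `ℓ ≠ 2` -/
def h21Tk2 {ℓ : ℕ} (hℓ : ℓ.Prime) (hA : A.LiesOverPrime ℓ) (hℓ2 : ℓ ≠ 2) (hM : 2 ∣ M) :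
    ↥(modularFunctionFieldFullC (IsLocalRing.ResidueField A) M) :=
  ⟨H28.h2R (IsLocalRing.ResidueField A), h21_h2R_mem_k A M hℓ hA hℓ2 hM⟩

/-- the Hauptmodul of level 3 in `F̄_M`, `3 ∣ M`, `ℓ ≠ 3` -/
def h21Tk3 {ℓ : ℕ} (hℓ : ℓ.Prime) (hA : A.LiesOverPrime ℓ) (hℓ3 : ℓ ≠ 3) (hM : 3 ∣ M) :
    ↥(modularFunctionFieldFullC (IsLocalRing.ResidueField A) M) :=
  ⟨H28.h3R (IsLocalRing.ResidueField A), h21_h3R_mem_k A M hℓ hA hℓ3 hM⟩

/-- the Hauptmodul has integral `q`-expansion: `h = ι (h_A)`, `h̄ = red (h_A)` -/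
theorem h21_h2R_int : coeffMap A.subtype (H28.h2R A) = H28.h2R Lbar := H28.coeffMap_h2R A _

theorem h21_h2R_red :
    coeffMap (IsLocalRing.residue A) (H28.h2R A) = H28.h2R (IsLocalRing.ResidueField A) :=
  H28.coeffMap_h2R A _

theorem h21_h3R_int : coeffMap A.subtype (H28.h3R A) = H28.h3R Lbar := H28.coeffMap_h3R A _

theorem h21_h3R_red :
    coeffMap (IsLocalRing.residue A) (H28.h3R A) = H28.h3R (IsLocalRing.ResidueField A) :=
  H28.coeffMap_h3R A _

end Levels

end Fermat.Agent.S37x.Red.H21
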