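import Mathlib
import Fermat.Prelude.Def_AlgebraicCurve_DivisorClassGroup
import Fermat.Agent.S24.H21_PlaceOfVal
import Fermat.Agent.S24.H15_Kaehler
import Fermat.Agent.S18x.E.H29_Const

/-!
# S37 [RED-M] (a), generic part (helper22): valuation rings of a function field are places

`F / k` a function field of one variable (`t` transcendental, `F` finite over `k(t)`), any
characteristic, any constant field.

* `mem_nonunits_iff_ord` : `f ∈ m_P ↔ f = 0 ∨ 0 < P.ord f`;
* `exists_place_eq_of_valuationSubring` : a valuation subring `V ≠ ⊤` of `F` containing `k` is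
  the valuation ring of a place of `F / k`;
* `ValAt P f c` : "the value of `f` at `P` is `c`", spelled
  `f = algebraMap k F c ∨ 0 < P.ord (f - algebraMap k F c)`, with its calculus.
-/

set_option autoImplicit false

open AlgebraicCurve IntermediateField

namespace Fermat.Agent.S37x.Red.H22

variable {k F : Type*} [Field k] [Field F] [Algebra k F]

/-- The maximal ideal of a place in terms of `ord`. -/
theorem mem_nonunits_iff_ord (P : Place k F) (f : F) :
    f ∈ P.toValuationSubring.nonunits ↔ f = 0 ∨ 0 < P.ord f := by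
  rw [ValuationSubring.mem_nonunits_iff_or, ← Fermat.Agent.S24.RH.ord_nonneg_iff, P.ord_inv]
  constructor
  · rintro (h | h)
    · exact Or.inl h
    · exact Or.inr (by omega)
  · rintro (h | h)
    · exact Or.inl h
    · exact Or.inr (by omega)

/-- A valuation subring containing `k` contains every element algebraic over `k`. -/
theorem mem_valuationSubring_of_isAlgebraic (V : ValuationSubring F)
    (hkV : ∀ a : k, algebraMap k F a ∈ V) {x : F} (hx : IsAlgebraic k x) : x ∈ V := by
  let ψ : k →+* V := (algebraMap k F).codRestrict V.toSubring hkV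
  have hψ : (algebraMap V F).comp ψ = algebraMap k F := rfl
  obtain ⟨p, hp, hpx⟩ := hx.isIntegral
  have hint : IsIntegral V x := by
    refine ⟨p.map ψ, hp.map ψ, ?_⟩
    rw [Polynomial.eval₂_map, hψ]
    exact hpx
  obtain ⟨y, hy⟩ := IsIntegrallyClosed.isIntegral_iff.mp hint
  rw [← hy]
  exact y.2

/-- **A valuation ring of a function field of one variable is a place** (any characteristic). -/
theorem exists_place_eq_of_valuationSubring (t : F) (ht : Transcendental k t)
    [FiniteDimensional k⟮t⟯ F] (V : ValuationSubring F)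
    (hkV : ∀ a : k, algebraMap k F a ∈ V) (hV : V ≠ ⊤) :
    ∃ P : Place k F, P.toValuationSubring = V := by
  classical
  obtain ⟨x, hxV⟩ : ∃ x : F, x ∉ V := by
    by_contra hcon
    push Not at hcon
    exact hV (SetLike.ext fun x => ⟨fun _ => ValuationSubring.mem_top x, fun _ => hcon x⟩)
  have hx : Transcendental k x := fun h => hxV (mem_valuationSubring_of_isAlgebraic V hkV h)
  have hx0 : x ≠ 0 := fun h => hx (h ▸ isAlgebraic_zero)
  set π := x⁻¹ with hπdef
  have hπ0 : π ≠ 0 := inv_ne_zero hx0
  have : FiniteDimensional k⟮π⟯ F :=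
    Fermat.Agent.S18x.E.H29.finiteDimensional_adjoin_of_transcendental ht
      (Fermat.Agent.S18x.E.H29.transcendental_inv hx)
  set v := V.valuation with hv
  have hk : ∀ a : k, a ≠ 0 → v (algebraMap k F a) = 1 := by
    intro a ha
    have ha' : algebraMap k F a ≠ 0 := by simpa using ha
    apply le_antisymm
    · exact (V.valuation_le_one_iff _).mpr (hkV a)
    · have h1 : v (algebraMap k F a⁻¹) ≤ 1 := (V.valuation_le_one_iff _).mpr (hkV a⁻¹)
      rw [map_inv₀, map_inv₀] at h1
      exact (inv_le_one₀ (zero_lt_iff.mpr ((v.ne_zero_iff).mpr ha'))).mp h1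
  have hπ : v π < 1 := by
    have h1 : ¬ v x ≤ 1 := fun h => hxV ((V.valuation_le_one_iff _).mp h)
    rw [hπdef, map_inv₀]
    exact inv_lt_one_of_one_lt₀ (not_le.mp h1)
  set N := (Module.finrank k⟮π⟯ F).factorial with hN
  have hNpos : 0 < N := Nat.factorial_pos _
  have hC : ∀ f : F, f ≠ 0 → ∃ m : ℤ, v f ^ N = v π ^ m := fun f hf =>
    Fermat.Agent.S18x.E.H29.exists_factorial_val_eq_zpow v hk hπ hπ0 hf
  choose! w hw using hC
  have hvπpos : 0 < v π := zero_lt_iff.mpr ((v.ne_zero_iff).mpr hπ0)
  have huniq : ∀ {f : F} (_ : f ≠ 0) {m : ℤ}, v f ^ N = v π ^ m → w f = m := by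
    intro f hf m hm
    exact zpow_right_injective₀ hvπpos hπ.ne ((hw f hf).symm.trans hm)
  have hmul : ∀ f g : F, f ≠ 0 → g ≠ 0 → w (f * g) = w f + w g := by
    intro f g hf hg
    apply huniq (mul_ne_zero hf hg)
    rw [map_mul, mul_pow, hw f hf, hw g hg, zpow_add₀ hvπpos.ne']
  have hmono : ∀ f g : F, f ≠ 0 → g ≠ 0 → v g ≤ v f → w f ≤ w g := by
    intro f g hf hg h
    have h2 : v g ^ N ≤ v f ^ N := pow_le_pow_left' h N
    rw [hw _ hg, hw _ hf] at h2
    exact (zpow_le_zpow_iff_right_of_lt_one₀ hvπpos hπ).mp h2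
  have hadd : ∀ f g : F, f ≠ 0 → g ≠ 0 → f + g ≠ 0 → min (w f) (w g) ≤ w (f + g) := by
    intro f g hf hg hfg
    have h1 : v (f + g) ≤ max (v f) (v g) := v.map_add f g
    rcases le_max_iff.mp h1 with h | h
    · exact (min_le_left _ _).trans (hmono f (f + g) hf hfg h)
    · exact (min_le_right _ _).trans (hmono g (f + g) hg hfg h)
  have hK : ∀ a : k, algebraMap k F a ≠ 0 → 0 ≤ w (algebraMap k F a) := by
    intro a ha
    have ha' : a ≠ 0 := fun h => ha (by rw [h, map_zero])
    rw [huniq ha (m := 0) (by rw [hk a ha', one_pow, zpow_zero])]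
  have hwx : w x = -(N : ℤ) := by
    apply huniq hx0
    rw [zpow_neg, zpow_natCast, hπdef, map_inv₀, inv_pow, inv_inv]
  have hnt : ∃ t : F, t ≠ 0 ∧ w t ≠ 0 := ⟨x, hx0, by rw [hwx]; omega⟩
  obtain ⟨P, m, hm, hP, hmem⟩ :=
    Fermat.Agent.S24.Orb.exists_place_of_valuation w hmul hadd hK hnt
  refine ⟨P, SetLike.ext fun f => ?_⟩
  rw [hmem]
  rcases eq_or_ne f 0 with rfl | hf
  · simp
  constructor
  · rintro (h0 | h0)
    · exact absurd h0 hf
    · have h1 : w 1 ≤ w f := by
        rw [huniq one_ne_zero (m := 0) (by rw [map_one, one_pow, zpow_zero])]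
        exact h0
      have h2 : v f ^ N ≤ 1 := by
        rw [hw f hf]
        calc v π ^ w f ≤ v π ^ (0 : ℤ) :=
              (zpow_le_zpow_iff_right_of_lt_one₀ hvπpos hπ).mpr h0
          _ = 1 := zpow_zero _
      have h3 : v f ≤ 1 := by
        by_contra hcon
        rw [not_le] at hcon
        exact absurd h2 (not_le.mpr (one_lt_pow₀ hcon hNpos.ne'))
      exact (V.valuation_le_one_iff _).mp h3
  · intro hfV
    right
    have h1 : v f ≤ 1 := (V.valuation_le_one_iff _).mpr hfV
    have h2 := hmono 1 f one_ne_zero hf (by rw [map_one]; exact h1)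
    rwa [huniq one_ne_zero (m := 0) (by rw [map_one, one_pow, zpow_zero])] at h2

/-! ### Values at a place -/

/-- "The value of `f` at `P` is `c`." -/
def ValAt (P : Place k F) (f : F) (c : k) : Prop :=
  f = algebraMap k F c ∨ 0 < P.ord (f - algebraMap k F c)

theorem valAt_iff (P : Place k F) (f : F) (c : k) :
    ValAt P f c ↔ f - algebraMap k F c ∈ P.toValuationSubring.nonunits := by
  rw [mem_nonunits_iff_ord, ValAt, sub_eq_zero]

theorem valAt_def (P : Place k F) (f : F) (c : k) :
    ValAt P f c ↔ (f = algebraMap k F c ∨ 0 < P.ord (f - algebraMap k F c)) := Iff.rfl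

theorem ValAt.mem {P : Place k F} {f : F} {c : k} (h : ValAt P f c) :
    f ∈ P.toValuationSubring := by
  rw [valAt_iff] at h
  have h1 := ValuationSubring.nonunits_subset h
  have := add_mem h1 (P.algebraMap_mem' c)
  simpa using this

theorem valAt_const (P : Place k F) (c : k) : ValAt P (algebraMap k F c) c := Or.inl rfl

theorem ValAt.add {P : Place k F} {f g : F} {a b : k} (hf : ValAt P f a) (hg : ValAt P g b) :
    ValAt P (f + g) (a + b) := by
  rw [valAt_iff] at hf hg ⊢
  have := add_mem hf hg
  rw [map_add]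
  convert this using 1
  ring

theorem ValAt.neg {P : Place k F} {f : F} {a : k} (hf : ValAt P f a) : ValAt P (-f) (-a) := by
  rw [valAt_iff] at hf ⊢
  have := neg_mem hf
  rw [map_neg]
  convert this using 1
  ring

theorem ValAt.sub {P : Place k F} {f g : F} {a b : k} (hf : ValAt P f a) (hg : ValAt P g b) :
    ValAt P (f - g) (a - b) := by
  rw [sub_eq_add_neg, sub_eq_add_neg]
  exact hf.add hg.neg

theorem ValAt.mul {P : Place k F} {f g : F} {a b : k} (hf : ValAt P f a) (hg : ValAt P g b) :
    ValAt P (f * g) (a * b) := by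
  have hgm := hg.mem
  rw [valAt_iff] at hf hg ⊢
  -- `f g - a b = (f - a) g + a (g - b)`
  have h1 : (f - algebraMap k F a) * g ∈ P.toValuationSubring.nonunits := by
    rw [ValuationSubring.mem_nonunits_iff] at hf ⊢
    rw [map_mul]
    calc P.toValuationSubring.valuation (f - algebraMap k F a) *
          P.toValuationSubring.valuation g
        ≤ P.toValuationSubring.valuation (f - algebraMap k F a) * 1 :=
          mul_le_mul_right ((P.toValuationSubring.valuation_le_one_iff _).mpr hgm) _
      _ < 1 := by rwa [mul_one]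
  have h2 : algebraMap k F a * (g - algebraMap k F b) ∈ P.toValuationSubring.nonunits := by
    rw [ValuationSubring.mem_nonunits_iff] at hg ⊢
    rw [map_mul]
    calc P.toValuationSubring.valuation (algebraMap k F a) *
          P.toValuationSubring.valuation (g - algebraMap k F b)
        ≤ 1 * P.toValuationSubring.valuation (g - algebraMap k F b) :=
          mul_le_mul_left ((P.toValuationSubring.valuation_le_one_iff _).mpr
            (P.algebraMap_mem' a)) _
      _ < 1 := by rwa [one_mul]
  have := add_mem h1 h2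
  rw [map_mul]
  convert this using 1
  ring

/-- Values are unique. -/
theorem ValAt.unique {P : Place k F} {f : F} {a b : k} (hf : ValAt P f a) (hg : ValAt P f b) :
    a = b := by
  have h := hf.sub hg
  rw [sub_self, valAt_iff, zero_sub, ← map_neg] at h
  by_contra hne
  have hu : a - b ≠ 0 := sub_ne_zero.mpr hne
  have h1 : algebraMap k F (-(a - b)) ∈ P.toValuationSubring.nonunits := h
  rw [ValuationSubring.mem_nonunits_iff_or] at h1
  rcases h1 with h1 | h1
  · rw [map_eq_zero, neg_eq_zero] at h1
    exact hu h1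
  · rw [← map_inv₀] at h1
    exact h1 (P.algebraMap_mem' _)

end Fermat.Agent.S37x.Red.H22
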