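import Mathlib
import Fermat.Prelude.Def_AlgebraicCurve_DivisorClassGroup
import Fermat.Agent.S37x.Red.H22_PlaceVal

/-!
# S37 [RED-M] (a), abstract core (helper22): the centre of a place on the special fibre

`E / L` and `Ē / k` function fields, `A` a valuation ring of `L` with residue map
`res : A → k`, `R ⊆ E` a subring with a reduction map `red : R → Ē` compatible with `res` on
the constants of `A`.  Let `P` be a place of `E / L` such that every element of `R` has a value
in `A` at `P`, and the elements with reduction `0` have a value in the maximal ideal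
(saturation).  Then there is a place `Q` of `Ē / k` with

  `g(P) = b ⟹ (red g)(Q) = res b`   for all `g ∈ R`, `b ∈ A`

(Chevalley's extension theorem applied to the image of `R` and the image of the ideal of the
elements with value in the maximal ideal; every valuation ring of `Ē` over `k` is a place).
-/

set_option autoImplicit false

open AlgebraicCurve IntermediateField

namespace Fermat.Agent.S37x.Red.H22

variable {L E k Eb : Type*} [Field L] [Field E] [Algebra L E] [Field k] [Field Eb]
  [Algebra k Eb]

/-- **The centre of a place on the special fibre** (abstract form). -/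
theorem exists_place_centre (A : ValuationSubring L) (res : A →+* k)
    (hres : Function.Surjective res)
    (t : Eb) (ht : Transcendental k t) [FiniteDimensional k⟮t⟯ Eb]
    (R : Subring E) (red : R →+* Eb)
    (hconst : ∀ a : A, ∃ h : algebraMap L E a ∈ R,
      red ⟨algebraMap L E a, h⟩ = algebraMap k Eb (res a))
    (P : Place L E)
    (hval : ∀ g : R, ∃ b : A, ValAt P (g : E) (b : L))
    (hsat : ∀ g : R, red g = 0 → ∃ b : A, res b = 0 ∧ ValAt P (g : E) (b : L))
    (hnt : ∃ (g : R) (b : A), ValAt P (g : E) (b : L) ∧ red g ≠ algebraMap k Eb (res b)) :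
    ∃ Q : Place k Eb, ∀ (g : R) (b : A), ValAt P (g : E) (b : L) → ValAt Q (red g) (res b) := by
  classical
  -- the ideal of the elements with value in the maximal ideal
  let 𝔫 : Ideal R :=
    { carrier := {g | ∃ b : A, res b = 0 ∧ ValAt P (g : E) (b : L)}
      zero_mem' := ⟨0, map_zero _, by
        show ValAt P ((0 : R) : E) ((0 : A) : L)
        simpa using valAt_const P (0 : L)⟩
      add_mem' := by
        rintro g₁ g₂ ⟨b₁, hb₁, h₁⟩ ⟨b₂, hb₂, h₂⟩
        refine ⟨b₁ + b₂, by rw [map_add, hb₁, hb₂, add_zero], ?_⟩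
        simpa using h₁.add h₂
      smul_mem' := by
        rintro c g ⟨b, hb, h⟩
        obtain ⟨a, ha⟩ := hval c
        refine ⟨a * b, by rw [map_mul, hb, mul_zero], ?_⟩
        simpa using ha.mul h }
  have h𝔫 : ∀ g : R, g ∈ 𝔫 ↔ ∃ b : A, res b = 0 ∧ ValAt P (g : E) (b : L) := fun _ => Iff.rfl
  -- the image ring and the image ideal
  let Rb : Subring Eb := red.range
  let red' : R →+* Rb := red.rangeRestrict
  have hred' : Function.Surjective red' := red.rangeRestrict_surjective
  let I : Ideal Rb := 𝔫.map red'
  have hI : I ≠ ⊤ := by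
    intro htop
    have h1 : (1 : Rb) ∈ I := by rw [htop]; trivial
    obtain ⟨g, hg, hg1⟩ := (Ideal.mem_map_iff_of_surjective red' hred').1 h1
    have hg1' : red g = 1 := congrArg Subtype.val hg1
    obtain ⟨b, hb, hgb⟩ := (h𝔫 g).1 hg
    obtain ⟨b', hb', hgb'⟩ := hsat (g - 1) (by rw [map_sub, hg1', map_one, sub_self])
    have h2 : ValAt P (1 : E) ((b : L) - (b' : L)) := by
      have := hgb.sub hgb'
      simpa using this
    have h3 : ValAt P (1 : E) (1 : L) := by
      have := valAt_const P (1 : L)
      simpa using this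
    have h4 : ((b : L) - (b' : L)) = 1 := h2.unique h3
    have h5 : b - b' = 1 := Subtype.ext (by simpa using h4)
    have h6 : res (b - b') = 1 := by rw [h5, map_one]
    rw [map_sub, hb, hb', sub_zero] at h6
    exact zero_ne_one h6
  obtain ⟨W, hRW, hIW⟩ := Ideal.image_subset_nonunits_valuationSubring I hI
  have hW1 : ∀ g : R, red g ∈ W := fun g => hRW ⟨g, rfl⟩
  have hW2 : ∀ (g : R) (b : A), ValAt P (g : E) (b : L) →
      red g - algebraMap k Eb (res b) ∈ W.nonunits := by
    intro g b hgb
    obtain ⟨hb, hbred⟩ := hconst b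
    have hmem : g - ⟨algebraMap L E b, hb⟩ ∈ 𝔫 := by
      refine (h𝔫 _).2 ⟨0, map_zero _, ?_⟩
      have := hgb.sub (valAt_const P (b : L))
      simpa using this
    have h1 : red' (g - ⟨algebraMap L E b, hb⟩) ∈ I := Ideal.mem_map_of_mem red' hmem
    have h2 := hIW ⟨_, h1, rfl⟩
    have h3 : (Rb.subtype (red' (g - ⟨algebraMap L E b, hb⟩)) : Eb) =
        red g - algebraMap k Eb (res b) := by
      show red (g - ⟨algebraMap L E b, hb⟩) = _
      rw [map_sub, hbred]
    rwa [h3] at h2
  have hkW : ∀ c : k, algebraMap k Eb c ∈ W := by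
    intro c
    obtain ⟨a, rfl⟩ := hres c
    obtain ⟨hb, hbred⟩ := hconst a
    rw [← hbred]
    exact hW1 _
  have hWtop : W ≠ ⊤ := by
    obtain ⟨g, b, hgb, hne⟩ := hnt
    intro htop
    have h1 := hW2 g b hgb
    rw [ValuationSubring.mem_nonunits_iff_or] at h1
    rcases h1 with h1 | h1
    · exact hne (sub_eq_zero.mp h1)
    · rw [htop] at h1
      exact h1 (ValuationSubring.mem_top _)
  obtain ⟨Q, hQ⟩ := exists_place_eq_of_valuationSubring t ht W hkW hWtop
  refine ⟨Q, fun g b hgb => ?_⟩
  rw [valAt_iff, hQ]
  exact hW2 g b hgb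

end Fermat.Agent.S37x.Red.H22
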