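import Mathlib
import Fermat.Agent.S18x.Dict.H22_Ext
import Fermat.Agent.S18x.Desc.H19_BridgeFin
import Fermat.Agent.S18x.Spec.H26_Charts

/-!
# S37 [RED-M] (a) (helper22): integrality over `A[y]` descends to number fields

`L = ℚ̄`, `A` a valuation subring of `L`, `K ⊆ L` intermediate fields, `O_K = A ∩ K`,
`F_K = modularFunctionFieldFullC K M`, `F_L = modularFunctionFieldBar M`, `ι_K = iotaK K M`.
For a compatible family of coordinates `y K : F_K`, `ι_K (y K) = yL`:

* `isIntegral_iotaK` : `g ∈ chart O_K (y K) ⟹ ι_K g` is integral over `A[yL]`;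
* `exists_descent_isIntegral` : if `g : F_L` is integral over `A[yL]`, there is a number field
  `K₀` such that for every `K ≥ K₀`, `g = ι_K g'` with `g' ∈ chart O_K (y K)`.
-/

set_option autoImplicit false
set_option linter.unusedSectionVars false
set_option synthInstance.maxHeartbeats 400000
set_option maxHeartbeats 1000000

open ModularCurve AlgebraicCurve IntermediateField Polynomial

noncomputable section

namespace Fermat.Agent.S37x.Red.H22

open Fermat.Agent.S18x.Dict.H22 Fermat.Agent.S18x.Spec.H26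

local notation "Lbar" => AlgebraicClosure ℚ

section Descent

variable (A : ValuationSubring Lbar) (M : ℕ) [NeZero M]

/-- `ι_K` on the constants of `O_K`. -/
theorem iotaK_algebraMap_O (K : IntermediateField ℚ Lbar) (o : A.comap (algebraMap ↥K Lbar)) :
    iotaK ↥K M (algebraMap (A.comap (algebraMap ↥K Lbar)) ↥(modularFunctionFieldFullC ↥K M) o)
      = algebraMap A ↥(modularFunctionFieldBar M) ⟨algebraMap ↥K Lbar (o : ↥K), o.2⟩ := by
  have h1 : algebraMap (A.comap (algebraMap ↥K Lbar)) ↥(modularFunctionFieldFullC ↥K M) o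
      = algebraMap ↥K ↥(modularFunctionFieldFullC ↥K M) (o : ↥K) := rfl
  rw [h1, iotaK_algebraMap]
  rfl

theorem iotaK_injective (K : IntermediateField ℚ Lbar) :
    Function.Injective (iotaK ↥K M) := (iotaK ↥K M).injective

/-- `ι_K` maps `O_K[y]` into `A[ι_K y]`. -/
theorem iotaK_mem_adjoin (K : IntermediateField ℚ Lbar)
    (y c : ↥(modularFunctionFieldFullC ↥K M))
    (hc : c ∈ Algebra.adjoin (A.comap (algebraMap ↥K Lbar)) {y}) :
    iotaK ↥K M c ∈ Algebra.adjoin A {iotaK ↥K M y} := by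
  induction hc using Algebra.adjoin_induction with
  | mem x hx =>
    rw [Set.mem_singleton_iff] at hx
    subst hx
    exact Algebra.subset_adjoin (Set.mem_singleton _)
  | algebraMap o =>
    rw [iotaK_algebraMap_O]
    exact Subalgebra.algebraMap_mem _ _
  | add x y _ _ hx hy =>
    rw [map_add]
    exact add_mem hx hy
  | mul x y _ _ hx hy =>
    rw [map_mul]
    exact mul_mem hx hy

/-- **Push**: the image of the chart over `O_K` is integral over `A[yL]`. -/
theorem isIntegral_iotaK (K : IntermediateField ℚ Lbar)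
    (y g : ↥(modularFunctionFieldFullC ↥K M))
    (hg : IsIntegral (Algebra.adjoin (A.comap (algebraMap ↥K Lbar)) {y}) g) :
    IsIntegral (Algebra.adjoin A {iotaK ↥K M y}) (iotaK ↥K M g) := by
  rw [h26_isIntegral_iff] at hg ⊢
  obtain ⟨p, hp, hcoeff, hz⟩ := hg
  refine ⟨p.map (iotaK ↥K M), hp.map _, fun i => ?_, ?_⟩
  · rw [coeff_map]
    exact iotaK_mem_adjoin A M K y _ (hcoeff i)
  · rw [eval_map, Polynomial.eval₂_at_apply, hz, map_zero]

/-- Elements of `A[yL]` descend to `O_K[y K]` for all large number fields `K`. -/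
theorem exists_descent_adjoin (yL : ↥(modularFunctionFieldBar M))
    (y : ∀ K : IntermediateField ℚ Lbar, ↥(modularFunctionFieldFullC ↥K M))
    (hy : ∀ K : IntermediateField ℚ Lbar, iotaK ↥K M (y K) = yL)
    (c : ↥(modularFunctionFieldBar M)) (hc : c ∈ Algebra.adjoin A {yL}) :
    ∃ K₀ : IntermediateField ℚ Lbar, FiniteDimensional ℚ K₀ ∧
      ∀ K : IntermediateField ℚ Lbar, K₀ ≤ K →
        ∃ c' : ↥(modularFunctionFieldFullC ↥K M),
          c' ∈ Algebra.adjoin (A.comap (algebraMap ↥K Lbar)) {y K} ∧ iotaK ↥K M c' = c := by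
  induction hc using Algebra.adjoin_induction with
  | mem x hx =>
    rw [Set.mem_singleton_iff] at hx
    subst hx
    exact ⟨⊥, inferInstance, fun K _ =>
      ⟨y K, Algebra.subset_adjoin (Set.mem_singleton _), hy K⟩⟩
  | algebraMap a =>
    have hint : IsIntegral ℚ (a : Lbar) :=
      (AlgebraicClosure.isAlgebraic ℚ).isAlgebraic (a : Lbar) |>.isIntegral
    refine ⟨ℚ⟮(a : Lbar)⟯, IntermediateField.adjoin.finiteDimensional hint, fun K hK => ?_⟩
    have haK : (a : Lbar) ∈ K := hK (IntermediateField.mem_adjoin_simple_self ℚ _)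
    let o : A.comap (algebraMap ↥K Lbar) := ⟨⟨(a : Lbar), haK⟩, a.2⟩
    refine ⟨algebraMap (A.comap (algebraMap ↥K Lbar)) ↥(modularFunctionFieldFullC ↥K M) o,
      Subalgebra.algebraMap_mem _ _, ?_⟩
    rw [iotaK_algebraMap_O]
    rfl
  | add x z _ _ hx hz =>
    obtain ⟨K₁, hK₁, h₁⟩ := hx
    obtain ⟨K₂, hK₂, h₂⟩ := hz
    have := hK₁
    have := hK₂
    refine ⟨K₁ ⊔ K₂, IntermediateField.finiteDimensional_sup K₁ K₂, fun K hK => ?_⟩
    obtain ⟨x', hx', hxx⟩ := h₁ K (le_trans le_sup_left hK)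
    obtain ⟨z', hz', hzz⟩ := h₂ K (le_trans le_sup_right hK)
    exact ⟨x' + z', add_mem hx' hz', by rw [map_add, hxx, hzz]⟩
  | mul x z _ _ hx hz =>
    obtain ⟨K₁, hK₁, h₁⟩ := hx
    obtain ⟨K₂, hK₂, h₂⟩ := hz
    have := hK₁
    have := hK₂
    refine ⟨K₁ ⊔ K₂, IntermediateField.finiteDimensional_sup K₁ K₂, fun K hK => ?_⟩
    obtain ⟨x', hx', hxx⟩ := h₁ K (le_trans le_sup_left hK)
    obtain ⟨z', hz', hzz⟩ := h₂ K (le_trans le_sup_right hK)
    exact ⟨x' * z', mul_mem hx' hz', by rw [map_mul, hxx, hzz]⟩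

/-- **(D)** integrality over `A[yL]` descends to the charts over number fields. -/
theorem exists_descent_isIntegral (yL : ↥(modularFunctionFieldBar M))
    (y : ∀ K : IntermediateField ℚ Lbar, ↥(modularFunctionFieldFullC ↥K M))
    (hy : ∀ K : IntermediateField ℚ Lbar, iotaK ↥K M (y K) = yL)
    (g : ↥(modularFunctionFieldBar M)) (hg : IsIntegral (Algebra.adjoin A {yL}) g) :
    ∃ K₀ : IntermediateField ℚ Lbar, FiniteDimensional ℚ K₀ ∧
      ∀ K : IntermediateField ℚ Lbar, K₀ ≤ K →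
        ∃ g' : ↥(modularFunctionFieldFullC ↥K M), iotaK ↥K M g' = g ∧
          IsIntegral (Algebra.adjoin (A.comap (algebraMap ↥K Lbar)) {y K}) g' := by
  rw [h26_isIntegral_iff] at hg
  obtain ⟨p, hp, hcoeff, hz⟩ := hg
  -- a common field for the coefficients of index `< n`
  have hco : ∀ n : ℕ, ∃ K₀ : IntermediateField ℚ Lbar, FiniteDimensional ℚ K₀ ∧
      ∀ K : IntermediateField ℚ Lbar, K₀ ≤ K → ∀ i < n,
        ∃ c' : ↥(modularFunctionFieldFullC ↥K M),
          c' ∈ Algebra.adjoin (A.comap (algebraMap ↥K Lbar)) {y K} ∧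
            iotaK ↥K M c' = p.coeff i := by
    intro n
    induction n with
    | zero => exact ⟨⊥, inferInstance, fun K _ i hi => absurd hi (Nat.not_lt_zero i)⟩
    | succ n ih =>
      obtain ⟨K₁, hK₁, h₁⟩ := ih
      obtain ⟨K₂, hK₂, h₂⟩ := exists_descent_adjoin A M yL y hy (p.coeff n) (hcoeff n)
      have := hK₁
      have := hK₂
      refine ⟨K₁ ⊔ K₂, IntermediateField.finiteDimensional_sup K₁ K₂, fun K hK i hi => ?_⟩
      rcases Nat.lt_succ_iff_lt_or_eq.1 hi with hlt | rfl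
      · exact h₁ K (le_trans le_sup_left hK) i hlt
      · exact h₂ K (le_trans le_sup_right hK)
  obtain ⟨K₁, hK₁, h₁⟩ := hco (p.natDegree + 1)
  obtain ⟨K₂, hK₂, h₂⟩ := Fermat.Agent.S18x.Desc.H19.h19_exists_descent_bar M g
  have := hK₁
  have := hK₂
  refine ⟨K₁ ⊔ K₂, IntermediateField.finiteDimensional_sup K₁ K₂, fun K hK => ?_⟩
  obtain ⟨g', hg'⟩ := h₂ K (le_trans le_sup_right hK)
  refine ⟨g', hg', ?_⟩
  let φ : ↥(Algebra.adjoin (A.comap (algebraMap ↥K Lbar)) {y K}) →+*
      ↥(modularFunctionFieldBar M) :=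
    (iotaK ↥K M).comp (algebraMap _ _)
  have hl : p ∈ lifts φ := by
    rw [lifts_iff_coeff_lifts]
    intro i
    by_cases hi : i < p.natDegree + 1
    · obtain ⟨c', hc', hcc⟩ := h₁ K (le_trans le_sup_left hK) i hi
      exact ⟨⟨c', hc'⟩, hcc⟩
    · rw [coeff_eq_zero_of_natDegree_lt (by omega)]
      exact ⟨0, map_zero _⟩
  obtain ⟨q, hq, -, hqm⟩ := lifts_and_natDegree_eq_and_monic hl hp
  refine ⟨q, hqm, ?_⟩
  apply iotaK_injective M K
  rw [map_zero, Polynomial.hom_eval₂, hg']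
  have : eval₂ ((iotaK ↥K M).comp
      (algebraMap ↥(Algebra.adjoin (A.comap (algebraMap ↥K Lbar)) {y K})
        ↥(modularFunctionFieldFullC ↥K M))) g q = eval g (q.map φ) := by
    rw [eval_map]
  rw [this, hq, hz]

end Descent

end Fermat.Agent.S37x.Red.H22
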