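import Mathlib
import Fermat.Prelude.Def_ModularCurve_ReductionModL
import Fermat.Agent.S37x.Red.H22_Descent
import Fermat.Agent.S18x.Dict.H22_GaussDesc
import Fermat.Agent.S18x.Qepo.H1_Basis

/-!
# S37 [RED-M] (a) (helper22): the Gauss valuation ring of `F_L` and its reduction

`L = ℚ̄`, `A` a valuation subring of `L` over `ℓ`, `ℓ ∤ M`, `k = ResidueField A`,
`F_L = modularFunctionFieldBar M`, `F̄ = modularFunctionFieldFullC k M`.

* `gaussL A M : Subring F_L` : the elements of `F_L` lying in the Gauss ring of `A`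
  (quotients `a / b` of `A`-integral Laurent series, `b` of nonzero reduction);
* `redLS A M : gaussL A M →+* LaurentSeries k` : the reduction (helper20's `gaussRed A`);
* `redLS_mem` : its values lie in `F̄` ((Q5) at the level of `ℚ̄`);
* `redL A hℓ hA M hℓM : gaussL A M →+* F̄`;
* `redLS_coeffMap` : on an `A`-integral Laurent series the reduction is the coefficientwise one
  (the reduction of the prelude's `IsPlaceReductionAlong`);
* `redLS_iotaK` : compatibility with the reductions over number fields.
-/

set_option autoImplicit false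
set_option linter.unusedSectionVars false
set_option synthInstance.maxHeartbeats 400000
set_option maxHeartbeats 1000000

open ModularCurve AlgebraicCurve IntermediateField

noncomputable section

namespace Fermat.Agent.S37x.Red.H22

open Fermat.Agent.S18x.Dict.H20 Fermat.Agent.S18x.Dict.H23 Fermat.Agent.S18x.Dict.H22

local notation "Lbar" => AlgebraicClosure ℚ

section GaussL

variable (A : ValuationSubring Lbar) (M : ℕ) [NeZero M]

/-- The Gauss valuation ring of `F_L`. -/
def gaussL : Subring ↥(modularFunctionFieldBar M) :=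
  (gaussRing A).comap (algebraMap ↥(modularFunctionFieldBar M) (LaurentSeries Lbar))

theorem mem_gaussL_iff {g : ↥(modularFunctionFieldBar M)} :
    g ∈ gaussL A M ↔ (g : LaurentSeries Lbar) ∈ gaussRing A := Iff.rfl

/-- The reduction map, with values in `k((q))`. -/
def redLS : gaussL A M →+* LaurentSeries (IsLocalRing.ResidueField A) :=
  (gaussRed A).comp
    (((algebraMap ↥(modularFunctionFieldBar M) (LaurentSeries Lbar)).comp
      (gaussL A M).subtype).codRestrict (gaussRing A) (fun g => g.2))

theorem redLS_apply (g : gaussL A M) :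
    redLS A M g = gaussRed A ⟨((g : ↥(modularFunctionFieldBar M)) : LaurentSeries Lbar), g.2⟩ :=
  rfl

/-- `A`-integral Laurent series lie in the Gauss ring. -/
theorem coeffMap_mem_gaussL (Y : LaurentSeries A)
    (hY : coeffMap A.subtype Y ∈ modularFunctionFieldBar M) :
    (⟨coeffMap A.subtype Y, hY⟩ : ↥(modularFunctionFieldBar M)) ∈ gaussL A M :=
  coeffMap_subtype_mem_gaussRing A Y

/-- On `A`-integral Laurent series the reduction is the coefficientwise reduction. -/
theorem redLS_coeffMap (Y : LaurentSeries A)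
    (hY : coeffMap A.subtype Y ∈ modularFunctionFieldBar M) :
    redLS A M ⟨⟨coeffMap A.subtype Y, hY⟩, coeffMap_mem_gaussL A M Y hY⟩
      = coeffMap (IsLocalRing.residue A) Y :=
  gaussRed_coeffMap_subtype A Y

/-- Constants of `A` lie in the Gauss ring. -/
theorem algebraMap_mem_gaussL (a : A) :
    algebraMap Lbar ↥(modularFunctionFieldBar M) (a : Lbar) ∈ gaussL A M := by
  rw [mem_gaussL_iff]
  have h1 : ((algebraMap Lbar ↥(modularFunctionFieldBar M) (a : Lbar) :
      ↥(modularFunctionFieldBar M)) : LaurentSeries Lbar) = HahnSeries.C (a : Lbar) := by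
    show algebraMap Lbar (LaurentSeries Lbar) (a : Lbar) = _
    rw [algebraMap_laurentSeries_eq_single, HahnSeries.C_apply]
  rw [h1]
  exact C_mem_gaussRing A a

/-- The reduction of a constant. -/
theorem redLS_algebraMap (a : A) :
    redLS A M ⟨algebraMap Lbar ↥(modularFunctionFieldBar M) (a : Lbar),
        algebraMap_mem_gaussL A M a⟩
      = algebraMap (IsLocalRing.ResidueField A) (LaurentSeries (IsLocalRing.ResidueField A))
          (IsLocalRing.residue A a) := by
  rw [redLS_apply]
  have h1 : ((algebraMap Lbar ↥(modularFunctionFieldBar M) (a : Lbar) :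
      ↥(modularFunctionFieldBar M)) : LaurentSeries Lbar) = HahnSeries.C (a : Lbar) := by
    show algebraMap Lbar (LaurentSeries Lbar) (a : Lbar) = _
    rw [algebraMap_laurentSeries_eq_single, HahnSeries.C_apply]
  have h2 : (⟨((algebraMap Lbar ↥(modularFunctionFieldBar M) (a : Lbar) :
      ↥(modularFunctionFieldBar M)) : LaurentSeries Lbar), algebraMap_mem_gaussL A M a⟩ :
        gaussRing A) = gaussC A a := Subtype.ext h1
  rw [h2, gaussRed_gaussC, algebraMap_laurentSeries_eq_single, HahnSeries.C_apply]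

/-- Compatibility with the Gauss rings over the intermediate fields. -/
theorem iotaK_mem_gaussL (K : IntermediateField ℚ Lbar)
    {x : ↥(modularFunctionFieldFullC ↥K M)}
    (hx : (x : LaurentSeries ↥K) ∈ gaussRing (A.comap (algebraMap ↥K Lbar))) :
    iotaK ↥K M x ∈ gaussL A M :=
  mem_gaussRing_iotaK A M K hx

theorem redLS_iotaK (K : IntermediateField ℚ Lbar)
    {x : ↥(modularFunctionFieldFullC ↥K M)}
    (hx : (x : LaurentSeries ↥K) ∈ gaussRing (A.comap (algebraMap ↥K Lbar))) :
    redLS A M ⟨iotaK ↥K M x, iotaK_mem_gaussL A M K hx⟩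
      = coeffMap (h23_resEmb A) (gaussRed (A.comap (algebraMap ↥K Lbar)) ⟨x, hx⟩) :=
  gaussRed_iotaK A M K hx

variable {ℓ : ℕ} (hℓ : ℓ.Prime) (hA : A.LiesOverPrime ℓ) (hℓM : ¬ ℓ ∣ M)

include hℓ hA hℓM in
/-- **(Q5) over `ℚ̄`**: the reduction of an element of `F_L` in the Gauss ring lies in `F̄`. -/
theorem redLS_mem (g : gaussL A M) :
    redLS A M g ∈ modularFunctionFieldFullC (IsLocalRing.ResidueField A) M := by
  obtain ⟨g, hg⟩ := g
  obtain ⟨K, hKfin, hK⟩ := Fermat.Agent.S18x.Desc.H19.h19_exists_descent_bar M g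
  obtain ⟨g', hg'⟩ := hK K le_rfl
  have := hKfin
  have hDVR : IsDiscreteValuationRing (A.comap (algebraMap ↥K Lbar)) :=
    h23_isDVR_intermediate A hℓ hA K
  obtain ⟨π, hπ⟩ := IsDiscreteValuationRing.exists_irreducible (A.comap (algebraMap ↥K Lbar))
  have hfact : Fact ℓ.Prime := ⟨hℓ⟩
  have hchar : CharP (IsLocalRing.ResidueField (A.comap (algebraMap ↥K Lbar))) ℓ :=
    h23_charP_residueField A hℓ hA
  have hcz : CharZero ↥K := charZero_of_injective_algebraMap (algebraMap ℚ ↥K).injective
  subst hg'
  have hx : (g' : LaurentSeries ↥K) ∈ gaussRing (A.comap (algebraMap ↥K Lbar)) :=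
    (mem_gaussRing_iotaK_iff A M K g').1 hg
  have e : (⟨iotaK ↥K M g', hg⟩ : gaussL A M) = ⟨iotaK ↥K M g', iotaK_mem_gaussL A M K hx⟩ := rfl
  rw [e, redLS_iotaK A M K hx]
  have hq5 := Fermat.Agent.S18x.Qepo.gaussRed_mem_full (A.comap (algebraMap ↥K Lbar)) π hπ M ℓ
    hℓM ⟨g', hx⟩ g'.2
  exact Fermat.Agent.S18x.Desc.H19.h19_coeffMap_mem_full (h23_resEmb A) M hq5

/-- The reduction map `F_L ∩ V → F̄`. -/
def redL : gaussL A M →+* ↥(modularFunctionFieldFullC (IsLocalRing.ResidueField A) M) :=
  (redLS A M).codRestrict (modularFunctionFieldFullC (IsLocalRing.ResidueField A) M)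
    (redLS_mem A M hℓ hA hℓM)

theorem coe_redL (g : gaussL A M) :
    ((redL A M hℓ hA hℓM g : ↥(modularFunctionFieldFullC (IsLocalRing.ResidueField A) M)) :
      LaurentSeries (IsLocalRing.ResidueField A)) = redLS A M g := rfl

theorem redL_algebraMap (a : A) :
    redL A M hℓ hA hℓM ⟨algebraMap Lbar ↥(modularFunctionFieldBar M) (a : Lbar),
        algebraMap_mem_gaussL A M a⟩
      = algebraMap (IsLocalRing.ResidueField A)
          ↥(modularFunctionFieldFullC (IsLocalRing.ResidueField A) M)
          (IsLocalRing.residue A a) :=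
  Subtype.ext (redLS_algebraMap A M a)

end GaussL

end Fermat.Agent.S37x.Red.H22
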