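import Mathlib
import Fermat.Prelude.Def_AlgebraicCurve_DivisorClassGroup
import Fermat.Agent.S37x.Red.H22_PlaceVal

/-!
# S37 [RED-M] (a), generic part (helper22): the composite valuation ring of a place and a
valuation ring of the constants

`F / K` a function field, `P` a place with residue field `K`, `A` a valuation subring of `K`.
`valRingAt A P = {f | f has a value in A at P}` is a valuation subring of `F`; hence it contains
every element integral over a subring generated by elements with values in `A`
(`exists_valAt_of_isIntegral`).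
-/

set_option autoImplicit false

open AlgebraicCurve IntermediateField

namespace Fermat.Agent.S37x.Red.H22

variable {K F : Type*} [Field K] [Field F] [Algebra K F]

theorem valuation_algebraMap_eq_one (P : Place K F) {c : K} (hc : c ≠ 0) :
    P.toValuationSubring.valuation (algebraMap K F c) = 1 := by
  have hc' : algebraMap K F c ≠ 0 := by simpa using hc
  apply le_antisymm
  · exact (P.toValuationSubring.valuation_le_one_iff _).mpr (P.algebraMap_mem' c)
  · have h1 : P.toValuationSubring.valuation (algebraMap K F c⁻¹) ≤ 1 :=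
      (P.toValuationSubring.valuation_le_one_iff _).mpr (P.algebraMap_mem' c⁻¹)
    rw [map_inv₀, map_inv₀] at h1
    exact (inv_le_one₀ (zero_lt_iff.mpr
      ((P.toValuationSubring.valuation.ne_zero_iff).mpr hc'))).mp h1

/-- The value of the inverse. -/
theorem ValAt.inv {P : Place K F} {f : F} {c : K} (h : ValAt P f c) (hc : c ≠ 0) :
    ValAt P f⁻¹ c⁻¹ := by
  rw [valAt_iff, ValuationSubring.mem_nonunits_iff] at h ⊢
  set v := P.toValuationSubring.valuation with hv
  have hvc : v (algebraMap K F c) = 1 := valuation_algebraMap_eq_one P hc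
  have hvf : v f = 1 := by
    have h1 : v (algebraMap K F c + (f - algebraMap K F c)) = v (algebraMap K F c) :=
      Valuation.map_add_eq_of_lt_left v (by rw [hvc]; exact h)
    rw [add_sub_cancel, hvc] at h1
    exact h1
  have hf0 : f ≠ 0 := by
    intro h0
    rw [h0, map_zero] at hvf
    exact zero_ne_one hvf
  have hc0 : algebraMap K F c ≠ 0 := by simpa using hc
  have e : f⁻¹ - algebraMap K F c⁻¹ = -(f - algebraMap K F c) * (f⁻¹ * (algebraMap K F c)⁻¹) := by
    rw [map_inv₀]
    field_simp
    ring
  rw [e, map_mul, map_mul, Valuation.map_neg, map_inv₀, map_inv₀, hvf, hvc, inv_one, mul_one,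
    mul_one]
  exact h

/-- The inverse of a function with a pole has the value `0`. -/
theorem valAt_inv_of_not_mem {P : Place K F} {f : F} (hf : f ∉ P.toValuationSubring) :
    ValAt P f⁻¹ 0 := by
  rw [valAt_iff, map_zero, sub_zero, ValuationSubring.mem_nonunits_iff_or, inv_inv]
  exact Or.inr hf

/-- Values exist at the places with residue field `K`. -/
theorem exists_valAt_of_mem {P : Place K F} (hres : Fermat.Agent.S24.RH.ResidueTrivial P)
    {f : F} (hf : f ∈ P.toValuationSubring) : ∃ c : K, ValAt P f c := by
  obtain ⟨c, hc⟩ := hres ⟨f, hf⟩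
  refine ⟨c, ?_⟩
  rw [valAt_iff]
  have := (ValuationSubring.coe_mem_nonunits_iff (A := P.toValuationSubring)).2 hc
  simpa using this

/-- The composite valuation ring: the functions with a value in `A` at `P`. -/
def valRingAt (A : ValuationSubring K) (P : Place K F)
    (hres : Fermat.Agent.S24.RH.ResidueTrivial P) : ValuationSubring F where
  carrier := {f | ∃ b : A, ValAt P f (b : K)}
  mul_mem' := by
    rintro f g ⟨a, ha⟩ ⟨b, hb⟩
    exact ⟨a * b, by simpa using ha.mul hb⟩
  one_mem' := ⟨1, by simpa using valAt_const P (1 : K)⟩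
  add_mem' := by
    rintro f g ⟨a, ha⟩ ⟨b, hb⟩
    exact ⟨a + b, by simpa using ha.add hb⟩
  zero_mem' := ⟨0, by simpa using valAt_const P (0 : K)⟩
  neg_mem' := by
    rintro f ⟨a, ha⟩
    exact ⟨-a, by simpa using ha.neg⟩
  mem_or_inv_mem' := by
    intro f
    by_cases hf : f ∈ P.toValuationSubring
    · obtain ⟨c, hc⟩ := exists_valAt_of_mem hres hf
      by_cases hcA : c ∈ A
      · exact Or.inl ⟨⟨c, hcA⟩, hc⟩
      · right
        have hc0 : c ≠ 0 := fun h => hcA (h ▸ A.zero_mem)
        have hcinv : c⁻¹ ∈ A := (A.mem_or_inv_mem c).resolve_left hcA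
        exact ⟨⟨c⁻¹, hcinv⟩, hc.inv hc0⟩
    · right
      exact ⟨0, by simpa using valAt_inv_of_not_mem hf⟩

theorem mem_valRingAt (A : ValuationSubring K) (P : Place K F)
    (hres : Fermat.Agent.S24.RH.ResidueTrivial P) (f : F) :
    f ∈ valRingAt A P hres ↔ ∃ b : A, ValAt P f (b : K) := Iff.rfl

/-- A valuation subring containing the image of `R₀` and `S` contains the integral closure of
`R₀[S]`. -/
theorem mem_valuationSubring_of_isIntegral_adjoin {R₀ : Type*} [CommRing R₀] [Algebra R₀ F]
    (S : Set F) (V : ValuationSubring F) (hR : ∀ r : R₀, algebraMap R₀ F r ∈ V)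
    (hS : ∀ s ∈ S, s ∈ V) {g : F} (hg : IsIntegral (Algebra.adjoin R₀ S) g) : g ∈ V := by
  have hadj : ∀ r : Algebra.adjoin R₀ S, (r : F) ∈ V := by
    rintro ⟨r, hr⟩
    induction hr using Algebra.adjoin_induction with
    | mem x hx => exact hS x hx
    | algebraMap c => exact hR c
    | add x y _ _ hx hy => exact add_mem hx hy
    | mul x y _ _ hx hy => exact mul_mem hx hy
  obtain ⟨p, hp, hpa⟩ := hg
  let incl : Algebra.adjoin R₀ S →+* V :=
    (algebraMap (Algebra.adjoin R₀ S) F).codRestrict V.toSubring hadj
  have hcomp : (algebraMap V F).comp incl = algebraMap (Algebra.adjoin R₀ S) F := rfl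
  have hint : IsIntegral V g := by
    refine ⟨p.map incl, hp.map incl, ?_⟩
    rw [Polynomial.eval₂_map, hcomp]
    exact hpa
  obtain ⟨z, hz⟩ := IsIntegrallyClosed.isIntegral_iff.mp hint
  rw [← hz]
  exact z.2

/-- **Values of integral elements**: if the elements of `S` and the constants of `R₀` have
values in `A` at `P`, so has every element integral over `R₀[S]`. -/
theorem exists_valAt_of_isIntegral (A : ValuationSubring K) (P : Place K F)
    (hres : Fermat.Agent.S24.RH.ResidueTrivial P) {R₀ : Type*} [CommRing R₀] [Algebra R₀ F]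
    (S : Set F) (hR : ∀ r : R₀, ∃ b : A, ValAt P (algebraMap R₀ F r) (b : K))
    (hS : ∀ s ∈ S, ∃ b : A, ValAt P s (b : K)) {g : F}
    (hg : IsIntegral (Algebra.adjoin R₀ S) g) : ∃ b : A, ValAt P g (b : K) :=
  mem_valuationSubring_of_isIntegral_adjoin S (valRingAt A P hres) hR hS hg

end Fermat.Agent.S37x.Red.H22
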