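import Mathlib
import Fermat.Prelude.Def_ModularCurve_ReductionModL
import Fermat.Agent.S37x.Red.H22_Centre
import Fermat.Agent.S37x.Red.H22_ValRing
import Fermat.Agent.S37x.Red.H22_GaussL
import Fermat.Agent.S24.H15_Fin
import Fermat.Agent.S18x.E.H12_Div
import Fermat.Agent.S18x.E.H29_StConst

/-!
# S37 [RED-M] (a) (helper22): the centre of a place of `F_L` on one chart

`L = ℚ̄`, `A` a valuation subring of `L` over `ℓ`, `ℓ ∤ M`, `k = ResidueField A`,
`F_L = modularFunctionFieldBar M`, `F̄ = modularFunctionFieldFullC k M`.  A *coordinate* is a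
compatible family `y K : F_K` (`K ⊆ L` intermediate fields) with `ι_K (y K) = yL`, Gauss-integral
with nonconstant reduction, such that the charts `chart O_K (y K)` over the number fields are
saturated in the Gauss valuation rings (hypothesis `hsat`, = (SAT)).

* `exists_valAt_chart` : an element integral over `A[yL]` has a value in `A` at every place `P`
  where `yL` has a value in `A`;
* `exists_centre_chart` : for such a `P` there is a place `Q` of `F̄ / k` with
  `g(P) = b ⟹ (red g)(Q) = res b` for all `g ∈ F_L ∩ V` integral over `A[yL]`, `b ∈ A`.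
-/

set_option autoImplicit false
set_option linter.unusedSectionVars false
set_option synthInstance.maxHeartbeats 400000
set_option maxHeartbeats 1000000

open ModularCurve AlgebraicCurve IntermediateField

noncomputable section

namespace Fermat.Agent.S37x.Red.H22

open Fermat.Agent.S18x.Dict.H20 Fermat.Agent.S18x.Dict.H23 Fermat.Agent.S18x.Dict.H22
open Fermat.Agent.S18x.Spec.H26

local notation "Lbar" => AlgebraicClosure ℚ

section Chart

variable (A : ValuationSubring Lbar) (M : ℕ) [NeZero M]

/-- Every place of `F_L / ℚ̄` has residue field `ℚ̄`. -/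
theorem residueTrivial_bar (P : Place Lbar ↥(modularFunctionFieldBar M)) :
    Fermat.Agent.S24.RH.ResidueTrivial P := by
  have := Fermat.Agent.S24.Final.finiteDimensional_jF (K := Lbar)
    Fermat.Agent.S18x.E.H12.h12_embQbar M
  exact Fermat.Agent.S24.RH.residueTrivial_place (Fermat.Agent.S24.Final.jF Lbar M) P

/-- **Values of integral elements.** -/
theorem exists_valAt_chart (yL : ↥(modularFunctionFieldBar M))
    (P : Place Lbar ↥(modularFunctionFieldBar M)) (a : A) (hPa : ValAt P yL (a : Lbar))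
    (g : ↥(modularFunctionFieldBar M)) (hg : IsIntegral (Algebra.adjoin A {yL}) g) :
    ∃ b : A, ValAt P g (b : Lbar) := by
  refine exists_valAt_of_isIntegral A P (residueTrivial_bar M P) {yL} (fun r => ⟨r, ?_⟩) ?_ hg
  · exact valAt_const P (r : Lbar)
  · intro s hs
    rw [Set.mem_singleton_iff] at hs
    subst hs
    exact ⟨a, hPa⟩

/-- The uniformiser of `O_K` has residue `0` in `k`. -/
theorem residue_incl_irreducible (K : IntermediateField ℚ Lbar)
    (π₀ : A.comap (algebraMap ↥K Lbar)) (hπ₀ : Irreducible π₀) :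
    IsLocalRing.residue A (h23_incl A π₀) = 0 := by
  rw [← h23_resEmb_residue]
  have : IsLocalRing.residue (A.comap (algebraMap ↥K Lbar)) π₀ = 0 := by
    rw [IsLocalRing.residue_eq_zero_iff]
    exact hπ₀.not_isUnit
  rw [this, map_zero]

variable {ℓ : ℕ} (hℓ : ℓ.Prime) (hA : A.LiesOverPrime ℓ) (hℓM : ¬ ℓ ∣ M)

include hℓ hA hℓM in
/-- **Saturation at the level of `ℚ̄`**: an element of `F_L ∩ V` integral over `A[yL]` with
reduction `0` has a value in the maximal ideal of `A` at every place where `yL` has a value in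
`A`. -/
theorem exists_valAt_of_red_eq_zero (yL : ↥(modularFunctionFieldBar M))
    (y : ∀ K : IntermediateField ℚ Lbar, ↥(modularFunctionFieldFullC ↥K M))
    (hy : ∀ K : IntermediateField ℚ Lbar, iotaK ↥K M (y K) = yL)
    (hsat : ∀ (K : IntermediateField ℚ Lbar) [FiniteDimensional ℚ K]
      [IsDiscreteValuationRing (A.comap (algebraMap ↥K Lbar))]
      (π₀ : A.comap (algebraMap ↥K Lbar)), Irreducible π₀ →
      ∀ v ∈ gaussValM (A.comap (algebraMap ↥K Lbar)) M,
        algebraMap (A.comap (algebraMap ↥K Lbar)) ↥(modularFunctionFieldFullC ↥K M) π₀ * v ∈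
          chart (A.comap (algebraMap ↥K Lbar)) (y K) →
        v ∈ chart (A.comap (algebraMap ↥K Lbar)) (y K))
    (P : Place Lbar ↥(modularFunctionFieldBar M)) (a : A) (hPa : ValAt P yL (a : Lbar))
    (g : gaussL A M)
    (hg : IsIntegral (Algebra.adjoin A {yL}) (g : ↥(modularFunctionFieldBar M)))
    (hred : redLS A M g = 0) :
    ∃ b : A, IsLocalRing.residue A b = 0 ∧
      ValAt P (g : ↥(modularFunctionFieldBar M)) (b : Lbar) := by
  obtain ⟨g, hgV⟩ := g
  obtain ⟨K, hKfin, hK⟩ := exists_descent_isIntegral A M yL y hy g hg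
  obtain ⟨g', hg', hint⟩ := hK K le_rfl
  have := hKfin
  have hDVR : IsDiscreteValuationRing (A.comap (algebraMap ↥K Lbar)) :=
    h23_isDVR_intermediate A hℓ hA K
  obtain ⟨π₀, hπ₀⟩ := IsDiscreteValuationRing.exists_irreducible (A.comap (algebraMap ↥K Lbar))
  subst hg'
  have hx : (g' : LaurentSeries ↥K) ∈ gaussRing (A.comap (algebraMap ↥K Lbar)) :=
    (mem_gaussRing_iotaK_iff A M K g').1 hgV
  have hred' : gaussRedM (A.comap (algebraMap ↥K Lbar)) M ⟨g', hx⟩ = 0 := by
    have e : (⟨iotaK ↥K M g', hgV⟩ : gaussL A M) = ⟨iotaK ↥K M g', iotaK_mem_gaussL A M K hx⟩ :=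
      rfl
    rw [e, redLS_iotaK A M K hx] at hred
    rw [gaussRedM_apply]
    exact gd_resEmb_injective A (by rw [hred, map_zero])
  obtain ⟨v, hv⟩ := exists_eq_mul_of_gaussRedM_eq_zero (A.comap (algebraMap ↥K Lbar)) M π₀ hπ₀
    hred'
  have hv' : g' = algebraMap (A.comap (algebraMap ↥K Lbar)) ↥(modularFunctionFieldFullC ↥K M) π₀
      * (v : ↥(modularFunctionFieldFullC ↥K M)) := hv
  have hvchart : (v : ↥(modularFunctionFieldFullC ↥K M)) ∈
      chart (A.comap (algebraMap ↥K Lbar)) (y K) := by
    refine hsat K π₀ hπ₀ v v.2 ?_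
    rw [← hv']
    exact hint
  have hvint : IsIntegral (Algebra.adjoin A {yL})
      (iotaK ↥K M (v : ↥(modularFunctionFieldFullC ↥K M))) := by
    have := isIntegral_iotaK A M K (y K) _ hvchart
    rwa [hy K] at this
  obtain ⟨b', hb'⟩ := exists_valAt_chart A M yL P a hPa _ hvint
  refine ⟨h23_incl A π₀ * b', by rw [map_mul, residue_incl_irreducible A K π₀ hπ₀, zero_mul], ?_⟩
  have e1 : iotaK ↥K M g' = algebraMap Lbar ↥(modularFunctionFieldBar M)
      ((h23_incl A π₀ : A) : Lbar) * iotaK ↥K M (v : ↥(modularFunctionFieldFullC ↥K M)) := by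
    conv_lhs => rw [hv']
    rw [map_mul, iotaK_algebraMap_O]
    rfl
  show ValAt P (iotaK ↥K M g') ((h23_incl A π₀ * b' : A) : Lbar)
  rw [e1]
  have := (valAt_const P ((h23_incl A π₀ : A) : Lbar)).mul hb'
  simpa using this

include hℓ hA hℓM in
/-- **The centre of a place on one chart.** -/
theorem exists_centre_chart (yL : ↥(modularFunctionFieldBar M))
    (y : ∀ K : IntermediateField ℚ Lbar, ↥(modularFunctionFieldFullC ↥K M))
    (hy : ∀ K : IntermediateField ℚ Lbar, iotaK ↥K M (y K) = yL)
    (hyV : yL ∈ gaussL A M)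
    (hynt : ∀ c : IsLocalRing.ResidueField A, redLS A M ⟨yL, hyV⟩ ≠
      algebraMap (IsLocalRing.ResidueField A) (LaurentSeries (IsLocalRing.ResidueField A)) c)
    (hsat : ∀ (K : IntermediateField ℚ Lbar) [FiniteDimensional ℚ K]
      [IsDiscreteValuationRing (A.comap (algebraMap ↥K Lbar))]
      (π₀ : A.comap (algebraMap ↥K Lbar)), Irreducible π₀ →
      ∀ v ∈ gaussValM (A.comap (algebraMap ↥K Lbar)) M,
        algebraMap (A.comap (algebraMap ↥K Lbar)) ↥(modularFunctionFieldFullC ↥K M) π₀ * v ∈
          chart (A.comap (algebraMap ↥K Lbar)) (y K) →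
        v ∈ chart (A.comap (algebraMap ↥K Lbar)) (y K))
    (P : Place Lbar ↥(modularFunctionFieldBar M)) (a : A) (hPa : ValAt P yL (a : Lbar)) :
    ∃ Q : Place (IsLocalRing.ResidueField A)
        ↥(modularFunctionFieldFullC (IsLocalRing.ResidueField A) M),
      ∀ (g : gaussL A M), IsIntegral (Algebra.adjoin A {yL}) (g : ↥(modularFunctionFieldBar M)) →
        ∀ b : A, ValAt P (g : ↥(modularFunctionFieldBar M)) (b : Lbar) →
          ValAt Q (redL A M hℓ hA hℓM g) (IsLocalRing.residue A b) := by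
  have hfin := Fermat.Agent.S18x.E.H29.finDimC (k := IsLocalRing.ResidueField A) M
  have htr := Fermat.Agent.S18x.E.H29.transcendental_jbFull (k := IsLocalRing.ResidueField A) M
  -- the ring and its reduction
  let R : Subring ↥(modularFunctionFieldBar M) :=
    gaussL A M ⊓ (integralClosure (Algebra.adjoin A {yL}) ↥(modularFunctionFieldBar M)).toSubring
  have hRV : ∀ g : R, (g : ↥(modularFunctionFieldBar M)) ∈ gaussL A M := fun g => g.2.1
  have hRI : ∀ g : R, IsIntegral (Algebra.adjoin A {yL}) (g : ↥(modularFunctionFieldBar M)) :=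
    fun g => g.2.2
  let red : R →+* ↥(modularFunctionFieldFullC (IsLocalRing.ResidueField A) M) :=
    (redL A M hℓ hA hℓM).comp (Subring.inclusion inf_le_left)
  have hredapp : ∀ g : R, red g = redL A M hℓ hA hℓM ⟨g, hRV g⟩ := fun g => rfl
  obtain ⟨Q, hQ⟩ := exists_place_centre A (IsLocalRing.residue A) IsLocalRing.residue_surjective
    (Fermat.Agent.S28.Asm.jbFull (IsLocalRing.ResidueField A) M) htr R red
    (fun c => ⟨⟨algebraMap_mem_gaussL A M c,
        isIntegral_algebraMap (R := Algebra.adjoin A {yL}) (x := algebraMap A _ c)⟩,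
      redL_algebraMap A M hℓ hA hℓM c⟩)
    P (fun g => exists_valAt_chart A M yL P a hPa g (hRI g))
    (fun g hg0 => exists_valAt_of_red_eq_zero A M hℓ hA hℓM yL y hy hsat P a hPa ⟨g, hRV g⟩
      (hRI g) (by
        have := congrArg Subtype.val hg0
        exact this))
    ⟨⟨yL, hyV, isIntegral_algebraMap (R := Algebra.adjoin A {yL})
        (x := ⟨yL, Algebra.subset_adjoin (Set.mem_singleton _)⟩)⟩, a, hPa, fun h =>
      hynt (IsLocalRing.residue A a) (congrArg Subtype.val h)⟩
  refine ⟨Q, fun g hg b hb => ?_⟩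
  exact hQ ⟨g, g.2, hg⟩ b hb

end Chart

end Fermat.Agent.S37x.Red.H22
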