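import Mathlib
import Fermat.Prelude.Def_ModularCurve_ReductionModL
import Fermat.Agent.S37x.Red.H22_Chart

/-!
# S37 [RED-M] (a) (helper22): the place reduction `r` at the level `M`, by domination

`L = ℚ̄`, `A` a valuation subring of `L` over `ℓ`, `ℓ ∤ M`, `k = ResidueField A`,
`F_L = modularFunctionFieldBar M`, `F̄ = modularFunctionFieldFullC k M`.  For a coordinate
`x` (a compatible family `x K : F_K`, `ι_K (x K) = xL`, Gauss-integral with nonconstant
reduction) such that the two charts `chart O_K (x K)`, `chart O_K (x K)⁻¹` over the number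
fields are saturated in the Gauss valuation rings ((SAT), hypotheses `hsat₁`, `hsat₂`):

* `exists_red_place` : for every place `P` of `F_L` a place `Q` of `F̄` such that for both
  charts `y ∈ {xL, xL⁻¹}`: if `y` has a value in `A` at `P`, then
  `g(P) = b ⟹ (red g)(Q) = res b` for all `g ∈ F_L ∩ V` integral over `A[y]`, `b ∈ A`;
* `placeRed`, `placeRed_spec₁`, `placeRed_spec₂` : the map `r` and its two properties;
* `exists_valAt_chart` (in `H22_Chart`) : the value `b ∈ A` exists.
-/

set_option autoImplicit false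
set_option linter.unusedSectionVars false
set_option synthInstance.maxHeartbeats 400000
set_option maxHeartbeats 1000000

open ModularCurve AlgebraicCurve IntermediateField

noncomputable section

namespace Fermat.Agent.S37x.Red.H22

open Fermat.Agent.S18x.Dict.H20 Fermat.Agent.S18x.Dict.H23 Fermat.Agent.S18x.Dict.H22
open Fermat.Agent.S18x.Spec.H26

local notation "Lbar" => AlgebraicClosure ℚ

section Generic

variable {K F : Type*} [Field K] [Field F] [Algebra K F]

theorem ValAt.pow {P : Place K F} {f : F} {a : K} (h : ValAt P f a) (n : ℕ) :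
    ValAt P (f ^ n) (a ^ n) := by
  induction n with
  | zero => simpa using valAt_const P (1 : K)
  | succ n ih =>
    rw [pow_succ, pow_succ]
    exact ih.mul h

/-- A function has a value in `A`, or its inverse has. -/
theorem exists_valAt_or_inv (A : ValuationSubring K) (P : Place K F)
    (hres : Fermat.Agent.S24.RH.ResidueTrivial P) (f : F) :
    (∃ b : A, ValAt P f (b : K)) ∨ ∃ b : A, ValAt P f⁻¹ (b : K) :=
  (valRingAt A P hres).mem_or_inv_mem f

end Generic

section Two

variable (A : ValuationSubring Lbar) (M : ℕ) [NeZero M]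
  {ℓ : ℕ} (hℓ : ℓ.Prime) (hA : A.LiesOverPrime ℓ) (hℓM : ¬ ℓ ∣ M)

/-- **Change of chart**: a centre for the chart `x` at a place where both `x` and `x⁻¹` have
values in `A` is a centre for the chart `x⁻¹`. -/
theorem centre_inv_chart (xL : ↥(modularFunctionFieldBar M)) (hx0 : xL ≠ 0)
    (hxV : xL ∈ gaussL A M)
    (P : Place Lbar ↥(modularFunctionFieldBar M)) (a a' : A)
    (hPa : ValAt P xL (a : Lbar)) (hPa' : ValAt P xL⁻¹ (a' : Lbar))
    (Q : Place (IsLocalRing.ResidueField A)
      ↥(modularFunctionFieldFullC (IsLocalRing.ResidueField A) M))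
    (hQ : ∀ (g : gaussL A M),
      IsIntegral (Algebra.adjoin A {xL}) (g : ↥(modularFunctionFieldBar M)) →
      ∀ b : A, ValAt P (g : ↥(modularFunctionFieldBar M)) (b : Lbar) →
        ValAt Q (redL A M hℓ hA hℓM g) (IsLocalRing.residue A b))
    (g : gaussL A M)
    (hg : IsIntegral (Algebra.adjoin A {xL⁻¹}) (g : ↥(modularFunctionFieldBar M)))
    (b : A) (hb : ValAt P (g : ↥(modularFunctionFieldBar M)) (b : Lbar)) :
    ValAt Q (redL A M hℓ hA hℓM g) (IsLocalRing.residue A b) := by
  -- `a * a' = 1`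
  have haa' : a * a' = 1 := by
    have h1 := hPa.mul hPa'
    rw [mul_inv_cancel₀ hx0] at h1
    have h2 : ValAt P (1 : ↥(modularFunctionFieldBar M)) (1 : Lbar) := by
      simpa using valAt_const P (1 : Lbar)
    exact Subtype.ext (h1.unique h2)
  obtain ⟨n, hn⟩ := h26_chart_scale₂ A (mul_inv_cancel₀ hx0) (g : ↥(modularFunctionFieldBar M)) hg
  -- `g₁ = x ^ n * g`
  let xg : gaussL A M := ⟨xL, hxV⟩
  have hn' : IsIntegral (Algebra.adjoin A {xL})
      ((xg ^ n * g : gaussL A M) : ↥(modularFunctionFieldBar M)) := hn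
  have h1 : ValAt P ((xg ^ n * g : gaussL A M) : ↥(modularFunctionFieldBar M))
      ((a ^ n * b : A) : Lbar) := by
    have := (hPa.pow n).mul hb
    simpa using this
  have h2 := hQ (xg ^ n * g) hn' (a ^ n * b) h1
  have h3 := hQ xg (isIntegral_algebraMap (R := Algebra.adjoin A {xL})
    (x := ⟨xL, Algebra.subset_adjoin (Set.mem_singleton _)⟩)) a hPa
  rw [map_mul, map_pow, map_mul, map_pow] at h2
  -- `res a` is a unit
  have hra : IsLocalRing.residue A a ≠ 0 := by
    intro h0
    have := congrArg (IsLocalRing.residue A) haa'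
    rw [map_mul, h0, zero_mul, map_one] at this
    exact zero_ne_one this
  have h4 := (h3.inv hra).pow n
  have h5 := h4.mul h2
  have hxb0 : redL A M hℓ hA hℓM xg ≠ 0 := by
    intro h0
    rw [h0] at h3
    rw [valAt_iff, zero_sub, ← map_neg] at h3
    have h6 := (mem_nonunits_iff_ord Q _).1 h3
    rw [Fermat.Agent.S24.RH.ord_algebraMap] at h6
    rcases h6 with h6 | h6
    · rw [map_eq_zero, neg_eq_zero] at h6
      exact hra h6
    · exact lt_irrefl _ h6
  have e1 : ((redL A M hℓ hA hℓM xg)⁻¹) ^ n *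
      (redL A M hℓ hA hℓM xg ^ n * redL A M hℓ hA hℓM g) = redL A M hℓ hA hℓM g := by
    rw [← mul_assoc, ← mul_pow, inv_mul_cancel₀ hxb0, one_pow, one_mul]
  have e2 : ((IsLocalRing.residue A a)⁻¹) ^ n *
      (IsLocalRing.residue A a ^ n * IsLocalRing.residue A b) = IsLocalRing.residue A b := by
    rw [← mul_assoc, ← mul_pow, inv_mul_cancel₀ hra, one_pow, one_mul]
  rwa [e1, e2] at h5

include hℓ hA hℓM in
/-- **The reduction of a place** (existence, both charts). -/
theorem exists_red_place (xL : ↥(modularFunctionFieldBar M))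
    (x : ∀ K : IntermediateField ℚ Lbar, ↥(modularFunctionFieldFullC ↥K M))
    (hx : ∀ K : IntermediateField ℚ Lbar, iotaK ↥K M (x K) = xL)
    (hxV : xL ∈ gaussL A M) (hxV' : xL⁻¹ ∈ gaussL A M)
    (hxnt : ∀ c : IsLocalRing.ResidueField A, redLS A M ⟨xL, hxV⟩ ≠
      algebraMap (IsLocalRing.ResidueField A) (LaurentSeries (IsLocalRing.ResidueField A)) c)
    (hsat₁ : ∀ (K : IntermediateField ℚ Lbar) [FiniteDimensional ℚ K]
      [IsDiscreteValuationRing (A.comap (algebraMap ↥K Lbar))]
      (π₀ : A.comap (algebraMap ↥K Lbar)), Irreducible π₀ →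
      ∀ v ∈ gaussValM (A.comap (algebraMap ↥K Lbar)) M,
        algebraMap (A.comap (algebraMap ↥K Lbar)) ↥(modularFunctionFieldFullC ↥K M) π₀ * v ∈
          chart (A.comap (algebraMap ↥K Lbar)) (x K) →
        v ∈ chart (A.comap (algebraMap ↥K Lbar)) (x K))
    (hsat₂ : ∀ (K : IntermediateField ℚ Lbar) [FiniteDimensional ℚ K]
      [IsDiscreteValuationRing (A.comap (algebraMap ↥K Lbar))]
      (π₀ : A.comap (algebraMap ↥K Lbar)), Irreducible π₀ →
      ∀ v ∈ gaussValM (A.comap (algebraMap ↥K Lbar)) M,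
        algebraMap (A.comap (algebraMap ↥K Lbar)) ↥(modularFunctionFieldFullC ↥K M) π₀ * v ∈
          chart (A.comap (algebraMap ↥K Lbar)) (x K)⁻¹ →
        v ∈ chart (A.comap (algebraMap ↥K Lbar)) (x K)⁻¹)
    (P : Place Lbar ↥(modularFunctionFieldBar M)) :
    ∃ Q : Place (IsLocalRing.ResidueField A)
        ↥(modularFunctionFieldFullC (IsLocalRing.ResidueField A) M),
      (∀ a : A, ValAt P xL (a : Lbar) → ∀ (g : gaussL A M),
        IsIntegral (Algebra.adjoin A {xL}) (g : ↥(modularFunctionFieldBar M)) →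
        ∀ b : A, ValAt P (g : ↥(modularFunctionFieldBar M)) (b : Lbar) →
          ValAt Q (redL A M hℓ hA hℓM g) (IsLocalRing.residue A b)) ∧
      (∀ a : A, ValAt P xL⁻¹ (a : Lbar) → ∀ (g : gaussL A M),
        IsIntegral (Algebra.adjoin A {xL⁻¹}) (g : ↥(modularFunctionFieldBar M)) →
        ∀ b : A, ValAt P (g : ↥(modularFunctionFieldBar M)) (b : Lbar) →
          ValAt Q (redL A M hℓ hA hℓM g) (IsLocalRing.residue A b)) := by
  have hx0 : xL ≠ 0 := by
    rintro rfl
    refine hxnt 0 ?_
    have : (⟨0, hxV⟩ : gaussL A M) = 0 := rfl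
    rw [this, map_zero, map_zero]
  by_cases h : ∃ a : A, ValAt P xL (a : Lbar)
  · obtain ⟨a, ha⟩ := h
    obtain ⟨Q, hQ⟩ := exists_centre_chart A M hℓ hA hℓM xL x hx hxV hxnt hsat₁ P a ha
    exact ⟨Q, fun _ _ => hQ, fun a' ha' g hg b hb =>
      centre_inv_chart A M hℓ hA hℓM xL hx0 hxV P a a' ha ha' Q hQ g hg b hb⟩
  · obtain ⟨a', ha'⟩ := (exists_valAt_or_inv A P (residueTrivial_bar M P) xL).resolve_left h
    -- the inverse coordinate
    have hx' : ∀ K : IntermediateField ℚ Lbar, iotaK ↥K M (x K)⁻¹ = xL⁻¹ := fun K => by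
      rw [map_inv₀, hx K]
    have hxnt' : ∀ c : IsLocalRing.ResidueField A, redLS A M ⟨xL⁻¹, hxV'⟩ ≠
        algebraMap (IsLocalRing.ResidueField A) (LaurentSeries (IsLocalRing.ResidueField A))
          c := by
      intro c hc
      have hmul : redLS A M ⟨xL⁻¹, hxV'⟩ * redLS A M ⟨xL, hxV⟩ = 1 := by
        rw [← map_mul]
        have : (⟨xL⁻¹, hxV'⟩ * ⟨xL, hxV⟩ : gaussL A M) = 1 :=
          Subtype.ext (inv_mul_cancel₀ hx0)
        rw [this, map_one]
      rw [hc] at hmul
      have hc0 : c ≠ 0 := by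
        rintro rfl
        rw [map_zero, zero_mul] at hmul
        exact zero_ne_one hmul
      refine hxnt c⁻¹ ?_
      have hc1 : algebraMap (IsLocalRing.ResidueField A)
          (LaurentSeries (IsLocalRing.ResidueField A)) c ≠ 0 := by
        rwa [Ne, map_eq_zero]
      rw [map_inv₀]
      exact eq_inv_of_mul_eq_one_right hmul
    obtain ⟨Q, hQ⟩ := exists_centre_chart A M hℓ hA hℓM xL⁻¹ (fun K => (x K)⁻¹) hx' hxV' hxnt'
      hsat₂ P a' ha'
    exact ⟨Q, fun a ha => absurd ⟨a, ha⟩ h, fun _ _ => hQ⟩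

end Two

end Fermat.Agent.S37x.Red.H22
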