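import Mathlib
import Fermat.Prelude.Def_ModularCurve_ReductionModL
import Fermat.Agent.S37x.Red.H22_RedPlace
import Fermat.Agent.S37x.Red.H20_Defs
import Fermat.Agent.S18x.IG.H29_Coord
import Fermat.Agent.S18x.IG.H10_SatInst

/-!
# S37 [RED-M] (a) (helper22): the place reduction for a Hauptmodul coordinate, `StVal` form

`x₀ ∈ ℤ((q))` of order `-1` with leading coefficient `1`, lying in `F_K` for every intermediate
field `K` of `ℚ̄ / ℚ` (the Hauptmodul package), with saturated charts over the number fields.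

* `RSpec A M hℓ hA hℓM xL r` : the value compatibility **(U2)** of `r` on the two charts
  `xL`, `xL⁻¹`, for all elements of `F_L ∩ V` integral over `A[xL]` resp. `A[xL⁻¹]`;
* `RSpec.stVal`, `RSpec.stVal_inv` : helper20's `StVal A M r x hx` for every `A`-integral
  series `x` with `ι x = xL` resp. `ι x = xL⁻¹`;
* `RSpec.u2h`, `RSpec.u2w` : helper21's `(U2h)`, `(U2w)` (inputs of `h21_stU1_two / _three`);
* `exists_rSpec_coord` : existence of `r` for a general `x₀` with saturated charts;
* `exists_rSpec_two`, `exists_rSpec_three` : HYPOTHESIS-FREE at the Hauptmodul levels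
  (`2 ∣ M` resp. `3 ∣ M`, `ℓ ∤ M`), via helper10's (SAT-INST).
-/

set_option autoImplicit false
set_option linter.unusedSectionVars false
set_option synthInstance.maxHeartbeats 400000
set_option maxHeartbeats 1000000

open ModularCurve AlgebraicCurve IntermediateField

noncomputable section

namespace Fermat.Agent.S37x.Red.H22

open Fermat.Agent.S18x.Dict.H20 Fermat.Agent.S18x.Dict.H23 Fermat.Agent.S18x.Dict.H22
open Fermat.Agent.S18x.Spec.H26 Fermat.Agent.S18x.IG.H29 Fermat.Agent.S37x.Red.H20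

local notation "Lbar" => AlgebraicClosure ℚ

section Spec

variable (A : ValuationSubring Lbar) (M : ℕ) [NeZero M]
  {ℓ : ℕ} (hℓ : ℓ.Prime) (hA : A.LiesOverPrime ℓ) (hℓM : ¬ ℓ ∣ M)

/-- **(U2)** on the two charts of the coordinate `xL`. -/
def RSpec (xL : ↥(modularFunctionFieldBar M))
    (r : Place Lbar ↥(modularFunctionFieldBar M) →
      Place (IsLocalRing.ResidueField A)
        ↥(modularFunctionFieldFullC (IsLocalRing.ResidueField A) M)) : Prop :=
  ∀ P : Place Lbar ↥(modularFunctionFieldBar M),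
    (∀ a : A, ValAt P xL (a : Lbar) → ∀ (g : gaussL A M),
      IsIntegral (Algebra.adjoin A {xL}) (g : ↥(modularFunctionFieldBar M)) →
      ∀ b : A, ValAt P (g : ↥(modularFunctionFieldBar M)) (b : Lbar) →
        ValAt (r P) (redL A M hℓ hA hℓM g) (IsLocalRing.residue A b)) ∧
    (∀ a : A, ValAt P xL⁻¹ (a : Lbar) → ∀ (g : gaussL A M),
      IsIntegral (Algebra.adjoin A {xL⁻¹}) (g : ↥(modularFunctionFieldBar M)) →
      ∀ b : A, ValAt P (g : ↥(modularFunctionFieldBar M)) (b : Lbar) →
        ValAt (r P) (redL A M hℓ hA hℓM g) (IsLocalRing.residue A b))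

variable {A M hℓ hA hℓM}

/-- `redL` on an `A`-integral series. -/
theorem redL_coeffMap (y : LaurentSeries A)
    (hy : coeffMap A.subtype y ∈ modularFunctionFieldBar M)
    (hyk : coeffMap (IsLocalRing.residue A) y ∈
      modularFunctionFieldFullC (IsLocalRing.ResidueField A) M) :
    redL A M hℓ hA hℓM ⟨⟨coeffMap A.subtype y, hy⟩, coeffMap_mem_gaussL A M y hy⟩
      = ⟨coeffMap (IsLocalRing.residue A) y, hyk⟩ :=
  Subtype.ext (redLS_coeffMap A M y hy)

/-- helper20's `StVal` for the chart of `x`, `ι x = xL`. -/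
theorem RSpec.stVal {xL : ↥(modularFunctionFieldBar M)}
    {r : Place Lbar ↥(modularFunctionFieldBar M) →
      Place (IsLocalRing.ResidueField A)
        ↥(modularFunctionFieldFullC (IsLocalRing.ResidueField A) M)}
    (h : RSpec A M hℓ hA hℓM xL r) (x : LaurentSeries A)
    (hx : coeffMap A.subtype x ∈ modularFunctionFieldBar M)
    (hxL : (⟨coeffMap A.subtype x, hx⟩ : ↥(modularFunctionFieldBar M)) = xL) :
    StVal A M r x hx := by
  intro P c hc y hy hyk hin b hb
  rw [hxL] at hc
  have hin' : IsIntegral (Algebra.adjoin A {xL})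
      (⟨coeffMap A.subtype y, hy⟩ : ↥(modularFunctionFieldBar M)) := by
    have := hin
    rw [InChart, hxL] at this
    exact this
  have := (h P).1 c (Or.inr hc) ⟨⟨coeffMap A.subtype y, hy⟩, coeffMap_mem_gaussL A M y hy⟩ hin' b
    (Or.inr hb)
  rw [redL_coeffMap y hy hyk] at this
  rcases this with h1 | h1
  · exact Or.inl (sub_eq_zero.mpr h1)
  · exact Or.inr h1

/-- helper20's `StVal` for the chart of `x'`, `ι x' = xL⁻¹`. -/
theorem RSpec.stVal_inv {xL : ↥(modularFunctionFieldBar M)}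
    {r : Place Lbar ↥(modularFunctionFieldBar M) →
      Place (IsLocalRing.ResidueField A)
        ↥(modularFunctionFieldFullC (IsLocalRing.ResidueField A) M)}
    (h : RSpec A M hℓ hA hℓM xL r) (x' : LaurentSeries A)
    (hx' : coeffMap A.subtype x' ∈ modularFunctionFieldBar M)
    (hxL : (⟨coeffMap A.subtype x', hx'⟩ : ↥(modularFunctionFieldBar M)) = xL⁻¹) :
    StVal A M r x' hx' := by
  intro P c hc y hy hyk hin b hb
  rw [hxL] at hc
  have hin' : IsIntegral (Algebra.adjoin A {xL⁻¹})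
      (⟨coeffMap A.subtype y, hy⟩ : ↥(modularFunctionFieldBar M)) := by
    have := hin
    rw [InChart, hxL] at this
    exact this
  have := (h P).2 c (Or.inr hc) ⟨⟨coeffMap A.subtype y, hy⟩, coeffMap_mem_gaussL A M y hy⟩ hin' b
    (Or.inr hb)
  rw [redL_coeffMap y hy hyk] at this
  rcases this with h1 | h1
  · exact Or.inl (sub_eq_zero.mpr h1)
  · exact Or.inr h1

end Spec

section Coord

variable (A : ValuationSubring Lbar) (M : ℕ) [NeZero M]
  {ℓ : ℕ} (hℓ : ℓ.Prime) (hA : A.LiesOverPrime ℓ) (hℓM : ¬ ℓ ∣ M)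
  (x₀ : LaurentSeries ℤ) (hord : x₀.order = -1) (hlead : x₀.coeff (-1) = 1)
  (hmem : ∀ K : IntermediateField ℚ Lbar,
    coeffMap (Int.castRingHom ↥K) x₀ ∈ modularFunctionFieldFullC ↥K M)

/-- The coordinate as an element of `F_L`. -/
def coordL : ↥(modularFunctionFieldBar M) :=
  iotaK ↥(⊥ : IntermediateField ℚ Lbar) M
    (coordM ↥(⊥ : IntermediateField ℚ Lbar) M x₀ (hmem ⊥))

theorem coe_coordL :
    ((coordL M x₀ hmem : ↥(modularFunctionFieldBar M)) : LaurentSeries Lbar)
      = coeffMap (Int.castRingHom Lbar) x₀ := by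
  rw [coordL, coe_iotaK, coe_coordM, coeffMap_coeffMap]
  exact coeffMap_congr (RingHom.ext_int _ _) x₀

theorem iotaK_coordM (K : IntermediateField ℚ Lbar) :
    iotaK ↥K M (coordM ↥K M x₀ (hmem K)) = coordL M x₀ hmem := by
  apply Subtype.ext
  rw [coe_iotaK, coe_coordM, coe_coordL, coeffMap_coeffMap]
  exact coeffMap_congr (RingHom.ext_int _ _) x₀

theorem coe_coordL_eq :
    ((coordL M x₀ hmem : ↥(modularFunctionFieldBar M)) : LaurentSeries Lbar)
      = coeffMap A.subtype (coeffMap (Int.castRingHom A) x₀) := by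
  rw [coe_coordL, coeffMap_coeffMap]
  exact coeffMap_congr (RingHom.ext_int _ _) x₀

theorem coordL_mem_gaussL : coordL M x₀ hmem ∈ gaussL A M := by
  rw [mem_gaussL_iff, coe_coordL_eq A]
  exact coeffMap_subtype_mem_gaussRing A _

theorem redLS_coordL :
    redLS A M ⟨coordL M x₀ hmem, coordL_mem_gaussL A M x₀ hmem⟩
      = coeffMap (Int.castRingHom (IsLocalRing.ResidueField A)) x₀ := by
  rw [redLS_apply]
  have e : (⟨((coordL M x₀ hmem : ↥(modularFunctionFieldBar M)) : LaurentSeries Lbar),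
      coordL_mem_gaussL A M x₀ hmem⟩ : gaussRing A)
      = ⟨coeffMap A.subtype (coeffMap (Int.castRingHom A) x₀),
          coeffMap_subtype_mem_gaussRing A _⟩ := Subtype.ext (coe_coordL_eq A M x₀ hmem)
  rw [e, gaussRed_coeffMap_subtype]
  show coeffMap (IsLocalRing.residue A) (coeffMap (Int.castRingHom A) x₀) = _
  rw [coeffMap_coeffMap]
  exact coeffMap_congr (RingHom.ext_int _ _) x₀

include hlead in
theorem coordL_inv_mem_gaussL : (coordL M x₀ hmem)⁻¹ ∈ gaussL A M := by
  have h1 : gaussRed A ⟨((coordL M x₀ hmem : ↥(modularFunctionFieldBar M)) :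
      LaurentSeries Lbar), coordL_mem_gaussL A M x₀ hmem⟩ ≠ 0 := by
    have e := redLS_coordL A M x₀ hmem
    intro h0
    have e2 : redLS A M ⟨coordL M x₀ hmem, coordL_mem_gaussL A M x₀ hmem⟩ = 0 := h0
    rw [e] at e2
    exact coeffMap_ne_zero _ x₀ hlead e2
  have h3 := inv_mem_gaussRing A h1
  refine Subring.mem_comap.2 ?_
  rw [map_inv₀]
  exact h3

include hord hlead in
theorem redLS_coordL_ne_const (c : IsLocalRing.ResidueField A) :
    redLS A M ⟨coordL M x₀ hmem, coordL_mem_gaussL A M x₀ hmem⟩ ≠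
      algebraMap (IsLocalRing.ResidueField A) (LaurentSeries (IsLocalRing.ResidueField A)) c := by
  intro h
  have h1 : (redLS A M ⟨coordL M x₀ hmem, coordL_mem_gaussL A M x₀ hmem⟩).order = -1 := by
    rw [redLS_coordL]
    exact order_coeffMap _ x₀ hord hlead
  rw [h, algebraMap_laurentSeries_eq_single] at h1
  by_cases hc : c = 0
  · rw [hc, HahnSeries.single_eq_zero, HahnSeries.order_zero] at h1
    exact absurd h1 (by decide)
  · rw [HahnSeries.order_single hc] at h1
    exact absurd h1 (by decide)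

include hℓ hA hℓM hord hlead in
/-- **The place reduction for the coordinate `x₀`** (existence; (SAT) for the two charts over
the number fields as hypotheses). -/
theorem exists_rSpec_coord
    (hsat₁ : ∀ (K : IntermediateField ℚ Lbar) [FiniteDimensional ℚ K]
      [IsDiscreteValuationRing (A.comap (algebraMap ↥K Lbar))]
      (π₀ : A.comap (algebraMap ↥K Lbar)), Irreducible π₀ →
      ∀ v ∈ gaussValM (A.comap (algebraMap ↥K Lbar)) M,
        algebraMap (A.comap (algebraMap ↥K Lbar)) ↥(modularFunctionFieldFullC ↥K M) π₀ * v ∈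
          chart (A.comap (algebraMap ↥K Lbar)) (coordM ↥K M x₀ (hmem K)) →
        v ∈ chart (A.comap (algebraMap ↥K Lbar)) (coordM ↥K M x₀ (hmem K)))
    (hsat₂ : ∀ (K : IntermediateField ℚ Lbar) [FiniteDimensional ℚ K]
      [IsDiscreteValuationRing (A.comap (algebraMap ↥K Lbar))]
      (π₀ : A.comap (algebraMap ↥K Lbar)), Irreducible π₀ →
      ∀ v ∈ gaussValM (A.comap (algebraMap ↥K Lbar)) M,
        algebraMap (A.comap (algebraMap ↥K Lbar)) ↥(modularFunctionFieldFullC ↥K M) π₀ * v ∈
          chart (A.comap (algebraMap ↥K Lbar)) (coordM ↥K M x₀ (hmem K))⁻¹ →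
        v ∈ chart (A.comap (algebraMap ↥K Lbar)) (coordM ↥K M x₀ (hmem K))⁻¹) :
    ∃ r : Place Lbar ↥(modularFunctionFieldBar M) →
        Place (IsLocalRing.ResidueField A)
          ↥(modularFunctionFieldFullC (IsLocalRing.ResidueField A) M),
      RSpec A M hℓ hA hℓM (coordL M x₀ hmem) r := by
  have key := exists_red_place A M hℓ hA hℓM (coordL M x₀ hmem)
    (fun K => coordM ↥K M x₀ (hmem K)) (iotaK_coordM M x₀ hmem)
    (coordL_mem_gaussL A M x₀ hmem) (coordL_inv_mem_gaussL A M x₀ hlead hmem)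
    (redLS_coordL_ne_const A M x₀ hord hlead hmem) hsat₁ hsat₂
  choose r hr using key
  exact ⟨r, hr⟩

end Coord

section Levels

variable (A : ValuationSubring Lbar) (M : ℕ) [NeZero M]
  {ℓ : ℕ} (hℓ : ℓ.Prime) (hA : A.LiesOverPrime ℓ) (hℓM : ¬ ℓ ∣ M)

open Fermat.Agent.S18x.IG

theorem h2_mem_inter (hM : 2 ∣ M) (K : IntermediateField ℚ Lbar) :
    coeffMap (Int.castRingHom ↥K) H28.h2 ∈ modularFunctionFieldFullC ↥K M :=
  haveI : CharZero ↥K := charZero_of_injective_algebraMap (algebraMap ℚ ↥K).injective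
  H28.h2_mem_full ↥K M hM

theorem h3_mem_inter (hM : 3 ∣ M) (K : IntermediateField ℚ Lbar) :
    coeffMap (Int.castRingHom ↥K) H28.h3 ∈ modularFunctionFieldFullC ↥K M :=
  haveI : CharZero ↥K := charZero_of_injective_algebraMap (algebraMap ℚ ↥K).injective
  H28.h3_mem_full ↥K M hM

include hℓ hA hℓM in
/-- **The place reduction at level `2 ∣ M`** (hypothesis-free). -/
theorem exists_rSpec_two (hM : 2 ∣ M) :
    ∃ r : Place Lbar ↥(modularFunctionFieldBar M) →
        Place (IsLocalRing.ResidueField A)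
          ↥(modularFunctionFieldFullC (IsLocalRing.ResidueField A) M),
      RSpec A M hℓ hA hℓM (coordL M H28.h2 (h2_mem_inter M hM)) r := by
  refine exists_rSpec_coord A M hℓ hA hℓM H28.h2 H28.order_h2 H28.coeff_h2_neg_one
    (h2_mem_inter M hM) ?_ ?_
  · intro K _ _ π₀ hπ₀
    have hcz : CharZero ↥K := charZero_of_injective_algebraMap (algebraMap ℚ ↥K).injective
    have hfact : Fact ℓ.Prime := ⟨hℓ⟩
    have hchar : CharP (IsLocalRing.ResidueField (A.comap (algebraMap ↥K Lbar))) ℓ :=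
      h23_charP_residueField A hℓ hA
    have hst : IsScalarTower ↥(A.comap (algebraMap ↥K Lbar)) ↥K
        ↥(modularFunctionFieldFullC ↥K M) := IsScalarTower.of_algebraMap_eq (fun c => rfl)
    exact (H10.h10_sat_coord2 (A.comap (algebraMap ↥K Lbar)) M hM π₀ hπ₀ ℓ hℓM).1
  · intro K _ _ π₀ hπ₀
    have hcz : CharZero ↥K := charZero_of_injective_algebraMap (algebraMap ℚ ↥K).injective
    have hfact : Fact ℓ.Prime := ⟨hℓ⟩
    have hchar : CharP (IsLocalRing.ResidueField (A.comap (algebraMap ↥K Lbar))) ℓ :=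
      h23_charP_residueField A hℓ hA
    have hst : IsScalarTower ↥(A.comap (algebraMap ↥K Lbar)) ↥K
        ↥(modularFunctionFieldFullC ↥K M) := IsScalarTower.of_algebraMap_eq (fun c => rfl)
    exact (H10.h10_sat_coord2 (A.comap (algebraMap ↥K Lbar)) M hM π₀ hπ₀ ℓ hℓM).2.1

include hℓ hA hℓM in
/-- **The place reduction at level `3 ∣ M`** (hypothesis-free). -/
theorem exists_rSpec_three (hM : 3 ∣ M) :
    ∃ r : Place Lbar ↥(modularFunctionFieldBar M) →
        Place (IsLocalRing.ResidueField A)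
          ↥(modularFunctionFieldFullC (IsLocalRing.ResidueField A) M),
      RSpec A M hℓ hA hℓM (coordL M H28.h3 (h3_mem_inter M hM)) r := by
  refine exists_rSpec_coord A M hℓ hA hℓM H28.h3 H28.order_h3 H28.coeff_h3_neg_one
    (h3_mem_inter M hM) ?_ ?_
  · intro K _ _ π₀ hπ₀
    have hcz : CharZero ↥K := charZero_of_injective_algebraMap (algebraMap ℚ ↥K).injective
    have hfact : Fact ℓ.Prime := ⟨hℓ⟩
    have hchar : CharP (IsLocalRing.ResidueField (A.comap (algebraMap ↥K Lbar))) ℓ :=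
      h23_charP_residueField A hℓ hA
    have hst : IsScalarTower ↥(A.comap (algebraMap ↥K Lbar)) ↥K
        ↥(modularFunctionFieldFullC ↥K M) := IsScalarTower.of_algebraMap_eq (fun c => rfl)
    exact (H10.h10_sat_coord3 (A.comap (algebraMap ↥K Lbar)) M hM π₀ hπ₀ ℓ hℓM).1
  · intro K _ _ π₀ hπ₀
    have hcz : CharZero ↥K := charZero_of_injective_algebraMap (algebraMap ℚ ↥K).injective
    have hfact : Fact ℓ.Prime := ⟨hℓ⟩
    have hchar : CharP (IsLocalRing.ResidueField (A.comap (algebraMap ↥K Lbar))) ℓ :=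
      h23_charP_residueField A hℓ hA
    have hst : IsScalarTower ↥(A.comap (algebraMap ↥K Lbar)) ↥K
        ↥(modularFunctionFieldFullC ↥K M) := IsScalarTower.of_algebraMap_eq (fun c => rfl)
    exact (H10.h10_sat_coord3 (A.comap (algebraMap ↥K Lbar)) M hM π₀ hπ₀ ℓ hℓM).2.1

end Levels

end Fermat.Agent.S37x.Red.H22
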