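import Mathlib
import Fermat.Prelude.Def_ModularCurve_ReductionModL
import Fermat.Agent.S37x.Red.H22_RedCoord
import Fermat.Agent.S37x.Red.H22_Gen
import Fermat.Agent.S37x.Red.H21_U1
import Fermat.Agent.S37x.Asm.DefsLeaves

/-!
# S37 [RED-M] (top) (helper22): assembly of `Asm.StRed M A` at the Hauptmodul levels

* `RSpec.u2h`, `RSpec.u2w` : helper21's `(U2h)`, `(U2w)` from `RSpec`;
* `stU1_two`, `stU1_three` : `Asm.StU1 A r` for every `r` with `RSpec` (via helper21);
* `stRed_two`, `stRed_three` : `Asm.StRed M A` from the conservation `[CONS]`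
  (`RSpec → IsPlaceReductionModL`) and the separation `(c2)` (`RSpec → … → StSep`); the place
  reduction `r`, `StU1` and `PrincipalGeneratedByIntegral` are discharged inside.
-/

set_option autoImplicit false
set_option linter.unusedSectionVars false
set_option synthInstance.maxHeartbeats 400000
set_option maxHeartbeats 1000000

open ModularCurve AlgebraicCurve IntermediateField

noncomputable section

namespace Fermat.Agent.S37x.Red.H22

open Fermat.Agent.S18x.Dict.H20 Fermat.Agent.S18x.Dict.H23 Fermat.Agent.S18x.Dict.H22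
open Fermat.Agent.S18x.IG Fermat.Agent.S18x.IG.H29 Fermat.Agent.S37x.Asm

local notation "Lbar" => AlgebraicClosure ℚ

section U2

variable (A : ValuationSubring Lbar) (M : ℕ) [NeZero M]
  {ℓ : ℕ} (hℓ : ℓ.Prime) (hA : A.LiesOverPrime ℓ) (hℓM : ¬ ℓ ∣ M)
  (x₀ : LaurentSeries ℤ) (hord : x₀.order = -1) (hlead : x₀.coeff (-1) = 1)
  (hmem : ∀ K : IntermediateField ℚ Lbar,
    coeffMap (Int.castRingHom ↥K) x₀ ∈ modularFunctionFieldFullC ↥K M)

theorem redL_coordL (T' : ↥(modularFunctionFieldFullC (IsLocalRing.ResidueField A) M))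
    (hT' : (T' : LaurentSeries (IsLocalRing.ResidueField A)) =
      coeffMap (Int.castRingHom (IsLocalRing.ResidueField A)) x₀) :
    redL A M hℓ hA hℓM ⟨coordL M x₀ hmem, coordL_mem_gaussL A M x₀ hmem⟩ = T' :=
  Subtype.ext ((redLS_coordL A M x₀ hmem).trans hT'.symm)

include hlead in
theorem redL_coordL_inv (T' : ↥(modularFunctionFieldFullC (IsLocalRing.ResidueField A) M))
    (hT' : (T' : LaurentSeries (IsLocalRing.ResidueField A)) =
      coeffMap (Int.castRingHom (IsLocalRing.ResidueField A)) x₀) :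
    redL A M hℓ hA hℓM ⟨(coordL M x₀ hmem)⁻¹, coordL_inv_mem_gaussL A M x₀ hlead hmem⟩
      = T'⁻¹ := by
  have hx0 : coordL M x₀ hmem ≠ 0 := by
    intro h0
    have := coe_coordL M x₀ hmem
    rw [h0] at this
    exact coeffMap_ne_zero _ x₀ hlead this.symm
  have hmul : redL A M hℓ hA hℓM ⟨(coordL M x₀ hmem)⁻¹,
      coordL_inv_mem_gaussL A M x₀ hlead hmem⟩ *
      redL A M hℓ hA hℓM ⟨coordL M x₀ hmem, coordL_mem_gaussL A M x₀ hmem⟩ = 1 := by
    rw [← map_mul]
    have : (⟨(coordL M x₀ hmem)⁻¹, coordL_inv_mem_gaussL A M x₀ hlead hmem⟩ *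
        ⟨coordL M x₀ hmem, coordL_mem_gaussL A M x₀ hmem⟩ : gaussL A M) = 1 :=
      Subtype.ext (inv_mul_cancel₀ hx0)
    rw [this, map_one]
  rw [redL_coordL A M hℓ hA hℓM x₀ hmem T' hT'] at hmul
  exact eq_inv_of_mul_eq_one_left hmul

omit [NeZero M] in
include hord hlead in
theorem ne_const_of_coe (T' : ↥(modularFunctionFieldFullC (IsLocalRing.ResidueField A) M))
    (hT' : (T' : LaurentSeries (IsLocalRing.ResidueField A)) =
      coeffMap (Int.castRingHom (IsLocalRing.ResidueField A)) x₀)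
    (c : IsLocalRing.ResidueField A) :
    T' ≠ algebraMap (IsLocalRing.ResidueField A)
      ↥(modularFunctionFieldFullC (IsLocalRing.ResidueField A) M) c := by
  intro h
  have h1 := congrArg (fun z : ↥(modularFunctionFieldFullC (IsLocalRing.ResidueField A) M) =>
    (z : LaurentSeries (IsLocalRing.ResidueField A))) h
  have h2 : (T' : LaurentSeries (IsLocalRing.ResidueField A)) =
      algebraMap (IsLocalRing.ResidueField A) (LaurentSeries (IsLocalRing.ResidueField A)) c :=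
    h1
  have h3 : (T' : LaurentSeries (IsLocalRing.ResidueField A)).order = -1 := by
    rw [hT']
    exact order_coeffMap _ x₀ hord hlead
  rw [h2, algebraMap_laurentSeries_eq_single] at h3
  by_cases hc : c = 0
  · rw [hc, HahnSeries.single_eq_zero, HahnSeries.order_zero] at h3
    exact absurd h3 (by decide)
  · rw [HahnSeries.order_single hc] at h3
    exact absurd h3 (by decide)

include hord hlead in
/-- helper21's `(U2h)`. -/
theorem RSpec.u2h
    {r : Place Lbar ↥(modularFunctionFieldBar M) →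
      Place (IsLocalRing.ResidueField A)
        ↥(modularFunctionFieldFullC (IsLocalRing.ResidueField A) M)}
    (h : RSpec A M hℓ hA hℓM (coordL M x₀ hmem) r)
    (T' : ↥(modularFunctionFieldFullC (IsLocalRing.ResidueField A) M))
    (hT' : (T' : LaurentSeries (IsLocalRing.ResidueField A)) =
      coeffMap (Int.castRingHom (IsLocalRing.ResidueField A)) x₀)
    (P : Place Lbar ↥(modularFunctionFieldBar M)) (c : Lbar) (hc : c ∈ A)
    (hP : 0 < P.ord (coordL M x₀ hmem - algebraMap Lbar ↥(modularFunctionFieldBar M) c)) :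
    0 < (r P).ord (T' - algebraMap (IsLocalRing.ResidueField A)
        ↥(modularFunctionFieldFullC (IsLocalRing.ResidueField A) M) (Asm.res A c hc)) := by
  have h1 := (h P).1 ⟨c, hc⟩ (Or.inr hP) ⟨coordL M x₀ hmem, coordL_mem_gaussL A M x₀ hmem⟩
    (isIntegral_algebraMap (R := Algebra.adjoin A {coordL M x₀ hmem})
      (x := ⟨coordL M x₀ hmem, Algebra.subset_adjoin (Set.mem_singleton _)⟩)) ⟨c, hc⟩ (Or.inr hP)
  rw [redL_coordL A M hℓ hA hℓM x₀ hmem T' hT'] at h1
  rcases h1 with h1 | h1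
  · exact absurd h1 (ne_const_of_coe A M x₀ hord hlead T' hT' _)
  · exact h1

include hord hlead in
/-- helper21's `(U2w)`. -/
theorem RSpec.u2w
    {r : Place Lbar ↥(modularFunctionFieldBar M) →
      Place (IsLocalRing.ResidueField A)
        ↥(modularFunctionFieldFullC (IsLocalRing.ResidueField A) M)}
    (h : RSpec A M hℓ hA hℓM (coordL M x₀ hmem) r)
    (T' : ↥(modularFunctionFieldFullC (IsLocalRing.ResidueField A) M))
    (hT' : (T' : LaurentSeries (IsLocalRing.ResidueField A)) =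
      coeffMap (Int.castRingHom (IsLocalRing.ResidueField A)) x₀)
    (P : Place Lbar ↥(modularFunctionFieldBar M)) (c : Lbar) (hc : c ∈ A)
    (hP : 0 < P.ord ((coordL M x₀ hmem)⁻¹ - algebraMap Lbar ↥(modularFunctionFieldBar M) c)) :
    0 < (r P).ord (T'⁻¹ - algebraMap (IsLocalRing.ResidueField A)
        ↥(modularFunctionFieldFullC (IsLocalRing.ResidueField A) M) (Asm.res A c hc)) := by
  have h1 := (h P).2 ⟨c, hc⟩ (Or.inr hP)
    ⟨(coordL M x₀ hmem)⁻¹, coordL_inv_mem_gaussL A M x₀ hlead hmem⟩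
    (isIntegral_algebraMap (R := Algebra.adjoin A {(coordL M x₀ hmem)⁻¹})
      (x := ⟨(coordL M x₀ hmem)⁻¹, Algebra.subset_adjoin (Set.mem_singleton _)⟩)) ⟨c, hc⟩
    (Or.inr hP)
  rw [redL_coordL_inv A M hℓ hA hℓM x₀ hlead hmem T' hT'] at h1
  rcases h1 with h1 | h1
  · exfalso
    have hT0 : T' ≠ 0 := by
      have := ne_const_of_coe A M x₀ hord hlead T' hT' 0
      rwa [map_zero] at this
    have h2 : T' = algebraMap (IsLocalRing.ResidueField A)
        ↥(modularFunctionFieldFullC (IsLocalRing.ResidueField A) M)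
          (IsLocalRing.residue A ⟨c, hc⟩)⁻¹ := by
      rw [map_inv₀, ← h1, inv_inv]
    exact ne_const_of_coe A M x₀ hord hlead T' hT' _ h2
  · exact h1

end U2

section Top

variable (A : ValuationSubring Lbar) (M : ℕ) [NeZero M]
  {ℓ : ℕ} (hℓ : ℓ.Prime) (hA : A.LiesOverPrime ℓ) (hℓM : ¬ ℓ ∣ M)

/-- **(c1)** for the place reductions of level `2 ∣ M`. -/
theorem stU1_two (hM : 2 ∣ M) (hℓ2 : ℓ ≠ 2)
    {r : Place Lbar ↥(modularFunctionFieldBar M) →
      Place (IsLocalRing.ResidueField A)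
        ↥(modularFunctionFieldFullC (IsLocalRing.ResidueField A) M)}
    (h : RSpec A M hℓ hA hℓM (coordL M H28.h2 (h2_mem_inter M hM)) r) : Asm.StU1 A r :=
  Fermat.Agent.S37x.Red.H21.h21_stU1_two A M hℓ hA hℓ2 r
    (coordL M H28.h2 (h2_mem_inter M hM)) (coe_coordL M H28.h2 (h2_mem_inter M hM))
    (Fermat.Agent.S37x.Red.H21.h21Tk2 A M hℓ hA hℓ2 hM) rfl
    (fun P c hc hP => h.u2h A M hℓ hA hℓM H28.h2 H28.order_h2 H28.coeff_h2_neg_one
      (h2_mem_inter M hM) _ rfl P c hc hP)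
    (fun P c hc hP => h.u2w A M hℓ hA hℓM H28.h2 H28.order_h2 H28.coeff_h2_neg_one
      (h2_mem_inter M hM) _ rfl P c hc hP)

/-- **(c1)** for the place reductions of level `3 ∣ M`. -/
theorem stU1_three (hM : 3 ∣ M) (hℓ3 : ℓ ≠ 3)
    {r : Place Lbar ↥(modularFunctionFieldBar M) →
      Place (IsLocalRing.ResidueField A)
        ↥(modularFunctionFieldFullC (IsLocalRing.ResidueField A) M)}
    (h : RSpec A M hℓ hA hℓM (coordL M H28.h3 (h3_mem_inter M hM)) r) : Asm.StU1 A r :=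
  Fermat.Agent.S37x.Red.H21.h21_stU1_three A M hℓ hA hℓ3 r
    (coordL M H28.h3 (h3_mem_inter M hM)) (coe_coordL M H28.h3 (h3_mem_inter M hM))
    (Fermat.Agent.S37x.Red.H21.h21Tk3 A M hℓ hA hℓ3 hM) rfl
    (fun P c hc hP => h.u2h A M hℓ hA hℓM H28.h3 H28.order_h3 H28.coeff_h3_neg_one
      (h3_mem_inter M hM) _ rfl P c hc hP)
    (fun P c hc hP => h.u2w A M hℓ hA hℓM H28.h3 H28.order_h3 H28.coeff_h3_neg_one
      (h3_mem_inter M hM) _ rfl P c hc hP)

include hℓ hA hℓM in
/-- **[RED-M] (top), level `2 ∣ M`**: `Asm.StRed M A` from `[CONS]` and `(c2)`. -/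
theorem stRed_two (hM : 2 ∣ M) (hℓ2 : ℓ ≠ 2)
    (hcons : ∀ r, RSpec A M hℓ hA hℓM (coordL M H28.h2 (h2_mem_inter M hM)) r →
      IsPlaceReductionModL A M r)
    (hsep : ∀ r, RSpec A M hℓ hA hℓM (coordL M H28.h2 (h2_mem_inter M hM)) r →
      IsPlaceReductionModL A M r → Asm.StU1 A r → Asm.StSep A r) :
    Asm.StRed M A := by
  obtain ⟨r, hr⟩ := exists_rSpec_two A M hℓ hA hℓM hM
  have h1 := hcons r hr
  have h2 := stU1_two A M hℓ hA hℓM hM hℓ2 hr
  exact ⟨r, h1, h22_principalGeneratedByIntegral A hℓ hA M hℓM, h2, hsep r hr h1 h2⟩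

include hℓ hA hℓM in
/-- **[RED-M] (top), level `3 ∣ M`**: `Asm.StRed M A` from `[CONS]` and `(c2)`. -/
theorem stRed_three (hM : 3 ∣ M) (hℓ3 : ℓ ≠ 3)
    (hcons : ∀ r, RSpec A M hℓ hA hℓM (coordL M H28.h3 (h3_mem_inter M hM)) r →
      IsPlaceReductionModL A M r)
    (hsep : ∀ r, RSpec A M hℓ hA hℓM (coordL M H28.h3 (h3_mem_inter M hM)) r →
      IsPlaceReductionModL A M r → Asm.StU1 A r → Asm.StSep A r) :
    Asm.StRed M A := by
  obtain ⟨r, hr⟩ := exists_rSpec_three A M hℓ hA hℓM hM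
  have h1 := hcons r hr
  have h2 := stU1_three A M hℓ hA hℓM hM hℓ3 hr
  exact ⟨r, h1, h22_principalGeneratedByIntegral A hℓ hA M hℓM, h2, hsep r hr h1 h2⟩

end Top

end Fermat.Agent.S37x.Red.H22
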