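import Mathlib
import Fermat.Prelude.Def_ModularCurve_ReductionModL
import Fermat.Agent.S37x.Red.H22_Top
import Fermat.Agent.S37x.Red.H20_SepFinG
import Fermat.Agent.S37x.FFk.H19_RedDeg

/-!
# S37 [RED-M] (top) (helper22): the plug of the separation package `(c2)` into the top

For a place reduction `r` with `RSpec` at the Hauptmodul levels `2 ∣ M`, `3 ∣ M`:

* `RSpec.stValG`, `RSpec.stValG_inv` : helper20's `StValG` on the two charts (projections);
* `h21Data_two`, `h21Data_three` : helper21's `H21U1Data` with `h' = redL ⟨xL, _⟩`;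
* `hdivk_of_red` : divisors of functions on the special fibre, from a place reduction;
* `stSep_noncusp_two`, `stSep_noncusp_three` : the non-cusp clause of `Asm.StSepOne A r` from
  `StWAG` on the chart of the Hauptmodul (helper20's `stSep_noncusp_g`).
-/

set_option autoImplicit false
set_option linter.unusedSectionVars false
set_option synthInstance.maxHeartbeats 400000
set_option maxHeartbeats 1000000

open ModularCurve AlgebraicCurve IntermediateField Polynomial

noncomputable section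

namespace Fermat.Agent.S37x.Red.H22

open Fermat.Agent.S18x.Dict.H20 Fermat.Agent.S18x.Dict.H23 Fermat.Agent.S18x.Dict.H22
open Fermat.Agent.S18x.IG Fermat.Agent.S18x.IG.H29 Fermat.Agent.S37x.Asm
open Fermat.Agent.S37x.Red.H20 Fermat.Agent.S37x.Red.H21

local notation "Lbar" => AlgebraicClosure ℚ

section Plug

variable (A : ValuationSubring Lbar) (M : ℕ) [NeZero M]
  {ℓ : ℕ} (hℓ : ℓ.Prime) (hA : A.LiesOverPrime ℓ) (hℓM : ¬ ℓ ∣ M)

local notation "kA" => IsLocalRing.ResidueField A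

variable {A M hℓ hA hℓM} in
/-- helper20's `StValG` on the chart of `xL`. -/
theorem RSpec.stValG {xL : ↥(modularFunctionFieldBar M)}
    {r : Place Lbar ↥(modularFunctionFieldBar M) → Place kA ↥(modularFunctionFieldFullC kA M)}
    (h : RSpec A M hℓ hA hℓM xL r) : StValG A M hℓ hA hℓM r xL :=
  fun P => (h P).1

variable {A M hℓ hA hℓM} in
/-- helper20's `StValG` on the chart of `xL⁻¹`. -/
theorem RSpec.stValG_inv {xL : ↥(modularFunctionFieldBar M)}
    {r : Place Lbar ↥(modularFunctionFieldBar M) → Place kA ↥(modularFunctionFieldFullC kA M)}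
    (h : RSpec A M hℓ hA hℓM xL r) : StValG A M hℓ hA hℓM r xL⁻¹ :=
  fun P => (h P).2

/-- Divisors of functions on the special fibre, from a place reduction. -/
theorem hdivk_of_red
    (r : Place Lbar ↥(modularFunctionFieldBar M) → Place kA ↥(modularFunctionFieldFullC kA M))
    (hr : IsPlaceReductionModL A M r) :
    ∀ f : modularFunctionFieldFullC kA M, f ≠ 0 →
      ∃ D : Divisor kA (modularFunctionFieldFullC kA M),
        ∀ Q : Place kA (modularFunctionFieldFullC kA M), D Q = Q.ord f := by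
  intro f hf
  obtain ⟨D, hD, -⟩ :=
    (Fermat.Agent.S37x.FFk.H19.h19_hasPrincipalDivisors_of_red (A := A) (M := M)
      ⟨r, hr⟩).exists_divisor f hf
  exact ⟨D, hD⟩

/-- helper21's data at level `2 ∣ M`, with `h' = redL ⟨xL, _⟩`. -/
theorem h21Data_two (hM : 2 ∣ M) (hℓ2 : ℓ ≠ 2)
    {r : Place Lbar ↥(modularFunctionFieldBar M) → Place kA ↥(modularFunctionFieldFullC kA M)}
    (h : RSpec A M hℓ hA hℓM (coordL M H28.h2 (h2_mem_inter M hM)) r) :
    H21U1Data A (IsLocalRing.residue A) r (Asm.jL M) (coordL M H28.h2 (h2_mem_inter M hM))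
      (Asm.jk A M)
      (redL A M hℓ hA hℓM ⟨coordL M H28.h2 (h2_mem_inter M hM),
        coordL_mem_gaussL A M H28.h2 (h2_mem_inter M hM)⟩)
      (h21N2 A) (h21D2 A) := by
  rw [redL_coordL A M hℓ hA hℓM H28.h2 (h2_mem_inter M hM) (h21Tk2 A M hℓ hA hℓ2 hM) rfl]
  exact h21_data_two A M (h21_two_ne_zero A hℓ hA hℓ2) r
    (coordL M H28.h2 (h2_mem_inter M hM)) (coe_coordL M H28.h2 (h2_mem_inter M hM))
    (h21Tk2 A M hℓ hA hℓ2 hM) rfl
    (fun P c hc hP => h.u2h A M hℓ hA hℓM H28.h2 H28.order_h2 H28.coeff_h2_neg_one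
      (h2_mem_inter M hM) _ rfl P c hc hP)
    (fun P c hc hP => h.u2w A M hℓ hA hℓM H28.h2 H28.order_h2 H28.coeff_h2_neg_one
      (h2_mem_inter M hM) _ rfl P c hc hP)

/-- helper21's data at level `3 ∣ M`, with `h' = redL ⟨xL, _⟩`. -/
theorem h21Data_three (hM : 3 ∣ M) (hℓ3 : ℓ ≠ 3)
    {r : Place Lbar ↥(modularFunctionFieldBar M) → Place kA ↥(modularFunctionFieldFullC kA M)}
    (h : RSpec A M hℓ hA hℓM (coordL M H28.h3 (h3_mem_inter M hM)) r) :
    H21U1Data A (IsLocalRing.residue A) r (Asm.jL M) (coordL M H28.h3 (h3_mem_inter M hM))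
      (Asm.jk A M)
      (redL A M hℓ hA hℓM ⟨coordL M H28.h3 (h3_mem_inter M hM),
        coordL_mem_gaussL A M H28.h3 (h3_mem_inter M hM)⟩)
      (h21N3 A) (h21D3 A) := by
  rw [redL_coordL A M hℓ hA hℓM H28.h3 (h3_mem_inter M hM) (h21Tk3 A M hℓ hA hℓ3 hM) rfl]
  exact h21_data_three A M (h21_three_ne_zero A hℓ hA hℓ3) r
    (coordL M H28.h3 (h3_mem_inter M hM)) (coe_coordL M H28.h3 (h3_mem_inter M hM))
    (h21Tk3 A M hℓ hA hℓ3 hM) rfl
    (fun P c hc hP => h.u2h A M hℓ hA hℓM H28.h3 H28.order_h3 H28.coeff_h3_neg_one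
      (h3_mem_inter M hM) _ rfl P c hc hP)
    (fun P c hc hP => h.u2w A M hℓ hA hℓM H28.h3 H28.order_h3 H28.coeff_h3_neg_one
      (h3_mem_inter M hM) _ rfl P c hc hP)

/-- **(c2), non-cusp clause, level `2 ∣ M`**, from `StWAG` on the chart of the Hauptmodul. -/
theorem stSep_noncusp_two (hM : 2 ∣ M) (hℓ2 : ℓ ≠ 2)
    {r : Place Lbar ↥(modularFunctionFieldBar M) → Place kA ↥(modularFunctionFieldFullC kA M)}
    (h : RSpec A M hℓ hA hℓM (coordL M H28.h2 (h2_mem_inter M hM)) r)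
    (hr : IsPlaceReductionModL A M r)
    (hwa : StWAG A M hℓ hA hℓM (coordL M H28.h2 (h2_mem_inter M hM))
      (coordL_mem_gaussL A M H28.h2 (h2_mem_inter M hM)))
    (P : Place Lbar (modularFunctionFieldBar M)) (hP : ¬ Asm.JCusp A P) (T : Finset kA) :
    ∃ f : modularFunctionFieldBar M, f ≠ 0 ∧ P.ord f = 1 ∧
      ∀ P' : Place Lbar (modularFunctionFieldBar M), P' ≠ P → P'.ord f ≠ 0 →
        ∀ c ∈ T, ¬ Asm.JbarAt (r P') c :=
  stSep_noncusp_g A M hℓ hA hℓM r hr (Fermat.Agent.S18x.E.H12.stDiv M)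
    (hdivk_of_red A M r hr) _ _ (h21Data_two A M hℓ hA hℓM hM hℓ2 h) h.stValG hwa P hP T

/-- **(c2), non-cusp clause, level `3 ∣ M`**, from `StWAG` on the chart of the Hauptmodul. -/
theorem stSep_noncusp_three (hM : 3 ∣ M) (hℓ3 : ℓ ≠ 3)
    {r : Place Lbar ↥(modularFunctionFieldBar M) → Place kA ↥(modularFunctionFieldFullC kA M)}
    (h : RSpec A M hℓ hA hℓM (coordL M H28.h3 (h3_mem_inter M hM)) r)
    (hr : IsPlaceReductionModL A M r)
    (hwa : StWAG A M hℓ hA hℓM (coordL M H28.h3 (h3_mem_inter M hM))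
      (coordL_mem_gaussL A M H28.h3 (h3_mem_inter M hM)))
    (P : Place Lbar (modularFunctionFieldBar M)) (hP : ¬ Asm.JCusp A P) (T : Finset kA) :
    ∃ f : modularFunctionFieldBar M, f ≠ 0 ∧ P.ord f = 1 ∧
      ∀ P' : Place Lbar (modularFunctionFieldBar M), P' ≠ P → P'.ord f ≠ 0 →
        ∀ c ∈ T, ¬ Asm.JbarAt (r P') c :=
  stSep_noncusp_g A M hℓ hA hℓM r hr (Fermat.Agent.S18x.E.H12.stDiv M)
    (hdivk_of_red A M r hr) _ _ (h21Data_three A M hℓ hA hℓM hM hℓ3 h) h.stValG hwa P hP T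

end Plug

end Fermat.Agent.S37x.Red.H22
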