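import Mathlib
import Fermat.Prelude.Def_ModularCurve_ReductionModL
import Fermat.Agent.S37x.Red.H22_SepPlug
import Fermat.Agent.S37x.Red.H21_Cusp

/-!
# S37 [RED-M] (top) (helper22): inputs of the cusp clause of `(c2)` in Gauss form

* `inv_mem_gaussL`, `redL_inv` : an element of the Gauss ring `gaussL A M` with non-zero
  reduction is a unit, and `redL` commutes with the inverse;
* `one_sub_inv_mem_gaussL`, `redL_one_sub_inv` : the unit `(1 - x)⁻¹` for a coordinate `x`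
  with non-constant reduction;
* `redL_coordL_ne_const`, `redL_coordL_inv_ne_const` : the reductions of the Hauptmodul and of
  its inverse are not constant;
* `hcuspL_two`, `hcuspL_three`, `hcuspk_two`, `hcuspk_three` : helper21's description of the
  cusps by the Hauptmodul, in the `coordL` / `redL` spelling.
-/

set_option autoImplicit false
set_option linter.unusedSectionVars false
set_option synthInstance.maxHeartbeats 400000
set_option maxHeartbeats 1000000

open ModularCurve AlgebraicCurve IntermediateField Polynomial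

noncomputable section

namespace Fermat.Agent.S37x.Red.H22

open Fermat.Agent.S18x.Dict.H20 Fermat.Agent.S18x.Dict.H23 Fermat.Agent.S18x.Dict.H22
open Fermat.Agent.S18x.IG Fermat.Agent.S18x.IG.H29 Fermat.Agent.S37x.Asm
open Fermat.Agent.S37x.Red.H20 Fermat.Agent.S37x.Red.H21

local notation "Lbar" => AlgebraicClosure ℚ

section Units

variable (A : ValuationSubring Lbar) (M : ℕ) [NeZero M]
  {ℓ : ℕ} (hℓ : ℓ.Prime) (hA : A.LiesOverPrime ℓ) (hℓM : ¬ ℓ ∣ M)

local notation "kA" => IsLocalRing.ResidueField A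

/-- An element of the Gauss ring with non-zero reduction is a unit. -/
theorem inv_mem_gaussL (g : gaussL A M) (hg : redL A M hℓ hA hℓM g ≠ 0) :
    (g : ↥(modularFunctionFieldBar M))⁻¹ ∈ gaussL A M := by
  have h1 : gaussRed A ⟨((g : ↥(modularFunctionFieldBar M)) : LaurentSeries Lbar), g.2⟩ ≠ 0 := by
    intro h0
    apply hg
    apply Subtype.ext
    rw [coe_redL, redLS_apply]
    exact h0
  have h3 := inv_mem_gaussRing A h1
  refine Subring.mem_comap.2 ?_
  rw [map_inv₀]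
  exact h3

/-- `redL` commutes with the inverse of a unit. -/
theorem redL_inv (g : gaussL A M) (hg : redL A M hℓ hA hℓM g ≠ 0) :
    redL A M hℓ hA hℓM ⟨(g : ↥(modularFunctionFieldBar M))⁻¹, inv_mem_gaussL A M hℓ hA hℓM g hg⟩
      = (redL A M hℓ hA hℓM g)⁻¹ := by
  have hg0 : (g : ↥(modularFunctionFieldBar M)) ≠ 0 := by
    intro h0
    apply hg
    have : g = 0 := Subtype.ext h0
    rw [this, map_zero]
  have h1 : g * ⟨(g : ↥(modularFunctionFieldBar M))⁻¹, inv_mem_gaussL A M hℓ hA hℓM g hg⟩ = 1 :=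
    Subtype.ext (mul_inv_cancel₀ hg0)
  have h2 := congrArg (redL A M hℓ hA hℓM) h1
  rw [map_mul, map_one] at h2
  exact eq_inv_of_mul_eq_one_right h2

/-- `1 - x ∈ gaussL` for `x ∈ gaussL`. -/
theorem one_sub_mem_gaussL {x : ↥(modularFunctionFieldBar M)} (hx : x ∈ gaussL A M) :
    1 - x ∈ gaussL A M :=
  (gaussL A M).sub_mem (gaussL A M).one_mem hx

theorem redL_one_sub {x : ↥(modularFunctionFieldBar M)} (hx : x ∈ gaussL A M) :
    redL A M hℓ hA hℓM ⟨1 - x, one_sub_mem_gaussL A M hx⟩ = 1 - redL A M hℓ hA hℓM ⟨x, hx⟩ := by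
  have : (⟨1 - x, one_sub_mem_gaussL A M hx⟩ : gaussL A M) = 1 - ⟨x, hx⟩ := rfl
  rw [this, map_sub, map_one]

/-- The unit `(1 - x)⁻¹` of the Gauss ring, for `x` with non-constant reduction. -/
theorem one_sub_inv_mem_gaussL {x : ↥(modularFunctionFieldBar M)} (hx : x ∈ gaussL A M)
    (hnc : ∀ β : kA, redL A M hℓ hA hℓM ⟨x, hx⟩ ≠
      algebraMap kA ↥(modularFunctionFieldFullC kA M) β) :
    (1 - x)⁻¹ ∈ gaussL A M := by
  refine inv_mem_gaussL A M hℓ hA hℓM ⟨1 - x, one_sub_mem_gaussL A M hx⟩ ?_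
  rw [redL_one_sub]
  intro h0
  apply hnc 1
  rw [map_one]
  exact (sub_eq_zero.mp h0).symm

theorem redL_one_sub_inv {x : ↥(modularFunctionFieldBar M)} (hx : x ∈ gaussL A M)
    (hnc : ∀ β : kA, redL A M hℓ hA hℓM ⟨x, hx⟩ ≠
      algebraMap kA ↥(modularFunctionFieldFullC kA M) β) :
    redL A M hℓ hA hℓM ⟨(1 - x)⁻¹, one_sub_inv_mem_gaussL A M hℓ hA hℓM hx hnc⟩
      = (1 - redL A M hℓ hA hℓM ⟨x, hx⟩)⁻¹ := by
  have hne : redL A M hℓ hA hℓM ⟨1 - x, one_sub_mem_gaussL A M hx⟩ ≠ 0 := by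
    rw [redL_one_sub]
    intro h0
    apply hnc 1
    rw [map_one]
    exact (sub_eq_zero.mp h0).symm
  have := redL_inv A M hℓ hA hℓM ⟨1 - x, one_sub_mem_gaussL A M hx⟩ hne
  rw [redL_one_sub] at this
  exact this

end Units

section Coord

variable (A : ValuationSubring Lbar) (M : ℕ) [NeZero M]
  {ℓ : ℕ} (hℓ : ℓ.Prime) (hA : A.LiesOverPrime ℓ) (hℓM : ¬ ℓ ∣ M)
  (x₀ : LaurentSeries ℤ) (hord : x₀.order = -1) (hlead : x₀.coeff (-1) = 1)
  (hmem : ∀ K : IntermediateField ℚ Lbar,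
    coeffMap (Int.castRingHom ↥K) x₀ ∈ modularFunctionFieldFullC ↥K M)

local notation "kA" => IsLocalRing.ResidueField A

include hord hlead in
/-- The reduction of the coordinate is not constant. -/
theorem redL_coordL_ne_const (β : kA) :
    redL A M hℓ hA hℓM ⟨coordL M x₀ hmem, coordL_mem_gaussL A M x₀ hmem⟩ ≠
      algebraMap kA ↥(modularFunctionFieldFullC kA M) β := by
  intro h
  apply redLS_coordL_ne_const A M x₀ hord hlead hmem β
  have := congrArg (fun z : ↥(modularFunctionFieldFullC kA M) => (z : LaurentSeries kA)) h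
  exact this

include hord hlead in
theorem redL_coordL_ne_zero :
    redL A M hℓ hA hℓM ⟨coordL M x₀ hmem, coordL_mem_gaussL A M x₀ hmem⟩ ≠ 0 := by
  have := redL_coordL_ne_const A M hℓ hA hℓM x₀ hord hlead hmem 0
  rwa [map_zero] at this

include hord hlead in
/-- `redL` of the inverse of the coordinate. -/
theorem redL_coordL_inv_eq :
    redL A M hℓ hA hℓM ⟨(coordL M x₀ hmem)⁻¹, coordL_inv_mem_gaussL A M x₀ hlead hmem⟩
      = (redL A M hℓ hA hℓM ⟨coordL M x₀ hmem, coordL_mem_gaussL A M x₀ hmem⟩)⁻¹ :=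
  redL_inv A M hℓ hA hℓM ⟨coordL M x₀ hmem, coordL_mem_gaussL A M x₀ hmem⟩
    (redL_coordL_ne_zero A M hℓ hA hℓM x₀ hord hlead hmem)

include hord hlead in
/-- The reduction of the inverse of the coordinate is not constant. -/
theorem redL_coordL_inv_ne_const (β : kA) :
    redL A M hℓ hA hℓM ⟨(coordL M x₀ hmem)⁻¹, coordL_inv_mem_gaussL A M x₀ hlead hmem⟩ ≠
      algebraMap kA ↥(modularFunctionFieldFullC kA M) β := by
  rw [redL_coordL_inv_eq A M hℓ hA hℓM x₀ hord hlead hmem]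
  intro h
  have h0 := redL_coordL_ne_zero A M hℓ hA hℓM x₀ hord hlead hmem
  apply redL_coordL_ne_const A M hℓ hA hℓM x₀ hord hlead hmem β⁻¹
  rw [map_inv₀, ← h, inv_inv]

end Coord

section Cusps

variable (A : ValuationSubring Lbar) (M : ℕ) [NeZero M]
  {ℓ : ℕ} (hℓ : ℓ.Prime) (hA : A.LiesOverPrime ℓ) (hℓM : ¬ ℓ ∣ M)

local notation "kA" => IsLocalRing.ResidueField A

/-- **Level 2, `hcuspL`** in the `coordL` spelling. -/
theorem hcuspL_two (hM : 2 ∣ M)
    (P : Place Lbar ↥(modularFunctionFieldBar M)) (hP : Asm.JCusp A P) :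
    (∃ c : A, IsLocalRing.residue A c = 0 ∧
        0 < P.ord (coordL M H28.h2 (h2_mem_inter M hM) -
          algebraMap Lbar ↥(modularFunctionFieldBar M) (c : Lbar))) ∨
      ∃ c : A, IsLocalRing.residue A c = 0 ∧
        0 < P.ord ((coordL M H28.h2 (h2_mem_inter M hM))⁻¹ -
          algebraMap Lbar ↥(modularFunctionFieldBar M) (c : Lbar)) :=
  h21_hcuspL_two A M _ (coe_coordL M H28.h2 (h2_mem_inter M hM)) P hP

/-- **Level 3, `hcuspL`** in the `coordL` spelling. -/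
theorem hcuspL_three (hM : 3 ∣ M)
    (P : Place Lbar ↥(modularFunctionFieldBar M)) (hP : Asm.JCusp A P) :
    (∃ c : A, IsLocalRing.residue A c = 0 ∧
        0 < P.ord (coordL M H28.h3 (h3_mem_inter M hM) -
          algebraMap Lbar ↥(modularFunctionFieldBar M) (c : Lbar))) ∨
      ∃ c : A, IsLocalRing.residue A c = 0 ∧
        0 < P.ord ((coordL M H28.h3 (h3_mem_inter M hM))⁻¹ -
          algebraMap Lbar ↥(modularFunctionFieldBar M) (c : Lbar)) :=
  h21_hcuspL_three A M _ (coe_coordL M H28.h3 (h3_mem_inter M hM)) P hP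

/-- **Level 2, `hcuspk`** in the `redL` spelling. -/
theorem hcuspk_two (hM : 2 ∣ M) (hℓ2 : ℓ ≠ 2)
    (Q : Place kA ↥(modularFunctionFieldFullC kA M)) (hQ : Q.ord (Asm.jk A M) < 0) :
    Q.ord (redL A M hℓ hA hℓM ⟨coordL M H28.h2 (h2_mem_inter M hM),
        coordL_mem_gaussL A M H28.h2 (h2_mem_inter M hM)⟩) ≠ 0 ∧
      Q.ord (redL A M hℓ hA hℓM ⟨(coordL M H28.h2 (h2_mem_inter M hM))⁻¹,
        coordL_inv_mem_gaussL A M H28.h2 H28.coeff_h2_neg_one (h2_mem_inter M hM)⟩) ≠ 0 := by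
  rw [redL_coordL_inv A M hℓ hA hℓM H28.h2 H28.coeff_h2_neg_one (h2_mem_inter M hM)
      (h21Tk2 A M hℓ hA hℓ2 hM) rfl,
    redL_coordL A M hℓ hA hℓM H28.h2 (h2_mem_inter M hM) (h21Tk2 A M hℓ hA hℓ2 hM) rfl]
  exact h21_hcuspk_two A M (h21Tk2 A M hℓ hA hℓ2 hM) rfl Q hQ

/-- **Level 3, `hcuspk`** in the `redL` spelling. -/
theorem hcuspk_three (hM : 3 ∣ M) (hℓ3 : ℓ ≠ 3)
    (Q : Place kA ↥(modularFunctionFieldFullC kA M)) (hQ : Q.ord (Asm.jk A M) < 0) :
    Q.ord (redL A M hℓ hA hℓM ⟨coordL M H28.h3 (h3_mem_inter M hM),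
        coordL_mem_gaussL A M H28.h3 (h3_mem_inter M hM)⟩) ≠ 0 ∧
      Q.ord (redL A M hℓ hA hℓM ⟨(coordL M H28.h3 (h3_mem_inter M hM))⁻¹,
        coordL_inv_mem_gaussL A M H28.h3 H28.coeff_h3_neg_one (h3_mem_inter M hM)⟩) ≠ 0 := by
  rw [redL_coordL_inv A M hℓ hA hℓM H28.h3 H28.coeff_h3_neg_one (h3_mem_inter M hM)
      (h21Tk3 A M hℓ hA hℓ3 hM) rfl,
    redL_coordL A M hℓ hA hℓM H28.h3 (h3_mem_inter M hM) (h21Tk3 A M hℓ hA hℓ3 hM) rfl]
  exact h21_hcuspk_three A M (h21Tk3 A M hℓ hA hℓ3 hM) rfl Q hQ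

end Cusps

end Fermat.Agent.S37x.Red.H22
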