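import Mathlib
import Fermat.Prelude.Def_ModularCurve_ReductionModL
import Fermat.Agent.S37x.Red.H22_CuspPlug
import Fermat.Agent.S37x.Asm.DefsDesc

/-!
# S37 [RED-M] (top) (helper22): `Asm.StSepOne A r` from the chart form of the cusp clause

For a place reduction `r` with `RSpec` at the Hauptmodul levels `2 ∣ M`, `3 ∣ M`:

* `stSepOne_two_of_chart`, `stSepOne_three_of_chart` : `Asm.StSepOne A r` from `StWAG` on the
  chart of the Hauptmodul `h` and the chart form of the cusp clause on the charts of `h`, `h⁻¹`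
  (the conclusion of the Gauss-form chart lemma `(D5)`).
-/

set_option autoImplicit false
set_option linter.unusedSectionVars false
set_option synthInstance.maxHeartbeats 400000
set_option maxHeartbeats 1000000

open ModularCurve AlgebraicCurve IntermediateField Polynomial

noncomputable section

namespace Fermat.Agent.S37x.Red.H22

open Fermat.Agent.S18x.Dict.H20 Fermat.Agent.S18x.Dict.H23 Fermat.Agent.S18x.Dict.H22
open Fermat.Agent.S18x.IG Fermat.Agent.S18x.IG.H29 Fermat.Agent.S37x.Asm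
open Fermat.Agent.S37x.Red.H20 Fermat.Agent.S37x.Red.H21

local notation "Lbar" => AlgebraicClosure ℚ

section SepOne

variable (A : ValuationSubring Lbar) (M : ℕ) [NeZero M]
  {ℓ : ℕ} (hℓ : ℓ.Prime) (hA : A.LiesOverPrime ℓ) (hℓM : ¬ ℓ ∣ M)

local notation "kA" => IsLocalRing.ResidueField A

/-- The conclusion of the chart form of `(D5)` for the chart of `xL`. -/
def ChartSep
    (r : Place Lbar ↥(modularFunctionFieldBar M) → Place kA ↥(modularFunctionFieldFullC kA M))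
    (xL : ↥(modularFunctionFieldBar M)) (hxV : xL ∈ gaussL A M) : Prop :=
  ∀ (P : Place Lbar ↥(modularFunctionFieldBar M)) (c : A), IsLocalRing.residue A c = 0 →
    0 < P.ord (xL - algebraMap Lbar ↥(modularFunctionFieldBar M) (c : Lbar)) →
    ∃ f : ↥(modularFunctionFieldBar M), f ≠ 0 ∧ P.ord f = 1 ∧
      ∀ P' : Place Lbar ↥(modularFunctionFieldBar M), P' ≠ P → P'.ord f ≠ 0 →
        (r P').ord (redL A M hℓ hA hℓM ⟨xL, hxV⟩) = 0

/-- The cusp clause of `Asm.StSepOne A r` from the chart forms on two charts. -/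
theorem stSepOne_cusp_of_chart
    (r : Place Lbar ↥(modularFunctionFieldBar M) → Place kA ↥(modularFunctionFieldFullC kA M))
    (xL : ↥(modularFunctionFieldBar M)) (hxV : xL ∈ gaussL A M)
    (xL' : ↥(modularFunctionFieldBar M)) (hxV' : xL' ∈ gaussL A M)
    (hch : ChartSep A M hℓ hA hℓM r xL hxV) (hch' : ChartSep A M hℓ hA hℓM r xL' hxV')
    (hcuspL : ∀ P : Place Lbar ↥(modularFunctionFieldBar M), Asm.JCusp A P →
      (∃ c : A, IsLocalRing.residue A c = 0 ∧
        0 < P.ord (xL - algebraMap Lbar ↥(modularFunctionFieldBar M) (c : Lbar))) ∨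
      ∃ c : A, IsLocalRing.residue A c = 0 ∧
        0 < P.ord (xL' - algebraMap Lbar ↥(modularFunctionFieldBar M) (c : Lbar)))
    (hcuspk : ∀ Q : Place kA ↥(modularFunctionFieldFullC kA M), Q.ord (Asm.jk A M) < 0 →
      Q.ord (redL A M hℓ hA hℓM ⟨xL, hxV⟩) ≠ 0 ∧ Q.ord (redL A M hℓ hA hℓM ⟨xL', hxV'⟩) ≠ 0)
    (P : Place Lbar ↥(modularFunctionFieldBar M)) (hP : Asm.JCusp A P) :
    ∃ f : ↥(modularFunctionFieldBar M), f ≠ 0 ∧ P.ord f = 1 ∧
      ∀ P' : Place Lbar ↥(modularFunctionFieldBar M), P' ≠ P → P'.ord f ≠ 0 →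
        ¬ (r P').ord (Asm.jk A M) < 0 := by
  rcases hcuspL P hP with ⟨c, hc, hPc⟩ | ⟨c, hc, hPc⟩
  · obtain ⟨f, hf0, hf1, hf2⟩ := hch P c hc hPc
    exact ⟨f, hf0, hf1, fun P' hP' hord hpole => (hcuspk (r P') hpole).1 (hf2 P' hP' hord)⟩
  · obtain ⟨f, hf0, hf1, hf2⟩ := hch' P c hc hPc
    exact ⟨f, hf0, hf1, fun P' hP' hord hpole => (hcuspk (r P') hpole).2 (hf2 P' hP' hord)⟩

/-- **(c2) at level `2 ∣ M`**: `Asm.StSepOne A r` from `StWAG` and the chart form of `(D5)`. -/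
theorem stSepOne_two_of_chart (hM : 2 ∣ M) (hℓ2 : ℓ ≠ 2)
    {r : Place Lbar ↥(modularFunctionFieldBar M) → Place kA ↥(modularFunctionFieldFullC kA M)}
    (h : RSpec A M hℓ hA hℓM (coordL M H28.h2 (h2_mem_inter M hM)) r)
    (hr : IsPlaceReductionModL A M r)
    (hwa : StWAG A M hℓ hA hℓM (coordL M H28.h2 (h2_mem_inter M hM))
      (coordL_mem_gaussL A M H28.h2 (h2_mem_inter M hM)))
    (hch : ChartSep A M hℓ hA hℓM r (coordL M H28.h2 (h2_mem_inter M hM))
      (coordL_mem_gaussL A M H28.h2 (h2_mem_inter M hM)))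
    (hch' : ChartSep A M hℓ hA hℓM r (coordL M H28.h2 (h2_mem_inter M hM))⁻¹
      (coordL_inv_mem_gaussL A M H28.h2 H28.coeff_h2_neg_one (h2_mem_inter M hM))) :
    Asm.StSepOne A r :=
  ⟨fun P hP T => stSep_noncusp_two A M hℓ hA hℓM hM hℓ2 h hr hwa P hP T,
    fun P hP => stSepOne_cusp_of_chart A M hℓ hA hℓM r _ _ _ _ hch hch'
      (hcuspL_two A M hM) (hcuspk_two A M hℓ hA hℓM hM hℓ2) P hP⟩

/-- **(c2) at level `3 ∣ M`**: `Asm.StSepOne A r` from `StWAG` and the chart form of `(D5)`. -/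
theorem stSepOne_three_of_chart (hM : 3 ∣ M) (hℓ3 : ℓ ≠ 3)
    {r : Place Lbar ↥(modularFunctionFieldBar M) → Place kA ↥(modularFunctionFieldFullC kA M)}
    (h : RSpec A M hℓ hA hℓM (coordL M H28.h3 (h3_mem_inter M hM)) r)
    (hr : IsPlaceReductionModL A M r)
    (hwa : StWAG A M hℓ hA hℓM (coordL M H28.h3 (h3_mem_inter M hM))
      (coordL_mem_gaussL A M H28.h3 (h3_mem_inter M hM)))
    (hch : ChartSep A M hℓ hA hℓM r (coordL M H28.h3 (h3_mem_inter M hM))
      (coordL_mem_gaussL A M H28.h3 (h3_mem_inter M hM)))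
    (hch' : ChartSep A M hℓ hA hℓM r (coordL M H28.h3 (h3_mem_inter M hM))⁻¹
      (coordL_inv_mem_gaussL A M H28.h3 H28.coeff_h3_neg_one (h3_mem_inter M hM))) :
    Asm.StSepOne A r :=
  ⟨fun P hP T => stSep_noncusp_three A M hℓ hA hℓM hM hℓ3 h hr hwa P hP T,
    fun P hP => stSepOne_cusp_of_chart A M hℓ hA hℓM r _ _ _ _ hch hch'
      (hcuspL_three A M hM) (hcuspk_three A M hℓ hA hℓM hM hℓ3) P hP⟩

end SepOne

end Fermat.Agent.S37x.Red.H22
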