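import Mathlib
import Fermat.Prelude.Def_ModularCurve_ReductionModL
import Fermat.Agent.S37x.Red.H22_SepOne
import Fermat.Agent.S37x.Red.H20_SepCuspG

/-!
# S37 [RED-M] (top) (helper22): `(c2)` and the top from `[CONS]` and `StWAG`

For the Hauptmodul levels `2 ∣ M`, `3 ∣ M` (`ℓ ∤ M`, `ℓ ≠ 2` resp. `ℓ ≠ 3`), with
`xL = coordL M h` the Hauptmodul in `F_L`:

* `chartSep_of_wag` : the chart form of `(D5)` (helper20's `sep_chart_g'`) with all side
  conditions discharged;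
* `stSepOne_two`, `stSepOne_three` : **(c2)** `Asm.StSepOne A r` for every place reduction `r`
  with `RSpec`, from `StWAG` on the charts of `xL` and `xL⁻¹`;
* `stRedOne_two`, `stRedOne_three` : `Asm.StRedOne M A` from `[CONS]` and `StWAG`;
* `stRed_two_of_wag`, `stRed_three_of_wag` : `Asm.StRed M A` from `[CONS]` and `StWAG`.
-/

set_option autoImplicit false
set_option linter.unusedSectionVars false
set_option synthInstance.maxHeartbeats 400000
set_option maxHeartbeats 1000000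

open ModularCurve AlgebraicCurve IntermediateField Polynomial

noncomputable section

namespace Fermat.Agent.S37x.Red.H22

open Fermat.Agent.S18x.Dict.H20 Fermat.Agent.S18x.Dict.H23 Fermat.Agent.S18x.Dict.H22
open Fermat.Agent.S18x.IG Fermat.Agent.S18x.IG.H29 Fermat.Agent.S37x.Asm
open Fermat.Agent.S37x.Red.H20 Fermat.Agent.S37x.Red.H21

local notation "Lbar" => AlgebraicClosure ℚ

section SepFinal

variable (A : ValuationSubring Lbar) (M : ℕ) [NeZero M]
  {ℓ : ℕ} (hℓ : ℓ.Prime) (hA : A.LiesOverPrime ℓ) (hℓM : ¬ ℓ ∣ M)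

local notation "kA" => IsLocalRing.ResidueField A

/-- The chart form of `(D5)` with its side conditions discharged. -/
theorem chartSep_of_wag
    (r : Place Lbar ↥(modularFunctionFieldBar M) → Place kA ↥(modularFunctionFieldFullC kA M))
    (hr : IsPlaceReductionModL A M r)
    (hres : ∀ P : Place Lbar ↥(modularFunctionFieldBar M), Fermat.Agent.S24.RH.ResidueTrivial P)
    (xL : ↥(modularFunctionFieldBar M)) (hxV : xL ∈ gaussL A M)
    (hxnc : ∀ β : kA, redL A M hℓ hA hℓM ⟨xL, hxV⟩ ≠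
      algebraMap kA ↥(modularFunctionFieldFullC kA M) β)
    (hVal : StValG A M hℓ hA hℓM r xL) (hWA : StWAG A M hℓ hA hℓM xL hxV) :
    ChartSep A M hℓ hA hℓM r xL hxV :=
  fun P c hc hPc => sep_chart_g' A M hℓ hA hℓM r hr (Fermat.Agent.S18x.E.H12.stDiv M)
    (hdivk_of_red A M r hr) hres xL hxV (one_sub_inv_mem_gaussL A M hℓ hA hℓM hxV hxnc) hxnc
    hVal hWA P c hc hPc

/-- **(c2) at level `2 ∣ M`**: `Asm.StSepOne A r` from `StWAG` on the two charts. -/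
theorem stSepOne_two (hM : 2 ∣ M) (hℓ2 : ℓ ≠ 2)
    {r : Place Lbar ↥(modularFunctionFieldBar M) → Place kA ↥(modularFunctionFieldFullC kA M)}
    (h : RSpec A M hℓ hA hℓM (coordL M H28.h2 (h2_mem_inter M hM)) r)
    (hr : IsPlaceReductionModL A M r)
    (hwa : StWAG A M hℓ hA hℓM (coordL M H28.h2 (h2_mem_inter M hM))
      (coordL_mem_gaussL A M H28.h2 (h2_mem_inter M hM)))
    (hwa' : StWAG A M hℓ hA hℓM (coordL M H28.h2 (h2_mem_inter M hM))⁻¹
      (coordL_inv_mem_gaussL A M H28.h2 H28.coeff_h2_neg_one (h2_mem_inter M hM))) :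
    Asm.StSepOne A r :=
  stSepOne_two_of_chart A M hℓ hA hℓM hM hℓ2 h hr hwa
    (chartSep_of_wag A M hℓ hA hℓM r hr (h21Data_two A M hℓ hA hℓM hM hℓ2 h).res _ _
      (redL_coordL_ne_const A M hℓ hA hℓM H28.h2 H28.order_h2 H28.coeff_h2_neg_one
        (h2_mem_inter M hM)) h.stValG hwa)
    (chartSep_of_wag A M hℓ hA hℓM r hr (h21Data_two A M hℓ hA hℓM hM hℓ2 h).res _ _
      (redL_coordL_inv_ne_const A M hℓ hA hℓM H28.h2 H28.order_h2 H28.coeff_h2_neg_one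
        (h2_mem_inter M hM)) h.stValG_inv hwa')

/-- **(c2) at level `3 ∣ M`**: `Asm.StSepOne A r` from `StWAG` on the two charts. -/
theorem stSepOne_three (hM : 3 ∣ M) (hℓ3 : ℓ ≠ 3)
    {r : Place Lbar ↥(modularFunctionFieldBar M) → Place kA ↥(modularFunctionFieldFullC kA M)}
    (h : RSpec A M hℓ hA hℓM (coordL M H28.h3 (h3_mem_inter M hM)) r)
    (hr : IsPlaceReductionModL A M r)
    (hwa : StWAG A M hℓ hA hℓM (coordL M H28.h3 (h3_mem_inter M hM))
      (coordL_mem_gaussL A M H28.h3 (h3_mem_inter M hM)))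
    (hwa' : StWAG A M hℓ hA hℓM (coordL M H28.h3 (h3_mem_inter M hM))⁻¹
      (coordL_inv_mem_gaussL A M H28.h3 H28.coeff_h3_neg_one (h3_mem_inter M hM))) :
    Asm.StSepOne A r :=
  stSepOne_three_of_chart A M hℓ hA hℓM hM hℓ3 h hr hwa
    (chartSep_of_wag A M hℓ hA hℓM r hr (h21Data_three A M hℓ hA hℓM hM hℓ3 h).res _ _
      (redL_coordL_ne_const A M hℓ hA hℓM H28.h3 H28.order_h3 H28.coeff_h3_neg_one
        (h3_mem_inter M hM)) h.stValG hwa)
    (chartSep_of_wag A M hℓ hA hℓM r hr (h21Data_three A M hℓ hA hℓM hM hℓ3 h).res _ _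
      (redL_coordL_inv_ne_const A M hℓ hA hℓM H28.h3 H28.order_h3 H28.coeff_h3_neg_one
        (h3_mem_inter M hM)) h.stValG_inv hwa')

/-- **[RED-M], level `2 ∣ M`**: `Asm.StRedOne M A` from `[CONS]` and `StWAG`. -/
theorem stRedOne_two (hM : 2 ∣ M) (hℓ2 : ℓ ≠ 2)
    (hcons : ∀ r, RSpec A M hℓ hA hℓM (coordL M H28.h2 (h2_mem_inter M hM)) r →
      IsPlaceReductionModL A M r)
    (hwa : StWAG A M hℓ hA hℓM (coordL M H28.h2 (h2_mem_inter M hM))
      (coordL_mem_gaussL A M H28.h2 (h2_mem_inter M hM)))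
    (hwa' : StWAG A M hℓ hA hℓM (coordL M H28.h2 (h2_mem_inter M hM))⁻¹
      (coordL_inv_mem_gaussL A M H28.h2 H28.coeff_h2_neg_one (h2_mem_inter M hM))) :
    Asm.StRedOne M A := by
  obtain ⟨r, hr⟩ := exists_rSpec_two A M hℓ hA hℓM hM
  have h1 := hcons r hr
  exact ⟨r, h1, stU1_two A M hℓ hA hℓM hM hℓ2 hr,
    stSepOne_two A M hℓ hA hℓM hM hℓ2 hr h1 hwa hwa'⟩

/-- **[RED-M], level `3 ∣ M`**: `Asm.StRedOne M A` from `[CONS]` and `StWAG`. -/
theorem stRedOne_three (hM : 3 ∣ M) (hℓ3 : ℓ ≠ 3)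
    (hcons : ∀ r, RSpec A M hℓ hA hℓM (coordL M H28.h3 (h3_mem_inter M hM)) r →
      IsPlaceReductionModL A M r)
    (hwa : StWAG A M hℓ hA hℓM (coordL M H28.h3 (h3_mem_inter M hM))
      (coordL_mem_gaussL A M H28.h3 (h3_mem_inter M hM)))
    (hwa' : StWAG A M hℓ hA hℓM (coordL M H28.h3 (h3_mem_inter M hM))⁻¹
      (coordL_inv_mem_gaussL A M H28.h3 H28.coeff_h3_neg_one (h3_mem_inter M hM))) :
    Asm.StRedOne M A := by
  obtain ⟨r, hr⟩ := exists_rSpec_three A M hℓ hA hℓM hM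
  have h1 := hcons r hr
  exact ⟨r, h1, stU1_three A M hℓ hA hℓM hM hℓ3 hr,
    stSepOne_three A M hℓ hA hℓM hM hℓ3 hr h1 hwa hwa'⟩

/-- **[RED-M], level `2 ∣ M`**: `Asm.StRed M A` from `[CONS]` and `StWAG`. -/
theorem stRed_two_of_wag (hM : 2 ∣ M) (hℓ2 : ℓ ≠ 2)
    (hcons : ∀ r, RSpec A M hℓ hA hℓM (coordL M H28.h2 (h2_mem_inter M hM)) r →
      IsPlaceReductionModL A M r)
    (hwa : StWAG A M hℓ hA hℓM (coordL M H28.h2 (h2_mem_inter M hM))
      (coordL_mem_gaussL A M H28.h2 (h2_mem_inter M hM)))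
    (hwa' : StWAG A M hℓ hA hℓM (coordL M H28.h2 (h2_mem_inter M hM))⁻¹
      (coordL_inv_mem_gaussL A M H28.h2 H28.coeff_h2_neg_one (h2_mem_inter M hM))) :
    Asm.StRed M A :=
  Asm.stRed_of_stRedOne M A (h22_principalGeneratedByIntegral A hℓ hA M hℓM)
    (stRedOne_two A M hℓ hA hℓM hM hℓ2 hcons hwa hwa')

/-- **[RED-M], level `3 ∣ M`**: `Asm.StRed M A` from `[CONS]` and `StWAG`. -/
theorem stRed_three_of_wag (hM : 3 ∣ M) (hℓ3 : ℓ ≠ 3)
    (hcons : ∀ r, RSpec A M hℓ hA hℓM (coordL M H28.h3 (h3_mem_inter M hM)) r →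
      IsPlaceReductionModL A M r)
    (hwa : StWAG A M hℓ hA hℓM (coordL M H28.h3 (h3_mem_inter M hM))
      (coordL_mem_gaussL A M H28.h3 (h3_mem_inter M hM)))
    (hwa' : StWAG A M hℓ hA hℓM (coordL M H28.h3 (h3_mem_inter M hM))⁻¹
      (coordL_inv_mem_gaussL A M H28.h3 H28.coeff_h3_neg_one (h3_mem_inter M hM))) :
    Asm.StRed M A :=
  Asm.stRed_of_stRedOne M A (h22_principalGeneratedByIntegral A hℓ hA M hℓM)
    (stRedOne_three A M hℓ hA hℓM hM hℓ3 hcons hwa hwa')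

end SepFinal

end Fermat.Agent.S37x.Red.H22
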