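import Mathlib
import Fermat.Prelude.Def_ModularCurve_ReductionModL
import Fermat.Agent.S37x.Red.H22_SepFinal
import Fermat.Agent.S18x.Asm.H18_Final

/-!
# S37 [RED-M] (top) (helper22): the place reduction at the auxiliary level `h18_base ℓ * N`

* `stRedOne_base_of` : `Asm.StRedOne (h18_base ℓ * N) A` for `ℓ ∤ N` (the input `hOne` of the
  route N top `h17_result_of_redOne`), from `[CONS]` and `StWAG` at the Hauptmodul levels
  `2 ∣ M` (`ℓ ≠ 2`) and `3 ∣ M` (`ℓ ≠ 3`).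
-/

set_option autoImplicit false
set_option linter.unusedSectionVars false
set_option linter.style.haveILetI false
set_option synthInstance.maxHeartbeats 400000
set_option maxHeartbeats 1000000

open ModularCurve AlgebraicCurve IntermediateField Polynomial

noncomputable section

namespace Fermat.Agent.S37x.Red.H22

open Fermat.Agent.S18x.Dict.H20 Fermat.Agent.S18x.Dict.H23 Fermat.Agent.S18x.Dict.H22
open Fermat.Agent.S18x.IG Fermat.Agent.S18x.IG.H29 Fermat.Agent.S37x.Asm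
open Fermat.Agent.S37x.Red.H20 Fermat.Agent.S37x.Red.H21 Fermat.Agent.S18x.Asm

local notation "Lbar" => AlgebraicClosure ℚ

/-- **[RED-M] at the auxiliary level `h18_base ℓ * N`**, from `[CONS]` and `StWAG` at the
Hauptmodul levels. -/
theorem stRedOne_base_of (N : ℕ) [NeZero N] {ℓ : ℕ} (hℓ : ℓ.Prime) (hℓN : ¬ ℓ ∣ N)
    (A : ValuationSubring Lbar) (hA : A.LiesOverPrime ℓ)
    (hcons2 : ∀ (M : ℕ) [NeZero M] (hℓM : ¬ ℓ ∣ M) (hM : 2 ∣ M), ℓ ≠ 2 →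
      ∀ r, RSpec A M hℓ hA hℓM (coordL M H28.h2 (h2_mem_inter M hM)) r →
        IsPlaceReductionModL A M r)
    (hwa2 : ∀ (M : ℕ) [NeZero M] (hℓM : ¬ ℓ ∣ M) (hM : 2 ∣ M), ℓ ≠ 2 →
      StWAG A M hℓ hA hℓM (coordL M H28.h2 (h2_mem_inter M hM))
          (coordL_mem_gaussL A M H28.h2 (h2_mem_inter M hM)) ∧
        StWAG A M hℓ hA hℓM (coordL M H28.h2 (h2_mem_inter M hM))⁻¹
          (coordL_inv_mem_gaussL A M H28.h2 H28.coeff_h2_neg_one (h2_mem_inter M hM)))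
    (hcons3 : ∀ (M : ℕ) [NeZero M] (hℓM : ¬ ℓ ∣ M) (hM : 3 ∣ M), ℓ ≠ 3 →
      ∀ r, RSpec A M hℓ hA hℓM (coordL M H28.h3 (h3_mem_inter M hM)) r →
        IsPlaceReductionModL A M r)
    (hwa3 : ∀ (M : ℕ) [NeZero M] (hℓM : ¬ ℓ ∣ M) (hM : 3 ∣ M), ℓ ≠ 3 →
      StWAG A M hℓ hA hℓM (coordL M H28.h3 (h3_mem_inter M hM))
          (coordL_mem_gaussL A M H28.h3 (h3_mem_inter M hM)) ∧
        StWAG A M hℓ hA hℓM (coordL M H28.h3 (h3_mem_inter M hM))⁻¹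
          (coordL_inv_mem_gaussL A M H28.h3 H28.coeff_h3_neg_one (h3_mem_inter M hM))) :
    haveI : NeZero (h18_base ℓ * N) := h18_level_neZero ℓ N
    Asm.StRedOne (h18_base ℓ * N) A := by
  haveI : NeZero (h18_base ℓ * N) := h18_level_neZero ℓ N
  have hℓM : ¬ ℓ ∣ h18_base ℓ * N := h18_not_dvd_level hℓ hℓN
  rcases h18_base_mem ℓ with hb | hb
  · have hM : 2 ∣ h18_base ℓ * N := hb ▸ dvd_mul_right (h18_base ℓ) N
    have hℓ2 : ℓ ≠ 2 := hb ▸ h18_base_ne ℓ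
    exact stRedOne_two A _ hℓ hA hℓM hM hℓ2 (hcons2 _ hℓM hM hℓ2)
      (hwa2 _ hℓM hM hℓ2).1 (hwa2 _ hℓM hM hℓ2).2
  · have hM : 3 ∣ h18_base ℓ * N := hb ▸ dvd_mul_right (h18_base ℓ) N
    have hℓ3 : ℓ ≠ 3 := hb ▸ h18_base_ne ℓ
    exact stRedOne_three A _ hℓ hA hℓM hM hℓ3 (hcons3 _ hℓM hM hℓ3)
      (hwa3 _ hℓM hM hℓ3).1 (hwa3 _ hℓM hM hℓ3).2

end Fermat.Agent.S37x.Red.H22
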