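import Mathlib

/-!
# S37 / [RED-M] (b-core), ring-theoretic part (helper11)

`R` a noetherian local domain whose maximal ideal is `(π, t)` with `π` prime (a two-dimensional
regular local ring, e.g. the local ring of a smooth arithmetic surface at a closed point of the
special fibre).

* `eq_span_of_prime_mem` : a prime ideal `𝔭 ≠ 𝔪` containing a prime element `p` is `(p)`
  (Krull's height theorem: `ht 𝔪 ≤ 2`);
* `exists_unit_of_span_pair_eq` : if `(π, p) = 𝔪` and `π ∤ p` then `p = x * t + π * c` with `x`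
  a unit (`p` is a regular parameter transversal to the special fibre);
* `regular_mul` : the set `{u * t ^ d + π * c | u a unit}` is closed under products, the
  exponents add.
-/

set_option autoImplicit false
set_option linter.unusedSectionVars false
set_option linter.unusedVariables false

namespace Fermat.Agent.S37x.Red.H11

open IsLocalRing

section Local

variable {R : Type*} [CommRing R] [IsDomain R] [IsLocalRing R] [IsNoetherianRing R]

/-- the height of a maximal ideal generated by two elements is at most two -/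
theorem height_maximalIdeal_le_two (π t : R) (hm : maximalIdeal R = Ideal.span {π, t}) :
    (maximalIdeal R).height ≤ 2 := by
  have hmin : maximalIdeal R ∈ (Ideal.span ({π, t} : Set R)).minimalPrimes := by
    rw [← hm]
    exact ⟨⟨inferInstance, le_rfl⟩, fun q hq _ => hq.2⟩
  have h1 := Ideal.height_le_card_of_mem_minimalPrimes_span (Set.toFinite ({π, t} : Set R)) hmin
  refine h1.trans ?_
  have h2 : ({π, t} : Set R).ncard ≤ 2 := by
    classical
    exact (Set.ncard_insert_le π {t}).trans (by rw [Set.ncard_singleton])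
  exact_mod_cast h2

/-- **A prime ideal other than the maximal ideal which contains a prime element is generated
by it.** -/
theorem eq_span_of_prime_mem (π t : R) (hm : maximalIdeal R = Ideal.span {π, t})
    (𝔭 : Ideal R) [h𝔭 : 𝔭.IsPrime] (p : R) (hp : Prime p) (hp𝔭 : p ∈ 𝔭)
    (hne : 𝔭 ≠ maximalIdeal R) : 𝔭 = Ideal.span {p} := by
  by_contra hcon
  have hpp : (Ideal.span {p} : Ideal R).IsPrime :=
    (Ideal.span_singleton_prime hp.ne_zero).mpr hp
  have hle : Ideal.span {p} ≤ 𝔭 := by
    rw [Ideal.span_le]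
    simpa using hp𝔭
  have hlt1 : (Ideal.span {p} : Ideal R) < 𝔭 := lt_of_le_of_ne hle (Ne.symm hcon)
  have hlt2 : 𝔭 < maximalIdeal R := lt_of_le_of_ne (le_maximalIdeal h𝔭.ne_top) hne
  have hlt0 : (⊥ : Ideal R) < Ideal.span {p} := by
    rw [bot_lt_iff_ne_bot, Ne, Ideal.span_singleton_eq_bot]
    exact hp.ne_zero
  have hbp : (⊥ : Ideal R).IsPrime := Ideal.isPrime_bot
  have h0 := Ideal.height_add_one_le_of_lt_of_isPrime hlt0
  have h1 := Ideal.height_add_one_le_of_lt_of_isPrime hlt1
  have h2 := Ideal.height_add_one_le_of_lt_of_isPrime hlt2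
  have h3 := height_maximalIdeal_le_two π t hm
  have h4 : (3 : ℕ∞) ≤ 2 := by
    calc (3 : ℕ∞) = 0 + 1 + 1 + 1 := by norm_num
      _ ≤ (⊥ : Ideal R).height + 1 + 1 + 1 := by gcongr; exact bot_le
      _ ≤ (Ideal.span {p} : Ideal R).height + 1 + 1 := by gcongr
      _ ≤ 𝔭.height + 1 := by gcongr
      _ ≤ (maximalIdeal R).height := h2
      _ ≤ 2 := h3
  exact absurd h4 (by decide)

/-- **Regular parameters transversal to the special fibre.**  If `(π, p) = 𝔪 = (π, t)` and
`π ∤ p`, then `p = x * t + π * c` with `x` a unit. -/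
theorem exists_unit_of_span_pair_eq (π t : R) (hm : maximalIdeal R = Ideal.span {π, t})
    (hπ : Prime π) (p : R) (hp : Prime p) (hπp : ¬ π ∣ p)
    (hmp : maximalIdeal R = Ideal.span {π, p}) :
    ∃ x c : R, IsUnit x ∧ p = x * t + π * c := by
  have hpm : p ∈ Ideal.span {π, t} := by
    rw [← hm, hmp]
    exact Ideal.subset_span (by simp)
  have htm : t ∈ Ideal.span {π, p} := by
    rw [← hmp, hm]
    exact Ideal.subset_span (by simp)
  obtain ⟨c, x, hcx⟩ := Ideal.mem_span_pair.mp hpm
  obtain ⟨a, b, hab⟩ := Ideal.mem_span_pair.mp htm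
  refine ⟨x, c, ?_, by rw [← hcx]; ring⟩
  by_contra hx
  have hxm : x ∈ maximalIdeal R := (mem_maximalIdeal x).mpr hx
  have hu : IsUnit (1 - b * x) := by
    by_contra h1
    have h2 : 1 - b * x ∈ maximalIdeal R := (mem_maximalIdeal _).mpr h1
    have h3 : (1 : R) ∈ maximalIdeal R := by
      have h := Ideal.add_mem _ h2 (Ideal.mul_mem_left _ b hxm)
      have h' : 1 - b * x + b * x = 1 := by ring
      rwa [h'] at h
    exact (Ideal.ne_top_iff_one _).mp (maximalIdeal.isMaximal R).ne_top h3
  -- `t * (1 - b x) = π (a + b c)`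
  have h4 : t * (1 - b * x) = π * (a + b * c) := by
    linear_combination (-1 : R) * hab - b * hcx
  have h5 : π ∣ t := by
    have : π ∣ t * (1 - b * x) := ⟨_, h4⟩
    rcases hπ.dvd_or_dvd this with h | h
    · exact h
    · exact absurd (isUnit_of_dvd_unit h hu) hπ.not_isUnit
  apply hπp
  obtain ⟨e, he⟩ := h5
  exact ⟨c + x * e, by rw [← hcx, he]; ring⟩

/-- the elements `u * t ^ d + π * c` (`u` a unit) multiply, the exponents add -/
theorem regular_mul (π t : R) {y₁ y₂ u₁ u₂ c₁ c₂ : R} {d₁ d₂ : ℕ} (hu₁ : IsUnit u₁)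
    (hu₂ : IsUnit u₂) (h₁ : y₁ = u₁ * t ^ d₁ + π * c₁) (h₂ : y₂ = u₂ * t ^ d₂ + π * c₂) :
    ∃ u c : R, IsUnit u ∧ y₁ * y₂ = u * t ^ (d₁ + d₂) + π * c :=
  ⟨u₁ * u₂, u₁ * t ^ d₁ * c₂ + c₁ * u₂ * t ^ d₂ + π * c₁ * c₂, hu₁.mul hu₂, by
    rw [h₁, h₂, pow_add]; ring⟩

end Local

end Fermat.Agent.S37x.Red.H11
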