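import Mathlib
import Fermat.Prelude.Def_AlgebraicCurve_DivisorClassGroup
import Fermat.Agent.S24.H21_PlaceOfVal
import Fermat.Agent.S18x.Dict.H7_LocPlace
import Fermat.Agent.S37x.Red.H11_ConsLocal

/-!
# S37 / [RED-M] (b-core), places through a closed point (helper11)

`R` a noetherian local domain with maximal ideal `(π, t)`, `π` prime, fraction field `F ⊇ K`,
`π ∈ K`.  A place `v` of `F / K` is *centred* at `R` if `R ⊆ O_v`.

* `exists_place_of_prime` : a prime element `p` of a UFD `R` with `K ⊆ R_(p)` defines a place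
  `v_p` with `ord_{v_p} = ord_p` on `R`;
* `exists_prime_of_centred` : every centred place is of this form, `p` not associated to `π`;
* `place_eq_of_ord_eq` : a place is determined by its order function on `R`;
* `maximalIdeal_eq_of_rational` : if `v_p` is `K`-rational then `(π, p) = 𝔪`.
-/

set_option autoImplicit false
set_option linter.unusedSectionVars false
set_option linter.unusedVariables false
set_option linter.style.haveILetI false

namespace Fermat.Agent.S37x.Red.H11

open AlgebraicCurve IsLocalRing

section PlaceBasics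

variable {K F : Type*} [Field K] [Field F] [Algebra K F]

/-- constants have order zero -/
theorem ord_algebraMap_eq_zero (v : Place K F) (c : K) : v.ord (algebraMap K F c) = 0 := by
  rcases eq_or_ne c 0 with rfl | hc
  · simp
  have hc' : algebraMap K F c ≠ 0 := by
    rw [Ne, map_eq_zero]
    exact hc
  have h1 : 0 ≤ v.ord (algebraMap K F c) :=
    (Fermat.Agent.S24.Orb.mem_place_iff_ord_nonneg v hc').mp (v.algebraMap_mem' c)
  have h2 : 0 ≤ v.ord (algebraMap K F c)⁻¹ := by
    rw [← map_inv₀]
    exact (Fermat.Agent.S24.Orb.mem_place_iff_ord_nonneg v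
      (by rw [map_inv₀]; exact inv_ne_zero hc')).mp (v.algebraMap_mem' c⁻¹)
  rw [v.ord_inv] at h2
  omega

/-- `v` is a `K`-rational place: every function regular at `v` has a value in `K`. -/
def Rational (v : Place K F) : Prop :=
  ∀ f : F, 0 ≤ v.ord f → ∃ c : K, f = algebraMap K F c ∨ 0 < v.ord (f - algebraMap K F c)

end PlaceBasics

section Centred

variable {K F : Type*} [Field K] [Field F] [Algebra K F]
variable (R : Type*) [CommRing R] [IsDomain R] [Algebra R F] [IsFractionRing R F]

/-- `R ⊆ O_v`. -/
def CentredR (v : Place K F) : Prop := ∀ r : R, 0 ≤ v.ord (algebraMap R F r)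

variable {R}

theorem algebraMap_ne_zero' {r : R} (hr : r ≠ 0) : algebraMap R F r ≠ 0 := by
  rw [Ne, map_eq_zero_iff _ (IsFractionRing.injective R F)]
  exact hr

theorem ord_map_mul (v : Place K F) {a b : R} (ha : a ≠ 0) (hb : b ≠ 0) :
    v.ord (algebraMap R F (a * b)) = v.ord (algebraMap R F a) + v.ord (algebraMap R F b) := by
  rw [map_mul]
  exact v.ord_mul (algebraMap_ne_zero' ha) (algebraMap_ne_zero' hb)

theorem ord_map_pow (v : Place K F) (a : R) (n : ℕ) :
    v.ord (algebraMap R F (a ^ n)) = n * v.ord (algebraMap R F a) := by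
  rw [map_pow, ← zpow_natCast, v.ord_zpow]

/-- a unit of `R` has order zero at a centred place -/
theorem CentredR.ord_unit {v : Place K F} (hv : CentredR R v) {u : R} (hu : IsUnit u) :
    v.ord (algebraMap R F u) = 0 := by
  obtain ⟨u', hu'⟩ := hu.exists_right_inv
  have hu0 : u ≠ 0 := hu.ne_zero
  have hu'0 : u' ≠ 0 := by
    rintro rfl
    rw [mul_zero] at hu'
    exact zero_ne_one hu'
  have h1 := ord_map_mul (F := F) v hu0 hu'0
  rw [hu', map_one, v.ord_one] at h1
  have h2 := hv u
  have h3 := hv u'
  omega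

/-- the ring homomorphism `R → O_v` of a centred place -/
noncomputable def CentredR.hom {v : Place K F} (hv : CentredR R v) :
    R →+* v.toValuationSubring :=
  (algebraMap R F).codRestrict v.toValuationSubring.toSubring (fun r => by
    rcases eq_or_ne r 0 with rfl | hr
    · rw [map_zero]
      exact zero_mem _
    · exact (Fermat.Agent.S24.Orb.mem_place_iff_ord_nonneg v (algebraMap_ne_zero' hr)).mpr
        (hv r))

theorem CentredR.coe_hom {v : Place K F} (hv : CentredR R v) (r : R) :
    ((hv.hom r : v.toValuationSubring) : F) = algebraMap R F r := rfl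

/-- an element of `O_v` is a unit iff it is nonzero of order zero -/
theorem isUnit_iff_ord_eq_zero (v : Place K F) (x : v.toValuationSubring) :
    IsUnit x ↔ x ≠ 0 ∧ v.ord (x : F) = 0 := by
  constructor
  · intro hx
    refine ⟨hx.ne_zero, ?_⟩
    have := v.ord_coe_unit hx.unit
    simpa using this
  · rintro ⟨hx0, hx⟩
    have hxF : (x : F) ≠ 0 := fun h => hx0 (Subtype.ext h)
    have hinv : (x : F)⁻¹ ∈ v.toValuationSubring := by
      refine (Fermat.Agent.S24.Orb.mem_place_iff_ord_nonneg v (inv_ne_zero hxF)).mpr ?_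
      rw [v.ord_inv, hx]
      simp
    refine isUnit_iff_exists_inv.mpr ⟨⟨_, hinv⟩, Subtype.ext ?_⟩
    show (x : F) * (x : F)⁻¹ = 1
    exact mul_inv_cancel₀ hxF

/-- the centre of `v` on `R`: the prime ideal `𝔪_v ∩ R` -/
noncomputable def CentredR.centre {v : Place K F} (hv : CentredR R v) : Ideal R :=
  (maximalIdeal v.toValuationSubring).comap hv.hom

instance CentredR.centre_isPrime {v : Place K F} (hv : CentredR R v) : hv.centre.IsPrime :=
  Ideal.comap_isPrime _ _

theorem CentredR.mem_centre {v : Place K F} (hv : CentredR R v) (r : R) :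
    r ∈ hv.centre ↔ r = 0 ∨ 0 < v.ord (algebraMap R F r) := by
  unfold CentredR.centre
  rw [Ideal.mem_comap, mem_maximalIdeal, mem_nonunits_iff, isUnit_iff_ord_eq_zero]
  have h0 : hv.hom r ≠ 0 ↔ r ≠ 0 := by
    rw [Ne, Ne, not_iff_not]
    constructor
    · intro h
      have h1 : algebraMap R F r = 0 := congrArg Subtype.val h
      exact (map_eq_zero_iff _ (IsFractionRing.injective R F)).mp h1
    · rintro rfl
      exact map_zero _
  rw [h0, hv.coe_hom]
  have h1 := hv r
  constructor
  · intro h
    by_cases hr : r = 0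
    · exact Or.inl hr
    · right
      have : v.ord (algebraMap R F r) ≠ 0 := fun h2 => h ⟨hr, h2⟩
      omega
  · rintro (rfl | h) ⟨h2, h3⟩
    · exact h2 rfl
    · omega

end Centred

section Primes

variable {K F : Type*} [Field K] [Field F] [Algebra K F]
variable {R : Type*} [CommRing R] [IsDomain R] [Algebra R F] [IsFractionRing R F]
variable [UniqueFactorizationMonoid R]

/-- a place is determined by its order function on `R` -/
theorem place_eq_of_ord_eq (v v' : Place K F)
    (h : ∀ r : R, r ≠ 0 → v.ord (algebraMap R F r) = v'.ord (algebraMap R F r)) : v = v' := by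
  have key : ∀ f : F, f ≠ 0 → v.ord f = v'.ord f := by
    intro f hf
    obtain ⟨a, b, ha, hb, hab⟩ := Fermat.Agent.S18x.Dict.H7.h7_exists_rep (R := R) f hf
    have hb' : algebraMap R F b ≠ 0 := algebraMap_ne_zero' hb
    have h1 := v.ord_mul hf hb'
    have h2 := v'.ord_mul hf hb'
    rw [hab] at h1 h2
    have h3 := h a ha
    have h4 := h b hb
    omega
  apply Fermat.Agent.S24.Orb.place_ext_of_ord
  intro f hf
  rw [key f hf]

/-- **The place of a prime element.** -/
theorem exists_place_of_prime (p : R) (hp : Prime p)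
    (hK : ∀ c : K, ∃ a b : R, ¬ p ∣ b ∧
      algebraMap K F c * algebraMap R F b = algebraMap R F a) :
    ∃ v : Place K F, ∀ r : R, r ≠ 0 → v.ord (algebraMap R F r) = (multiplicity p r : ℤ) := by
  have hinj : Function.Injective (algebraMap R F) := IsFractionRing.injective R F
  have hmult1 : multiplicity p (1 : R) = 0 := by
    rw [multiplicity_eq_zero]
    exact fun h => hp.not_isUnit (isUnit_of_dvd_one h)
  have hwR : ∀ r : R, r ≠ 0 →
      Fermat.Agent.S18x.Dict.H7.h7_w (F := F) p (algebraMap R F r) = (multiplicity p r : ℤ) := by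
    intro r hr
    rw [Fermat.Agent.S18x.Dict.H7.h7_w_eq p hp _ r 1 hr one_ne_zero (by simp), hmult1]
    simp
  have hKw : ∀ c : K, algebraMap K F c ≠ 0 →
      0 ≤ Fermat.Agent.S18x.Dict.H7.h7_w (F := F) p (algebraMap K F c) := by
    intro c hc
    obtain ⟨a', b', hgb, hab⟩ := hK c
    have hb0 : b' ≠ 0 := by
      rintro rfl
      exact hgb (dvd_zero p)
    have ha0 : a' ≠ 0 := by
      rintro rfl
      rw [map_zero] at hab
      exact mul_ne_zero hc (algebraMap_ne_zero' hb0) hab
    rw [Fermat.Agent.S18x.Dict.H7.h7_w_eq p hp _ a' b' ha0 hb0 hab, multiplicity_eq_zero.mpr hgb]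
    simp
  have hmultp : multiplicity p p = 1 := by
    have := multiplicity_pow_self_of_prime hp 1
    rwa [pow_one] at this
  have hnt : ∃ t : F, t ≠ 0 ∧ Fermat.Agent.S18x.Dict.H7.h7_w (F := F) p t ≠ 0 := by
    refine ⟨algebraMap R F p, algebraMap_ne_zero' hp.ne_zero, ?_⟩
    rw [hwR p hp.ne_zero, hmultp]
    simp
  obtain ⟨P, m', hm', hw, -⟩ := Fermat.Agent.S24.Orb.exists_place_of_valuation (K := K)
    (Fermat.Agent.S18x.Dict.H7.h7_w (F := F) p)
    (fun x y hx hy => Fermat.Agent.S18x.Dict.H7.h7_w_mul p hp x y hx hy)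
    (fun x y hx hy hxy => Fermat.Agent.S18x.Dict.H7.h7_w_add p hp x y hx hy hxy) hKw hnt
  have h1 := hw (algebraMap R F p) (algebraMap_ne_zero' hp.ne_zero)
  rw [hwR p hp.ne_zero, hmultp] at h1
  have hm1 : (m' : ℤ) = 1 :=
    Int.eq_one_of_mul_eq_one_right (by positivity) (by push_cast at h1; exact h1.symm)
  refine ⟨P, fun r hr => ?_⟩
  have h2 := hw (algebraMap R F r) (algebraMap_ne_zero' hr)
  rw [hwR r hr, hm1, one_mul] at h2
  exact h2.symm

variable [IsLocalRing R] [IsNoetherianRing R]

/-- **Every centred place is the place of a prime element** (not associated to `π`). -/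
theorem exists_prime_of_centred (π t : R) (hm : maximalIdeal R = Ideal.span {π, t})
    (hπ : Prime π) (v : Place K F) (hv : CentredR R v) (hπv : v.ord (algebraMap R F π) = 0) :
    ∃ p : R, Prime p ∧ ¬ π ∣ p ∧
      ∀ r : R, r ≠ 0 → v.ord (algebraMap R F r) = (multiplicity p r : ℤ) := by
  classical
  have hπm : π ∈ maximalIdeal R := by
    rw [hm]
    exact Ideal.subset_span (by simp)
  -- a uniformiser of `v`
  obtain ⟨ϖ, hϖ⟩ := IsDiscreteValuationRing.exists_irreducible v.toValuationSubring
  have hϖ1 : v.ord (ϖ : F) = 1 := v.ord_coe_irreducible hϖ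
  have hϖ0 : (ϖ : F) ≠ 0 := by
    intro h
    rw [h, v.ord_zero] at hϖ1
    exact zero_ne_one hϖ1
  obtain ⟨a, b, ha, hb, hab⟩ := Fermat.Agent.S18x.Dict.H7.h7_exists_rep (R := R) (ϖ : F) hϖ0
  have hordab : v.ord (algebraMap R F a) = 1 + v.ord (algebraMap R F b) := by
    rw [← hab, v.ord_mul hϖ0 (algebraMap_ne_zero' hb), hϖ1]
  -- the centre is a nonzero prime, not the maximal ideal
  have hane : hv.centre ≠ ⊥ := by
    intro h
    have h1 : a ∈ hv.centre := by
      rw [hv.mem_centre]
      right
      have := hv b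
      omega
    rw [h, Ideal.mem_bot] at h1
    exact ha h1
  have hπc : π ∉ hv.centre := by
    rw [hv.mem_centre]
    rintro (h | h)
    · exact hπ.ne_zero h
    · omega
  have hcm : hv.centre ≠ maximalIdeal R := fun h => hπc (h ▸ hπm)
  obtain ⟨p, hp𝔭, hp⟩ := Ideal.IsPrime.exists_mem_prime_of_ne_bot hv.centre_isPrime hane
  have hspan : hv.centre = Ideal.span {p} := eq_span_of_prime_mem π t hm hv.centre p hp hp𝔭 hcm
  have hpos : 0 < v.ord (algebraMap R F p) := by
    rcases (hv.mem_centre p).mp hp𝔭 with h | h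
    · exact absurd h hp.ne_zero
    · exact h
  -- `ord r = mult_p r * ord p`
  have hmul : ∀ r : R, r ≠ 0 →
      v.ord (algebraMap R F r) = (multiplicity p r : ℤ) * v.ord (algebraMap R F p) := by
    intro r hr
    have hfin : FiniteMultiplicity p r := FiniteMultiplicity.of_prime_left hp hr
    obtain ⟨c, hc, hpc⟩ := hfin.exists_eq_pow_mul_and_not_dvd
    have hc0 : c ≠ 0 := by
      rintro rfl
      exact hpc (dvd_zero p)
    have hcn : c ∉ hv.centre := by
      rw [hspan, Ideal.mem_span_singleton]
      exact hpc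
    have hc1 : v.ord (algebraMap R F c) = 0 := by
      have h1 := hv c
      rw [hv.mem_centre] at hcn
      push Not at hcn
      have := hcn.2
      omega
    have h2 : v.ord (algebraMap R F r) =
        v.ord (algebraMap R F (p ^ multiplicity p r)) + v.ord (algebraMap R F c) := by
      conv_lhs => rw [hc]
      exact ord_map_mul v (pow_ne_zero _ hp.ne_zero) hc0
    rw [h2, hc1, add_zero, ord_map_pow]
  have hp1 : v.ord (algebraMap R F p) = 1 := by
    have h1 := hmul a ha
    have h2 := hmul b hb
    have h3 : ((multiplicity p a : ℤ) - (multiplicity p b : ℤ)) * v.ord (algebraMap R F p) = 1 := by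
      rw [sub_mul, ← h1, ← h2, hordab]
      ring
    exact Int.eq_one_of_mul_eq_one_left hpos.le h3
  refine ⟨p, hp, ?_, fun r hr => by rw [hmul r hr, hp1, mul_one]⟩
  rintro ⟨c, hc⟩
  rcases hp.irreducible.isUnit_or_isUnit hc with h | h
  · exact hπ.not_isUnit h
  · apply hπc
    rw [hspan, Ideal.mem_span_singleton]
    obtain ⟨c', hc'⟩ := h.exists_right_inv
    exact ⟨c', by rw [hc, mul_assoc, hc', mul_one]⟩

/-- **A rational place is cut out by a regular parameter**: if the place of the prime element
`p` is `K`-rational, then `(π, p)` is the maximal ideal. -/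
theorem maximalIdeal_eq_of_rational (π : R) (hπm : π ∈ maximalIdeal R)
    (hKu : ∀ c : K, c ≠ 0 → ∃ (n : ℤ) (u : R), IsUnit u ∧
      algebraMap K F c = algebraMap R F π ^ n * algebraMap R F u)
    (p : R) (hp : Prime p) (hpπ : ¬ p ∣ π) (v : Place K F)
    (hvp : ∀ r : R, r ≠ 0 → v.ord (algebraMap R F r) = (multiplicity p r : ℤ))
    (hrat : Rational v) : maximalIdeal R = Ideal.span {π, p} := by
  have hinj : Function.Injective (algebraMap R F) := IsFractionRing.injective R F
  have hπ0 : π ≠ 0 := by
    rintro rfl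
    exact hpπ (dvd_zero p)
  have hπF : algebraMap R F π ≠ 0 := algebraMap_ne_zero' hπ0
  have hvπ : v.ord (algebraMap R F π) = 0 := by
    rw [hvp π hπ0, multiplicity_eq_zero.mpr hpπ]
    simp
  have hcen : CentredR R v := by
    intro r
    rcases eq_or_ne r 0 with rfl | hr
    · simp
    · rw [hvp r hr]
      positivity
  -- `0 < ord r → p ∣ r`
  have hdvd : ∀ r : R, 0 < v.ord (algebraMap R F r) → p ∣ r := by
    intro r hr
    have hr0 : r ≠ 0 := by
      rintro rfl
      simp at hr
    rw [hvp r hr0] at hr
    have : multiplicity p r ≠ 0 := by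
      intro h
      rw [h] at hr
      simp at hr
    by_contra hnd
    exact this (multiplicity_eq_zero.mpr hnd)
  apply le_antisymm
  · intro y hy
    rw [Ideal.mem_span_pair]
    obtain ⟨c, hc⟩ := hrat (algebraMap R F y) (hcen y)
    rcases eq_or_ne c 0 with rfl | hc0
    · -- value zero
      rw [map_zero, sub_zero] at hc
      rcases hc with hc | hc
      · have : y = 0 := (map_eq_zero_iff _ hinj).mp hc
        exact ⟨0, 0, by rw [this]; ring⟩
      · obtain ⟨e, he⟩ := hdvd y hc
        exact ⟨0, e, by rw [he]; ring⟩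
    obtain ⟨n, u, hu, hcu⟩ := hKu c hc0
    obtain ⟨u', huu'⟩ := hu.exists_right_inv
    rcases le_or_gt n 0 with hn | hn
    · -- `π ^ (-n) * y - u` is in `(p)` or zero, and `y ∈ 𝔪`: then `u ∈ 𝔪`
      exfalso
      obtain ⟨k, hk⟩ : ∃ k : ℕ, n = -(k : ℤ) := ⟨(-n).toNat, by
        rw [Int.toNat_of_nonneg (by omega)]; ring⟩
      have hcu' : algebraMap R F π ^ k * algebraMap K F c = algebraMap R F u := by
        rw [hcu, hk, zpow_neg, zpow_natCast]
        field_simp
      have hmem : π ^ k * y - u ∈ maximalIdeal R := by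
        rcases hc with hc | hc
        · have h1 : π ^ k * y - u = 0 := by
            apply hinj
            rw [map_sub, map_mul, map_pow, hc, hcu', sub_self, map_zero]
          rw [h1]
          exact Ideal.zero_mem _
        · have h1 : algebraMap R F (π ^ k * y - u) =
              algebraMap R F π ^ k * (algebraMap R F y - algebraMap K F c) := by
            rw [map_sub, map_mul, map_pow, mul_sub, hcu']
          have hne : algebraMap R F y - algebraMap K F c ≠ 0 := by
            intro h
            rw [h, v.ord_zero] at hc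
            exact lt_irrefl _ hc
          have h2 : v.ord (algebraMap R F (π ^ k * y - u)) =
              v.ord (algebraMap R F y - algebraMap K F c) := by
            rw [h1, v.ord_mul (pow_ne_zero _ hπF) hne, ← map_pow, ord_map_pow, hvπ]
            ring
          obtain ⟨e, he⟩ := hdvd _ (h2 ▸ hc)
          rw [he]
          exact Ideal.mul_mem_right _ _ ((mem_maximalIdeal p).mpr hp.not_isUnit)
      have hu_mem : u ∈ maximalIdeal R := by
        have h1 : u = π ^ k * y - (π ^ k * y - u) := by ring
        rw [h1]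
        exact Ideal.sub_mem _ (Ideal.mul_mem_left _ _ hy) hmem
      exact (mem_maximalIdeal u).mp hu_mem hu
    · obtain ⟨k, hk⟩ : ∃ k : ℕ, n = (k : ℤ) + 1 := ⟨(n - 1).toNat, by
        rw [Int.toNat_of_nonneg (by omega)]; ring⟩
      have hcu' : algebraMap K F c = algebraMap R F (π * (π ^ k * u)) := by
        rw [hcu, hk, zpow_add₀ hπF, zpow_one, zpow_natCast, map_mul, map_mul, map_pow]
        ring
      rcases hc with hc | hc
      · have h1 : y = π * (π ^ k * u) := hinj (by rw [hc, hcu'])
        exact ⟨π ^ k * u, 0, by rw [h1]; ring⟩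
      · rw [hcu', ← map_sub] at hc
        obtain ⟨e, he⟩ := hdvd _ hc
        exact ⟨π ^ k * u, e, by linear_combination (-1 : R) * he⟩
  · rw [Ideal.span_le]
    rintro x (rfl | rfl)
    · exact hπm
    · exact (mem_maximalIdeal _).mpr hp.not_isUnit

end Primes

end Fermat.Agent.S37x.Red.H11
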