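import Mathlib
import Fermat.Prelude.Def_AlgebraicCurve_DivisorClassGroup
import Fermat.Agent.S24.H21_PlaceOfVal
import Fermat.Agent.S18x.Dict.H7_LocPlace
import Fermat.Agent.S37x.Red.H11_ConsLocal
import Fermat.Agent.S37x.Red.H11_ConsPlace

/-!
# S37 / [RED-M] (b-core): the local form of `r_* div y = div ȳ` (helper11)

`R` a noetherian local domain with maximal ideal `(π, t)`, `π` prime, fraction field `F ⊇ K`,
`π ∈ K`, every element of `K^×` a power of `π` times a unit of `R`.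

* `cons_local` : if `y ∈ R`, `π ∤ y`, and all places of `F / K` centred at `R` at which `y`
  vanishes are `K`-rational, then `y = u * t ^ d + π * c` with `u` a unit and
  `d = Σ_{v centred} ord_v y`.
-/

set_option autoImplicit false
set_option linter.unusedSectionVars false
set_option linter.unusedVariables false
set_option linter.style.haveILetI false

namespace Fermat.Agent.S37x.Red.H11

open AlgebraicCurve IsLocalRing

section Local

variable {K F : Type*} [Field K] [Field F] [Algebra K F]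
variable {R : Type*} [CommRing R] [IsDomain R] [Algebra R F] [IsFractionRing R F]
  [IsLocalRing R] [IsNoetherianRing R]

/-- `K ⊆ R_(p)` for a prime element `p` not dividing `π`. -/
theorem hK_of_hKu (π : R)
    (hKu : ∀ c : K, c ≠ 0 → ∃ (n : ℤ) (u : R), IsUnit u ∧
      algebraMap K F c = algebraMap R F π ^ n * algebraMap R F u)
    (p : R) (hp : Prime p) (hpπ : ¬ p ∣ π) (c : K) :
    ∃ a b : R, ¬ p ∣ b ∧ algebraMap K F c * algebraMap R F b = algebraMap R F a := by
  have hπ0 : π ≠ 0 := by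
    rintro rfl
    exact hpπ (dvd_zero p)
  have hπF : algebraMap R F π ≠ 0 := algebraMap_ne_zero' hπ0
  have h1 : ¬ p ∣ (1 : R) := fun h => hp.not_isUnit (isUnit_of_dvd_one h)
  rcases eq_or_ne c 0 with rfl | hc
  · exact ⟨0, 1, h1, by simp⟩
  obtain ⟨n, u, hu, hcu⟩ := hKu c hc
  rcases le_or_gt 0 n with hn | hn
  · obtain ⟨k, rfl⟩ : ∃ k : ℕ, n = (k : ℤ) := ⟨n.toNat, by rw [Int.toNat_of_nonneg hn]⟩
    refine ⟨π ^ k * u, 1, h1, ?_⟩
    rw [hcu, zpow_natCast, map_one, mul_one, map_mul, map_pow]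
  · obtain ⟨k, rfl⟩ : ∃ k : ℕ, n = -(k : ℤ) := ⟨(-n).toNat, by
      rw [Int.toNat_of_nonneg (by omega)]; ring⟩
    refine ⟨u, π ^ k, fun h => hpπ (hp.dvd_of_dvd_pow h), ?_⟩
    rw [hcu, zpow_neg, zpow_natCast, map_pow]
    field_simp

/-- **The local form of `r_* div y = div ȳ`.** -/
theorem cons_local (π t : R) (hm : maximalIdeal R = Ideal.span {π, t}) (hπ : Prime π)
    (π₀ : K) (hπ₀ : algebraMap K F π₀ = algebraMap R F π)
    (hKu : ∀ c : K, c ≠ 0 → ∃ (n : ℤ) (u : R), IsUnit u ∧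
      algebraMap K F c = algebraMap R F π ^ n * algebraMap R F u)
    (y : R) (hy0 : y ≠ 0) (hπy : ¬ π ∣ y)
    (hrat : ∀ v : Place K F, CentredR R v → 0 < v.ord (algebraMap R F y) → Rational v) :
    ∃ (d : ℕ) (u c : R), IsUnit u ∧ y = u * t ^ d + π * c ∧
      ∀ S : Finset (Place K F),
        (∀ v, v ∈ S ↔ CentredR R v ∧ v.ord (algebraMap R F y) ≠ 0) →
        ∑ v ∈ S, v.ord (algebraMap R F y) = d := by
  classical
  have hπsp : (Ideal.span {π} : Ideal R).IsPrime := (Ideal.span_singleton_prime hπ.ne_zero).mpr hπ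
  haveI hufm : UniqueFactorizationMonoid R :=
    Fermat.Agent.S18x.Dict.H7.h7_ufm π t hm hπsp hπ.ne_zero
  have hπm : π ∈ maximalIdeal R := by
    rw [hm]
    exact Ideal.subset_span (by simp)
  have hπv : ∀ v : Place K F, v.ord (algebraMap R F π) = 0 := fun v => by
    rw [← hπ₀]
    exact ord_algebraMap_eq_zero v π₀
  revert hy0 hπy hrat
  induction y using UniqueFactorizationMonoid.induction_on_prime with
  | h₁ => intro h; exact absurd rfl h
  | h₂ x hx =>
    intro _ _ _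
    refine ⟨0, x, 0, hx, by ring, fun S hS => ?_⟩
    have hSe : S = ∅ := by
      rw [Finset.eq_empty_iff_forall_notMem]
      intro v hv
      obtain ⟨hc, hne⟩ := (hS v).mp hv
      exact hne (hc.ord_unit hx)
    rw [hSe]
    simp
  | h₃ a p ha hp ih =>
    intro hy0 hπy hrat
    have hπa : ¬ π ∣ a := fun h => hπy (h.mul_left p)
    have hπp : ¬ π ∣ p := fun h => hπy (h.mul_right a)
    have hpπ : ¬ p ∣ π := by
      rintro ⟨c, hc⟩
      rcases hπ.irreducible.isUnit_or_isUnit hc with h | h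
      · exact hp.not_isUnit h
      · obtain ⟨c', hc'⟩ := h.exists_right_inv
        exact hπp ⟨c', by rw [hc, mul_assoc, hc', mul_one]⟩
    -- the place of `p`
    obtain ⟨vp, hvp⟩ := exists_place_of_prime (K := K) (F := F) p hp
      (hK_of_hKu π hKu p hp hpπ)
    have hvpc : CentredR R vp := by
      intro r
      rcases eq_or_ne r 0 with rfl | hr
      · simp
      · rw [hvp r hr]
        positivity
    have hmultp : multiplicity p p = 1 := by
      have := multiplicity_pow_self_of_prime hp 1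
      rwa [pow_one] at this
    have hvpp : vp.ord (algebraMap R F p) = 1 := by
      rw [hvp p hp.ne_zero, hmultp]
      simp
    have hordmul : ∀ v : Place K F, v.ord (algebraMap R F (p * a)) =
        v.ord (algebraMap R F p) + v.ord (algebraMap R F a) :=
      fun v => ord_map_mul v hp.ne_zero ha
    have hvpy : 0 < vp.ord (algebraMap R F (p * a)) := by
      rw [hordmul, hvpp]
      have := hvpc a
      omega
    have hratp : Rational vp := hrat vp hvpc hvpy
    have hmp : maximalIdeal R = Ideal.span {π, p} :=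
      maximalIdeal_eq_of_rational π hπm hKu p hp hpπ vp hvp hratp
    obtain ⟨x, c₁, hx, hpx⟩ := exists_unit_of_span_pair_eq π t hm hπ p hp hπp hmp
    -- induction hypothesis
    obtain ⟨d, u, c, hu, hauc, hsum⟩ := ih ha hπa (fun v hv hva => hrat v hv (by
      rw [hordmul]
      have := hv p
      omega))
    obtain ⟨u', c', hu', hprod⟩ := regular_mul π t (d₁ := d) (d₂ := 1) hu hx hauc
      (by rw [pow_one, ← hpx])
    refine ⟨d + 1, u', c', hu', by rw [mul_comm, hprod], fun S hS => ?_⟩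
    -- the sum
    have hvpS : vp ∈ S := (hS vp).mpr ⟨hvpc, hvpy.ne'⟩
    have hSa : ∀ v, v ∈ S.filter (fun v => v.ord (algebraMap R F a) ≠ 0) ↔
        CentredR R v ∧ v.ord (algebraMap R F a) ≠ 0 := by
      intro v
      rw [Finset.mem_filter, hS v]
      constructor
      · rintro ⟨⟨h1, -⟩, h2⟩
        exact ⟨h1, h2⟩
      · rintro ⟨h1, h2⟩
        refine ⟨⟨h1, ?_⟩, h2⟩
        rw [hordmul]
        have := h1 p
        have := h1 a
        omega
    have h1 := hsum _ hSa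
    rw [Finset.sum_filter_ne_zero] at h1
    have h2 : ∑ v ∈ S, v.ord (algebraMap R F p) = 1 := by
      rw [Finset.sum_eq_single_of_mem vp hvpS, hvpp]
      intro b hbS hbne
      by_contra hb0
      apply hbne
      have hbc : CentredR R b := ((hS b).mp hbS).1
      obtain ⟨q, hq, -, hbq⟩ := exists_prime_of_centred π t hm hπ b hbc (hπv b)
      rw [hbq p hp.ne_zero] at hb0
      have hqp : q ∣ p := by
        by_contra hnd
        apply hb0
        rw [multiplicity_eq_zero.mpr hnd]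
        simp
      have hass : Associated q p := hq.associated_of_dvd hp hqp
      apply place_eq_of_ord_eq (R := R)
      intro r hr
      rw [hbq r hr, hvp r hr, multiplicity_eq_of_associated_left hass]
    simp only [hordmul, Finset.sum_add_distrib, h1, h2]
    push_cast
    ring

end Local

section Abs

variable {K F B R : Type*} [Field K] [Field F] [Algebra K F]
  [CommRing B] [IsDomain B] [Algebra B F]
  [CommRing R] [IsDomain R] [IsLocalRing R] [IsNoetherianRing R] [Algebra B R] [Algebra R F]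
  [IsScalarTower B R F] [IsFractionRing R F]

/-- `B_𝔫 ⊆ O_v`: the place `v` specialises to the closed point `𝔫`. -/
def CentredAt (𝔫 : Ideal B) (v : Place K F) : Prop :=
  (∀ b : B, 0 ≤ v.ord (algebraMap B F b)) ∧ ∀ s : B, s ∉ 𝔫 → v.ord (algebraMap B F s) = 0

theorem centredR_iff_centredAt (𝔫 : Ideal B) [h𝔫 : 𝔫.IsPrime] [IsLocalization.AtPrime R 𝔫]
    (v : Place K F) : CentredR R v ↔ CentredAt (F := F) 𝔫 v := by
  have hφι : ∀ b : B, algebraMap R F (algebraMap B R b) = algebraMap B F b :=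
    fun b => (IsScalarTower.algebraMap_apply B R F b).symm
  have hunit : ∀ s : B, s ∉ 𝔫 → IsUnit (algebraMap B R s) :=
    fun s hs => IsLocalization.map_units R (⟨s, hs⟩ : 𝔫.primeCompl)
  have hle : 𝔫.primeCompl ≤ nonZeroDivisors B := Ideal.primeCompl_le_nonZeroDivisors 𝔫
  have hιinj : Function.Injective (algebraMap B R) := IsLocalization.injective R hle
  constructor
  · intro hv
    refine ⟨fun b => by rw [← hφι]; exact hv _, fun s hs => ?_⟩
    rw [← hφι]
    exact hv.ord_unit (hunit s hs)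
  · rintro ⟨h1, h2⟩ x
    obtain ⟨b, s, rfl⟩ := IsLocalization.exists_mk'_eq 𝔫.primeCompl x
    rcases eq_or_ne (IsLocalization.mk' R b s) 0 with h0 | h0
    · rw [h0, map_zero, v.ord_zero]
    have hs0 : algebraMap B R (s : B) ≠ 0 := (hunit s s.2).ne_zero
    have h3 := ord_map_mul (F := F) v h0 hs0
    rw [IsLocalization.mk'_spec, hφι, hφι, h2 s s.2] at h3
    have := h1 b
    omega

/-- **(b-core), abstract form.** -/
theorem cons_abs (𝔫 : Ideal B) [h𝔫 : 𝔫.IsPrime] [IsLocalization.AtPrime R 𝔫]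
    (π t : B) (hπ0 : π ≠ 0) (hπp : (Ideal.span {π} : Ideal B).IsPrime)
    (π₀ : K) (hπ₀ : algebraMap K F π₀ = algebraMap B F π)
    (hKu : ∀ c : K, c ≠ 0 → ∃ (n : ℤ) (u u' : B), u * u' = 1 ∧
      algebraMap K F c = algebraMap B F π ^ n * algebraMap B F u)
    (hπ𝔫 : π ∈ 𝔫) (ht𝔫 : t ∈ 𝔫)
    (hSM : ∀ x ∈ 𝔫, ∃ s : B, s ∉ 𝔫 ∧ ∃ u v : B, s * x = π * u + t * v)
    (y : B) (hy : y ∉ Ideal.span {π})
    (hrat : ∀ v : Place K F, CentredAt (F := F) 𝔫 v → 0 < v.ord (algebraMap B F y) →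
      Rational v) :
    ∃ (d : ℕ) (s u c : B), s ∉ 𝔫 ∧ u ∉ 𝔫 ∧ s * y = u * t ^ d + π * c ∧
      ∀ S : Finset (Place K F),
        (∀ v, v ∈ S ↔ CentredAt (F := F) 𝔫 v ∧ v.ord (algebraMap B F y) ≠ 0) →
        ∑ v ∈ S, v.ord (algebraMap B F y) = d := by
  classical
  have hφι : ∀ b : B, algebraMap R F (algebraMap B R b) = algebraMap B F b :=
    fun b => (IsScalarTower.algebraMap_apply B R F b).symm
  have hle : 𝔫.primeCompl ≤ nonZeroDivisors B := Ideal.primeCompl_le_nonZeroDivisors 𝔫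
  have hιinj : Function.Injective (algebraMap B R) := IsLocalization.injective R hle
  have hunit : ∀ s : B, s ∉ 𝔫 → IsUnit (algebraMap B R s) :=
    fun s hs => IsLocalization.map_units R (⟨s, hs⟩ : 𝔫.primeCompl)
  have hπ𝔫' : (Ideal.span {π} : Ideal B) ≤ 𝔫 := by
    rw [Ideal.span_le]
    simpa using hπ𝔫
  have hdisj : Disjoint (𝔫.primeCompl : Set B) ((Ideal.span {π} : Ideal B) : Set B) := by
    rw [Set.disjoint_left]
    intro x hx hx'
    exact hx (hπ𝔫' hx')
  have hmapspan : Ideal.map (algebraMap B R) (Ideal.span {π}) =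
      Ideal.span {algebraMap B R π} := by
    rw [Ideal.map_span, Set.image_singleton]
  -- 1. the maximal ideal
  have hmax : maximalIdeal R = Ideal.span {algebraMap B R π, algebraMap B R t} := by
    apply le_antisymm
    · intro x hx
      obtain ⟨b, s, rfl⟩ := IsLocalization.exists_mk'_eq 𝔫.primeCompl x
      have hb : b ∈ 𝔫 := (IsLocalization.AtPrime.mk'_mem_maximal_iff R 𝔫 b s).mp hx
      obtain ⟨s', hs', u, v, huv⟩ := hSM b hb
      have h1 : algebraMap B R (s' * s) * IsLocalization.mk' R b s =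
          algebraMap B R π * algebraMap B R u + algebraMap B R t * algebraMap B R v := by
        rw [map_mul, mul_assoc, mul_comm (algebraMap B R (s : B)), IsLocalization.mk'_spec,
          ← map_mul, huv, map_add, map_mul, map_mul]
      have h2 : algebraMap B R (s' * s) * IsLocalization.mk' R b s ∈
          Ideal.span {algebraMap B R π, algebraMap B R t} := by
        rw [h1, Ideal.mem_span_pair]
        exact ⟨algebraMap B R u, algebraMap B R v, by ring⟩
      have h3 : IsUnit (algebraMap B R (s' * s)) := by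
        rw [map_mul]
        exact (hunit s' hs').mul (hunit s s.2)
      exact (Ideal.unit_mul_mem_iff_mem _ h3).mp h2
    · rw [Ideal.span_le]
      rintro x (rfl | rfl)
      · exact (IsLocalization.AtPrime.to_map_mem_maximal_iff R 𝔫 π).mpr hπ𝔫
      · exact (IsLocalization.AtPrime.to_map_mem_maximal_iff R 𝔫 t).mpr ht𝔫
  -- 2. `(π)` is prime in `R`
  have hπR : (Ideal.span {algebraMap B R π} : Ideal R).IsPrime := by
    rw [← hmapspan]
    exact IsLocalization.isPrime_of_isPrime_disjoint 𝔫.primeCompl R _ hπp hdisj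
  have hπR0 : algebraMap B R π ≠ 0 := by
    rw [Ne, map_eq_zero_iff _ hιinj]
    exact hπ0
  have hpR : Prime (algebraMap B R π) := (Ideal.span_singleton_prime hπR0).mp hπR
  -- 3. contraction of `(π)`
  have hcontr : ∀ b : B, algebraMap B R b ∈ Ideal.span {algebraMap B R π} →
      b ∈ Ideal.span {π} := by
    intro b hb
    rw [← hmapspan] at hb
    have := IsLocalization.under_map_of_isPrime_disjoint 𝔫.primeCompl R hπp hdisj
    rw [← this]
    exact hb
  -- 4. apply `cons_local`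
  have hyR0 : algebraMap B R y ≠ 0 := by
    rw [Ne, map_eq_zero_iff _ hιinj]
    rintro rfl
    exact hy (Ideal.zero_mem _)
  have hπyR : ¬ algebraMap B R π ∣ algebraMap B R y := by
    intro h
    exact hy (hcontr y (Ideal.mem_span_singleton.mpr h))
  have hKuR : ∀ c : K, c ≠ 0 → ∃ (n : ℤ) (u : R), IsUnit u ∧
      algebraMap K F c = algebraMap R F (algebraMap B R π) ^ n * algebraMap R F u := by
    intro c hc
    obtain ⟨n, u, u', huu', hcu⟩ := hKu c hc
    refine ⟨n, algebraMap B R u, ?_, by rw [hφι, hφι]; exact hcu⟩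
    exact isUnit_iff_exists_inv.mpr ⟨algebraMap B R u', by rw [← map_mul, huu', map_one]⟩
  obtain ⟨d, u, c, hu, hyuc, hsum⟩ := cons_local (K := K) (F := F) (algebraMap B R π)
    (algebraMap B R t) hmax hpR π₀ (by rw [hφι]; exact hπ₀) hKuR (algebraMap B R y) hyR0 hπyR
    (fun v hv hvy => hrat v ((centredR_iff_centredAt (R := R) 𝔫 v).mp hv) (by
      rw [← hφι]; exact hvy))
  -- 5. clear denominators
  obtain ⟨ub, s₁, rfl⟩ := IsLocalization.exists_mk'_eq 𝔫.primeCompl u
  obtain ⟨cb, s₂, rfl⟩ := IsLocalization.exists_mk'_eq 𝔫.primeCompl c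
  have hub : ub ∉ 𝔫 := by
    have h1 : IsUnit (algebraMap B R ub) := by
      rw [← IsLocalization.mk'_spec R ub s₁]
      exact hu.mul (hunit s₁ s₁.2)
    exact fun h => (IsLocalization.AtPrime.to_map_mem_maximal_iff R 𝔫 ub).mpr h |>
      (mem_maximalIdeal _).mp <| h1
  refine ⟨d, (s₁ : B) * (s₂ : B), (s₂ : B) * ub, (s₁ : B) * cb,
    𝔫.primeCompl.mul_mem s₁.2 s₂.2, 𝔫.primeCompl.mul_mem s₂.2 hub, ?_, fun S hS => ?_⟩
  · apply hιinj
    have e1 := IsLocalization.mk'_spec R ub s₁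
    have e2 := IsLocalization.mk'_spec R cb s₂
    simp only [map_mul, map_add, map_pow]
    rw [hyuc, ← e1, ← e2]
    ring
  · have h1 := hsum S (fun v => by
      rw [hS v, centredR_iff_centredAt (R := R) 𝔫 v, hφι])
    simpa only [hφι] using h1

end Abs

section Final

variable {K F : Type*} [Field K] [Field F] [Algebra K F]

/-- `B_𝔫 ⊆ O_v` for a subring `B` of `F`: the place `v` of `F / K` specialises to the closed
point `𝔫` of `Spec B`. -/
def Centred (B : Subring F) (𝔫 : Ideal B) (v : Place K F) : Prop :=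
  (∀ b : B, 0 ≤ v.ord (b : F)) ∧ ∀ s : B, s ∉ 𝔫 → v.ord (s : F) = 0

/-- **(b-core)** for a subring `B` of `F`: the local form of `r_* div y = div ȳ` at a closed
point `𝔫` of the special fibre of `Spec B` with (SM), `𝔫 B_𝔫 = (π, t)`.  If `y ∈ B ∖ π B` and
every place of `F / K` through `𝔫` at which `y` vanishes is `K`-rational, then
`s * y = u * t ^ d + π * c` with `s, u ∉ 𝔫` and `d = Σ_{v through 𝔫} ord_v y`. -/
theorem cons_core (B : Subring F) [IsNoetherianRing B] (π : F) (hπB : π ∈ B) (hπ0 : π ≠ 0)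
    (hπp : (Ideal.span {(⟨π, hπB⟩ : B)}).IsPrime)
    (π₀ : K) (hπ₀ : algebraMap K F π₀ = π)
    (hKu : ∀ c : K, c ≠ 0 → ∃ (n : ℤ) (u u' : B), u * u' = 1 ∧
      algebraMap K F c = π ^ n * (u : F))
    (hfrac : ∀ x : F, ∃ a b : B, b ≠ 0 ∧ x * (b : F) = (a : F))
    (𝔫 : Ideal B) (h𝔫 : 𝔫.IsMaximal) (hπ𝔫 : (⟨π, hπB⟩ : B) ∈ 𝔫)
    (t : B) (ht𝔫 : t ∈ 𝔫)
    (hSM : ∀ x ∈ 𝔫, ∃ s : B, s ∉ 𝔫 ∧ ∃ u v : B, s * x = ⟨π, hπB⟩ * u + t * v)
    (y : B) (hy : y ∉ Ideal.span {(⟨π, hπB⟩ : B)})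
    (hrat : ∀ v : Place K F, Centred B 𝔫 v → 0 < v.ord (y : F) → Rational v) :
    ∃ (d : ℕ) (s u c : B), s ∉ 𝔫 ∧ u ∉ 𝔫 ∧ s * y = u * t ^ d + ⟨π, hπB⟩ * c ∧
      ∀ S : Finset (Place K F),
        (∀ v, v ∈ S ↔ Centred B 𝔫 v ∧ v.ord (y : F) ≠ 0) →
        ∑ v ∈ S, v.ord (y : F) = d := by
  classical
  haveI : 𝔫.IsPrime := h𝔫.isPrime
  set π' : B := ⟨π, hπB⟩ with hπ'
  have hπ'0 : π' ≠ 0 := by
    intro h
    exact hπ0 (congrArg Subtype.val h)
  -- the localisation
  have hu : ∀ y : 𝔫.primeCompl, IsUnit (algebraMap B F (y : B)) := by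
    intro y
    refine IsUnit.mk0 _ ?_
    intro h0
    have : (y : B) = 0 := Subtype.ext h0
    exact y.2 (this ▸ 𝔫.zero_mem)
  letI : Algebra (Localization.AtPrime 𝔫) F :=
    (IsLocalization.lift (M := 𝔫.primeCompl) (S := Localization.AtPrime 𝔫)
      (g := algebraMap B F) hu).toAlgebra
  haveI : IsScalarTower B (Localization.AtPrime 𝔫) F :=
    IsScalarTower.of_algebraMap_eq (fun x => (IsLocalization.lift_eq hu x).symm)
  haveI : IsFractionRing B F := by
    refine IsFractionRing.of_field B F ?_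
    intro z
    obtain ⟨a, b, hb0, hab⟩ := hfrac z
    refine ⟨a, b, ?_⟩
    have hbF : (b : F) ≠ 0 := fun h => hb0 (Subtype.ext h)
    rw [eq_div_iff (by exact hbF)]
    exact hab
  haveI : IsFractionRing (Localization.AtPrime 𝔫) F :=
    IsFractionRing.isFractionRing_of_isDomain_of_isLocalization 𝔫.primeCompl
      (Localization.AtPrime 𝔫) F
  haveI : IsDomain (Localization.AtPrime 𝔫) :=
    IsLocalization.isDomain_localization (Ideal.primeCompl_le_nonZeroDivisors 𝔫)
  haveI : IsNoetherianRing (Localization.AtPrime 𝔫) :=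
    IsLocalization.isNoetherianRing 𝔫.primeCompl (Localization.AtPrime 𝔫) inferInstance
  exact cons_abs (K := K) (F := F) (B := B) (R := Localization.AtPrime 𝔫) 𝔫 π' t hπ'0 hπp π₀
    hπ₀ hKu hπ𝔫 ht𝔫 hSM y hy hrat

open scoped Classical in
/-- **(b-core)**, divisor form: `d = Σ_{v ∈ supp D, v through 𝔫} D v` for the divisor `D` of
`y`. -/
theorem cons_core_div (B : Subring F) [IsNoetherianRing B] (π : F) (hπB : π ∈ B) (hπ0 : π ≠ 0)
    (hπp : (Ideal.span {(⟨π, hπB⟩ : B)}).IsPrime)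
    (π₀ : K) (hπ₀ : algebraMap K F π₀ = π)
    (hKu : ∀ c : K, c ≠ 0 → ∃ (n : ℤ) (u u' : B), u * u' = 1 ∧
      algebraMap K F c = π ^ n * (u : F))
    (hfrac : ∀ x : F, ∃ a b : B, b ≠ 0 ∧ x * (b : F) = (a : F))
    (𝔫 : Ideal B) (h𝔫 : 𝔫.IsMaximal) (hπ𝔫 : (⟨π, hπB⟩ : B) ∈ 𝔫)
    (t : B) (ht𝔫 : t ∈ 𝔫)
    (hSM : ∀ x ∈ 𝔫, ∃ s : B, s ∉ 𝔫 ∧ ∃ u v : B, s * x = ⟨π, hπB⟩ * u + t * v)
    (y : B) (hy : y ∉ Ideal.span {(⟨π, hπB⟩ : B)})
    (hrat : ∀ v : Place K F, Centred B 𝔫 v → 0 < v.ord (y : F) → Rational v)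
    (D : Place K F →₀ ℤ) (hD : ∀ v, D v = v.ord (y : F)) :
    ∃ (d : ℕ) (s u c : B), s ∉ 𝔫 ∧ u ∉ 𝔫 ∧ s * y = u * t ^ d + ⟨π, hπB⟩ * c ∧
      ∑ v ∈ D.support.filter (Centred B 𝔫), D v = d := by
  obtain ⟨d, s, u, c, hs, hu, h1, h2⟩ := cons_core B π hπB hπ0 hπp π₀ hπ₀ hKu hfrac 𝔫 h𝔫 hπ𝔫
    t ht𝔫 hSM y hy hrat
  refine ⟨d, s, u, c, hs, hu, h1, ?_⟩
  rw [← h2 (D.support.filter (Centred B 𝔫)) (fun v => by
    rw [Finset.mem_filter, Finsupp.mem_support_iff, hD v, and_comm])]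
  exact Finset.sum_congr rfl (fun v _ => hD v)

end Final

section Dvr

variable {O K F : Type*} [CommRing O] [IsDomain O] [IsDiscreteValuationRing O] [Field K]
  [Field F] [Algebra O K] [IsFractionRing O K] [Algebra K F] [Algebra O F]
  [IsScalarTower O K F]

/-- every element of `K^×` is a power of the uniformiser times a unit of `B ⊇ O` -/
theorem hKu_of_dvr (π₀ : O) (hπ₀ : Irreducible π₀) (B : Subring F)
    (hOB : ∀ c : O, algebraMap O F c ∈ B) (c : K) (hc : c ≠ 0) :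
    ∃ (n : ℤ) (u u' : B), u * u' = 1 ∧
      algebraMap K F c = algebraMap O F π₀ ^ n * (u : F) := by
  obtain ⟨n, u, hu⟩ := IsDiscreteValuationRing.exists_units_eq_smul_zpow_of_irreducible
    (K := K) hπ₀ hc
  refine ⟨n, ⟨algebraMap O F (u : O), hOB _⟩, ⟨algebraMap O F ((u⁻¹ : Oˣ) : O), hOB _⟩,
    Subtype.ext ?_, ?_⟩
  · show algebraMap O F (u : O) * algebraMap O F ((u⁻¹ : Oˣ) : O) = 1
    rw [← map_mul, Units.mul_inv, map_one]
  · show algebraMap K F c = algebraMap O F π₀ ^ n * algebraMap O F (u : O)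
    rw [hu, Units.smul_def, Algebra.smul_def, map_mul, map_zpow₀,
      ← IsScalarTower.algebraMap_apply O K F, ← IsScalarTower.algebraMap_apply O K F]
    ring

/-- **(b-core)** over a discrete valuation ring `O` with uniformiser `π₀` and fraction field
`K`: the hypotheses are those of `h7_LOC` / `h26_hLOC`. -/
theorem cons_core_dvr (π₀ : O) (hπ₀ : Irreducible π₀) (B : Subring F) [IsNoetherianRing B]
    (hOB : ∀ c : O, algebraMap O F c ∈ B)
    (hπp : (Ideal.span {(⟨algebraMap O F π₀, hOB π₀⟩ : B)}).IsPrime)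
    (hfrac : ∀ x : F, ∃ a b : B, b ≠ 0 ∧ x * (b : F) = (a : F))
    (𝔫 : Ideal B) (h𝔫 : 𝔫.IsMaximal) (hπ𝔫 : (⟨algebraMap O F π₀, hOB π₀⟩ : B) ∈ 𝔫)
    (t : B) (ht𝔫 : t ∈ 𝔫)
    (hSM : ∀ x ∈ 𝔫, ∃ s : B, s ∉ 𝔫 ∧ ∃ u v : B,
      s * x = ⟨algebraMap O F π₀, hOB π₀⟩ * u + t * v)
    (y : B) (hy : y ∉ Ideal.span {(⟨algebraMap O F π₀, hOB π₀⟩ : B)})
    (hrat : ∀ v : Place K F, Centred B 𝔫 v → 0 < v.ord (y : F) → Rational v) :
    ∃ (d : ℕ) (s u c : B), s ∉ 𝔫 ∧ u ∉ 𝔫 ∧
      s * y = u * t ^ d + ⟨algebraMap O F π₀, hOB π₀⟩ * c ∧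
      ∀ S : Finset (Place K F),
        (∀ v, v ∈ S ↔ Centred B 𝔫 v ∧ v.ord (y : F) ≠ 0) →
        ∑ v ∈ S, v.ord (y : F) = d := by
  have hinj : Function.Injective (algebraMap O F) := by
    rw [IsScalarTower.algebraMap_eq O K F]
    exact (algebraMap K F).injective.comp (IsFractionRing.injective O K)
  have hπ0 : algebraMap O F π₀ ≠ 0 := (map_ne_zero_iff _ hinj).mpr hπ₀.ne_zero
  exact cons_core (K := K) B (algebraMap O F π₀) (hOB π₀) hπ0 hπp (algebraMap O K π₀)
    (IsScalarTower.algebraMap_apply O K F π₀).symm (hKu_of_dvr π₀ hπ₀ B hOB) hfrac 𝔫 h𝔫 hπ𝔫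
    t ht𝔫 hSM y hy hrat

end Dvr

end Fermat.Agent.S37x.Red.H11
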