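import Mathlib
import Fermat.Prelude.Def_AlgebraicCurve_DivisorClassGroup

/-!
# S37 [RED-M] (c2), part (S1): the abstract separation lemma (helper20)

`r : Place K F → Place k F'` a map on places, `f : F` with divisor `D`, `fbar : F'` with
`r_* D = div fbar` (conservation).  If `f` vanishes at `P`, is regular at every place reducing
into `𝒯 ∪ {r P}`, `ord_{r P} fbar = 1` and `ord_{Q'} fbar = 0` for `Q' ∈ 𝒯`, `Q' ≠ r P`, then
`ord_P f = 1` and every other zero or pole of `f` reduces outside `𝒯 ∪ {r P}`.
-/

set_option autoImplicit false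

open AlgebraicCurve

namespace Fermat.Agent.S37x.Red.H20

variable {K F k F' : Type*} [Field K] [Field F] [Algebra K F] [Field k] [Field F']
  [Algebra k F']

open Classical in
/-- The value of `r_* D` at `Q` as a sum over the support of `D`. -/
theorem mapDomain_apply_sum (r : Place K F → Place k F') (D : Divisor K F) (Q : Place k F') :
    Finsupp.mapDomain r D Q = ∑ P' ∈ D.support, if r P' = Q then D P' else 0 := by
  rw [Finsupp.mapDomain, Finsupp.sum, Finsupp.finsetSum_apply]
  apply Finset.sum_congr rfl
  intro P' _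
  rw [Finsupp.single_apply]

/-- **(S1) The abstract separation lemma.** -/
theorem sep_core (r : Place K F → Place k F') (P : Place K F) (𝒯 : Set (Place k F'))
    (f : F) (D : Divisor K F) (hD : ∀ P', D P' = P'.ord f)
    (fbar : F') (hred : ∀ Q, Finsupp.mapDomain r D Q = Q.ord fbar)
    (hP : 0 < P.ord f)
    (hnonneg : ∀ P', (r P' ∈ 𝒯 ∨ r P' = r P) → 0 ≤ P'.ord f)
    (hbarP : (r P).ord fbar = 1)
    (hbar : ∀ Q' ∈ 𝒯, Q' ≠ r P → Q'.ord fbar = 0) :
    P.ord f = 1 ∧ ∀ P', P' ≠ P → P'.ord f ≠ 0 → r P' ∉ 𝒯 ∧ r P' ≠ r P := by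
  classical
  have hfib : ∀ Q', ∑ P' ∈ D.support, (if r P' = Q' then D P' else 0) = Q'.ord fbar := by
    intro Q'
    rw [← mapDomain_apply_sum, hred]
  have hterm : ∀ Q', (Q' ∈ 𝒯 ∨ Q' = r P) →
      ∀ P' ∈ D.support, 0 ≤ (if r P' = Q' then D P' else 0) := by
    intro Q' hQ' P' _
    split_ifs with h
    · rw [hD]
      exact hnonneg P' (h ▸ hQ')
    · exact le_refl 0
  have hDP : 0 < D P := by rw [hD]; exact hP
  have hmemP : P ∈ D.support := Finsupp.mem_support_iff.mpr hDP.ne'
  -- other places reducing into `𝒯 ∪ {r P}` carry no zero or pole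
  have hzero : ∀ P', (r P' ∈ 𝒯 ∨ r P' = r P) → P' ≠ P → D P' = 0 := by
    intro P' hP' hne
    by_contra hDP'
    have hmem : P' ∈ D.support := Finsupp.mem_support_iff.mpr hDP'
    have hpos : 0 < D P' := lt_of_le_of_ne (by rw [hD]; exact hnonneg P' hP') (Ne.symm hDP')
    by_cases hQ : r P' = r P
    · have hsum := hfib (r P)
      rw [hbarP] at hsum
      have hle : (if r P = r P then D P else 0) + (if r P' = r P then D P' else 0) ≤
          ∑ P'' ∈ D.support, (if r P'' = r P then D P'' else 0) := by
        have hsub : ({P, P'} : Finset (Place K F)) ⊆ D.support := by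
          intro x hx
          rw [Finset.mem_insert, Finset.mem_singleton] at hx
          rcases hx with rfl | rfl
          · exact hmemP
          · exact hmem
        have h2 := Finset.sum_le_sum_of_subset_of_nonneg
          (f := fun P'' => if r P'' = r P then D P'' else 0) hsub
          (fun x hx _ => hterm (r P) (Or.inr rfl) x hx)
        rwa [Finset.sum_pair (Ne.symm hne)] at h2
      rw [if_pos rfl, if_pos hQ, hsum] at hle
      omega
    · have h𝒯 : r P' ∈ 𝒯 := hP'.resolve_right hQ
      have hsum := hfib (r P')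
      rw [hbar (r P') h𝒯 hQ] at hsum
      have hle : (if r P' = r P' then D P' else 0) ≤
          ∑ P'' ∈ D.support, (if r P'' = r P' then D P'' else 0) :=
        Finset.single_le_sum (f := fun P'' => if r P'' = r P' then D P'' else 0)
          (fun x hx => hterm (r P') (Or.inl h𝒯) x hx) hmem
      rw [if_pos rfl, hsum] at hle
      omega
  refine ⟨?_, fun P' hne hP' => ?_⟩
  · have hsum := hfib (r P)
    rw [hbarP, Finset.sum_eq_single_of_mem P hmemP] at hsum
    · rw [if_pos rfl, hD] at hsum
      exact hsum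
    · intro P' _ hne
      split_ifs with h
      · exact hzero P' (Or.inr h) hne
      · rfl
  · by_contra hcon
    have h1 : r P' ∈ 𝒯 ∨ r P' = r P := by
      by_contra h2
      rw [not_or] at h2
      exact hcon ⟨h2.1, h2.2⟩
    exact hP' (by rw [← hD]; exact hzero P' h1 hne)

end Fermat.Agent.S37x.Red.H20
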