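import Mathlib
import Fermat.Prelude.Def_AlgebraicCurve_DivisorClassGroup
import Fermat.Agent.S37x.Red.H20_Sep
import Fermat.Agent.S37x.Red.H11_Cons

/-!
# S37 / [RED-M] (b-asm), abstract half: conservation at one number field (helper11)

The bookkeeping that turns the local statement `cons_core_dvr` (at a closed point `𝔫` of the
chart `B` over a discrete valuation ring `O ⊆ K`) into the value of `r_* div y` at a place `Q`
of the special fibre:

* `ord_pos_of_comap`, `ord_nonneg_of_comap` : orders along the restriction of places;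
* `cons_asm` : `(mapDomain r D) Q = Q.ord (ρ y)` for `y ∈ B ∖ π B`, `D = div (ι y)`;
* `cons_asm_quot` : the same for a quotient `a / b`, `a, b ∈ B ∖ π B`.

All inputs which depend on the modular curve are hypotheses.
-/

set_option autoImplicit false
set_option linter.unusedSectionVars false
set_option linter.unusedVariables false
set_option linter.style.haveILetI false

namespace Fermat.Agent.S37x.Red.H11

open AlgebraicCurve

section Restrict

variable {K L F E : Type*} [Field K] [Field F] [Algebra K F] [Field L] [Field E] [Algebra L E]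

/-- `ord ≥ 0` along the restriction of places -/
theorem ord_nonneg_of_comap (ι : F →+* E) (P : Place L E) (v : Place K F)
    (h : P.toValuationSubring.comap ι = v.toValuationSubring) (f : F) (hf : 0 ≤ v.ord f) :
    0 ≤ P.ord (ι f) := by
  rcases eq_or_ne f 0 with rfl | hf0
  · simp
  have hιf : ι f ≠ 0 := by simpa using hf0
  have h1 : f ∈ v.toValuationSubring :=
    (Fermat.Agent.S24.Orb.mem_place_iff_ord_nonneg v hf0).mpr hf
  rw [← h, ValuationSubring.mem_comap] at h1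
  exact (Fermat.Agent.S24.Orb.mem_place_iff_ord_nonneg P hιf).mp h1

/-- `ord > 0` along the restriction of places -/
theorem ord_pos_of_comap (ι : F →+* E) (P : Place L E) (v : Place K F)
    (h : P.toValuationSubring.comap ι = v.toValuationSubring) (f : F) (hf : 0 < v.ord f) :
    0 < P.ord (ι f) := by
  have hf0 : f ≠ 0 := by
    rintro rfl
    simp at hf
  have hιf : ι f ≠ 0 := by simpa using hf0
  have h1 := ord_nonneg_of_comap ι P v h f hf.le
  have h2 : f⁻¹ ∉ v.toValuationSubring := by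
    intro hmem
    have := (Fermat.Agent.S24.Orb.mem_place_iff_ord_nonneg v (inv_ne_zero hf0)).mp hmem
    rw [v.ord_inv] at this
    omega
  rw [← h, ValuationSubring.mem_comap, map_inv₀] at h2
  have h3 : ¬ 0 ≤ P.ord (ι f)⁻¹ := fun h0 =>
    h2 ((Fermat.Agent.S24.Orb.mem_place_iff_ord_nonneg P (inv_ne_zero hιf)).mpr h0)
  rw [P.ord_inv] at h3
  omega

end Restrict

section Asm

variable {O K L F E k Ebar : Type*} [CommRing O] [IsDomain O] [IsDiscreteValuationRing O]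
  [Field K] [Field F] [Algebra O K] [IsFractionRing O K] [Algebra K F] [Algebra O F]
  [IsScalarTower O K F] [Field L] [Field E] [Algebra L E] [Field k] [Field Ebar]
  [Algebra k Ebar]

/-- **(b-asm), abstract half.**  `O` a discrete valuation ring with uniformiser `π₀` and
fraction field `K`, `B ⊆ F` a chart over `O` with (SM) at the closed point `𝔫`,
`ρ : B → Ē` the reduction (kernel `π B`), `Q` the place of `Ē / k` with centre `𝔫`
(`ρ t` a uniformiser), `res` the restriction of places from `E / L` to `F / K`.  If `y ∈ B ∖ πB`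
and every place in the support of `D = div (ι y)` has a rational restriction (with `e = 1`, and
is the only place above its restriction), and `r P = Q` iff `res P` is centred at `𝔫`, then
`(r_* D) Q = ord_Q (ρ y)`. -/
theorem cons_asm (π₀ : O) (hπ₀ : Irreducible π₀) (B : Subring F) [IsNoetherianRing B]
    (hOB : ∀ c : O, algebraMap O F c ∈ B)
    (hπp : (Ideal.span {(⟨algebraMap O F π₀, hOB π₀⟩ : B)}).IsPrime)
    (hfrac : ∀ x : F, ∃ a b : B, b ≠ 0 ∧ x * (b : F) = (a : F))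
    (𝔫 : Ideal B) (h𝔫 : 𝔫.IsMaximal) (hπ𝔫 : (⟨algebraMap O F π₀, hOB π₀⟩ : B) ∈ 𝔫)
    (t : B) (ht𝔫 : t ∈ 𝔫)
    (hSM : ∀ x ∈ 𝔫, ∃ s : B, s ∉ 𝔫 ∧ ∃ u v : B,
      s * x = ⟨algebraMap O F π₀, hOB π₀⟩ * u + t * v)
    (ι : F →+* E) (ρ : B →+* Ebar) (hρπ : ρ ⟨algebraMap O F π₀, hOB π₀⟩ = 0)
    (hρ0 : ∀ b : B, b ∉ Ideal.span {(⟨algebraMap O F π₀, hOB π₀⟩ : B)} → ρ b ≠ 0)
    (Q : Place k Ebar) (hQs : ∀ s : B, s ∉ 𝔫 → Q.ord (ρ s) = 0) (hQt : Q.ord (ρ t) = 1)
    (res : Place L E → Place K F)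
    (hres : ∀ P, P.toValuationSubring.comap ι = (res P).toValuationSubring)
    (hab : ∀ v : Place K F, ∃ P, res P = v)
    (r : Place L E → Place k Ebar) (y : B)
    (hy : y ∉ Ideal.span {(⟨algebraMap O F π₀, hOB π₀⟩ : B)})
    (D : Divisor L E) (hD : ∀ P, D P = P.ord (ι (y : F)))
    (hrat : ∀ P ∈ D.support, Rational (res P))
    (he : ∀ P ∈ D.support, ∀ f : F, P.ord (ι f) = (res P).ord f)
    (huniq : ∀ P ∈ D.support, ∀ P', res P' = res P → P' = P)
    (hr1 : ∀ P, r P = Q → Centred B 𝔫 (res P))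
    (hr2 : ∀ P ∈ D.support, Centred B 𝔫 (res P) → r P = Q) :
    Finsupp.mapDomain r D Q = Q.ord (ρ y) := by
  classical
  have hspan_le : (Ideal.span {(⟨algebraMap O F π₀, hOB π₀⟩ : B)}) ≤ 𝔫 := by
    rw [Ideal.span_le]
    simpa using hπ𝔫
  set T : Finset (Place L E) := D.support.filter (fun P => r P = Q) with hT
  set S : Finset (Place K F) := T.image res with hSdef
  have hTsupp : ∀ P ∈ T, P ∈ D.support := fun P hP => (Finset.mem_filter.mp hP).1
  have hS : ∀ v, v ∈ S ↔ Centred B 𝔫 v ∧ v.ord (y : F) ≠ 0 := by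
    intro v
    constructor
    · intro hv
      obtain ⟨P, hP, rfl⟩ := Finset.mem_image.mp hv
      obtain ⟨hPs, hPQ⟩ := Finset.mem_filter.mp hP
      refine ⟨hr1 P hPQ, ?_⟩
      rw [← he P hPs, ← hD]
      exact Finsupp.mem_support_iff.mp hPs
    · rintro ⟨hc, hne⟩
      obtain ⟨P, rfl⟩ := hab v
      have hpos : 0 < (res P).ord (y : F) := lt_of_le_of_ne (hc.1 y) (Ne.symm hne)
      have hPpos := ord_pos_of_comap ι P (res P) (hres P) _ hpos
      have hPs : P ∈ D.support := by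
        rw [Finsupp.mem_support_iff, hD]
        exact hPpos.ne'
      exact Finset.mem_image.mpr ⟨P, Finset.mem_filter.mpr ⟨hPs, hr2 P hPs hc⟩, rfl⟩
  have hratS : ∀ v : Place K F, Centred B 𝔫 v → 0 < v.ord (y : F) → Rational v := by
    intro v hc hpos
    obtain ⟨P, hP, rfl⟩ := Finset.mem_image.mp ((hS v).mpr ⟨hc, hpos.ne'⟩)
    exact hrat P (hTsupp P hP)
  obtain ⟨d, s, u, c, hs, hu, hsy, hsum⟩ := cons_core_dvr π₀ hπ₀ B hOB hπp hfrac 𝔫 h𝔫 hπ𝔫 t
    ht𝔫 hSM y hy hratS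
  have h1 := hsum S hS
  -- the left hand side
  have h2 : Finsupp.mapDomain r D Q = ∑ v ∈ S, v.ord (y : F) := by
    rw [Fermat.Agent.S37x.Red.H20.mapDomain_apply_sum, ← Finset.sum_filter, hSdef,
      Finset.sum_image]
    · refine Finset.sum_congr rfl (fun P hP => ?_)
      rw [hD, he P (hTsupp P hP)]
    · intro P hP P' hP' hPP'
      exact (huniq P (hTsupp P hP) P' hPP'.symm).symm
  -- the right hand side
  have hρs : ρ s ≠ 0 := hρ0 s (fun h => hs (hspan_le h))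
  have hρu : ρ u ≠ 0 := hρ0 u (fun h => hu (hspan_le h))
  have hρy : ρ y ≠ 0 := hρ0 y hy
  have hρt : ρ t ≠ 0 := by
    intro h
    rw [h, Q.ord_zero] at hQt
    exact zero_ne_one hQt
  have h3 : ρ s * ρ y = ρ u * ρ t ^ d := by
    have := congrArg ρ hsy
    rw [map_mul, map_add, map_mul, map_mul, map_pow, hρπ, zero_mul, add_zero] at this
    exact this
  have h4 : Q.ord (ρ y) = d := by
    have e1 := Q.ord_mul hρs hρy
    have e2 := Q.ord_mul hρu (pow_ne_zero d hρt)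
    have e3 : Q.ord (ρ t ^ d) = d * Q.ord (ρ t) := by
      rw [← zpow_natCast, Q.ord_zpow]
    rw [h3, e2, e3, hQt, hQs u hu, hQs s hs] at e1
    omega
  rw [h2, h1, h4]

/-- **(b-asm), abstract half, quotient form.** -/
theorem cons_asm_quot (π₀ : O) (hπ₀ : Irreducible π₀) (B : Subring F) [IsNoetherianRing B]
    (hOB : ∀ c : O, algebraMap O F c ∈ B)
    (hπp : (Ideal.span {(⟨algebraMap O F π₀, hOB π₀⟩ : B)}).IsPrime)
    (hfrac : ∀ x : F, ∃ a b : B, b ≠ 0 ∧ x * (b : F) = (a : F))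
    (𝔫 : Ideal B) (h𝔫 : 𝔫.IsMaximal) (hπ𝔫 : (⟨algebraMap O F π₀, hOB π₀⟩ : B) ∈ 𝔫)
    (t : B) (ht𝔫 : t ∈ 𝔫)
    (hSM : ∀ x ∈ 𝔫, ∃ s : B, s ∉ 𝔫 ∧ ∃ u v : B,
      s * x = ⟨algebraMap O F π₀, hOB π₀⟩ * u + t * v)
    (ι : F →+* E) (ρ : B →+* Ebar) (hρπ : ρ ⟨algebraMap O F π₀, hOB π₀⟩ = 0)
    (hρ0 : ∀ b : B, b ∉ Ideal.span {(⟨algebraMap O F π₀, hOB π₀⟩ : B)} → ρ b ≠ 0)
    (Q : Place k Ebar) (hQs : ∀ s : B, s ∉ 𝔫 → Q.ord (ρ s) = 0) (hQt : Q.ord (ρ t) = 1)
    (res : Place L E → Place K F)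
    (hres : ∀ P, P.toValuationSubring.comap ι = (res P).toValuationSubring)
    (hab : ∀ v : Place K F, ∃ P, res P = v)
    (r : Place L E → Place k Ebar) (a b : B)
    (ha : a ∉ Ideal.span {(⟨algebraMap O F π₀, hOB π₀⟩ : B)})
    (hb : b ∉ Ideal.span {(⟨algebraMap O F π₀, hOB π₀⟩ : B)})
    (Da Db : Divisor L E) (hDa : ∀ P, Da P = P.ord (ι (a : F)))
    (hDb : ∀ P, Db P = P.ord (ι (b : F)))
    (hrat : ∀ P, P ∈ Da.support ∨ P ∈ Db.support → Rational (res P))
    (he : ∀ P, P ∈ Da.support ∨ P ∈ Db.support → ∀ f : F, P.ord (ι f) = (res P).ord f)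
    (huniq : ∀ P, P ∈ Da.support ∨ P ∈ Db.support → ∀ P', res P' = res P → P' = P)
    (hr1 : ∀ P, r P = Q → Centred B 𝔫 (res P))
    (hr2 : ∀ P, P ∈ Da.support ∨ P ∈ Db.support → Centred B 𝔫 (res P) → r P = Q)
    (z : E) (hz : z * ι (b : F) = ι (a : F)) (D : Divisor L E) (hD : ∀ P, D P = P.ord z) :
    Finsupp.mapDomain r D Q = Q.ord (ρ a) - Q.ord (ρ b) := by
  have hspan0 : ∀ x : B, x ∉ Ideal.span {(⟨algebraMap O F π₀, hOB π₀⟩ : B)} → (x : F) ≠ 0 := by
    intro x hx h0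
    apply hx
    have : x = 0 := Subtype.ext h0
    rw [this]
    exact Ideal.zero_mem _
  have hιa : ι (a : F) ≠ 0 := by simpa using hspan0 a ha
  have hιb : ι (b : F) ≠ 0 := by simpa using hspan0 b hb
  have hz0 : z ≠ 0 := by
    rintro rfl
    rw [zero_mul] at hz
    exact hιa hz.symm
  have hDsub : D = Da - Db := by
    ext P
    rw [Finsupp.sub_apply, hD, hDa, hDb, ← hz, P.ord_mul hz0 hιb]
    ring
  have h1 := cons_asm π₀ hπ₀ B hOB hπp hfrac 𝔫 h𝔫 hπ𝔫 t ht𝔫 hSM ι ρ hρπ hρ0 Q hQs hQt res hres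
    hab r a ha Da hDa (fun P hP => hrat P (Or.inl hP)) (fun P hP => he P (Or.inl hP))
    (fun P hP => huniq P (Or.inl hP)) hr1 (fun P hP => hr2 P (Or.inl hP))
  have h2 := cons_asm π₀ hπ₀ B hOB hπp hfrac 𝔫 h𝔫 hπ𝔫 t ht𝔫 hSM ι ρ hρπ hρ0 Q hQs hQt res hres
    hab r b hb Db hDb (fun P hP => hrat P (Or.inr hP)) (fun P hP => he P (Or.inr hP))
    (fun P hP => huniq P (Or.inr hP)) hr1 (fun P hP => hr2 P (Or.inr hP))
  rw [hDsub, Finsupp.mapDomain_sub, Finsupp.sub_apply, h1, h2]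

end Asm

end Fermat.Agent.S37x.Red.H11
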