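import Mathlib
import Fermat.Prelude.Def_AlgebraicCurve_DivisorClassGroup
import Fermat.Agent.S24.H21_Surj

/-!
# S37 [RED-M] (b2) (helper1): extension of a rational place along an extension of constants

`K ⊆ L` fields, `F / K` and `E / L` fields, `ι : F →+* E` compatible with `K → L`, and
`E = L[ι F]`: every element of `E` is a finite sum `∑ cᵢ * ι fᵢ` with `cᵢ ∈ L`, `fᵢ ∈ F`.

Let `W₀` be a valuation subring of `F` with a uniformiser `t` (every `f ≠ 0` is a unit times a
power of `t`) which is `K`-rational (every `f ∈ W₀` is congruent to a constant `c ∈ K` modulo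
the maximal ideal).  Then

* `h1_ratExt` : for every `z ≠ 0` of `E` there is `n : ℤ` such that `z * (ι t) ^ n` is a unit of
  EVERY valuation subring `W` of `E` which contains `L` and restricts to `W₀`;
* `h1_ratExt_unique` : there is at most one such `W`;
* `h1_ord_eq` : for places `P` of `E / L` and `v` of `F / K` with `P ∩ F = v`, `v` rational:
  `P.ord (ι f) = v.ord f` (the ramification index is `1`);
* `h1_place_unique` : `P` is the only place of `E / L` above `v`.
-/

set_option autoImplicit false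
set_option linter.unusedSectionVars false

open AlgebraicCurve

namespace Fermat.Agent.S37x.Red.H1

section Val

variable {E : Type*} [Field E]

theorem h1_val_eq_one_iff (W : ValuationSubring E) (x : E) :
    W.valuation x = 1 ↔ x ≠ 0 ∧ x ∈ W ∧ x⁻¹ ∈ W := by
  constructor
  · intro h
    have hx0 : x ≠ 0 := by
      rintro rfl
      simp at h
    refine ⟨hx0, ?_, ?_⟩
    · rw [← ValuationSubring.valuation_le_one_iff, h]
    · rw [← ValuationSubring.valuation_le_one_iff, map_inv₀, h, inv_one]
  · rintro ⟨hx0, hx, hxi⟩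
    have h1 : W.valuation x ≤ 1 := (ValuationSubring.valuation_le_one_iff W x).mpr hx
    have h2 : W.valuation x⁻¹ ≤ 1 := (ValuationSubring.valuation_le_one_iff W x⁻¹).mpr hxi
    rw [map_inv₀] at h2
    have hv0 : W.valuation x ≠ 0 := (Valuation.ne_zero_iff _).mpr hx0
    have h3 : 1 ≤ W.valuation x := by
      by_contra hlt
      push Not at hlt
      have : 1 < (W.valuation x)⁻¹ := (one_lt_inv₀ (zero_lt_iff.mpr hv0)).mpr hlt
      exact absurd h2 (not_le.mpr this)
    exact le_antisymm h1 h3

theorem h1_val_lt_one_iff (W : ValuationSubring E) (x : E) :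
    W.valuation x < 1 ↔ x = 0 ∨ x⁻¹ ∉ W := by
  rcases eq_or_ne x 0 with rfl | hx0
  · simp
  · have hv0 : W.valuation x ≠ 0 := (Valuation.ne_zero_iff _).mpr hx0
    rw [← ValuationSubring.valuation_le_one_iff, map_inv₀, not_le,
      one_lt_inv₀ (zero_lt_iff.mpr hv0)]
    simp [hx0]

theorem h1_mem_nonunits_iff (W : ValuationSubring E) (x : E) :
    x ∈ W.nonunits ↔ x = 0 ∨ x⁻¹ ∉ W := by
  rw [ValuationSubring.mem_nonunits_iff, h1_val_lt_one_iff]

variable {F : Type*} [Field F]

theorem h1_comap_val_eq_one (ι : F →+* E) (W : ValuationSubring E) (f : F) :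
    (W.comap ι).valuation f = 1 ↔ W.valuation (ι f) = 1 := by
  rw [h1_val_eq_one_iff, h1_val_eq_one_iff, ValuationSubring.mem_comap,
    ValuationSubring.mem_comap, map_inv₀, Ne, Ne, map_eq_zero]

theorem h1_comap_val_lt_one (ι : F →+* E) (W : ValuationSubring E) (f : F) :
    (W.comap ι).valuation f < 1 ↔ W.valuation (ι f) < 1 := by
  rw [h1_val_lt_one_iff, h1_val_lt_one_iff, ValuationSubring.mem_comap, map_inv₀, map_eq_zero]

theorem h1_comap_val_le_one (ι : F →+* E) (W : ValuationSubring E) (f : F) :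
    (W.comap ι).valuation f ≤ 1 ↔ W.valuation (ι f) ≤ 1 := by
  rw [ValuationSubring.valuation_le_one_iff, ValuationSubring.valuation_le_one_iff,
    ValuationSubring.mem_comap]

end Val

section Core

variable {K L F E : Type*} [Field K] [Field L] [Field F] [Field E]
  [Algebra K L] [Algebra K F] [Algebra L E]

/-- A finite sum `∑ cᵢ * ι fᵢ` can be rewritten with `K`-linearly independent coefficients. -/
theorem h1_rebase (ι : F →+* E)
    (hι : ∀ a : K, ι (algebraMap K F a) = algebraMap L E (algebraMap K L a))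
    {n : ℕ} (c : Fin n → L) (f : Fin n → F) :
    ∃ (m : ℕ) (c' : Fin m → L) (f' : Fin m → F), LinearIndependent K c' ∧
      ∑ i, algebraMap L E (c i) * ι (f i) = ∑ j, algebraMap L E (c' j) * ι (f' j) := by
  classical
  set V : Submodule K L := Submodule.span K (Set.range c) with hV
  have : Module.Finite K V := Module.Finite.span_of_finite K (Set.finite_range c)
  let b := Module.finBasis K V
  have hcV : ∀ i, c i ∈ V := fun i => Submodule.subset_span ⟨i, rfl⟩
  refine ⟨Module.finrank K V, fun j => ((b j : V) : L),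
    fun j => ∑ i, algebraMap K F (b.repr ⟨c i, hcV i⟩ j) * f i, ?_, ?_⟩
  · have := b.linearIndependent
    exact this.map' V.subtype (Submodule.ker_subtype V)
  · have hci : ∀ i, c i = ∑ j, (b.repr ⟨c i, hcV i⟩ j) • ((b j : V) : L) := by
      intro i
      have h := b.sum_repr ⟨c i, hcV i⟩
      have h2 := congrArg (fun x : V => (x : L)) h
      simp only [Submodule.coe_sum, Submodule.coe_smul] at h2
      exact h2.symm
    calc ∑ i, algebraMap L E (c i) * ι (f i)
        = ∑ i, ∑ j, algebraMap L E ((b j : V) : L) *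
            ι (algebraMap K F (b.repr ⟨c i, hcV i⟩ j) * f i) := by
          refine Finset.sum_congr rfl fun i _ => ?_
          conv_lhs => rw [hci i]
          rw [map_sum, Finset.sum_mul]
          refine Finset.sum_congr rfl fun j _ => ?_
          rw [Algebra.smul_def, map_mul, map_mul, hι]
          ring
      _ = ∑ j, ∑ i, algebraMap L E ((b j : V) : L) *
            ι (algebraMap K F (b.repr ⟨c i, hcV i⟩ j) * f i) := Finset.sum_comm
      _ = ∑ j, algebraMap L E ((b j : V) : L) *
            ι (∑ i, algebraMap K F (b.repr ⟨c i, hcV i⟩ j) * f i) := by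
          refine Finset.sum_congr rfl fun j _ => ?_
          rw [map_sum, Finset.mul_sum]

/-- The key computation: a combination `∑ cᵢ * ι gᵢ` with `K`-independent `cᵢ ∈ L`, integral
`gᵢ`, one of them a unit, is a unit of `W` if the values of `W ∩ F` are in `K`. -/
theorem h1_unit_of_linearIndependent (ι : F →+* E)
    (W : ValuationSubring E) (hLW : ∀ c : L, algebraMap L E c ∈ W)
    (hrat : ∀ f : F, ι f ∈ W →
      ∃ a : K, W.valuation (ι f - algebraMap L E (algebraMap K L a)) < 1)
    {m : ℕ} (c : Fin m → L) (hc : LinearIndependent K c) (g : Fin m → F)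
    (hg : ∀ i, ι (g i) ∈ W) (i₀ : Fin m) (hi₀ : W.valuation (ι (g i₀)) = 1) :
    W.valuation (∑ i, algebraMap L E (c i) * ι (g i)) = 1 := by
  classical
  choose a ha using fun i => hrat (g i) (hg i)
  have hLval : ∀ x : L, x ≠ 0 → W.valuation (algebraMap L E x) = 1 := by
    intro x hx
    rw [h1_val_eq_one_iff]
    refine ⟨by simpa using hx, hLW x, ?_⟩
    rw [← map_inv₀]
    exact hLW _
  have hLle : ∀ x : L, W.valuation (algebraMap L E x) ≤ 1 := fun x =>
    (ValuationSubring.valuation_le_one_iff W _).mpr (hLW x)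
  -- the constant part
  have ha0 : a i₀ ≠ 0 := by
    intro h0
    have := ha i₀
    rw [h0, map_zero, map_zero, sub_zero, hi₀] at this
    exact lt_irrefl _ this
  have hsum0 : ∑ i, a i • c i ≠ 0 := by
    intro h0
    have := Fintype.linearIndependent_iff.mp hc a h0 i₀
    exact ha0 this
  have hsplit : ∑ i, algebraMap L E (c i) * ι (g i) =
      algebraMap L E (∑ i, a i • c i) +
        ∑ i, algebraMap L E (c i) * (ι (g i) - algebraMap L E (algebraMap K L (a i))) := by
    rw [map_sum, ← Finset.sum_add_distrib]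
    refine Finset.sum_congr rfl fun i _ => ?_
    rw [Algebra.smul_def, map_mul]
    ring
  have hsmall : W.valuation
      (∑ i, algebraMap L E (c i) * (ι (g i) - algebraMap L E (algebraMap K L (a i)))) < 1 := by
    apply Valuation.map_sum_lt _ one_ne_zero
    intro i _
    rw [map_mul]
    calc W.valuation (algebraMap L E (c i)) *
          W.valuation (ι (g i) - algebraMap L E (algebraMap K L (a i)))
        ≤ 1 * W.valuation (ι (g i) - algebraMap L E (algebraMap K L (a i))) :=
          mul_le_mul_left (hLle (c i)) _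
      _ = W.valuation (ι (g i) - algebraMap L E (algebraMap K L (a i))) := one_mul _
      _ < 1 := ha i
  rw [hsplit, Valuation.map_add_eq_of_lt_left _ (by rw [hLval _ hsum0]; exact hsmall),
    hLval _ hsum0]

variable (ι : F →+* E)
  (hι : ∀ a : K, ι (algebraMap K F a) = algebraMap L E (algebraMap K L a))
  (hgen : ∀ z : E, ∃ (n : ℕ) (c : Fin n → L) (f : Fin n → F),
    z = ∑ i, algebraMap L E (c i) * ι (f i))
  (W₀ : ValuationSubring F) (t : F) (ht : t ∈ W₀) (ht0 : t ≠ 0)
  (hunif : ∀ f : F, f ≠ 0 → ∃ n : ℤ, W₀.valuation (f * t ^ n) = 1)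
  (hrat : ∀ f ∈ W₀, ∃ a : K, W₀.valuation (f - algebraMap K F a) < 1)

include hι hgen ht ht0 hunif hrat in
/-- **(b2)**: every `z ≠ 0` of `E = L[ι F]` is a power of `ι t` times an element which is a unit
in every valuation subring of `E` containing `L` and restricting to the rational `W₀`. -/
theorem h1_ratExt (z : E) (hz : z ≠ 0) :
    ∃ n : ℤ, ∀ W : ValuationSubring E, (∀ c : L, algebraMap L E c ∈ W) → W.comap ι = W₀ →
      W.valuation (z * ι t ^ n) = 1 := by
  classical
  obtain ⟨n₀, c₀, f₀, hz₀⟩ := hgen z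
  obtain ⟨m, c, f, hc, hcf⟩ := h1_rebase ι hι c₀ f₀
  rw [← hz₀] at hcf
  -- some `f i` is non-zero
  have hex : ∃ i, f i ≠ 0 := by
    by_contra hcon
    push Not at hcon
    apply hz
    rw [hcf]
    exact Finset.sum_eq_zero fun i _ => by rw [hcon i, map_zero, mul_zero]
  -- the orders
  have hord : ∀ i, ∃ n : ℤ, f i ≠ 0 → W₀.valuation (f i * t ^ n) = 1 := by
    intro i
    by_cases hi : f i = 0
    · exact ⟨0, fun h => absurd hi h⟩
    · obtain ⟨n, hn⟩ := hunif (f i) hi
      exact ⟨n, fun _ => hn⟩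
  choose ν hν using hord
  set I : Finset (Fin m) := Finset.univ.filter fun i => f i ≠ 0 with hI
  have hIne : I.Nonempty := by
    obtain ⟨i, hi⟩ := hex
    exact ⟨i, by simp [hI, hi]⟩
  obtain ⟨i₀, hi₀I, hi₀max⟩ := Finset.exists_max_image I ν hIne
  have hfi₀ : f i₀ ≠ 0 := by simpa [hI] using hi₀I
  refine ⟨ν i₀, fun W hLW hW => ?_⟩
  have hιt0 : ι t ≠ 0 := by simpa using ht0
  have hkey : z * ι t ^ ν i₀ = ∑ i, algebraMap L E (c i) * ι (f i * t ^ ν i₀) := by
    rw [hcf, Finset.sum_mul]
    refine Finset.sum_congr rfl fun i _ => ?_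
    rw [map_mul, map_zpow₀]
    ring
  rw [hkey]
  have htW : ι t ∈ W := by
    rw [← ValuationSubring.mem_comap, hW]
    exact ht
  apply h1_unit_of_linearIndependent ι W hLW _ c hc (fun i => f i * t ^ ν i₀) _ i₀
  · rw [← h1_comap_val_eq_one, hW]
    exact hν i₀ hfi₀
  · intro g hgW
    have hg₀ : g ∈ W₀ := by
      rw [← hW, ValuationSubring.mem_comap]
      exact hgW
    obtain ⟨a, ha⟩ := hrat g hg₀
    refine ⟨a, ?_⟩
    rw [← hι, ← map_sub, ← h1_comap_val_lt_one, hW]
    exact ha
  · intro i
    by_cases hi : f i = 0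
    · rw [hi, zero_mul, map_zero]
      exact W.zero_mem
    · have hiI : i ∈ I := by simp [hI, hi]
      have hle : ν i ≤ ν i₀ := hi₀max i hiI
      obtain ⟨k, hk⟩ := Int.eq_ofNat_of_zero_le (sub_nonneg.mpr hle)
      have hsplit : f i * t ^ ν i₀ = (f i * t ^ ν i) * t ^ k := by
        have : ν i₀ = ν i + (k : ℤ) := by omega
        rw [this, zpow_add₀ ht0, zpow_natCast]
        ring
      rw [hsplit, map_mul, map_pow]
      apply W.mul_mem
      · rw [← ValuationSubring.valuation_le_one_iff, ← h1_comap_val_le_one, hW, hν i hi]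
      · exact W.pow_mem htW k

include hι hgen ht ht0 hunif hrat in
/-- **(b2), uniqueness**: a valuation subring of `E` containing `L` is determined by its
restriction to `F`, if the latter is rational with a uniformiser which is not a unit. -/
theorem h1_ratExt_unique (htnu : W₀.valuation t < 1) (W W' : ValuationSubring E)
    (hLW : ∀ c : L, algebraMap L E c ∈ W) (hLW' : ∀ c : L, algebraMap L E c ∈ W')
    (hW : W.comap ι = W₀) (hW' : W'.comap ι = W₀) : W = W' := by
  have hmem : ∀ (V : ValuationSubring E), (∀ c : L, algebraMap L E c ∈ V) → V.comap ι = W₀ →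
      ∀ (z : E) (n : ℤ), V.valuation (z * ι t ^ n) = 1 → (z ∈ V ↔ n ≤ 0) := by
    intro V hLV hV z n hn
    have htV : V.valuation (ι t) < 1 := by
      rw [← h1_comap_val_lt_one, hV]
      exact htnu
    have hιt0 : V.valuation (ι t) ≠ 0 := by
      rw [Valuation.ne_zero_iff]
      simpa using ht0
    have hz : V.valuation z = (V.valuation (ι t)) ^ (-n) := by
      rw [map_mul, map_zpow₀] at hn
      rw [zpow_neg]
      exact eq_inv_of_mul_eq_one_left hn
    rw [← ValuationSubring.valuation_le_one_iff, hz]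
    constructor
    · intro h
      by_contra hcon
      push Not at hcon
      have h1 : 1 < (V.valuation (ι t)) ^ (-n) := by
        rw [zpow_neg]
        apply (one_lt_inv₀ (zero_lt_iff.mpr (zpow_ne_zero _ hιt0))).mpr
        obtain ⟨k, hk⟩ := Int.eq_ofNat_of_zero_le hcon.le
        rw [hk, zpow_natCast]
        apply pow_lt_one₀ zero_le htV
        omega
      exact absurd h (not_le.mpr h1)
    · intro h
      obtain ⟨k, hk⟩ := Int.eq_ofNat_of_zero_le (neg_nonneg.mpr h)
      rw [hk, zpow_natCast]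
      exact pow_le_one₀ zero_le htV.le
  ext z
  rcases eq_or_ne z 0 with rfl | hz
  · simp [W.zero_mem, W'.zero_mem]
  · obtain ⟨n, hn⟩ := h1_ratExt ι hι hgen W₀ t ht ht0 hunif hrat z hz
    rw [hmem W hLW hW z n (hn W hLW hW), hmem W' hLW' hW' z n (hn W' hLW' hW')]

end Core

section PlaceForm

open Fermat.Agent.S24.Orb

variable {K L F E : Type*} [Field K] [Field L] [Field F] [Field E]
  [Algebra K L] [Algebra K F] [Algebra L E]
  (ι : F →+* E)
  (hι : ∀ a : K, ι (algebraMap K F a) = algebraMap L E (algebraMap K L a))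
  (hgen : ∀ z : E, ∃ (n : ℕ) (c : Fin n → L) (f : Fin n → F),
    z = ∑ i, algebraMap L E (c i) * ι (f i))

/-- The uniformiser data of a place, in the spelling of `h1_ratExt`. -/
theorem h1_place_unif (v : Place K F) :
    ∃ t : F, t ∈ v.toValuationSubring ∧ t ≠ 0 ∧ v.toValuationSubring.valuation t < 1 ∧
      v.ord t = 1 ∧
      ∀ f : F, f ≠ 0 → v.toValuationSubring.valuation (f * t ^ (-v.ord f)) = 1 := by
  obtain ⟨ϖ, hϖ⟩ := IsDiscreteValuationRing.exists_irreducible v.toValuationSubring
  have hϖ0 : (ϖ : F) ≠ 0 := by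
    simpa [ne_eq, ZeroMemClass.coe_eq_zero] using hϖ.ne_zero
  have hord : v.ord (ϖ : F) = 1 := v.ord_coe_irreducible hϖ
  refine ⟨ϖ, ϖ.2, hϖ0, ?_, hord, ?_⟩
  · rw [← ord_pos_iff_val_lt_one v hϖ0, hord]
    exact one_pos
  · intro f hf
    have h0 : f * (ϖ : F) ^ (-v.ord f) ≠ 0 := mul_ne_zero hf (zpow_ne_zero _ hϖ0)
    rw [← ord_eq_zero_iff_val_eq_one v h0, v.ord_mul hf (zpow_ne_zero _ hϖ0), v.ord_zpow, hord]
    ring

include hι hgen in
/-- **(b2), place form**: above a rational place the ramification index is `1`. -/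
theorem h1_ord_eq (P : Place L E) (v : Place K F)
    (hPv : P.toValuationSubring.comap ι = v.toValuationSubring)
    (hrat : ∀ f ∈ v.toValuationSubring,
      ∃ a : K, v.toValuationSubring.valuation (f - algebraMap K F a) < 1)
    (f : F) : P.ord (ι f) = v.ord f := by
  obtain ⟨t, ht, ht0, htlt, htord, hunif⟩ := h1_place_unif v
  have hιt0 : ι t ≠ 0 := by simpa using ht0
  -- `ord_P (ι t) = 1`
  have hPt : P.ord (ι t) = 1 := by
    have hpos : 0 < P.ord (ι t) := by
      rw [ord_pos_iff_val_lt_one P hιt0, ← h1_comap_val_lt_one, hPv]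
      exact htlt
    obtain ⟨ϖ', hϖ'⟩ := IsDiscreteValuationRing.exists_irreducible P.toValuationSubring
    have hϖ'0 : (ϖ' : E) ≠ 0 := by
      simpa [ne_eq, ZeroMemClass.coe_eq_zero] using hϖ'.ne_zero
    obtain ⟨n, hn⟩ := h1_ratExt ι hι hgen v.toValuationSubring t ht ht0
      (fun f hf => ⟨_, hunif f hf⟩) hrat (ϖ' : E) hϖ'0
    have h1 := hn P.toValuationSubring P.algebraMap_mem' hPv
    have h0 : (ϖ' : E) * ι t ^ n ≠ 0 := mul_ne_zero hϖ'0 (zpow_ne_zero _ hιt0)
    rw [← ord_eq_zero_iff_val_eq_one P h0, P.ord_mul hϖ'0 (zpow_ne_zero _ hιt0), P.ord_zpow,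
      P.ord_coe_irreducible hϖ'] at h1
    -- `1 + n * ord (ι t) = 0` with `ord (ι t) > 0`
    have h2 : n * P.ord (ι t) = -1 := by omega
    have h3 : P.ord (ι t) ∣ 1 := ⟨-n, by linarith⟩
    have h4 := Int.le_of_dvd one_pos h3
    omega
  rcases eq_or_ne f 0 with rfl | hf
  · simp
  · have hιf : ι f ≠ 0 := by simpa using hf
    have h1 := hunif f hf
    rw [← hPv, h1_comap_val_eq_one ι, map_mul, map_zpow₀] at h1
    have h0 : ι f * ι t ^ (-v.ord f) ≠ 0 := mul_ne_zero hιf (zpow_ne_zero _ hιt0)
    rw [← ord_eq_zero_iff_val_eq_one P h0, P.ord_mul hιf (zpow_ne_zero _ hιt0), P.ord_zpow,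
      hPt] at h1
    omega

include hι hgen in
/-- **(b2), place form**: a rational place has exactly one place above it. -/
theorem h1_place_unique (P P' : Place L E) (v : Place K F)
    (hPv : P.toValuationSubring.comap ι = v.toValuationSubring)
    (hP'v : P'.toValuationSubring.comap ι = v.toValuationSubring)
    (hrat : ∀ f ∈ v.toValuationSubring,
      ∃ a : K, v.toValuationSubring.valuation (f - algebraMap K F a) < 1) : P = P' := by
  obtain ⟨t, ht, ht0, htlt, htord, hunif⟩ := h1_place_unif v
  apply Place.ext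
  exact h1_ratExt_unique ι hι hgen v.toValuationSubring t ht ht0
    (fun f hf => ⟨_, hunif f hf⟩) hrat htlt _ _ P.algebraMap_mem' P'.algebraMap_mem' hPv hP'v

end PlaceForm

end Fermat.Agent.S37x.Red.H1
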