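import Mathlib

/-!
# S37 [RED-M] (b2), the generation hypothesis `hgen` (helper1)

`K ⊆ L` an algebraic extension of fields, `F / K` a field, `Ω / L` a field and `ι' : F →+* Ω`
compatible with `K → L`.  Every element of the subfield of `Ω` generated by `L` and `ι' F` is a
finite sum `∑ cᵢ * ι' fᵢ` with `cᵢ ∈ L`, `fᵢ ∈ F`  (the ring `L[ι' F]` is a field because `L` is
algebraic over `K`).

* `h1_hgen_abs` : the statement above;
* `h1_sum_form_add`, `h1_sum_form_smul` : closure properties of the sum form.
-/

set_option autoImplicit false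
set_option linter.unusedSectionVars false
set_option linter.style.haveILetI false

namespace Fermat.Agent.S37x.Red.H1

section SumForm

variable (L : Type*) {F Ω : Type*} [Field L] [Field F] [Field Ω] [Algebra L Ω] (ι' : F →+* Ω)

/-- The sum form `z = ∑ cᵢ * ι' fᵢ`. -/
def H1SumForm (z : Ω) : Prop :=
  ∃ (n : ℕ) (c : Fin n → L) (f : Fin n → F), z = ∑ i, algebraMap L Ω (c i) * ι' (f i)

theorem h1_sum_form_zero : H1SumForm L ι' (0 : Ω) :=
  ⟨0, Fin.elim0, Fin.elim0, by simp⟩

theorem h1_sum_form_single (c : L) (f : F) : H1SumForm L ι' (algebraMap L Ω c * ι' f) :=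
  ⟨1, fun _ => c, fun _ => f, by simp⟩

theorem h1_sum_form_add {z w : Ω} (hz : H1SumForm L ι' z) (hw : H1SumForm L ι' w) :
    H1SumForm L ι' (z + w) := by
  obtain ⟨n, c, f, rfl⟩ := hz
  obtain ⟨m, d, g, rfl⟩ := hw
  refine ⟨n + m, Fin.append c d, Fin.append f g, ?_⟩
  rw [Fin.sum_univ_add]
  simp only [Fin.append_left, Fin.append_right]

theorem h1_sum_form_smul (g : F) {z : Ω} (hz : H1SumForm L ι' z) :
    H1SumForm L ι' (ι' g * z) := by
  obtain ⟨n, c, f, rfl⟩ := hz
  refine ⟨n, c, fun i => g * f i, ?_⟩
  rw [Finset.mul_sum]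
  refine Finset.sum_congr rfl fun i _ => ?_
  rw [map_mul]
  ring

end SumForm

section Abs

variable {K L F Ω : Type*} [Field K] [Field L] [Field F] [Field Ω]
  [Algebra K L] [Algebra.IsAlgebraic K L] [Algebra K F] [Algebra L Ω]

/-- **`hgen`, abstract form**: the field generated by `L` and `ι' F` consists of the sums
`∑ cᵢ * ι' fᵢ`. -/
theorem h1_hgen_abs (ι' : F →+* Ω)
    (hι' : ∀ a : K, ι' (algebraMap K F a) = algebraMap L Ω (algebraMap K L a))
    (z : Ω) (hz : z ∈ Subfield.closure (Set.range (algebraMap L Ω) ∪ Set.range ι')) :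
    ∃ (n : ℕ) (c : Fin n → L) (f : Fin n → F), z = ∑ i, algebraMap L Ω (c i) * ι' (f i) := by
  letI : Algebra F Ω := ι'.toAlgebra
  have halgmap : ∀ f : F, algebraMap F Ω f = ι' f := fun _ => rfl
  -- the generators are algebraic over `F`
  have hS : ∀ x ∈ Set.range (algebraMap L Ω), IsAlgebraic F x := by
    rintro _ ⟨c, rfl⟩
    obtain ⟨p, hp0, hp⟩ := Algebra.IsAlgebraic.isAlgebraic (R := K) c
    refine ⟨p.map (algebraMap K F), ?_, ?_⟩
    · exact (Polynomial.map_ne_zero_iff (algebraMap K F).injective).mpr hp0
    · rw [Polynomial.aeval_def, Polynomial.eval₂_map]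
      have hcomp : (algebraMap F Ω).comp (algebraMap K F) =
          (algebraMap L Ω).comp (algebraMap K L) := by
        refine RingHom.ext fun a => ?_
        simp only [RingHom.comp_apply]
        rw [halgmap, hι']
      rw [hcomp, ← Polynomial.hom_eval₂]
      rw [Polynomial.aeval_def] at hp
      rw [hp, map_zero]
  have hG := IntermediateField.adjoin_toSubalgebra_of_isAlgebraic (F := F) hS
  -- `z` lies in the intermediate field
  have hzG : z ∈ IntermediateField.adjoin F (Set.range (algebraMap L Ω)) := by
    have hle : Subfield.closure (Set.range (algebraMap L Ω) ∪ Set.range ι') ≤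
        (IntermediateField.adjoin F (Set.range (algebraMap L Ω))).toSubfield := by
      rw [Subfield.closure_le]
      rintro x (hx | ⟨f, rfl⟩)
      · exact IntermediateField.subset_adjoin F _ hx
      · exact (IntermediateField.adjoin F (Set.range (algebraMap L Ω))).algebraMap_mem f
    exact hle hz
  have hzA : z ∈ Algebra.adjoin F (Set.range (algebraMap L Ω)) := by
    rw [← hG]
    exact hzG
  -- span form
  have hmon : (Submonoid.closure (Set.range (algebraMap L Ω)) : Set Ω) =
      Set.range (algebraMap L Ω) := by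
    have : Set.range (algebraMap L Ω) =
        ((MonoidHom.mrange ((algebraMap L Ω : L →+* Ω) : L →* Ω) : Submonoid Ω) : Set Ω) := by
      ext x
      simp
    rw [this, Submonoid.closure_eq]
  have hzS : z ∈ Submodule.span F (Set.range (algebraMap L Ω)) := by
    have h1 := Algebra.adjoin_eq_span (R := F) (Set.range (algebraMap L Ω))
    have h2 : z ∈ (Algebra.adjoin F (Set.range (algebraMap L Ω))).toSubmodule := hzA
    rw [h1, hmon] at h2
    exact h2
  -- induction
  have key : H1SumForm L ι' z := by
    clear hz hzG hzA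
    induction hzS using Submodule.span_induction with
    | mem x hx =>
      obtain ⟨c, rfl⟩ := hx
      have := h1_sum_form_single L ι' c (1 : F)
      rwa [map_one, mul_one] at this
    | zero => exact h1_sum_form_zero L ι'
    | add x y _ _ hx hy => exact h1_sum_form_add L ι' hx hy
    | smul a x _ hx =>
      have := h1_sum_form_smul L ι' a hx
      rwa [← halgmap, ← Algebra.smul_def] at this
  exact key

end Abs

end Fermat.Agent.S37x.Red.H1
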