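import Mathlib
import Fermat.Prelude.Def_ModularCurve_ArithmeticGalois
import Fermat.Prelude.Def_ModularCurve_X0ModL
import Fermat.Agent.S18x.Desc.H19_Bridge
import Fermat.Agent.S18x.Dict.H22_Ext
import Fermat.Agent.S37x.Red.H1_RatExt
import Fermat.Agent.S37x.Red.H1_RatGen

/-!
# S37 [RED-M] (b2), instances (helper1): restriction of places along an extension of constants

Abstract part (`ι : F →+* E` over `K → L`, `E = L[ι F]` in the sum form `hgen`):

* `h1_exists_restrict` : every place `P` of `E / L` restricts to a place `v` of `F / K`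
  (`P.toValuationSubring.comap ι = v.toValuationSubring`), and `P.ord (ι f) = e * v.ord f`;
* `h1_comap_eq_of_above` : the restriction in the "lies above" spelling of `exists_place_above`;
* `h1_hrat_of_ord` : rationality in the `ord` spelling implies rationality in the valuation
  spelling of `h1_ord_eq`, `h1_place_unique`;
* `h1_ord_eq'`, `h1_place_unique'` : the two theorems of `H1_RatExt` in the `ord` spelling.

Concrete part:

* `h1IotaFull k k' M : F_k → F_k'` (coefficientwise base change of modular functions) for any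
  fields with `[Algebra k k']`, `h1IotaFull_algebraMap` (`hι`), `h1_hgen_full` (`hgen`, for
  `k'` algebraic over `k`) -- e.g. `κ = ResidueField (A ∩ K) ⊆ k = ResidueField A`;
* `h1_hgen_iotaK` : `hgen` for helper22's `iotaK K M : F_K → F_ℚ̄`.
-/

set_option autoImplicit false
set_option linter.unusedSectionVars false
set_option linter.style.haveILetI false

open AlgebraicCurve ModularCurve HahnSeries IntermediateField

noncomputable section

namespace Fermat.Agent.S37x.Red.H1

section AbstractRestrict

open Fermat.Agent.S24.Orb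

variable {K L F E : Type*} [Field K] [Field L] [Field F] [Field E]
  [Algebra K L] [Algebra K F] [Algebra L E]
  (ι : F →+* E)
  (hι : ∀ a : K, ι (algebraMap K F a) = algebraMap L E (algebraMap K L a))
  (hgen : ∀ z : E, ∃ (n : ℕ) (c : Fin n → L) (f : Fin n → F),
    z = ∑ i, algebraMap L E (c i) * ι (f i))

include hgen in
/-- A place of `E = L[ι F]` over `L` is not trivial on `ι F`. -/
theorem h1_exists_ord_ne_zero (P : Place L E) : ∃ t : F, t ≠ 0 ∧ P.ord (ι t) ≠ 0 := by
  by_contra hcon
  push Not at hcon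
  apply P.ne_top'
  have hF : ∀ f : F, ι f ∈ P.toValuationSubring := by
    intro f
    rcases eq_or_ne f 0 with rfl | hf
    · rw [map_zero]
      exact P.toValuationSubring.zero_mem
    · have hιf : ι f ≠ 0 := by simpa using hf
      rw [mem_place_iff_ord_nonneg P hιf, hcon f hf]
  refine SetLike.ext fun z => ⟨fun _ => ValuationSubring.mem_top z, fun _ => ?_⟩
  obtain ⟨n, c, f, rfl⟩ := hgen z
  exact Subring.sum_mem _ fun i _ =>
    P.toValuationSubring.mul_mem _ _ (P.algebraMap_mem' (c i)) (hF (f i))

include hι hgen in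
/-- **Restriction of a place** along `ι : F → E = L[ι F]`. -/
theorem h1_exists_restrict (P : Place L E) :
    ∃ v : Place K F, P.toValuationSubring.comap ι = v.toValuationSubring ∧
      ∃ e : ℕ, 0 < e ∧ ∀ f : F, P.ord (ι f) = (e : ℤ) * v.ord f := by
  have hmul : ∀ f g : F, f ≠ 0 → g ≠ 0 → P.ord (ι (f * g)) = P.ord (ι f) + P.ord (ι g) := by
    intro f g hf hg
    rw [map_mul]
    exact P.ord_mul (by simpa using hf) (by simpa using hg)
  have hadd : ∀ f g : F, f ≠ 0 → g ≠ 0 → f + g ≠ 0 →
      min (P.ord (ι f)) (P.ord (ι g)) ≤ P.ord (ι (f + g)) := by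
    intro f g hf hg hfg
    rw [map_add]
    have h3 : ι f + ι g ≠ 0 := by
      rw [← map_add]
      exact (map_ne_zero ι).mpr hfg
    exact le_ord_add P ((map_ne_zero ι).mpr hf) ((map_ne_zero ι).mpr hg) h3
  have hK : ∀ a : K, algebraMap K F a ≠ 0 → 0 ≤ P.ord (ι (algebraMap K F a)) := by
    intro a ha
    rw [hι]
    have h0 : algebraMap L E (algebraMap K L a) ≠ 0 := by
      rw [← hι]
      simpa using ha
    rw [ord_algebraMap P h0]
  obtain ⟨v, m, hm, hv1, hv2⟩ := exists_place_of_valuation (K := K) (fun f => P.ord (ι f))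
    hmul hadd hK (h1_exists_ord_ne_zero ι hgen P)
  refine ⟨v, ?_, m, hm, ?_⟩
  · ext f
    rw [ValuationSubring.mem_comap, hv2]
    rcases eq_or_ne f 0 with rfl | hf
    · simp [P.toValuationSubring.zero_mem]
    · have hιf : ι f ≠ 0 := by simpa using hf
      rw [mem_place_iff_ord_nonneg P hιf]
      simp [hf]
  · intro f
    rcases eq_or_ne f 0 with rfl | hf
    · simp
    · exact hv1 f hf

/-- The restriction of a place in the "lies above" spelling. -/
theorem h1_comap_eq_of_above (W : ValuationSubring E) (W₀ : ValuationSubring F)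
    (h1 : ∀ g ∈ W₀, ι g ∈ W) (h2 : ∀ g ∈ W₀, g⁻¹ ∉ W₀ → (ι g)⁻¹ ∉ W) : W.comap ι = W₀ := by
  ext g
  rw [ValuationSubring.mem_comap]
  constructor
  · intro hg
    by_contra hcon
    have hinv : g⁻¹ ∈ W₀ := (W₀.mem_or_inv_mem g).resolve_left hcon
    have := h2 g⁻¹ hinv (by rwa [inv_inv])
    rw [map_inv₀, inv_inv] at this
    exact this hg
  · exact h1 g

/-- Rationality: from the `ord` spelling to the valuation spelling. -/
theorem h1_hrat_of_ord (v : Place K F)
    (hrat : ∀ f : F, 0 ≤ v.ord f →
      ∃ c : K, f = algebraMap K F c ∨ 0 < v.ord (f - algebraMap K F c)) :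
    ∀ f ∈ v.toValuationSubring,
      ∃ a : K, v.toValuationSubring.valuation (f - algebraMap K F a) < 1 := by
  intro f hf
  have h0 : 0 ≤ v.ord f := by
    rcases eq_or_ne f 0 with rfl | hf0
    · simp
    · exact (mem_place_iff_ord_nonneg v hf0).mp hf
  obtain ⟨c, hc | hc⟩ := hrat f h0
  · exact ⟨c, by rw [hc, sub_self, map_zero]; exact zero_lt_one⟩
  · refine ⟨c, ?_⟩
    have hne : f - algebraMap K F c ≠ 0 := by
      intro h
      rw [h, Place.ord_zero] at hc
      exact lt_irrefl _ hc
    exact (ord_pos_iff_val_lt_one v hne).mp hc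

/-- Rationality: from the valuation spelling to the `ord` spelling. -/
theorem h1_hrat_to_ord (v : Place K F)
    (hrat : ∀ f ∈ v.toValuationSubring,
      ∃ a : K, v.toValuationSubring.valuation (f - algebraMap K F a) < 1) :
    ∀ f : F, 0 ≤ v.ord f →
      ∃ c : K, f = algebraMap K F c ∨ 0 < v.ord (f - algebraMap K F c) := by
  intro f h0
  have hf : f ∈ v.toValuationSubring := by
    rcases eq_or_ne f 0 with rfl | hf0
    · exact v.toValuationSubring.zero_mem
    · exact (mem_place_iff_ord_nonneg v hf0).mpr h0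
  obtain ⟨a, ha⟩ := hrat f hf
  refine ⟨a, ?_⟩
  by_cases hne : f - algebraMap K F a = 0
  · exact Or.inl (sub_eq_zero.mp hne)
  · exact Or.inr ((ord_pos_iff_val_lt_one v hne).mpr ha)

include hι hgen in
/-- `h1_ord_eq` in the `ord` spelling. -/
theorem h1_ord_eq' (P : Place L E) (v : Place K F)
    (hPv : P.toValuationSubring.comap ι = v.toValuationSubring)
    (hrat : ∀ f : F, 0 ≤ v.ord f →
      ∃ c : K, f = algebraMap K F c ∨ 0 < v.ord (f - algebraMap K F c))
    (f : F) : P.ord (ι f) = v.ord f :=
  h1_ord_eq ι hι hgen P v hPv (h1_hrat_of_ord v hrat) f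

include hι hgen in
/-- `h1_place_unique` in the `ord` spelling. -/
theorem h1_place_unique' (P P' : Place L E) (v : Place K F)
    (hPv : P.toValuationSubring.comap ι = v.toValuationSubring)
    (hP'v : P'.toValuationSubring.comap ι = v.toValuationSubring)
    (hrat : ∀ f : F, 0 ≤ v.ord f →
      ∃ c : K, f = algebraMap K F c ∨ 0 < v.ord (f - algebraMap K F c)) : P = P' :=
  h1_place_unique ι hι hgen P P' v hPv hP'v (h1_hrat_of_ord v hrat)

end AbstractRestrict

section Full

variable (k k' : Type*) [Field k] [Field k'] [Algebra k k'] (M : ℕ) [NeZero M]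

/-- The coefficientwise base change `F_k → F_k'` of modular functions. -/
def h1IotaFull : ↥(modularFunctionFieldFullC k M) →+* ↥(modularFunctionFieldFullC k' M) :=
  ((coeffMap (algebraMap k k')).comp
      (modularFunctionFieldFullC k M).toSubfield.subtype).codRestrict
    (modularFunctionFieldFullC k' M).toSubfield
    (fun x => Fermat.Agent.S18x.Desc.H19.h19_coeffMap_mem_full (algebraMap k k') M x.2)

@[simp]
theorem coe_h1IotaFull (g : ↥(modularFunctionFieldFullC k M)) :
    ((h1IotaFull k k' M g : ↥(modularFunctionFieldFullC k' M)) : LaurentSeries k') =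
      coeffMap (algebraMap k k') (g : LaurentSeries k) := rfl

theorem h1IotaFull_algebraMap (a : k) :
    h1IotaFull k k' M (algebraMap k ↥(modularFunctionFieldFullC k M) a) =
      algebraMap k' ↥(modularFunctionFieldFullC k' M) (algebraMap k k' a) := by
  apply Subtype.ext
  rw [coe_h1IotaFull]
  exact Fermat.Agent.S18x.Desc.H19.h19_coeffMap_algebraMap (algebraMap k k') a

/-- The sum form for Laurent series: every element of `F_k'` is `∑ cᵢ * coeffMap fᵢ` with
`fᵢ ∈ F_k`, if `k'` is algebraic over `k`. -/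
theorem h1_hgen_laurent [Algebra.IsAlgebraic k k'] (z : LaurentSeries k')
    (hz : z ∈ modularFunctionFieldFullC k' M) :
    ∃ (n : ℕ) (c : Fin n → k') (f : Fin n → ↥(modularFunctionFieldFullC k M)),
      z = ∑ i, algebraMap k' (LaurentSeries k') (c i) *
        coeffMap (algebraMap k k') (f i : LaurentSeries k) := by
  have hz' : z ∈ Subfield.closure (Set.range (algebraMap k' (LaurentSeries k')) ∪
      divisorExpansionsC k' M) := hz
  set ι' : ↥(modularFunctionFieldFullC k M) →+* LaurentSeries k' :=
    (coeffMap (algebraMap k k')).comp (modularFunctionFieldFullC k M).toSubfield.subtype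
    with hι'
  have hι'a : ∀ a : k, ι' (algebraMap k ↥(modularFunctionFieldFullC k M) a) =
      algebraMap k' (LaurentSeries k') (algebraMap k k' a) := fun a =>
    Fermat.Agent.S18x.Desc.H19.h19_coeffMap_algebraMap (algebraMap k k') a
  have hsub : Subfield.closure (Set.range (algebraMap k' (LaurentSeries k')) ∪
      divisorExpansionsC k' M) ≤
      Subfield.closure (Set.range (algebraMap k' (LaurentSeries k')) ∪ Set.range ι') := by
    apply Subfield.closure_mono
    apply Set.union_subset_union_right
    rintro x ⟨d, hd, hdM, rfl⟩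
    refine ⟨⟨qExpand k d (jqModC k), jqModCd_mem_full k M hdM⟩, ?_⟩
    show coeffMap (algebraMap k k') (qExpand k d (jqModC k)) = qExpand k' d (jqModC k')
    rw [coeffMap_qExpand, coeffMap_jqModC]
  exact h1_hgen_abs ι' hι'a z (hsub hz')

/-- **`hgen` for `F_k → F_k'`**, `k'` algebraic over `k`. -/
theorem h1_hgen_full [Algebra.IsAlgebraic k k'] (z : ↥(modularFunctionFieldFullC k' M)) :
    ∃ (n : ℕ) (c : Fin n → k') (f : Fin n → ↥(modularFunctionFieldFullC k M)),
      z = ∑ i, algebraMap k' ↥(modularFunctionFieldFullC k' M) (c i) *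
        h1IotaFull k k' M (f i) := by
  obtain ⟨n, c, f, hz⟩ := h1_hgen_laurent k k' M (z : LaurentSeries k') z.2
  refine ⟨n, c, f, ?_⟩
  apply Subtype.ext
  rw [hz]
  push_cast
  rfl

end Full

section Bar

local notation "Lbar" => AlgebraicClosure ℚ

variable (K : Type*) [Field K] [Algebra K Lbar] [Algebra.IsAlgebraic K Lbar]
  (M : ℕ) [NeZero M]

/-- **`hgen` for helper22's bridge `iotaK K M : F_K → F_ℚ̄`**. -/
theorem h1_hgen_iotaK (z : ↥(modularFunctionFieldBar M)) :
    ∃ (n : ℕ) (c : Fin n → Lbar) (f : Fin n → ↥(modularFunctionFieldFullC K M)),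
      z = ∑ i, algebraMap Lbar ↥(modularFunctionFieldBar M) (c i) *
        Fermat.Agent.S18x.Dict.H22.iotaK K M (f i) := by
  have hz : (z : LaurentSeries Lbar) ∈ modularFunctionFieldFullC Lbar M := by
    rw [← Fermat.Agent.S18x.Desc.H19.h19_bar_eq]
    exact z.2
  obtain ⟨n, c, f, hz⟩ := h1_hgen_laurent K Lbar M (z : LaurentSeries Lbar) hz
  refine ⟨n, c, f, ?_⟩
  apply Subtype.ext
  rw [hz]
  push_cast
  rfl

end Bar

end Fermat.Agent.S37x.Red.H1
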