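import Mathlib
import Fermat.Agent.S18x.Dict.H23_Dvr
import Fermat.Agent.S18x.Qepo.H1_Gauss
import Fermat.Agent.S37x.Red.H1_RatInst

/-!
# S37 [RED-M] (b2), instance in characteristic `ℓ` (helper1)

`L / K` an algebraic extension of fields, `A` a valuation subring of `L`, `O := A ∩ K`,
`κ := ResidueField O`, `k := ResidueField A`, `κ → k` the embedding `h23_resEmb A`.

* `h1ResAlgebra A` : the algebra structure `κ → k` (reducible; activate with `letI`);
* `h1_isAlgebraic_residue` : `k` is algebraic over `κ`;
* `h1_hgen_res` : every element of `F̄_k = modularFunctionFieldFullC k M` is a finite sum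
  `∑ cᵢ * ῑ fᵢ` with `cᵢ ∈ k`, `fᵢ ∈ F̄_κ`, `ῑ := h1IotaFull κ k M` (coefficientwise base change);
* `h1_iotaRes_coe` : `ῑ` is `coeffMap (h23_resEmb A)` on Laurent series.
-/

set_option autoImplicit false
set_option synthInstance.maxHeartbeats 400000
set_option maxHeartbeats 1000000
set_option linter.unusedSectionVars false
set_option linter.style.haveILetI false

open Polynomial ModularCurve HahnSeries

noncomputable section

namespace Fermat.Agent.S37x.Red.H1

open Fermat.Agent.S18x.Dict.H23

variable {K L : Type} [Field K] [Field L] [Algebra K L] (A : ValuationSubring L)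

/-- The algebra structure `ResidueField (A ∩ K) → ResidueField A`. -/
@[reducible] def h1ResAlgebra :
    Algebra (IsLocalRing.ResidueField (A.comap (algebraMap K L))) (IsLocalRing.ResidueField A) :=
  (h23_resEmb (K := K) A).toAlgebra

theorem h1ResAlgebra_algebraMap :
    @algebraMap (IsLocalRing.ResidueField (A.comap (algebraMap K L)))
      (IsLocalRing.ResidueField A) _ _ (h1ResAlgebra A) = h23_resEmb (K := K) A := rfl

/-- The residue field of `A` is algebraic over the residue field of `A ∩ K`. -/
theorem h1_isAlgebraic_residue [Algebra.IsAlgebraic K L] :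
    @Algebra.IsAlgebraic (IsLocalRing.ResidueField (A.comap (algebraMap K L)))
      (IsLocalRing.ResidueField A) _ _ (h1ResAlgebra A) := by
  letI := h1ResAlgebra (K := K) A
  refine ⟨fun x => ?_⟩
  obtain ⟨a, rfl⟩ := IsLocalRing.residue_surjective x
  obtain ⟨p, hp0, hp⟩ := Algebra.IsAlgebraic.isAlgebraic (R := K) (a : L)
  obtain ⟨c, P', hc0, hP', hPc⟩ :=
    Fermat.Agent.S18x.Qepo.exists_content_form (A.comap (algebraMap K L)) hp0
  refine ⟨P'.map (IsLocalRing.residue _), hP', ?_⟩
  -- `P'(a) = 0` in `L`
  have h1 : Polynomial.eval₂ ((algebraMap K L).comp (A.comap (algebraMap K L)).subtype)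
      (a : L) P' = 0 := by
    have h2 : Polynomial.aeval (a : L) (C c * P'.map (A.comap (algebraMap K L)).subtype) = 0 := by
      rw [← hPc]
      exact hp
    rw [map_mul, Polynomial.aeval_C, Polynomial.aeval_def, Polynomial.eval₂_map] at h2
    rcases mul_eq_zero.mp h2 with h3 | h3
    · exact absurd ((map_eq_zero _).mp h3) hc0
    · exact h3
  -- `P'(a) = 0` in `A`
  have h4 : Polynomial.eval₂ (h23_incl (K := K) A) a P' = 0 := by
    apply Subtype.ext
    have h5 : A.subtype.comp (h23_incl (K := K) A) =
        (algebraMap K L).comp (A.comap (algebraMap K L)).subtype := by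
      refine RingHom.ext fun x => ?_
      exact h23_incl_coe A x
    have h6 := Polynomial.hom_eval₂ P' (h23_incl (K := K) A) A.subtype a
    rw [h5] at h6
    show A.subtype (Polynomial.eval₂ (h23_incl (K := K) A) a P') = 0
    rw [h6]
    exact h1
  -- reduce
  have h7 := congrArg (IsLocalRing.residue A) h4
  rw [Polynomial.hom_eval₂, map_zero] at h7
  have h8 : (IsLocalRing.residue A).comp (h23_incl (K := K) A) =
      (h23_resEmb (K := K) A).comp (IsLocalRing.residue _) := by
    refine RingHom.ext fun x => ?_
    exact (h23_resEmb_residue A x).symm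
  rw [h8] at h7
  rw [Polynomial.aeval_def, Polynomial.eval₂_map]
  exact h7

variable (M : ℕ) [NeZero M]

/-- `ῑ : F̄_κ → F̄_k` is `coeffMap (h23_resEmb A)` on Laurent series. -/
theorem h1_iotaRes_coe
    (g : ↥(modularFunctionFieldFullC (IsLocalRing.ResidueField (A.comap (algebraMap K L))) M)) :
    letI := h1ResAlgebra (K := K) A
    ((h1IotaFull (IsLocalRing.ResidueField (A.comap (algebraMap K L)))
        (IsLocalRing.ResidueField A) M g :
        ↥(modularFunctionFieldFullC (IsLocalRing.ResidueField A) M)) :
      LaurentSeries (IsLocalRing.ResidueField A)) =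
      coeffMap (h23_resEmb (K := K) A) (g : LaurentSeries _) := rfl

/-- **`hgen` in characteristic `ℓ`**: `F̄_k = k[ῑ F̄_κ]` in the sum form. -/
theorem h1_hgen_res [Algebra.IsAlgebraic K L]
    (z : ↥(modularFunctionFieldFullC (IsLocalRing.ResidueField A) M)) :
    letI := h1ResAlgebra (K := K) A
    ∃ (n : ℕ) (c : Fin n → IsLocalRing.ResidueField A)
      (f : Fin n →
        ↥(modularFunctionFieldFullC (IsLocalRing.ResidueField (A.comap (algebraMap K L))) M)),
      z = ∑ i, algebraMap (IsLocalRing.ResidueField A)
          ↥(modularFunctionFieldFullC (IsLocalRing.ResidueField A) M) (c i) *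
        h1IotaFull (IsLocalRing.ResidueField (A.comap (algebraMap K L)))
          (IsLocalRing.ResidueField A) M (f i) := by
  letI := h1ResAlgebra (K := K) A
  haveI := h1_isAlgebraic_residue (K := K) A
  exact h1_hgen_full _ _ M z

end Fermat.Agent.S37x.Red.H1
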