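import Mathlib
import Fermat.Agent.S18x.IG.H10_VertInstM
import Fermat.Agent.S18x.IG.H26_ChartAlg
import Fermat.Agent.S18x.Dict.H20_GaussInputs
import Fermat.Agent.S18x.Qepo.H1_Basis
import Fermat.Agent.S37x.Red.H1_RatRes
import Fermat.Agent.S37x.Red.H11_ConsAsm

/-!
# S37 / [RED-M] (b-asm), shared definitions (helper7): the reduction map on a chart

`O` a discrete valuation subring of `K` (characteristic `0`, residue characteristic `ℓ ∤ M`),
`F_K = modularFunctionFieldFullC K M`, `x ∈ F_K` a coordinate in the Gauss valuation ring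
`V = gaussValM O M`, `B = chart O x` the integral closure of `O[x]` in `F_K`.

* `h7red` : the Gauss reduction `B →+* F̄_κ = modularFunctionFieldFullC κ M`;
* `h7red_pi`, `h7red_eq_zero` (kernel `= π B`, from the saturation of the chart),
  `h7_span_pi_isPrime`, `h7_hfrac`, `h7_hOB` : the coordinate-independent hypotheses of
  helper11's `cons_asm`;
* `h7rho` : for `O = A ∩ K`, the composite `B → F̄_κ → F̄_k`, `k = ResidueField A`: the map `ρ`
  of `cons_asm`.
-/

set_option autoImplicit false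
set_option linter.unusedSectionVars false
set_option linter.style.haveILetI false
set_option synthInstance.maxHeartbeats 400000
set_option maxHeartbeats 1000000

noncomputable section

namespace Fermat.Agent.S37x.Red.H7

open AlgebraicCurve ModularCurve Polynomial
open Fermat.Agent.S18x.Dict.H20 Fermat.Agent.S18x.Dict.H23 Fermat.Agent.S18x.Spec.H26
open Fermat.Agent.S18x.IG

section Generic

variable {K : Type} [Field K] [CharZero K] (O : ValuationSubring K) [IsDiscreteValuationRing O]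
  (M : ℕ) [NeZero M]
  [Algebra O ↥(modularFunctionFieldFullC K M)]
  [IsScalarTower O K ↥(modularFunctionFieldFullC K M)]
  (ℓ : ℕ) [Fact ℓ.Prime] [CharP (IsLocalRing.ResidueField O) ℓ] (hℓM : ¬ ℓ ∣ M)
  (x : ↥(modularFunctionFieldFullC K M)) (hxV : x ∈ gaussValM O M)

include hxV in
/-- the chart lies in the Gauss valuation ring -/
theorem h7_chart_le (y : ↥(modularFunctionFieldFullC K M)) (hy : y ∈ chart O x) :
    y ∈ gaussValM O M :=
  Fermat.Agent.S18x.IG.H10.h10_chart_le_gaussVal O (inclM M) (inclM_mem_fracLam O M)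
    (Fermat.Agent.S18x.IG.H10.h10_hO_full O M) x hxV y hy

include hℓM in
/-- the Gauss reduction of an element of the chart is a modular function over `κ` -/
theorem h7_viG_mem (b : ↥(chart O x).toSubring) :
    Fermat.Agent.S18x.IG.H10.h10_viG O (inclM M) (inclM_mem_fracLam O M)
      (Fermat.Agent.S18x.IG.H10.h10_hO_full O M) x hxV b ∈
      (modularFunctionFieldFullC (IsLocalRing.ResidueField O) M).toSubfield := by
  obtain ⟨π, hπ⟩ := IsDiscreteValuationRing.exists_irreducible O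
  exact Fermat.Agent.S18x.Qepo.gaussRed_mem_full O π hπ M ℓ hℓM
    ⟨inclM M (b : ↥(modularFunctionFieldFullC K M)), h7_chart_le O M x hxV b.1 b.2⟩ b.1.2

/-- **The Gauss reduction on the chart**, `B →+* F̄_κ`. -/
def h7red : ↥(chart O x).toSubring →+* ↥(modularFunctionFieldFullC (IsLocalRing.ResidueField O) M) :=
  (Fermat.Agent.S18x.IG.H10.h10_viG O (inclM M) (inclM_mem_fracLam O M)
      (Fermat.Agent.S18x.IG.H10.h10_hO_full O M) x hxV).codRestrict
    (modularFunctionFieldFullC (IsLocalRing.ResidueField O) M).toSubfield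
    (h7_viG_mem O M ℓ hℓM x hxV)

theorem coe_h7red (b : ↥(chart O x).toSubring) :
    ((h7red O M ℓ hℓM x hxV b : ↥(modularFunctionFieldFullC (IsLocalRing.ResidueField O) M)) :
      LaurentSeries (IsLocalRing.ResidueField O)) =
      gaussRedM O M ⟨(b : ↥(modularFunctionFieldFullC K M)), h7_chart_le O M x hxV b.1 b.2⟩ :=
  rfl

theorem h7red_eq_zero_iff (b : ↥(chart O x).toSubring) :
    h7red O M ℓ hℓM x hxV b = 0 ↔
      gaussRedM O M ⟨(b : ↥(modularFunctionFieldFullC K M)), h7_chart_le O M x hxV b.1 b.2⟩ = 0 := by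
  rw [← coe_h7red O M ℓ hℓM x hxV b]
  constructor
  · intro h
    rw [h]
    rfl
  · intro h
    exact Subtype.ext h

/-- `ρ π = 0` -/
theorem h7red_pi (π₀ : O) (hπ₀ : Irreducible π₀) :
    h7red O M ℓ hℓM x hxV (chartPi O x π₀) = 0 := by
  rw [h7red_eq_zero_iff]
  exact gaussRedM_algebraMap_unif O M π₀ hπ₀

/-- the kernel of the reduction is `π B` (from the saturation of the chart) -/
theorem h7red_dvd (π₀ : O) (hπ₀ : Irreducible π₀)
    (hsat : ∀ v ∈ gaussValM O M,
      algebraMap O ↥(modularFunctionFieldFullC K M) π₀ * v ∈ chart O x → v ∈ chart O x)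
    (b : ↥(chart O x).toSubring) (hb : h7red O M ℓ hℓM x hxV b = 0) :
    chartPi O x π₀ ∣ b := by
  refine Fermat.Agent.S18x.IG.H10.h10_vi_hg O (inclM M) (inclM_mem_fracLam O M)
    (Fermat.Agent.S18x.IG.H10.h10_hO_full O M) x hxV π₀ hπ₀ hsat b ?_
  have h := congrArg Subtype.val hb
  exact h

theorem h7_ker_h7red (π₀ : O) (hπ₀ : Irreducible π₀)
    (hsat : ∀ v ∈ gaussValM O M,
      algebraMap O ↥(modularFunctionFieldFullC K M) π₀ * v ∈ chart O x → v ∈ chart O x) :
    RingHom.ker (h7red O M ℓ hℓM x hxV) = Ideal.span {chartPi O x π₀} := by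
  apply le_antisymm
  · intro b hb
    rw [Ideal.mem_span_singleton]
    exact h7red_dvd O M ℓ hℓM x hxV π₀ hπ₀ hsat b hb
  · rw [Ideal.span_le, Set.singleton_subset_iff]
    exact h7red_pi O M ℓ hℓM x hxV π₀ hπ₀

include hℓM hxV in
/-- `hπp` of `cons_asm` -/
theorem h7_span_pi_isPrime (π₀ : O) (hπ₀ : Irreducible π₀)
    (hsat : ∀ v ∈ gaussValM O M,
      algebraMap O ↥(modularFunctionFieldFullC K M) π₀ * v ∈ chart O x → v ∈ chart O x) :
    (Ideal.span {chartPi O x π₀}).IsPrime := by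
  rw [← h7_ker_h7red O M ℓ hℓM x hxV π₀ hπ₀ hsat]
  exact RingHom.ker_isPrime _

/-- `hρ0` of `cons_asm` at the level of `κ` -/
theorem h7red_ne_zero (π₀ : O) (hπ₀ : Irreducible π₀)
    (hsat : ∀ v ∈ gaussValM O M,
      algebraMap O ↥(modularFunctionFieldFullC K M) π₀ * v ∈ chart O x → v ∈ chart O x)
    (b : ↥(chart O x).toSubring) (hb : b ∉ Ideal.span {chartPi O x π₀}) :
    h7red O M ℓ hℓM x hxV b ≠ 0 := by
  intro h
  apply hb
  rw [← h7_ker_h7red O M ℓ hℓM x hxV π₀ hπ₀ hsat]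
  exact h

end Generic

section Concrete

local notation "Lbar" => AlgebraicClosure ℚ

variable (A : ValuationSubring Lbar) {ℓ : ℕ} (hℓ : ℓ.Prime) (hA : A.LiesOverPrime ℓ)
  (M : ℕ) [NeZero M] (hℓM : ¬ ℓ ∣ M) (K : IntermediateField ℚ Lbar)
  [IsDiscreteValuationRing (A.comap (algebraMap ↥K Lbar))]
  (x : ↥(modularFunctionFieldFullC ↥K M))
  (hxV : x ∈ gaussValM (A.comap (algebraMap ↥K Lbar)) M)

/-- the scalar tower `O_K → K → F_K` for the inferred algebra structure -/
theorem h7_isScalarTower :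
    IsScalarTower (A.comap (algebraMap ↥K Lbar)) ↥K ↥(modularFunctionFieldFullC ↥K M) :=
  IsScalarTower.of_algebraMap_eq (fun _ => rfl)

/-- **The reduction map `ρ` of `cons_asm`**: the Gauss reduction on the chart of `x` over
`O_K = A ∩ K`, with values in `F̄_k`, `k = ResidueField A`. -/
def h7rho : ↥(chart (A.comap (algebraMap ↥K Lbar)) x).toSubring →+*
    ↥(modularFunctionFieldFullC (IsLocalRing.ResidueField A) M) :=
  haveI := h7_isScalarTower A M K
  haveI : Fact ℓ.Prime := ⟨hℓ⟩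
  haveI : CharP (IsLocalRing.ResidueField (A.comap (algebraMap ↥K Lbar))) ℓ :=
    h23_charP_residueField (K := ↥K) A hℓ hA
  letI := Fermat.Agent.S37x.Red.H1.h1ResAlgebra (K := ↥K) A
  (Fermat.Agent.S37x.Red.H1.h1IotaFull
      (IsLocalRing.ResidueField (A.comap (algebraMap ↥K Lbar)))
      (IsLocalRing.ResidueField A) M).comp
    (h7red (A.comap (algebraMap ↥K Lbar)) M ℓ hℓM x hxV)

theorem coe_h7rho (b : ↥(chart (A.comap (algebraMap ↥K Lbar)) x).toSubring) :
    haveI := h7_isScalarTower A M K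
    ((h7rho A hℓ hA M hℓM K x hxV b : ↥(modularFunctionFieldFullC (IsLocalRing.ResidueField A) M)) :
      LaurentSeries (IsLocalRing.ResidueField A)) =
      coeffMap (h23_resEmb (K := ↥K) A)
        (gaussRedM (A.comap (algebraMap ↥K Lbar)) M
          ⟨(b : ↥(modularFunctionFieldFullC ↥K M)),
            h7_chart_le (A.comap (algebraMap ↥K Lbar)) M x hxV b.1 b.2⟩) :=
  rfl

theorem h7rho_eq_zero_iff (b : ↥(chart (A.comap (algebraMap ↥K Lbar)) x).toSubring) :
    haveI := h7_isScalarTower A M K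
    haveI : Fact ℓ.Prime := ⟨hℓ⟩
    haveI : CharP (IsLocalRing.ResidueField (A.comap (algebraMap ↥K Lbar))) ℓ :=
      h23_charP_residueField (K := ↥K) A hℓ hA
    h7rho A hℓ hA M hℓM K x hxV b = 0 ↔
      h7red (A.comap (algebraMap ↥K Lbar)) M ℓ hℓM x hxV b = 0 := by
  haveI := h7_isScalarTower A M K
  haveI : Fact ℓ.Prime := ⟨hℓ⟩
  haveI : CharP (IsLocalRing.ResidueField (A.comap (algebraMap ↥K Lbar))) ℓ :=
    h23_charP_residueField (K := ↥K) A hℓ hA
  letI := Fermat.Agent.S37x.Red.H1.h1ResAlgebra (K := ↥K) A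
  exact map_eq_zero_iff (Fermat.Agent.S37x.Red.H1.h1IotaFull
      (IsLocalRing.ResidueField (A.comap (algebraMap ↥K Lbar)))
      (IsLocalRing.ResidueField A) M)
    (RingHom.injective (Fermat.Agent.S37x.Red.H1.h1IotaFull
      (IsLocalRing.ResidueField (A.comap (algebraMap ↥K Lbar)))
      (IsLocalRing.ResidueField A) M))

/-- `hρπ` of `cons_asm` -/
theorem h7rho_pi (π₀ : A.comap (algebraMap ↥K Lbar)) (hπ₀ : Irreducible π₀) :
    h7rho A hℓ hA M hℓM K x hxV (chartPi (A.comap (algebraMap ↥K Lbar)) x π₀) = 0 := by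
  haveI := h7_isScalarTower A M K
  haveI : Fact ℓ.Prime := ⟨hℓ⟩
  haveI : CharP (IsLocalRing.ResidueField (A.comap (algebraMap ↥K Lbar))) ℓ :=
    h23_charP_residueField (K := ↥K) A hℓ hA
  rw [h7rho_eq_zero_iff]
  exact h7red_pi (A.comap (algebraMap ↥K Lbar)) M ℓ hℓM x hxV π₀ hπ₀

/-- `hρ0` of `cons_asm` -/
theorem h7rho_ne_zero (π₀ : A.comap (algebraMap ↥K Lbar)) (hπ₀ : Irreducible π₀)
    (hsat : ∀ v ∈ gaussValM (A.comap (algebraMap ↥K Lbar)) M,
      algebraMap (A.comap (algebraMap ↥K Lbar)) ↥(modularFunctionFieldFullC ↥K M) π₀ * v ∈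
        chart (A.comap (algebraMap ↥K Lbar)) x → v ∈ chart (A.comap (algebraMap ↥K Lbar)) x)
    (b : ↥(chart (A.comap (algebraMap ↥K Lbar)) x).toSubring)
    (hb : b ∉ Ideal.span {chartPi (A.comap (algebraMap ↥K Lbar)) x π₀}) :
    h7rho A hℓ hA M hℓM K x hxV b ≠ 0 := by
  haveI := h7_isScalarTower A M K
  haveI : Fact ℓ.Prime := ⟨hℓ⟩
  haveI : CharP (IsLocalRing.ResidueField (A.comap (algebraMap ↥K Lbar))) ℓ :=
    h23_charP_residueField (K := ↥K) A hℓ hA
  rw [Ne, h7rho_eq_zero_iff]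
  exact h7red_ne_zero (A.comap (algebraMap ↥K Lbar)) M ℓ hℓM x hxV π₀ hπ₀ hsat b hb

include hℓ hA hℓM hxV in
/-- `hπp` of `cons_asm` -/
theorem h7_hπp (π₀ : A.comap (algebraMap ↥K Lbar)) (hπ₀ : Irreducible π₀)
    (hsat : ∀ v ∈ gaussValM (A.comap (algebraMap ↥K Lbar)) M,
      algebraMap (A.comap (algebraMap ↥K Lbar)) ↥(modularFunctionFieldFullC ↥K M) π₀ * v ∈
        chart (A.comap (algebraMap ↥K Lbar)) x → v ∈ chart (A.comap (algebraMap ↥K Lbar)) x) :
    (Ideal.span {chartPi (A.comap (algebraMap ↥K Lbar)) x π₀}).IsPrime := by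
  haveI := h7_isScalarTower A M K
  haveI : Fact ℓ.Prime := ⟨hℓ⟩
  haveI : CharP (IsLocalRing.ResidueField (A.comap (algebraMap ↥K Lbar))) ℓ :=
    h23_charP_residueField (K := ↥K) A hℓ hA
  exact h7_span_pi_isPrime (A.comap (algebraMap ↥K Lbar)) M ℓ hℓM x hxV π₀ hπ₀ hsat

/-- `hOB` of `cons_asm` -/
theorem h7_hOB (c : A.comap (algebraMap ↥K Lbar)) :
    algebraMap (A.comap (algebraMap ↥K Lbar)) ↥(modularFunctionFieldFullC ↥K M) c ∈
      (chart (A.comap (algebraMap ↥K Lbar)) x).toSubring :=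
  (chart (A.comap (algebraMap ↥K Lbar)) x).algebraMap_mem c

end Concrete

end Fermat.Agent.S37x.Red.H7
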