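import Fermat.Agent.S37x.Red.H20_DefsG
import Fermat.Agent.S37x.Red.H7_ConsDefs

/-!
# S37 [RED-M] (c2), part (ζ): weak approximation, from the number fields to `ℚ̄` (helper20)

* `StWAK A M x T'` : **(WA) over the number fields**: for a place `Q` of `F̄` and finitely many
  places `Q'`, all with `T'` (the reduction of the coordinate) regular, there are a number field
  `K` and an element `g` of the chart `chart O_K (x K)` with `ord_Q (ρ g) = 1`,
  `ord_Q' (ρ g) = 0` (`ρ = h7rho`, helper7);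
* `stWAG_of_stWAK` : `StWAK ⟹ StWAG` (push the chart element to `F_L` by `ι_K`).
-/

set_option autoImplicit false
set_option synthInstance.maxHeartbeats 400000
set_option maxHeartbeats 1000000

open HahnSeries IntermediateField AlgebraicCurve ModularCurve

noncomputable section

namespace Fermat.Agent.S37x.Red.H20

open Fermat.Agent.S37x.Red.H22 Fermat.Agent.S37x.Red.H7
open Fermat.Agent.S18x.Dict.H20 Fermat.Agent.S18x.Dict.H22 Fermat.Agent.S18x.Dict.H23
open Fermat.Agent.S18x.Spec.H26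

local notation "Lbar" => AlgebraicClosure ℚ

variable (A : ValuationSubring (AlgebraicClosure ℚ)) (M : ℕ) [NeZero M]
  {ℓ : ℕ} (hℓ : ℓ.Prime) (hA : A.LiesOverPrime ℓ) (hℓM : ¬ ℓ ∣ M)

local notation "kA" => IsLocalRing.ResidueField A

/-- **(WA) over the number fields** for the coordinate family `x`, whose reduction is `T'`. -/
def StWAK (x : ∀ K : IntermediateField ℚ Lbar, ↥(modularFunctionFieldFullC ↥K M))
    (T' : modularFunctionFieldFullC kA M) : Prop :=
  ∀ (Q : Place kA (modularFunctionFieldFullC kA M))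
    (𝒯 : Finset (Place kA (modularFunctionFieldFullC kA M))),
    (∀ Q', (Q' = Q ∨ Q' ∈ 𝒯) → 0 ≤ Q'.ord T') →
    ∃ (K : IntermediateField ℚ Lbar)
      (_ : IsDiscreteValuationRing (A.comap (algebraMap ↥K Lbar)))
      (hxV : x K ∈ gaussValM (A.comap (algebraMap ↥K Lbar)) M)
      (g : ↥(chart (A.comap (algebraMap ↥K Lbar)) (x K)).toSubring),
      Q.ord (h7rho A hℓ hA M hℓM K (x K) hxV g) = 1 ∧
      ∀ Q' ∈ 𝒯, Q' ≠ Q → Q'.ord (h7rho A hℓ hA M hℓM K (x K) hxV g) = 0

/-- the push of a chart element to `F_L`: it lies in the Gauss ring -/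
theorem iotaK_chart_mem_gaussL (K : IntermediateField ℚ Lbar)
    [IsDiscreteValuationRing (A.comap (algebraMap ↥K Lbar))]
    (xK : ↥(modularFunctionFieldFullC ↥K M))
    (hxV : xK ∈ gaussValM (A.comap (algebraMap ↥K Lbar)) M)
    (g : ↥(chart (A.comap (algebraMap ↥K Lbar)) xK).toSubring) :
    iotaK ↥K M (g : ↥(modularFunctionFieldFullC ↥K M)) ∈ gaussL A M :=
  haveI := h7_isScalarTower A M K
  iotaK_mem_gaussL A M K
    (h7_chart_le (A.comap (algebraMap ↥K Lbar)) M xK hxV g.1 g.2)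

/-- the reduction of the push of a chart element is `ρ g` -/
theorem redL_iotaK_chart (K : IntermediateField ℚ Lbar)
    [IsDiscreteValuationRing (A.comap (algebraMap ↥K Lbar))]
    (xK : ↥(modularFunctionFieldFullC ↥K M))
    (hxV : xK ∈ gaussValM (A.comap (algebraMap ↥K Lbar)) M)
    (g : ↥(chart (A.comap (algebraMap ↥K Lbar)) xK).toSubring) :
    redL A M hℓ hA hℓM ⟨iotaK ↥K M (g : ↥(modularFunctionFieldFullC ↥K M)),
        iotaK_chart_mem_gaussL A M K xK hxV g⟩ =
      h7rho A hℓ hA M hℓM K xK hxV g := by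
  haveI := h7_isScalarTower A M K
  apply Subtype.ext
  rw [coe_redL, coe_h7rho]
  exact redLS_iotaK A M K (h7_chart_le (A.comap (algebraMap ↥K Lbar)) M xK hxV g.1 g.2)

/-- **(ζ-L)** weak approximation over the number fields gives weak approximation in `F_L`. -/
theorem stWAG_of_stWAK
    (x : ∀ K : IntermediateField ℚ Lbar, ↥(modularFunctionFieldFullC ↥K M))
    (xL : modularFunctionFieldBar M)
    (hx : ∀ K : IntermediateField ℚ Lbar, iotaK ↥K M (x K) = xL)
    (hxL : xL ∈ gaussL A M)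
    (h : StWAK A M hℓ hA hℓM x (redL A M hℓ hA hℓM ⟨xL, hxL⟩)) :
    StWAG A M hℓ hA hℓM xL hxL := by
  intro Q 𝒯 hreg
  obtain ⟨K, hdvr, hxV, g, h1, h2⟩ := h Q 𝒯 hreg
  haveI := hdvr
  haveI := h7_isScalarTower A M K
  refine ⟨⟨iotaK ↥K M (g : ↥(modularFunctionFieldFullC ↥K M)),
    iotaK_chart_mem_gaussL A M K (x K) hxV g⟩, ?_, ?_, ?_⟩
  · have := isIntegral_iotaK A M K (x K) (g : ↥(modularFunctionFieldFullC ↥K M)) g.2
    rwa [hx K] at this
  · rw [redL_iotaK_chart]
    exact h1
  · intro Q' hQ' hne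
    rw [redL_iotaK_chart]
    exact h2 Q' hQ' hne

end Fermat.Agent.S37x.Red.H20
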