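import Mathlib
import Fermat.Prelude.Def_AlgebraicCurve_DivisorClassGroup
import Fermat.Agent.S24.H15_Kaehler

/-!
# S37 [RED-M] (c2), part (S3): the abstract core of weak approximation in a chart (helper20)

`ρ : B →+* F'` a ring homomorphism into a function field (the reduction of a chart), `π ∈ ker ρ`,
`Q` a place of `F'` with `ρ (B) ⊆ O_Q` and centre `𝔫 = ρ⁻¹ (𝔪_Q)`.

* `ord_witness_eq_one` : if (SM) holds at `𝔫` with witness `t` (`s y = π u + t w`, `s ∉ 𝔫`, for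
  every `y ∈ 𝔫`) and the fraction field of `ρ (B)` contains an element of order `1` at `Q`, then
  `ord_Q (ρ t) = 1`.  (No Krull intersection: induction on `ord_Q`.)
* `wa_core` : weak approximation: for finitely many further places `Q'` with `ρ (B) ⊆ O_Q'` and
  maximal centres different from `𝔫` there is `g ∈ B` with `ord_Q (ρ g) = 1` and
  `ord_Q' (ρ g) = 0`  (CRT: `g ≡ t mod 𝔫²`, `g ≡ 1 mod 𝔫_Q'`).
-/

set_option autoImplicit false

open AlgebraicCurve IsLocalRing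

namespace Fermat.Agent.S37x.Red.H20

section PlaceIdeal

variable {K F : Type*} [Field K] [Field F] [Algebra K F]

open Fermat.Agent.S24.RH in
theorem place_mem_maximalIdeal_iff (v : Place K F) (f : v.toValuationSubring) :
    f ∈ maximalIdeal v.toValuationSubring ↔ f = 0 ∨ 0 < v.ord (f : F) := by
  constructor
  · intro h
    by_cases h0 : f = 0
    · exact Or.inl h0
    · exact Or.inr (ord_pos_of_mem_maximalIdeal v h h0)
  · rintro (rfl | h)
    · exact zero_mem _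
    · obtain ⟨hf, hm⟩ := mem_maximalIdeal_of_ord_pos v h
      exact hm

open Fermat.Agent.S24.RH in
/-- Membership in a power of the maximal ideal of a place. -/
theorem place_mem_pow_iff (v : Place K F) (f : v.toValuationSubring) (n : ℕ) :
    f ∈ (maximalIdeal v.toValuationSubring) ^ n ↔ f = 0 ∨ (n : ℤ) ≤ v.ord (f : F) := by
  obtain ⟨ϖ, hϖ⟩ := IsDiscreteValuationRing.exists_irreducible v.toValuationSubring
  have hϖ0 : (ϖ : F) ≠ 0 := coe_irreducible_ne_zero v hϖ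
  rw [hϖ.maximalIdeal_eq, Ideal.span_singleton_pow, Ideal.mem_span_singleton]
  constructor
  · rintro ⟨c, rfl⟩
    by_cases hc : c = 0
    · left; rw [hc, mul_zero]
    · right
      have hcF : (c : F) ≠ 0 := by
        simpa [ne_eq, ZeroMemClass.coe_eq_zero] using hc
      have h1 : ((ϖ ^ n * c : v.toValuationSubring) : F) = (ϖ : F) ^ n * (c : F) := rfl
      rw [h1, v.ord_mul (pow_ne_zero n hϖ0) hcF]
      have h2 : v.ord ((ϖ : F) ^ n) = n := by
        have := v.ord_zpow (ϖ : F) n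
        rw [zpow_natCast, v.ord_coe_irreducible hϖ, mul_one] at this
        exact this
      have h3 := ord_nonneg_of_mem v c.2
      omega
  · rintro (rfl | h)
    · exact dvd_zero _
    · by_cases hf : f = 0
      · rw [hf]; exact dvd_zero _
      have hfF : (f : F) ≠ 0 := by
        simpa [ne_eq, ZeroMemClass.coe_eq_zero] using hf
      obtain ⟨u, hu⟩ := v.exists_unit_mul_zpow hfF hϖ
      obtain ⟨m, hm⟩ := Int.eq_ofNat_of_zero_le (le_trans (Int.natCast_nonneg n) h)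
      have hnm : n ≤ m := by omega
      have hf' : f = u * ϖ ^ m := by
        apply Subtype.ext
        rw [hu, hm, zpow_natCast]
        rfl
      rw [hf']
      exact Dvd.dvd.mul_left (pow_dvd_pow ϖ hnm) _

theorem place_ord_eq_one_of_mem (v : Place K F) (f : v.toValuationSubring)
    (h1 : f ∈ maximalIdeal v.toValuationSubring)
    (h2 : f ∉ (maximalIdeal v.toValuationSubring) ^ 2) : v.ord (f : F) = 1 := by
  have hf0 : f ≠ 0 := by
    rintro rfl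
    exact h2 (zero_mem _)
  have h3 := ((place_mem_maximalIdeal_iff v f).mp h1).resolve_left hf0
  have h4 : ¬ ((2 : ℕ) : ℤ) ≤ v.ord (f : F) := fun h =>
    h2 ((place_mem_pow_iff v f 2).mpr (Or.inr h))
  push_cast at h4
  omega

theorem place_not_mem_sq_of_ord_eq_one (v : Place K F) (f : v.toValuationSubring)
    (h : v.ord (f : F) = 1) : f ∉ (maximalIdeal v.toValuationSubring) ^ 2 := by
  intro h2
  rcases (place_mem_pow_iff v f 2).mp h2 with h0 | h0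
  · rw [h0] at h
    simp at h
  · rw [h] at h0
    norm_num at h0

open Fermat.Agent.S24.RH in
theorem place_ord_eq_zero_of_not_mem (v : Place K F) (f : v.toValuationSubring)
    (h : f ∉ maximalIdeal v.toValuationSubring) : v.ord (f : F) = 0 := by
  have h1 := ord_nonneg_of_mem v f.2
  by_contra h2
  exact h ((place_mem_maximalIdeal_iff v f).mpr (Or.inr (lt_of_le_of_ne h1 (Ne.symm h2))))

end PlaceIdeal

section Core

variable {B : Type*} [CommRing B] {k F' : Type*} [Field k] [Field F'] [Algebra k F']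

open Fermat.Agent.S24.RH in
/-- **The order of the (SM)-witness is `1`.** -/
theorem ord_witness_eq_one (ρ : B →+* F') (π : B) (hπ : ρ π = 0) (Q : Place k F')
    (hreg : ∀ b, 0 ≤ Q.ord (ρ b))
    (𝔫 : Ideal B) (h𝔫 : ∀ b, b ∈ 𝔫 ↔ ρ b = 0 ∨ 0 < Q.ord (ρ b))
    (t : B) (ht : t ∈ 𝔫)
    (hSM : ∀ y ∈ 𝔫, ∃ s : B, s ∉ 𝔫 ∧ ∃ u w : B, s * y = π * u + t * w)
    (hunif : ∃ b₁ b₂ : B, ρ b₁ ≠ 0 ∧ ρ b₂ ≠ 0 ∧ Q.ord (ρ b₁) - Q.ord (ρ b₂) = 1) :
    ρ t ≠ 0 ∧ Q.ord (ρ t) = 1 := by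
  -- the basic relation
  have hrel : ∀ y ∈ 𝔫, ρ y ≠ 0 → ∃ w : B, ρ w ≠ 0 ∧ ρ t ≠ 0 ∧
      Q.ord (ρ y) = Q.ord (ρ t) + Q.ord (ρ w) := by
    intro y hy hy0
    obtain ⟨s, hs, u, w, hsy⟩ := hSM y hy
    have hs' : ρ s ≠ 0 ∧ ¬ 0 < Q.ord (ρ s) := by
      rw [h𝔫] at hs
      push Not at hs
      exact ⟨hs.1, not_lt.mpr hs.2⟩
    have hs0 : Q.ord (ρ s) = 0 := le_antisymm (not_lt.mp hs'.2) (hreg s)
    have h1 : ρ s * ρ y = ρ t * ρ w := by
      rw [← map_mul, hsy, map_add, map_mul, map_mul, hπ, zero_mul, zero_add]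
    have h2 : ρ t * ρ w ≠ 0 := by
      rw [← h1]; exact mul_ne_zero hs'.1 hy0
    have ht0 : ρ t ≠ 0 := left_ne_zero_of_mul h2
    have hw0 : ρ w ≠ 0 := right_ne_zero_of_mul h2
    refine ⟨w, hw0, ht0, ?_⟩
    have h3 := congrArg Q.ord h1
    rw [Q.ord_mul hs'.1 hy0, Q.ord_mul ht0 hw0, hs0, zero_add] at h3
    exact h3
  obtain ⟨b₁, b₂, hb₁, hb₂, hb⟩ := hunif
  -- `ρ t ≠ 0`
  have hb₁𝔫 : b₁ ∈ 𝔫 := by
    rw [h𝔫]
    right
    have := hreg b₂
    omega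
  obtain ⟨w₁, -, ht0, -⟩ := hrel b₁ hb₁𝔫 hb₁
  have he : 0 < Q.ord (ρ t) := ((h𝔫 t).mp ht).resolve_left ht0
  -- divisibility of all orders
  have hdvd : ∀ n : ℕ, ∀ y : B, ρ y ≠ 0 → Q.ord (ρ y) = n → Q.ord (ρ t) ∣ (n : ℤ) := by
    intro n
    induction n using Nat.strong_induction_on with
    | _ n ih =>
      intro y hy0 hyn
      rcases Nat.eq_zero_or_pos n with rfl | hn
      · exact dvd_zero _
      · have hy𝔫 : y ∈ 𝔫 := by
          rw [h𝔫]; right; rw [hyn]; exact_mod_cast hn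
        obtain ⟨w, hw0, -, hw⟩ := hrel y hy𝔫 hy0
        obtain ⟨m, hm⟩ := Int.eq_ofNat_of_zero_le (hreg w)
        have hmn : m < n := by
          rw [hyn, hm] at hw
          omega
        have := ih m hmn w hw0 hm
        rw [← hyn, hw, hm]
        exact dvd_add (dvd_refl _) this
  obtain ⟨n₁, hn₁⟩ := Int.eq_ofNat_of_zero_le (hreg b₁)
  obtain ⟨n₂, hn₂⟩ := Int.eq_ofNat_of_zero_le (hreg b₂)
  have h1 := hdvd n₁ b₁ hb₁ hn₁
  have h2 := hdvd n₂ b₂ hb₂ hn₂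
  have h3 : Q.ord (ρ t) ∣ 1 := by
    have := dvd_sub h1 h2
    rw [← hn₁, ← hn₂, hb] at this
    exact this
  exact ⟨ht0, Int.eq_one_of_dvd_one he.le h3⟩

open Fermat.Agent.S24.RH in
/-- **(S3) Weak approximation in a chart, abstract core.** -/
theorem wa_core (ρ : B →+* F') (π : B) (hπ : ρ π = 0) (Q : Place k F')
    (𝒯 : Finset (Place k F'))
    (hreg : ∀ Q', (Q' = Q ∨ Q' ∈ 𝒯) → ∀ b, 0 ≤ Q'.ord (ρ b))
    (𝔫 : Place k F' → Ideal B)
    (h𝔫 : ∀ Q', (Q' = Q ∨ Q' ∈ 𝒯) → ∀ b, b ∈ 𝔫 Q' ↔ ρ b = 0 ∨ 0 < Q'.ord (ρ b))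
    (hmax : ∀ Q', (Q' = Q ∨ Q' ∈ 𝒯) → (𝔫 Q').IsMaximal)
    (hSM : ∃ t ∈ 𝔫 Q, ∀ y ∈ 𝔫 Q, ∃ s : B, s ∉ 𝔫 Q ∧ ∃ u w : B, s * y = π * u + t * w)
    (hunif : ∃ b₁ b₂ : B, ρ b₁ ≠ 0 ∧ ρ b₂ ≠ 0 ∧ Q.ord (ρ b₁) - Q.ord (ρ b₂) = 1)
    (hsep : ∀ Q' ∈ 𝒯, Q' ≠ Q → 𝔫 Q' ≠ 𝔫 Q) :
    ∃ g : B, Q.ord (ρ g) = 1 ∧ ∀ Q' ∈ 𝒯, Q' ≠ Q → Q'.ord (ρ g) = 0 := by
  classical
  have hQmem : Q = Q ∨ Q ∈ 𝒯 := Or.inl rfl
  obtain ⟨t, ht, hSMt⟩ := hSM
  obtain ⟨ht0, ht1⟩ := ord_witness_eq_one ρ π hπ Q (hreg Q hQmem) (𝔫 Q) (h𝔫 Q hQmem) t ht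
    hSMt hunif
  haveI := hmax Q hQmem
  -- coprimality
  have hcop : IsCoprime ((𝔫 Q) ^ 2) (⨅ Q' ∈ 𝒯.filter (· ≠ Q), 𝔫 Q') := by
    apply Ideal.isCoprime_biInf
    intro Q' hQ'
    rw [Finset.mem_filter] at hQ'
    haveI := hmax Q' (Or.inr hQ'.1)
    exact IsCoprime.pow_left (Ideal.isCoprime_of_isMaximal (hsep Q' hQ'.1 hQ'.2).symm)
  obtain ⟨u, hu, v, hv, huv⟩ := Ideal.isCoprime_iff_exists.mp hcop
  refine ⟨t * v + u, ?_, ?_⟩
  · -- at `Q`
    let ρ' : B →+* Q.toValuationSubring :=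
      ρ.codRestrict Q.toValuationSubring.toSubring (fun b => mem_of_ord_nonneg Q (hreg Q hQmem b))
    have hρ' : ∀ b, ((ρ' b : Q.toValuationSubring) : F') = ρ b := fun b => rfl
    have hle : 𝔫 Q ≤ (maximalIdeal Q.toValuationSubring).comap ρ' := by
      intro b hb
      rw [Ideal.mem_comap, place_mem_maximalIdeal_iff, hρ']
      rcases (h𝔫 Q hQmem b).mp hb with h | h
      · left; exact Subtype.ext h
      · right; exact h
    have hu2 : ρ' u ∈ (maximalIdeal Q.toValuationSubring) ^ 2 := by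
      have h1 : (𝔫 Q) ^ 2 ≤ ((maximalIdeal Q.toValuationSubring) ^ 2).comap ρ' :=
        le_trans (Ideal.pow_right_mono hle 2) (Ideal.le_comap_pow ρ' 2)
      exact h1 hu
    have ht' : ρ' t ∈ maximalIdeal Q.toValuationSubring := hle ht
    have ht2 : ρ' t ∉ (maximalIdeal Q.toValuationSubring) ^ 2 :=
      place_not_mem_sq_of_ord_eq_one Q (ρ' t) (by rw [hρ']; exact ht1)
    have hv' : v = 1 - u := by rw [← huv]; ring
    have hg : ρ' (t * v + u) = ρ' t + (ρ' u - ρ' t * ρ' u) := by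
      rw [hv']; simp only [map_add, map_mul, map_sub, map_one]; ring
    have hg1 : ρ' (t * v + u) ∈ maximalIdeal Q.toValuationSubring := by
      rw [hg]
      have h2 : (maximalIdeal Q.toValuationSubring) ^ 2 ≤ maximalIdeal Q.toValuationSubring :=
        Ideal.pow_le_self (by norm_num)
      exact Ideal.add_mem _ ht' (Ideal.sub_mem _ (h2 hu2) (Ideal.mul_mem_left _ _ (h2 hu2)))
    have hg2 : ρ' (t * v + u) ∉ (maximalIdeal Q.toValuationSubring) ^ 2 := by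
      intro h
      apply ht2
      have h3 : ρ' t = ρ' (t * v + u) - (ρ' u - ρ' t * ρ' u) := by rw [hg]; ring
      rw [h3]
      exact Ideal.sub_mem _ h (Ideal.sub_mem _ hu2 (Ideal.mul_mem_left _ _ hu2))
    have := place_ord_eq_one_of_mem Q (ρ' (t * v + u)) hg1 hg2
    rwa [hρ'] at this
  · intro Q' hQ' hne
    have hQ'mem : Q' = Q ∨ Q' ∈ 𝒯 := Or.inr hQ'
    let ρ' : B →+* Q'.toValuationSubring :=
      ρ.codRestrict Q'.toValuationSubring.toSubring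
        (fun b => mem_of_ord_nonneg Q' (hreg Q' hQ'mem b))
    have hρ' : ∀ b, ((ρ' b : Q'.toValuationSubring) : F') = ρ b := fun b => rfl
    have hv𝔫 : v ∈ 𝔫 Q' := by
      have h1 : (⨅ Q'' ∈ 𝒯.filter (· ≠ Q), 𝔫 Q'') ≤ 𝔫 Q' :=
        iInf₂_le Q' (Finset.mem_filter.mpr ⟨hQ', hne⟩)
      exact h1 hv
    haveI := hmax Q' hQ'mem
    have hg𝔫 : t * v + u ∉ 𝔫 Q' := by
      intro h
      have h1 : u ∈ 𝔫 Q' := by
        have := Ideal.sub_mem _ h (Ideal.mul_mem_left _ t hv𝔫)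
        simpa using this
      have h2 : (1 : B) ∈ 𝔫 Q' := by
        rw [← huv]; exact Ideal.add_mem _ h1 hv𝔫
      exact (hmax Q' hQ'mem).ne_top ((Ideal.eq_top_iff_one _).mpr h2)
    have h3 : ρ' (t * v + u) ∉ maximalIdeal Q'.toValuationSubring := by
      intro h
      apply hg𝔫
      rw [h𝔫 Q' hQ'mem]
      rcases (place_mem_maximalIdeal_iff Q' _).mp h with h0 | h0
      · left
        have := congrArg Subtype.val h0
        rwa [hρ'] at this
      · right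
        rwa [hρ'] at h0
    have := place_ord_eq_zero_of_not_mem Q' _ h3
    rwa [hρ'] at this

end Core

end Fermat.Agent.S37x.Red.H20
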