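import Mathlib
import Fermat.Agent.S18x.Dict.H7_Loc
import Fermat.Agent.S18x.IG.Defs

/-!
# S37 [RED-M] (centre), abstract part (helper29): the centre of a valuation on a chart

`B` a noetherian domain (a chart of the arithmetic surface), `π ∈ B` a prime element (the
uniformiser of the base), `ρ : B →+* E` a ring homomorphism to a field with kernel `(π)` and
`E = Frac ρ(B)` (the reduction to the function field of the special fibre), `W ≠ ⊤` a valuation
subring of `E` containing `ρ(B)`.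

* `centre ρ W hW : Ideal B` : the centre `{b | ρ b ∈ m_W}`, a prime ideal containing `π`;
* `exists_unit_pow_chart` **(C-a)** : the chart form of `h7_exists_unit_pow`: under (SM) at a
  prime `𝔫 ∋ π` with generator `t`, every `z ∉ (π)` satisfies `s * z = u * t ^ d + π * c` with
  `s, u ∉ 𝔫`;
* `val_eq_pow`, `exists_zpow_val_eq_one`, `mem_iff_exists_frac` **(C-b)** : under (SM) at the
  centre, `W` is a discrete valuation ring with uniformiser `ρ t` and `W = ρ(B)` localised at
  the centre;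
* `eq_of_centre_eq` **(C-c)** : `W` is determined by its centre.
-/

set_option autoImplicit false
set_option linter.unusedSectionVars false
set_option linter.style.haveILetI false
set_option maxHeartbeats 1000000

namespace Fermat.Agent.S37x.Red.H29

open IsLocalRing Fermat.Agent.S18x.Dict.H7

section ChartForm

variable {B : Type*} [CommRing B] [IsDomain B] [IsNoetherianRing B]

/-- **(C-a)** the chart form of `h7_exists_unit_pow`. -/
theorem exists_unit_pow_chart (π t : B) (hπ : Prime π) (𝔫 : Ideal B) [h𝔫 : 𝔫.IsPrime]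
    (hπ𝔫 : π ∈ 𝔫) (ht𝔫 : t ∈ 𝔫)
    (hSM : ∀ y ∈ 𝔫, ∃ s : B, s ∉ 𝔫 ∧ ∃ u w : B, s * y = π * u + t * w)
    (z : B) (hz : ¬ π ∣ z) :
    ∃ (d : ℕ) (s u c : B), s ∉ 𝔫 ∧ u ∉ 𝔫 ∧ s * z = u * t ^ d + π * c := by
  classical
  let R := Localization.AtPrime 𝔫
  haveI : IsNoetherianRing R := IsLocalization.isNoetherianRing 𝔫.primeCompl R inferInstance
  have hinj : Function.Injective (algebraMap B R) :=
    IsLocalization.injective R (Ideal.primeCompl_le_nonZeroDivisors 𝔫)
  have hunit : ∀ s : B, s ∉ 𝔫 → IsUnit (algebraMap B R s) := fun s hs =>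
    IsLocalization.map_units R (⟨s, hs⟩ : 𝔫.primeCompl)
  -- the maximal ideal of `R`
  have hm : maximalIdeal R = Ideal.span {algebraMap B R π, algebraMap B R t} := by
    rw [← Localization.AtPrime.map_eq_maximalIdeal]
    apply le_antisymm
    · rw [Ideal.map_le_iff_le_comap]
      intro y hy
      rw [Ideal.mem_comap]
      obtain ⟨s, hs, u, w, hsy⟩ := hSM y hy
      obtain ⟨e, he⟩ := (hunit s hs).exists_left_inv
      have h1 : algebraMap B R y = e * (algebraMap B R π * algebraMap B R u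
          + algebraMap B R t * algebraMap B R w) := by
        rw [← map_mul, ← map_mul, ← map_add, ← hsy, map_mul, ← mul_assoc, he, one_mul]
      rw [h1]
      apply Ideal.mul_mem_left
      apply Ideal.add_mem
      · exact Ideal.mul_mem_right _ _ (Ideal.subset_span (by simp))
      · exact Ideal.mul_mem_right _ _ (Ideal.subset_span (by simp))
    · rw [Ideal.span_le]
      rintro x (rfl | rfl)
      · exact Ideal.mem_map_of_mem _ hπ𝔫
      · exact Ideal.mem_map_of_mem _ ht𝔫
  -- `z ∉ (π)` in `R`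
  have hzR : algebraMap B R z ∉ Ideal.span {algebraMap B R π} := by
    rw [Ideal.mem_span_singleton]
    rintro ⟨r, hr⟩
    obtain ⟨⟨a, σ⟩, haσ⟩ := IsLocalization.surj 𝔫.primeCompl r
    simp only at haσ
    have h1 : algebraMap B R (z * σ) = algebraMap B R (π * a) := by
      rw [map_mul, map_mul, hr, ← haσ]
      ring
    have h2 := hinj h1
    have h3 : π ∣ z * σ := ⟨a, h2⟩
    rcases hπ.dvd_or_dvd h3 with h4 | h4
    · exact hz h4
    · obtain ⟨b, hb⟩ := h4
      apply σ.2
      show (σ : B) ∈ 𝔫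
      rw [hb]
      exact Ideal.mul_mem_right _ _ hπ𝔫
  obtain ⟨d, v, c, hv, hzv⟩ := h7_exists_unit_pow (algebraMap B R π) (algebraMap B R t) hm
    (algebraMap B R z) hzR
  obtain ⟨⟨u₀, s₀⟩, hus⟩ := IsLocalization.surj 𝔫.primeCompl v
  obtain ⟨⟨c₀, s₁⟩, hcs⟩ := IsLocalization.surj 𝔫.primeCompl c
  simp only at hus hcs
  have hu₀ : u₀ ∉ 𝔫 := by
    have h1 : IsUnit (algebraMap B R u₀) := by
      rw [← hus]
      exact hv.mul (hunit s₀ s₀.2)
    exact (IsLocalization.AtPrime.isUnit_to_map_iff R 𝔫 u₀).mp h1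
  refine ⟨d, s₀ * s₁, u₀ * s₁, c₀ * s₀, ?_, ?_, ?_⟩
  · exact fun h => (h𝔫.mem_or_mem h).elim s₀.2 s₁.2
  · exact fun h => (h𝔫.mem_or_mem h).elim hu₀ s₁.2
  · apply hinj
    simp only [map_mul, map_add, map_pow]
    rw [hzv, ← hus, ← hcs]
    ring

end ChartForm

section Centre

variable {B E : Type*} [CommRing B] [Field E] (ρ : B →+* E) (W : ValuationSubring E)
  (hW : ∀ b : B, ρ b ∈ W)

/-- The centre of `W` on `B`. -/
def centre : Ideal B :=
  Ideal.comap (ρ.codRestrict W.toSubring hW) (maximalIdeal W)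

theorem mem_centre_iff (b : B) : b ∈ centre ρ W hW ↔ W.valuation (ρ b) < 1 := by
  unfold centre
  rw [Ideal.mem_comap]
  exact ValuationSubring.valuation_lt_one_iff W _

instance centre_isPrime : (centre ρ W hW).IsPrime := by
  unfold centre
  exact Ideal.comap_isPrime _ _

theorem val_eq_one_of_not_mem_centre {b : B} (hb : b ∉ centre ρ W hW) :
    W.valuation (ρ b) = 1 := by
  rw [mem_centre_iff] at hb
  exact le_antisymm ((ValuationSubring.valuation_le_one_iff W _).mpr (hW b)) (not_lt.mp hb)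

theorem mem_centre_of_map_eq_zero {b : B} (hb : ρ b = 0) : b ∈ centre ρ W hW := by
  rw [mem_centre_iff, hb, map_zero]
  exact zero_lt_one

end Centre

section Dvr

variable {B E : Type*} [CommRing B] [IsDomain B] [IsNoetherianRing B] [Field E]
  (ρ : B →+* E) (W : ValuationSubring E) (hW : ∀ b : B, ρ b ∈ W)
  (π t : B) (hπ : Prime π) (hker : ∀ b : B, ρ b = 0 ↔ π ∣ b)
  (ht : t ∈ centre ρ W hW)
  (hSM : ∀ y ∈ centre ρ W hW, ∃ s : B, s ∉ centre ρ W hW ∧ ∃ u w : B, s * y = π * u + t * w)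

include hπ hker ht hSM in
/-- **(C-b1)** the valuation of `ρ z` is a power of the valuation of `ρ t`, the exponent being
the `t`-order of `z` modulo `π`. -/
theorem exists_val_eq_pow (z : B) (hz : ρ z ≠ 0) :
    ∃ (d : ℕ) (s u c : B), s ∉ centre ρ W hW ∧ u ∉ centre ρ W hW ∧
      s * z = u * t ^ d + π * c ∧ W.valuation (ρ z) = W.valuation (ρ t) ^ d := by
  have hπ𝔫 : π ∈ centre ρ W hW :=
    mem_centre_of_map_eq_zero ρ W hW ((hker π).mpr dvd_rfl)
  have hzπ : ¬ π ∣ z := fun h => hz ((hker z).mpr h)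
  obtain ⟨d, s, u, c, hs, hu, hszu⟩ :=
    exists_unit_pow_chart π t hπ (centre ρ W hW) hπ𝔫 ht hSM z hzπ
  refine ⟨d, s, u, c, hs, hu, hszu, ?_⟩
  have h1 := congrArg (fun b => W.valuation (ρ b)) hszu
  simp only [map_mul, map_add, map_pow, (hker π).mpr dvd_rfl, zero_mul, add_zero] at h1
  rw [val_eq_one_of_not_mem_centre ρ W hW hs, val_eq_one_of_not_mem_centre ρ W hW hu,
    one_mul, one_mul] at h1
  exact h1

include hπ hker ht hSM in
/-- If `W ≠ ⊤` and `E = Frac ρ(B)` then `ρ t ≠ 0`. -/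
theorem map_gen_ne_zero (hfrac : ∀ e : E, ∃ a b : B, ρ b ≠ 0 ∧ e * ρ b = ρ a) (hWtop : W ≠ ⊤) :
    ρ t ≠ 0 := by
  intro h0
  apply hWtop
  -- every `ρ z ≠ 0` has valuation one
  have hone : ∀ z : B, ρ z ≠ 0 → W.valuation (ρ z) = 1 := by
    intro z hz
    obtain ⟨d, s, u, c, hs, hu, hszu, hval⟩ := exists_val_eq_pow ρ W hW π t hπ hker ht hSM z hz
    rcases Nat.eq_zero_or_pos d with hd | hd
    · rw [hval, hd, pow_zero]
    · exfalso
      rw [h0, map_zero, zero_pow hd.ne'] at hval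
      exact hz ((Valuation.zero_iff _).mp hval)
  refine SetLike.ext fun e => ⟨fun _ => ValuationSubring.mem_top e, fun _ => ?_⟩
  obtain ⟨a, b, hb, hab⟩ := hfrac e
  rw [← ValuationSubring.valuation_le_one_iff]
  by_cases he : e = 0
  · rw [he, map_zero]
    exact zero_le_one
  have ha : ρ a ≠ 0 := by
    rw [← hab]
    exact mul_ne_zero he hb
  have h1 := congrArg W.valuation hab
  rw [map_mul, hone a ha, hone b hb, mul_one] at h1
  exact h1.le

include ht in
theorem val_gen_lt_one : W.valuation (ρ t) < 1 := (mem_centre_iff ρ W hW t).mp ht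

include hπ hker ht hSM in
/-- **(C-b2)** `ρ t` is a uniformiser of `W`: every `e ≠ 0` is a unit of `W` times a power of
`ρ t` (in the spelling `hunif` of `h1_ratExt`). -/
theorem exists_zpow_val_eq_one (hfrac : ∀ e : E, ∃ a b : B, ρ b ≠ 0 ∧ e * ρ b = ρ a)
    (hWtop : W ≠ ⊤) (e : E) (he : e ≠ 0) :
    ∃ n : ℤ, W.valuation (e * ρ t ^ n) = 1 := by
  have ht0 : ρ t ≠ 0 := map_gen_ne_zero ρ W hW π t hπ hker ht hSM hfrac hWtop
  have hvt0 : W.valuation (ρ t) ≠ 0 := (Valuation.ne_zero_iff _).mpr ht0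
  obtain ⟨a, b, hb, hab⟩ := hfrac e
  have ha : ρ a ≠ 0 := by
    rw [← hab]
    exact mul_ne_zero he hb
  obtain ⟨da, _, _, _, _, _, _, hva⟩ := exists_val_eq_pow ρ W hW π t hπ hker ht hSM a ha
  obtain ⟨db, _, _, _, _, _, _, hvb⟩ := exists_val_eq_pow ρ W hW π t hπ hker ht hSM b hb
  refine ⟨(db : ℤ) - da, ?_⟩
  have h1 := congrArg W.valuation hab
  rw [map_mul, hva, hvb] at h1
  rw [map_mul, map_zpow₀, zpow_sub₀ hvt0, zpow_natCast, zpow_natCast]
  have hpa : W.valuation (ρ t) ^ da ≠ 0 := pow_ne_zero _ hvt0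
  rw [← mul_div_assoc, h1, div_self hpa]

include hπ hker ht hSM in
/-- **(C-b3)** `W` is the localisation of `ρ(B)` at the centre. -/
theorem mem_iff_exists_frac (hfrac : ∀ e : E, ∃ a b : B, ρ b ≠ 0 ∧ e * ρ b = ρ a)
    (hWtop : W ≠ ⊤) (e : E) :
    e ∈ W ↔ ∃ a s : B, s ∉ centre ρ W hW ∧ e * ρ s = ρ a := by
  have ht0 : ρ t ≠ 0 := map_gen_ne_zero ρ W hW π t hπ hker ht hSM hfrac hWtop
  have hvt0 : W.valuation (ρ t) ≠ 0 := (Valuation.ne_zero_iff _).mpr ht0
  have hvt1 : W.valuation (ρ t) < 1 := val_gen_lt_one ρ W hW t ht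
  constructor
  · intro heW
    by_cases he : e = 0
    · refine ⟨0, 1, ?_, by rw [he, zero_mul, map_zero]⟩
      rw [mem_centre_iff, map_one, map_one]
      exact lt_irrefl _
    obtain ⟨a, b, hb, hab⟩ := hfrac e
    have ha : ρ a ≠ 0 := by
      rw [← hab]
      exact mul_ne_zero he hb
    obtain ⟨da, sa, ua, ca, hsa, hua, hae, hva⟩ :=
      exists_val_eq_pow ρ W hW π t hπ hker ht hSM a ha
    obtain ⟨db, sb, ub, cb, hsb, hub, hbe, hvb⟩ :=
      exists_val_eq_pow ρ W hW π t hπ hker ht hSM b hb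
    have hρπ : ρ π = 0 := (hker π).mpr dvd_rfl
    have hae' : ρ sa * ρ a = ρ ua * ρ t ^ da := by
      have := congrArg ρ hae
      simpa only [map_mul, map_add, map_pow, hρπ, zero_mul, add_zero] using this
    have hbe' : ρ sb * ρ b = ρ ub * ρ t ^ db := by
      have := congrArg ρ hbe
      simpa only [map_mul, map_add, map_pow, hρπ, zero_mul, add_zero] using this
    -- `db ≤ da`
    have hle : db ≤ da := by
      by_contra hlt
      push Not at hlt
      have h1 := congrArg W.valuation hab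
      rw [map_mul, hva, hvb] at h1
      have h2 : W.valuation e ≤ 1 := (ValuationSubring.valuation_le_one_iff W e).mpr heW
      obtain ⟨k, hk⟩ := Nat.exists_eq_add_of_lt hlt
      have h3 : W.valuation e * W.valuation (ρ t) ^ (k + 1) = 1 := by
        have h4 : W.valuation (ρ t) ^ db
            = W.valuation (ρ t) ^ da * W.valuation (ρ t) ^ (k + 1) := by
          rw [← pow_add, hk]
          congr 1
        rw [h4, ← mul_assoc] at h1
        have hpa : W.valuation (ρ t) ^ da ≠ 0 := pow_ne_zero _ hvt0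
        have h5 : W.valuation e * W.valuation (ρ t) ^ da * W.valuation (ρ t) ^ (k + 1)
            = W.valuation (ρ t) ^ da * (W.valuation e * W.valuation (ρ t) ^ (k + 1)) := by
          rw [mul_comm (W.valuation e) _, mul_assoc]
        rw [h5] at h1
        exact mul_left_cancel₀ hpa (by rw [h1, mul_one])
      have h6 : W.valuation (ρ t) ^ (k + 1) < 1 := pow_lt_one₀ zero_le hvt1 (by omega)
      have h7 : W.valuation e * W.valuation (ρ t) ^ (k + 1) < 1 := by
        calc W.valuation e * W.valuation (ρ t) ^ (k + 1)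
            ≤ 1 * W.valuation (ρ t) ^ (k + 1) := mul_le_mul_left h2 _
          _ = W.valuation (ρ t) ^ (k + 1) := one_mul _
          _ < 1 := h6
      rw [h3] at h7
      exact lt_irrefl _ h7
    obtain ⟨k, rfl⟩ := Nat.exists_eq_add_of_le hle
    refine ⟨ua * sb * t ^ k, sa * ub, ?_, ?_⟩
    · exact fun h => ((centre_isPrime ρ W hW).mem_or_mem h).elim hsa hub
    · have hsb0 : ρ sb ≠ 0 := by
        intro h
        exact hsb (mem_centre_of_map_eq_zero ρ W hW h)
      have hub0 : ρ ub ≠ 0 := by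
        intro h
        exact hub (mem_centre_of_map_eq_zero ρ W hW h)
      have hkey : (e * (ρ sa * ρ ub)) * (ρ sb * ρ b) = (ρ ua * ρ sb * ρ t ^ k) * (ρ sb * ρ b) := by
        calc (e * (ρ sa * ρ ub)) * (ρ sb * ρ b)
            = (ρ sa * (e * ρ b)) * (ρ ub * ρ sb) := by ring
          _ = (ρ sa * ρ a) * (ρ ub * ρ sb) := by rw [hab]
          _ = (ρ ua * ρ t ^ (db + k)) * (ρ ub * ρ sb) := by rw [hae']
          _ = (ρ ua * ρ sb * ρ t ^ k) * (ρ ub * ρ t ^ db) := by rw [pow_add]; ring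
          _ = (ρ ua * ρ sb * ρ t ^ k) * (ρ sb * ρ b) := by rw [hbe']
      have hne : ρ sb * ρ b ≠ 0 := mul_ne_zero hsb0 hb
      have := mul_right_cancel₀ hne hkey
      simpa only [map_mul, map_pow] using this
  · rintro ⟨a, s, hs, has⟩
    rw [← ValuationSubring.valuation_le_one_iff]
    have h1 := congrArg W.valuation has
    rw [map_mul, val_eq_one_of_not_mem_centre ρ W hW hs, mul_one] at h1
    rw [h1]
    exact (ValuationSubring.valuation_le_one_iff W _).mpr (hW a)

end Dvr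

section Unique

variable {B E : Type*} [CommRing B] [IsDomain B] [IsNoetherianRing B] [Field E]
  (ρ : B →+* E) (π : B) (hπ : Prime π) (hker : ∀ b : B, ρ b = 0 ↔ π ∣ b)
  (hfrac : ∀ e : E, ∃ a b : B, ρ b ≠ 0 ∧ e * ρ b = ρ a)

include hπ hker hfrac in
/-- **(C-c)** a valuation subring `W ≠ ⊤` of `E = Frac ρ(B)` containing `ρ(B)` is determined
by its centre, if (SM) holds there. -/
theorem eq_of_centre_eq (W W' : ValuationSubring E) (hW : ∀ b : B, ρ b ∈ W)
    (hW' : ∀ b : B, ρ b ∈ W') (hWtop : W ≠ ⊤) (hW'top : W' ≠ ⊤)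
    (hc : centre ρ W hW = centre ρ W' hW')
    (hSM : Fermat.Agent.S18x.IG.HSM π (centre ρ W hW)) : W = W' := by
  obtain ⟨t, ht, hSMt⟩ := hSM
  have ht' : t ∈ centre ρ W' hW' := hc ▸ ht
  have hSMt' : ∀ y ∈ centre ρ W' hW', ∃ s : B, s ∉ centre ρ W' hW' ∧
      ∃ u w : B, s * y = π * u + t * w := by
    intro y hy
    rw [← hc] at hy
    obtain ⟨s, hs, u, w, h⟩ := hSMt y hy
    exact ⟨s, by rw [← hc]; exact hs, u, w, h⟩
  refine SetLike.ext fun e => ?_
  rw [mem_iff_exists_frac ρ W hW π t hπ hker ht hSMt hfrac hWtop e,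
    mem_iff_exists_frac ρ W' hW' π t hπ hker ht' hSMt' hfrac hW'top e, hc]

end Unique

end Fermat.Agent.S37x.Red.H29

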