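import Mathlib
import Fermat.Agent.S37x.Red.H29_Centre
import Fermat.Agent.S18x.Spec.H26_Kum

/-!
# S37 [RED-M] (centre), chart instance (helper29)

The abstract centre package of `H29_Centre` for a chart `B = chart O x` of a function field `F`
over the fraction field `K` of a discrete valuation ring `O`, a valuation subring `V` of `F`
(the Gauss valuation) with maximal ideal `π V` and a reduction map `red : V →+* E` onto a field
`E` (the function field of the special fibre).  Hypotheses in the landed spellings of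
`h26_hLOC` (`hOV`, `hxV`, `hπV`, `hVmax`, `hsat`).

* `chartRed` : the reduction on the chart, `chartRed_eq_zero_iff` (kernel `(π)`),
  `chartRed_frac` (`E = Frac (red B)`), `exists_chart_frac` (every unit of `V` is a quotient of
  two elements of `B` outside `π B`);
* `chartRed_mem` : `red B ⊆ W` for a valuation subring `W` of `E` containing `red O` and
  `red x`;
* `centre_isMaximal` : the centre of `W ≠ ⊤` on `B` is a maximal ideal (containing `π`);
* `centre_dvr`, `centre_unique` : under `HSMChart`, `W` is a discrete valuation ring with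
  uniformiser `red t`, the localisation of `red B` at the centre, and is determined by its
  centre.
-/

set_option autoImplicit false
set_option linter.unusedSectionVars false
set_option linter.style.haveILetI false
set_option maxHeartbeats 1000000

open Polynomial

namespace Fermat.Agent.S37x.Red.H29

open Fermat.Agent.S18x.Spec.H26 Fermat.Agent.S18x.IG

section ChartRed

variable {O F : Type*} [CommRing O] [IsDomain O] [IsDiscreteValuationRing O]
  [Field F] [Algebra O F] [CharZero F]
  (π₀ : O) (hπF : algebraMap O F π₀ ≠ 0) (x : F) (hx : Transcendental O x) (hfinF : H26FinOver O x)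
  (V : ValuationSubring F) (hOV : ∀ c : O, algebraMap O F c ∈ V) (hxV : x ∈ V)
  (hπV : ∀ v ∈ V, algebraMap O F π₀ * v ≠ 1)
  (hVmax : ∀ y ∈ V, y⁻¹ ∉ V → ∃ v ∈ V, y = algebraMap O F π₀ * v)
  (hsat : ∀ v ∈ V, algebraMap O F π₀ * v ∈ chart O x → v ∈ chart O x)
  {E : Type*} [Field E] (red : V →+* E)
  (hredπ : red ⟨algebraMap O F π₀, hOV π₀⟩ = 0)
  (hsurj : Function.Surjective red)

include hOV hxV in
theorem chart_le_val : (chart O x).toSubring ≤ V.toSubring := by
  intro y hy
  refine h26_closure_le (O := O) {x} V.toSubring (h26_valuationSubring_ic V) hOV ?_ hy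
  intro s hs
  rw [Set.mem_singleton_iff] at hs
  rw [hs]
  exact hxV

/-- The reduction map on the chart. -/
def chartRed : ↥(chart O x).toSubring →+* E :=
  red.comp (Subring.inclusion (chart_le_val x V hOV hxV))

theorem chartRed_apply (b : ↥(chart O x).toSubring) :
    chartRed x V hOV hxV red b = red ⟨(b : F), chart_le_val x V hOV hxV b.2⟩ := rfl

include hredπ in
theorem chartRed_chartPi : chartRed x V hOV hxV red (chartPi O x π₀) = 0 := by
  rw [chartRed_apply]
  exact hredπ

include hπF hOV hxV hπV hVmax hsat in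
theorem chartPi_prime : Prime (chartPi O x π₀) := by
  have hπ0 := hπF
  have hVval : ∀ y ∈ V.toSubring, (∃ v ∈ V.toSubring, y = algebraMap O F π₀ * v) ∨
      y⁻¹ ∈ V.toSubring := by
    intro y hy
    by_cases h : y⁻¹ ∈ V
    · exact Or.inr h
    · exact Or.inl (hVmax y hy h)
  have h := h26_chart_prime (chart O x).toSubring V.toSubring (chart_le_val x V hOV hxV)
    (algebraMap O F π₀) ((chart O x).algebraMap_mem π₀) hπ0 hπV hVval hsat
  have hne : (⟨algebraMap O F π₀, (chart O x).algebraMap_mem π₀⟩ : (chart O x).toSubring) ≠ 0 :=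
    fun h0 => hπ0 (congrArg Subtype.val h0)
  exact (Ideal.span_singleton_prime hne).mp h

include hπF hπV hVmax hsat hredπ in
/-- The kernel of the reduction on the chart is `(π)`. -/
theorem chartRed_eq_zero_iff (b : ↥(chart O x).toSubring) :
    chartRed x V hOV hxV red b = 0 ↔ chartPi O x π₀ ∣ b := by
  constructor
  · intro h
    by_cases hb0 : (b : F) = 0
    · have : b = 0 := Subtype.ext hb0
      rw [this]
      exact dvd_zero _
    have hbV : (b : F) ∈ V := chart_le_val x V hOV hxV b.2
    have hinv : (b : F)⁻¹ ∉ V := by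
      intro hi
      have h1 : (⟨(b : F), hbV⟩ : V) * ⟨(b : F)⁻¹, hi⟩ = 1 :=
        Subtype.ext (mul_inv_cancel₀ hb0)
      have h2 := congrArg red h1
      rw [map_mul, map_one] at h2
      rw [chartRed_apply] at h
      rw [h, zero_mul] at h2
      exact zero_ne_one h2
    obtain ⟨v, hv, hbv⟩ := hVmax (b : F) hbV hinv
    have hvB : v ∈ chart O x := hsat v hv (hbv ▸ b.2)
    exact ⟨⟨v, hvB⟩, Subtype.ext hbv⟩
  · rintro ⟨c, rfl⟩
    rw [map_mul, chartRed_chartPi π₀ x V hOV hxV red hredπ, zero_mul]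

include hx hfinF hπF hπV hVmax hsat hredπ in
/-- Every unit of `V` is a quotient of two elements of the chart outside `π B`. -/
theorem exists_chart_frac (y : V) (hy : red y ≠ 0) :
    ∃ a b : ↥(chart O x).toSubring, chartRed x V hOV hxV red a ≠ 0 ∧
      chartRed x V hOV hxV red b ≠ 0 ∧ (y : F) * (b : F) = (a : F) := by
  haveI : IsNoetherianRing (chart O x).toSubring := h26_isNoetherianRing_chart O hx hfinF
  have hprime := chartPi_prime π₀ hπF x V hOV hxV hπV hVmax hsat
  have hker := chartRed_eq_zero_iff π₀ hπF x V hOV hxV hπV hVmax hsat red hredπ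
  have hy0 : (y : F) ≠ 0 := by
    intro h
    apply hy
    have : y = 0 := Subtype.ext h
    rw [this, map_zero]
  obtain ⟨a₀, b₀, hb₀, hab₀⟩ := h26_chart_hfrac O hx hfinF (y : F)
  have hb₀F : (b₀ : F) ≠ 0 := fun h => hb₀ (Subtype.ext h)
  have ha₀ : a₀ ≠ 0 := by
    rintro rfl
    exact mul_ne_zero hy0 hb₀F hab₀
  obtain ⟨b₁, hb₁, hnb⟩ :=
    (FiniteMultiplicity.of_prime_left hprime hb₀).exists_eq_pow_mul_and_not_dvd
  obtain ⟨a₁, ha₁, hna⟩ :=
    (FiniteMultiplicity.of_prime_left hprime ha₀).exists_eq_pow_mul_and_not_dvd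
  set m := multiplicity (chartPi O x π₀) b₀ with hm
  set n := multiplicity (chartPi O x π₀) a₀ with hn
  have hρa : chartRed x V hOV hxV red a₁ ≠ 0 := fun h => hna ((hker a₁).mp h)
  have hρb : chartRed x V hOV hxV red b₁ ≠ 0 := fun h => hnb ((hker b₁).mp h)
  -- the relation in `F`
  have hrel : (y : F) * (algebraMap O F π₀ ^ m * (b₁ : F)) = algebraMap O F π₀ ^ n * (a₁ : F) := by
    have h1 : (b₀ : F) = algebraMap O F π₀ ^ m * (b₁ : F) := by
      conv_lhs => rw [hb₁]
      rfl
    have h2 : (a₀ : F) = algebraMap O F π₀ ^ n * (a₁ : F) := by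
      conv_lhs => rw [ha₁]
      rfl
    rw [← h1, ← h2]
    exact hab₀
  -- reduce: `n = m`
  have hyV : (y : F) ∈ V := y.2
  have hb₁V : (b₁ : F) ∈ V := chart_le_val x V hOV hxV b₁.2
  have ha₁V : (a₁ : F) ∈ V := chart_le_val x V hOV hxV a₁.2
  have hπV' : algebraMap O F π₀ ∈ V := hOV π₀
  rcases lt_trichotomy n m with hlt | heq | hgt
  · exfalso
    obtain ⟨k, hk⟩ := Nat.exists_eq_add_of_lt hlt
    have h3 : (y : F) * (algebraMap O F π₀ ^ (k + 1) * (b₁ : F)) = (a₁ : F) := by
      have h4 : algebraMap O F π₀ ^ m = algebraMap O F π₀ ^ n * algebraMap O F π₀ ^ (k + 1) := by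
        rw [← pow_add, hk]
        congr 1
      rw [h4] at hrel
      have h5 : algebraMap O F π₀ ^ n ≠ 0 := pow_ne_zero _ hπF
      apply mul_left_cancel₀ h5
      rw [← hrel]
      ring
    have h6 : (y * (⟨algebraMap O F π₀, hπV'⟩ ^ (k + 1) * ⟨(b₁ : F), hb₁V⟩) : V)
        = ⟨(a₁ : F), ha₁V⟩ := Subtype.ext h3
    have h7 := congrArg red h6
    rw [map_mul, map_mul, map_pow, hredπ, zero_pow (Nat.succ_ne_zero k), zero_mul,
      mul_zero] at h7
    exact hρa h7.symm
  · refine ⟨a₁, b₁, hρa, hρb, ?_⟩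
    rw [heq] at hrel
    have h5 : algebraMap O F π₀ ^ m ≠ 0 := pow_ne_zero _ hπF
    apply mul_left_cancel₀ h5
    rw [← hrel]
    ring
  · exfalso
    obtain ⟨k, hk⟩ := Nat.exists_eq_add_of_lt hgt
    have h3 : (y : F) * (b₁ : F) = algebraMap O F π₀ ^ (k + 1) * (a₁ : F) := by
      have h4 : algebraMap O F π₀ ^ n = algebraMap O F π₀ ^ m * algebraMap O F π₀ ^ (k + 1) := by
        rw [← pow_add, hk]
        congr 1
      rw [h4] at hrel
      have h5 : algebraMap O F π₀ ^ m ≠ 0 := pow_ne_zero _ hπF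
      apply mul_left_cancel₀ h5
      linear_combination hrel
    have h6 : (y * ⟨(b₁ : F), hb₁V⟩ : V)
        = ⟨algebraMap O F π₀, hπV'⟩ ^ (k + 1) * ⟨(a₁ : F), ha₁V⟩ := Subtype.ext h3
    have h7 := congrArg red h6
    rw [map_mul, map_mul, map_pow, hredπ, zero_pow (Nat.succ_ne_zero k), zero_mul] at h7
    rcases mul_eq_zero.mp h7 with h8 | h8
    · exact hy h8
    · exact hρb h8

include hx hfinF hπF hπV hVmax hsat hredπ hsurj in
/-- `E = Frac (red B)`. -/
theorem chartRed_frac (e : E) :
    ∃ a b : ↥(chart O x).toSubring, chartRed x V hOV hxV red b ≠ 0 ∧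
      e * chartRed x V hOV hxV red b = chartRed x V hOV hxV red a := by
  by_cases he : e = 0
  · refine ⟨0, 1, ?_, by rw [he, zero_mul, map_zero]⟩
    rw [map_one]
    exact one_ne_zero
  obtain ⟨y, rfl⟩ := hsurj e
  obtain ⟨a, b, _, hb, hab⟩ :=
    exists_chart_frac π₀ hπF x hx hfinF V hOV hxV hπV hVmax hsat red hredπ y he
  refine ⟨a, b, hb, ?_⟩
  rw [chartRed_apply, chartRed_apply, ← map_mul]
  congr 1
  exact Subtype.ext hab

end ChartRed

section Reg

variable {O F : Type*} [CommRing O] [Field F] [Algebra O F] (x : F)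
  {E' : Type*} [Field E'] (ρ : ↥(chart O x).toSubring →+* E') (W : ValuationSubring E')

/-- **(K1), abstract**: a valuation subring containing the images of the constants and of the
coordinate contains the image of the whole chart. -/
theorem map_mem_of_chart (hO : ∀ c : O, ρ (chartC O x c) ∈ W) (hx : ρ (chartX O x) ∈ W)
    (b : ↥(chart O x).toSubring) : ρ b ∈ W := by
  have hb : IsIntegral (Algebra.adjoin O {x}) (b : F) := b.2
  obtain ⟨p, hp, hpb⟩ := hb
  let j : ↥(Algebra.adjoin O {x}) →+* ↥(chart O x).toSubring :=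
    { toFun := fun a => ⟨(a : F), h26_isIntegral_of_mem a.2⟩
      map_one' := rfl
      map_mul' := fun _ _ => rfl
      map_zero' := rfl
      map_add' := fun _ _ => rfl }
  have hj : ∀ (a : F) (ha : a ∈ Algebra.adjoin O {x}), ρ (j ⟨a, ha⟩) ∈ W := by
    intro a ha
    induction ha using Algebra.adjoin_induction with
    | mem y hy =>
      rw [Set.mem_singleton_iff] at hy
      subst hy
      exact hx
    | algebraMap r => exact hO r
    | add y z hy' hz' hy hz =>
      have h1 : j ⟨y + z, add_mem hy' hz'⟩ = j ⟨y, hy'⟩ + j ⟨z, hz'⟩ := rfl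
      rw [h1, map_add]
      exact W.add_mem _ _ hy hz
    | mul y z hy' hz' hy hz =>
      have h1 : j ⟨y * z, mul_mem hy' hz'⟩ = j ⟨y, hy'⟩ * j ⟨z, hz'⟩ := rfl
      rw [h1, map_mul]
      exact W.mul_mem _ _ hy hz
  have h1 : Polynomial.eval₂ j b p = 0 := by
    apply Subtype.ext
    have h2 : ((chart O x).toSubring.subtype) (Polynomial.eval₂ j b p) =
        Polynomial.eval₂ ((chart O x).toSubring.subtype.comp j) (b : F) p :=
      Polynomial.hom_eval₂ p j _ b
    have h3 : ((chart O x).toSubring.subtype.comp j) = algebraMap (Algebra.adjoin O {x}) F := by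
      ext a
      rfl
    rw [h3] at h2
    show ((chart O x).toSubring.subtype) (Polynomial.eval₂ j b p) = 0
    rw [h2]
    exact hpb
  have h2 : Polynomial.eval₂ (ρ.comp j) (ρ b) p = 0 := by
    rw [← Polynomial.hom_eval₂, h1, map_zero]
  let φ : ↥(Algebra.adjoin O {x}) →+* W :=
    (ρ.comp j).codRestrict W.toSubring (fun a => hj a.1 a.2)
  have h3 : IsIntegral W (ρ b) := by
    refine ⟨p.map φ, hp.map φ, ?_⟩
    rw [Polynomial.eval₂_map]
    have h4 : (algebraMap W E').comp φ = ρ.comp j := by
      ext a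
      rfl
    rw [h4]
    exact h2
  obtain ⟨y, hy⟩ := (IsIntegrallyClosed.isIntegral_iff (R := W) (K := E')).mp h3
  rw [← hy]
  exact y.2

end Reg

section Max

variable {B E : Type*} [CommRing B] [Field E] (ρ : B →+* E) (W : ValuationSubring E)
  (hW : ∀ b : B, ρ b ∈ W)

/-- **(K2), abstract**: if every unit value has finite order in the residue field, the centre
is a maximal ideal. -/
theorem centre_isMaximal_of_torsion
    (htors : ∀ b : B, W.valuation (ρ b) = 1 → ∃ m : ℕ, 0 < m ∧ W.valuation (ρ b ^ m - 1) < 1) :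
    (centre ρ W hW).IsMaximal := by
  rw [Ideal.isMaximal_iff]
  refine ⟨?_, ?_⟩
  · rw [mem_centre_iff, map_one, map_one]
    exact lt_irrefl _
  · intro J b hJ hb hbJ
    have hv : W.valuation (ρ b) = 1 := val_eq_one_of_not_mem_centre ρ W hW hb
    obtain ⟨m, hm, hlt⟩ := htors b hv
    have h1 : b ^ m - 1 ∈ centre ρ W hW := by
      rw [mem_centre_iff, map_sub, map_pow, map_one]
      exact hlt
    have h2 : b ^ m ∈ J := Ideal.pow_mem_of_mem J hbJ m hm
    have h3 : b ^ m - (b ^ m - 1) ∈ J := J.sub_mem h2 (hJ h1)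
    have h4 : b ^ m - (b ^ m - 1) = 1 := by ring
    rw [h4] at h3
    exact h3

end Max

end Fermat.Agent.S37x.Red.H29
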