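import Mathlib
import Fermat.Agent.S37x.Red.H29_CentreInst
import Fermat.Agent.S37x.Red.H20_WaCore
import Fermat.Agent.S37x.FFk.H19_RedDeg
import Fermat.Agent.S18x.Dict.H20_GaussInputs
import Fermat.Agent.S18x.Dict.H23_Dvr
import Fermat.Agent.S18x.Qepo.H1_Basis
import Fermat.Agent.S18x.Desc.H19_Bridge
import Fermat.Agent.S24.H13_LinDisjoint

/-!
# S37 [RED-M] (centre) = (X2), concrete part (helper29)

`O` a discrete valuation subring of a field `K` of characteristic `0`, `F_K` the modular function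
field over `K`, `V` the Gauss valuation subring, `B = chart O x` a chart, `φ : κ →+* k` a
homomorphism from the residue field of `O`, `ρ : B →+* F̄_k` ANY ring homomorphism which on
Laurent series is `coeffMap φ ∘ gaussRedM` (hypothesis `hρ`), `Q` a place of `F̄_k` over `k`.

* `rho_chartC`, `rho_eq_zero_iff` : `ρ` on constants, `ker ρ = (π)`;
* `centreK_reg` **(K1)** : `ρ B ⊆ O_Q` as soon as `ρ x ∈ O_Q`;
* `placeCentre`, `mem_placeCentre`, `placeCentre_isMaximal` **(K2)**;
* `ord_eq_mul_of_centre` **(K6)** : the exponent of (C-a) computes the order at every place with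
  the given centre.
-/

set_option autoImplicit false
set_option linter.unusedSectionVars false
set_option linter.style.haveILetI false
set_option maxHeartbeats 1000000
set_option synthInstance.maxHeartbeats 400000

open ModularCurve AlgebraicCurve IsLocalRing

noncomputable section

namespace Fermat.Agent.S37x.Red.H29

open Fermat.Agent.S18x.Spec.H26 Fermat.Agent.S18x.IG Fermat.Agent.S18x.Dict.H20
  Fermat.Agent.S24.RH

section Generic

variable {K : Type} [Field K] [CharZero K] (O : ValuationSubring K) [IsDiscreteValuationRing O]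
  (M : ℕ) [NeZero M]
  [Algebra O ↥(modularFunctionFieldFullC K M)]
  [IsScalarTower O K ↥(modularFunctionFieldFullC K M)]
  {k : Type} [Field k] (φ : IsLocalRing.ResidueField O →+* k)
  (x : ↥(modularFunctionFieldFullC K M)) (hxV : x ∈ gaussValM O M)
  (ρ : ↥(chart O x).toSubring →+* ↥(modularFunctionFieldFullC k M))
  (hρ : ∀ (b : ↥(chart O x).toSubring)
    (hb : (b : ↥(modularFunctionFieldFullC K M)) ∈ gaussValM O M),
    ((ρ b : ↥(modularFunctionFieldFullC k M)) : LaurentSeries k) =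
      coeffMap φ (gaussRedM O M ⟨(b : ↥(modularFunctionFieldFullC K M)), hb⟩))

include hρ in
/-- `ρ` on the constants. -/
theorem rho_chartC (c : O) :
    ρ (chartC O x c) = algebraMap k ↥(modularFunctionFieldFullC k M)
      (φ (IsLocalRing.residue O c)) := by
  have hb : ((chartC O x c : ↥(chart O x).toSubring) : ↥(modularFunctionFieldFullC K M)) ∈
      gaussValM O M := by
    rw [coe_chartC]
    exact hOV_gaussValM O M c
  have h2 : (⟨((chartC O x c : ↥(chart O x).toSubring) : ↥(modularFunctionFieldFullC K M)),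
      hb⟩ : gaussValM O M) = ⟨algebraMap O ↥(modularFunctionFieldFullC K M) c,
        hOV_gaussValM O M c⟩ := Subtype.ext (coe_chartC O x c)
  have h1 : gaussRedM O M ⟨((chartC O x c : ↥(chart O x).toSubring) :
      ↥(modularFunctionFieldFullC K M)), hb⟩ = HahnSeries.C (IsLocalRing.residue O c) := by
    rw [h2]
    exact gaussRedM_algebraMap_O O M c
  have h3 := hρ (chartC O x c) hb
  rw [h1, HahnSeries.C_apply, coeffMap_single] at h3
  apply Subtype.ext
  rw [h3]
  have h4 : ((algebraMap k ↥(modularFunctionFieldFullC k M) (φ (IsLocalRing.residue O c)) :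
      ↥(modularFunctionFieldFullC k M)) : LaurentSeries k) =
      algebraMap k (LaurentSeries k) (φ (IsLocalRing.residue O c)) := rfl
  rw [h4, algebraMap_laurentSeries_eq_single]

include hρ in
theorem rho_chartC_mem (Q : Place k ↥(modularFunctionFieldFullC k M)) (c : O) :
    ρ (chartC O x c) ∈ Q.toValuationSubring := by
  rw [rho_chartC O M φ x ρ hρ c]
  exact Q.algebraMap_mem' _

include hρ in
/-- **(K1)** the chart is regular at `Q` as soon as its coordinate is. -/
theorem centreK_mem (Q : Place k ↥(modularFunctionFieldFullC k M))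
    (hx : ρ (chartX O x) ∈ Q.toValuationSubring) (b : ↥(chart O x).toSubring) :
    ρ b ∈ Q.toValuationSubring :=
  map_mem_of_chart x ρ Q.toValuationSubring (rho_chartC_mem O M φ x ρ hρ Q) hx b

include hρ in
/-- **(K1)** in the `ord` spelling (`hreg` of `wa_core`). -/
theorem centreK_reg (Q : Place k ↥(modularFunctionFieldFullC k M))
    (hx : 0 ≤ Q.ord (ρ (chartX O x))) (b : ↥(chart O x).toSubring) :
    0 ≤ Q.ord (ρ b) :=
  ord_nonneg_of_mem Q (centreK_mem O M φ x ρ hρ Q (mem_of_ord_nonneg Q hx) b)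

/-! ### The kernel of `ρ` -/

section Ker

variable (π₀ : O) (hπ₀ : Irreducible π₀) (hx : Transcendental O x) (hfin : H26FinOver O x)
  (hsat : ∀ v ∈ gaussValM O M,
    algebraMap O ↥(modularFunctionFieldFullC K M) π₀ * v ∈ chart O x → v ∈ chart O x)

include hπ₀ in
theorem algebraMap_unif_ne_zero :
    algebraMap O ↥(modularFunctionFieldFullC K M) π₀ ≠ 0 := by
  intro h
  have h1 := hπV_gaussValM O M π₀ hπ₀ 0 (gaussValM O M).zero_mem
  have h2 := hπV_gaussValM O M π₀ hπ₀ 1 (gaussValM O M).one_mem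
  rw [h, zero_mul] at h2
  have h3 : (0 : ↥(modularFunctionFieldFullC K M)) ≠ 1 := h2
  -- `π₀ = 0` in `F` gives `π₀ = 0` in `O`
  have h4 : (algebraMap O ↥(modularFunctionFieldFullC K M)) π₀ =
      algebraMap K ↥(modularFunctionFieldFullC K M) (algebraMap O K π₀) :=
    IsScalarTower.algebraMap_apply O K ↥(modularFunctionFieldFullC K M) π₀
  rw [h4] at h
  have h5 : algebraMap O K π₀ = 0 :=
    (map_eq_zero (algebraMap K ↥(modularFunctionFieldFullC K M))).mp h
  have h6 : π₀ = 0 := Subtype.ext h5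
  exact hπ₀.ne_zero h6

include hxV hρ hπ₀ hsat in
/-- `ker ρ = (π)`. -/
theorem rho_eq_zero_iff (b : ↥(chart O x).toSubring) :
    ρ b = 0 ↔ chartPi O x π₀ ∣ b := by
  haveI : CharZero ↥(modularFunctionFieldFullC K M) :=
    charZero_of_injective_algebraMap (algebraMap K ↥(modularFunctionFieldFullC K M)).injective
  rw [← chartRed_eq_zero_iff π₀ (algebraMap_unif_ne_zero O M π₀ hπ₀) x (gaussValM O M)
    (hOV_gaussValM O M) hxV (hπV_gaussValM O M π₀ hπ₀) (hVmax_gaussValM O M π₀ hπ₀) hsat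
    (gaussRedM O M) (gaussRedM_algebraMap_unif O M π₀ hπ₀) b]
  rw [chartRed_apply]
  constructor
  · intro h
    have h1 := hρ b (chart_le_val x (gaussValM O M) (hOV_gaussValM O M) hxV b.2)
    rw [h] at h1
    have h2 : coeffMap φ (gaussRedM O M ⟨(b : ↥(modularFunctionFieldFullC K M)),
        chart_le_val x (gaussValM O M) (hOV_gaussValM O M) hxV b.2⟩) = coeffMap φ 0 := by
      rw [map_zero]
      exact h1.symm
    exact Fermat.Agent.S24.LD.coeffMap_injective φ h2
  · intro h
    apply Subtype.ext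
    rw [hρ b (chart_le_val x (gaussValM O M) (hOV_gaussValM O M) hxV b.2), h, map_zero]
    rfl

include hxV hρ hπ₀ hsat in
theorem rho_chartPi : ρ (chartPi O x π₀) = 0 :=
  (rho_eq_zero_iff O M φ x hxV ρ hρ π₀ hπ₀ hsat _).mpr dvd_rfl

end Ker

/-! ### The centre of a place on the chart -/

/-- The centre of the place `Q` on the chart (`⊤` if the chart is not regular at `Q`). -/
def placeCentre (Q : Place k ↥(modularFunctionFieldFullC k M)) :
    Ideal ↥(chart O x).toSubring := by
  classical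
  exact if h : ∀ b, ρ b ∈ Q.toValuationSubring then centre ρ Q.toValuationSubring h else ⊤

theorem placeCentre_eq (Q : Place k ↥(modularFunctionFieldFullC k M))
    (h : ∀ b, ρ b ∈ Q.toValuationSubring) :
    placeCentre O M x ρ Q = centre ρ Q.toValuationSubring h := by
  unfold placeCentre
  rw [dif_pos h]

theorem val_lt_one_iff_ord (Q : Place k ↥(modularFunctionFieldFullC k M))
    (e : ↥(modularFunctionFieldFullC k M)) (he : e ∈ Q.toValuationSubring) :
    Q.toValuationSubring.valuation e < 1 ↔ e = 0 ∨ 0 < Q.ord e := by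
  have h1 := Fermat.Agent.S37x.Red.H20.place_mem_maximalIdeal_iff Q ⟨e, he⟩
  rw [← ValuationSubring.valuation_lt_one_iff Q.toValuationSubring ⟨e, he⟩, h1]
  constructor
  · rintro (h | h)
    · exact Or.inl (congrArg Subtype.val h)
    · exact Or.inr h
  · rintro (h | h)
    · exact Or.inl (Subtype.ext h)
    · exact Or.inr h

/-- **(K2)** membership in the centre (`h𝔫` of `wa_core`). -/
theorem mem_placeCentre (Q : Place k ↥(modularFunctionFieldFullC k M))
    (hreg : ∀ b, 0 ≤ Q.ord (ρ b)) (b : ↥(chart O x).toSubring) :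
    b ∈ placeCentre O M x ρ Q ↔ ρ b = 0 ∨ 0 < Q.ord (ρ b) := by
  have h : ∀ b, ρ b ∈ Q.toValuationSubring := fun b => mem_of_ord_nonneg Q (hreg b)
  rw [placeCentre_eq O M x ρ Q h, mem_centre_iff]
  exact val_lt_one_iff_ord M Q _ (h b)

theorem placeCentre_isPrime (Q : Place k ↥(modularFunctionFieldFullC k M))
    (hreg : ∀ b, 0 ≤ Q.ord (ρ b)) : (placeCentre O M x ρ Q).IsPrime := by
  have h : ∀ b, ρ b ∈ Q.toValuationSubring := fun b => mem_of_ord_nonneg Q (hreg b)
  rw [placeCentre_eq O M x ρ Q h]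
  exact centre_isPrime ρ Q.toValuationSubring h

/-- **(K2)** the centre is a maximal ideal, if `k` is algebraically closed and every nonzero
element of `k` has finite order. -/
theorem placeCentre_isMaximal [IsAlgClosed k]
    (hk : ∀ c : k, c ≠ 0 → ∃ m : ℕ, 0 < m ∧ c ^ m = 1)
    (Q : Place k ↥(modularFunctionFieldFullC k M))
    (hreg : ∀ b, 0 ≤ Q.ord (ρ b)) : (placeCentre O M x ρ Q).IsMaximal := by
  have h : ∀ b, ρ b ∈ Q.toValuationSubring := fun b => mem_of_ord_nonneg Q (hreg b)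
  rw [placeCentre_eq O M x ρ Q h]
  apply centre_isMaximal_of_torsion
  intro b hb
  -- the value of `ρ b` at `Q`
  obtain ⟨c, hc⟩ := Fermat.Agent.S37x.FFk.H19.h19_residue_surjective_full k M Q
    (IsLocalRing.residue Q.toValuationSubring ⟨ρ b, h b⟩)
  have hunit : IsUnit (⟨ρ b, h b⟩ : Q.toValuationSubring) := by
    rw [ValuationSubring.valuation_eq_one_iff]
    exact hb
  have hc0 : c ≠ 0 := by
    rintro rfl
    rw [map_zero] at hc
    have := (IsLocalRing.residue_ne_zero_iff_isUnit _).mpr hunit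
    exact this hc.symm
  obtain ⟨m, hm, hcm⟩ := hk c hc0
  refine ⟨m, hm, ?_⟩
  have h1 : IsLocalRing.residue Q.toValuationSubring (⟨ρ b, h b⟩ ^ m - 1) = 0 := by
    rw [map_sub, map_pow, map_one, ← hc, ← map_pow, hcm, map_one, sub_self]
  rw [IsLocalRing.residue_eq_zero_iff] at h1
  exact (ValuationSubring.valuation_lt_one_iff Q.toValuationSubring _).mp h1

/-! ### (K6): the exponent of (C-a) computes orders -/

section Exponent

variable (π₀ : O) (hπ₀ : Irreducible π₀) (hx : Transcendental O x) (hfin : H26FinOver O x)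
  (hsat : ∀ v ∈ gaussValM O M,
    algebraMap O ↥(modularFunctionFieldFullC K M) π₀ * v ∈ chart O x → v ∈ chart O x)

include hxV hρ hπ₀ hx hfin hsat in
/-- **(K6)** for `z ∉ π B` there is `d` with `ord_Q' (ρ z) = d * ord_Q' (ρ t)` at EVERY place
`Q'` whose centre is `𝔫`. -/
theorem ord_eq_mul_of_centre (𝔫 : Ideal ↥(chart O x).toSubring) [h𝔫 : 𝔫.IsPrime]
    (hπ𝔫 : chartPi O x π₀ ∈ 𝔫) (t : ↥(chart O x).toSubring) (ht : t ∈ 𝔫)
    (hSM : ∀ y ∈ 𝔫, ∃ s : ↥(chart O x).toSubring, s ∉ 𝔫 ∧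
      ∃ u w : ↥(chart O x).toSubring, s * y = chartPi O x π₀ * u + t * w)
    (z : ↥(chart O x).toSubring) (hz : ρ z ≠ 0) :
    ∃ d : ℕ, ∀ Q' : Place k ↥(modularFunctionFieldFullC k M),
      (∀ b, 0 ≤ Q'.ord (ρ b)) → placeCentre O M x ρ Q' = 𝔫 →
        Q'.ord (ρ z) = d * Q'.ord (ρ t) := by
  haveI : CharZero ↥(modularFunctionFieldFullC K M) :=
    charZero_of_injective_algebraMap (algebraMap K ↥(modularFunctionFieldFullC K M)).injective
  haveI : IsNoetherianRing ↥(chart O x).toSubring := h26_isNoetherianRing_chart O hx hfin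
  have hprime : Prime (chartPi O x π₀) :=
    chartPi_prime π₀ (algebraMap_unif_ne_zero O M π₀ hπ₀) x (gaussValM O M)
      (hOV_gaussValM O M) hxV (hπV_gaussValM O M π₀ hπ₀) (hVmax_gaussValM O M π₀ hπ₀) hsat
  have hker := rho_eq_zero_iff O M φ x hxV ρ hρ π₀ hπ₀ hsat
  have hzπ : ¬ chartPi O x π₀ ∣ z := fun h => hz ((hker z).mpr h)
  obtain ⟨d, s, u, c, hs, hu, hszu⟩ :=
    exists_unit_pow_chart (chartPi O x π₀) t hprime 𝔫 hπ𝔫 ht hSM z hzπ
  refine ⟨d, ?_⟩
  intro Q' hreg hcen
  have hmem := mem_placeCentre O M x ρ Q' hreg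
  rw [hcen] at hmem
  have hord0 : ∀ b : ↥(chart O x).toSubring, b ∉ 𝔫 → ρ b ≠ 0 ∧ Q'.ord (ρ b) = 0 := by
    intro b hb
    rw [hmem] at hb
    push Not at hb
    exact ⟨hb.1, le_antisymm hb.2 (hreg b)⟩
  have h1 : ρ s * ρ z = ρ u * ρ t ^ d := by
    rw [← map_mul, hszu, map_add, map_mul, map_mul, map_pow, (hker _).mpr dvd_rfl, zero_mul,
      add_zero]
  have h2 : ρ u * ρ t ^ d ≠ 0 := by
    rw [← h1]
    exact mul_ne_zero (hord0 s hs).1 hz
  have h3 : ρ t ^ d ≠ 0 := right_ne_zero_of_mul h2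
  have h4 := congrArg Q'.ord h1
  rw [Q'.ord_mul (hord0 s hs).1 hz, Q'.ord_mul (hord0 u hu).1 h3, (hord0 s hs).2,
    (hord0 u hu).2, zero_add, zero_add] at h4
  rw [h4, ← zpow_natCast, Q'.ord_zpow]

end Exponent

end Generic

/-! ## The concrete part: `O = A ∩ K` for number fields `K ⊆ ℚ̄` -/

section Concrete

open Fermat.Agent.S18x.Dict.H23 Fermat.Agent.S18x.Desc.H19 IntermediateField

variable (A : ValuationSubring (AlgebraicClosure ℚ)) (M : ℕ) [NeZero M]

/-- An element of `A` lying in `K`, as an element of `A ∩ K`. -/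
def toComap (K : IntermediateField ℚ (AlgebraicClosure ℚ)) (a : A)
    (ha : (a : AlgebraicClosure ℚ) ∈ K) : A.comap (algebraMap ↥K (AlgebraicClosure ℚ)) :=
  ⟨⟨(a : AlgebraicClosure ℚ), ha⟩, a.2⟩

theorem resEmb_toComap (K : IntermediateField ℚ (AlgebraicClosure ℚ)) (a : A)
    (ha : (a : AlgebraicClosure ℚ) ∈ K) :
    h23_resEmb A (IsLocalRing.residue _ (toComap A K a ha)) = IsLocalRing.residue A a := by
  rw [h23_resEmb_residue]
  rfl

/-- **(C-d)** every element of the function field of the special fibre over `k = A / 𝔪` comes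
from the residue field of `A ∩ K` for every sufficiently large number field `K`. -/
theorem exists_descent_res {z : LaurentSeries (IsLocalRing.ResidueField A)}
    (hz : z ∈ modularFunctionFieldFullC (IsLocalRing.ResidueField A) M) :
    ∃ K₀ : IntermediateField ℚ (AlgebraicClosure ℚ), FiniteDimensional ℚ K₀ ∧
      ∀ K : IntermediateField ℚ (AlgebraicClosure ℚ), K₀ ≤ K →
        ∃ z' : LaurentSeries
            (IsLocalRing.ResidueField (A.comap (algebraMap ↥K (AlgebraicClosure ℚ)))),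
          z' ∈ modularFunctionFieldFullC
            (IsLocalRing.ResidueField (A.comap (algebraMap ↥K (AlgebraicClosure ℚ)))) M ∧
          coeffMap (h23_resEmb A) z' = z := by
  haveI : Algebra.IsAlgebraic ℚ (AlgebraicClosure ℚ) := AlgebraicClosure.isAlgebraic ℚ
  change z ∈ adjoin (IsLocalRing.ResidueField A)
    (divisorExpansionsC (IsLocalRing.ResidueField A) M) at hz
  induction hz using IntermediateField.adjoin_induction with
  | mem y hy =>
    obtain ⟨d, hd, hdN, rfl⟩ := hy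
    refine ⟨⊥, inferInstance, fun K _ => ⟨qExpand _ d (jqModC _), jqModCd_mem_full _ M hdN, ?_⟩⟩
    rw [coeffMap_qExpand, coeffMap_jqModC]
  | algebraMap c =>
    obtain ⟨a, rfl⟩ := IsLocalRing.residue_surjective c
    have hc : IsIntegral ℚ (a : AlgebraicClosure ℚ) :=
      (Algebra.IsAlgebraic.isAlgebraic (a : AlgebraicClosure ℚ)).isIntegral
    refine ⟨ℚ⟮(a : AlgebraicClosure ℚ)⟯, IntermediateField.adjoin.finiteDimensional hc,
      fun K hK => ?_⟩
    have ha : (a : AlgebraicClosure ℚ) ∈ K :=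
      hK (IntermediateField.mem_adjoin_simple_self ℚ (a : AlgebraicClosure ℚ))
    refine ⟨algebraMap _ _ (IsLocalRing.residue _ (toComap A K a ha)),
      IntermediateField.algebraMap_mem _ _, ?_⟩
    rw [h19_coeffMap_algebraMap, resEmb_toComap]
  | add y w _ _ hy hw =>
    obtain ⟨K₁, hK₁, hy₁⟩ := hy
    obtain ⟨K₂, hK₂, hw₂⟩ := hw
    haveI := hK₁
    haveI := hK₂
    refine ⟨K₁ ⊔ K₂, IntermediateField.finiteDimensional_sup K₁ K₂, fun K hK => ?_⟩
    obtain ⟨a, ha, rfl⟩ := hy₁ K (le_trans le_sup_left hK)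
    obtain ⟨b, hb, rfl⟩ := hw₂ K (le_trans le_sup_right hK)
    exact ⟨a + b, add_mem ha hb, map_add _ _ _⟩
  | inv y _ hy =>
    obtain ⟨K₁, hK₁, hy₁⟩ := hy
    refine ⟨K₁, hK₁, fun K hK => ?_⟩
    obtain ⟨a, ha, rfl⟩ := hy₁ K hK
    exact ⟨a⁻¹, inv_mem ha, map_inv₀ _ _⟩
  | mul y w _ _ hy hw =>
    obtain ⟨K₁, hK₁, hy₁⟩ := hy
    obtain ⟨K₂, hK₂, hw₂⟩ := hw
    haveI := hK₁
    haveI := hK₂
    refine ⟨K₁ ⊔ K₂, IntermediateField.finiteDimensional_sup K₁ K₂, fun K hK => ?_⟩
    obtain ⟨a, ha, rfl⟩ := hy₁ K (le_trans le_sup_left hK)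
    obtain ⟨b, hb, rfl⟩ := hw₂ K (le_trans le_sup_right hK)
    exact ⟨a * b, mul_mem ha hb, map_mul _ _ _⟩

/-- Every nonzero element of the residue field of `A` has finite order. -/
theorem exists_pow_eq_one_res {ℓ : ℕ} (hℓ : ℓ.Prime) (hA : A.LiesOverPrime ℓ)
    (c : IsLocalRing.ResidueField A) (hc : c ≠ 0) : ∃ m : ℕ, 0 < m ∧ c ^ m = 1 := by
  classical
  haveI : Algebra.IsAlgebraic ℚ (AlgebraicClosure ℚ) := AlgebraicClosure.isAlgebraic ℚ
  obtain ⟨a, rfl⟩ := IsLocalRing.residue_surjective c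
  have hint : IsIntegral ℚ (a : AlgebraicClosure ℚ) :=
    (Algebra.IsAlgebraic.isAlgebraic (a : AlgebraicClosure ℚ)).isIntegral
  haveI : FiniteDimensional ℚ ℚ⟮(a : AlgebraicClosure ℚ)⟯ :=
    IntermediateField.adjoin.finiteDimensional hint
  haveI : Finite (IsLocalRing.ResidueField
      (A.comap (algebraMap ↥ℚ⟮(a : AlgebraicClosure ℚ)⟯ (AlgebraicClosure ℚ)))) :=
    h23_finite_residueField_intermediate A hℓ hA ℚ⟮(a : AlgebraicClosure ℚ)⟯
  letI : Fintype (IsLocalRing.ResidueField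
      (A.comap (algebraMap ↥ℚ⟮(a : AlgebraicClosure ℚ)⟯ (AlgebraicClosure ℚ)))) :=
    Fintype.ofFinite _
  have ha : (a : AlgebraicClosure ℚ) ∈ ℚ⟮(a : AlgebraicClosure ℚ)⟯ :=
    IntermediateField.mem_adjoin_simple_self ℚ (a : AlgebraicClosure ℚ)
  have h1 := resEmb_toComap A ℚ⟮(a : AlgebraicClosure ℚ)⟯ a ha
  have hc' : IsLocalRing.residue _ (toComap A ℚ⟮(a : AlgebraicClosure ℚ)⟯ a ha) ≠ 0 := by
    intro h0
    rw [h0, map_zero] at h1
    exact hc h1.symm
  refine ⟨Fintype.card (IsLocalRing.ResidueField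
      (A.comap (algebraMap ↥ℚ⟮(a : AlgebraicClosure ℚ)⟯ (AlgebraicClosure ℚ)))) - 1,
    Nat.sub_pos_of_lt Fintype.one_lt_card, ?_⟩
  rw [← h1, ← map_pow, FiniteField.pow_card_sub_one_eq_one _ hc', map_one]

end Concrete

end Fermat.Agent.S37x.Red.H29
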