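import Mathlib
import Fermat.Agent.S37x.Red.H29_CentreK

/-!
# S37 [RED-M] (centre) = (X2), top part (helper29)

Setting of `H29_CentreK`.

* `exists_chart_frac_gauss`, `exists_frac_rho`, `exists_frac_red` : lowest terms for the Gauss
  reduction on a chart (`hfrac'`);
* `exists_unif_of_descent` / `exists_unif_K` **(K3)** : `hunif` of `wa_core`;
* `centre_bundle` / `centre_bundle_K` **(K5)** : the (X2)-conjuncts of `cons_asm`;
* `placeCentre_ne_of_sep` / `exists_sep_K` / `exists_sep_finset_K` **(K4)** : `hsep` of `wa_core`.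
-/

set_option autoImplicit false
set_option linter.unusedSectionVars false
set_option linter.style.haveILetI false
set_option maxHeartbeats 8000000
set_option synthInstance.maxHeartbeats 400000

open ModularCurve AlgebraicCurve IsLocalRing

noncomputable section

namespace Fermat.Agent.S37x.Red.H29

open Fermat.Agent.S18x.Spec.H26 Fermat.Agent.S18x.IG Fermat.Agent.S18x.Dict.H20
  Fermat.Agent.S24.RH

section GenericTop

variable {K : Type} [Field K] [CharZero K] (O : ValuationSubring K) [IsDiscreteValuationRing O]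
  (M : ℕ) [NeZero M]
  [Algebra O ↥(modularFunctionFieldFullC K M)]
  [IsScalarTower O K ↥(modularFunctionFieldFullC K M)]
  {k : Type} [Field k] (φ : IsLocalRing.ResidueField O →+* k)
  (x : ↥(modularFunctionFieldFullC K M)) (hxV : x ∈ gaussValM O M)
  (ρ : ↥(chart O x).toSubring →+* ↥(modularFunctionFieldFullC k M))
  (hρ : ∀ (b : ↥(chart O x).toSubring)
    (hb : (b : ↥(modularFunctionFieldFullC K M)) ∈ gaussValM O M),
    ((ρ b : ↥(modularFunctionFieldFullC k M)) : LaurentSeries k) =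
      coeffMap φ (gaussRedM O M ⟨(b : ↥(modularFunctionFieldFullC K M)), hb⟩))
  (π₀ : O) (hπ₀ : Irreducible π₀) (hx : Transcendental O x) (hfin : H26FinOver O x)
  (hsat : ∀ v ∈ gaussValM O M,
    algebraMap O ↥(modularFunctionFieldFullC K M) π₀ * v ∈ chart O x → v ∈ chart O x)

include hxV hπ₀ hx hfin hsat in
/-- **Lowest terms for the Gauss reduction**: every nonzero element of `F̄_κ` is a quotient of
the reductions of two elements of the chart outside `π B`. -/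
theorem exists_chart_frac_gauss (e : LaurentSeries (IsLocalRing.ResidueField O))
    (he : e ∈ modularFunctionFieldFullC (IsLocalRing.ResidueField O) M) (he0 : e ≠ 0) :
    ∃ (a b : ↥(chart O x).toSubring)
      (ha : (a : ↥(modularFunctionFieldFullC K M)) ∈ gaussValM O M)
      (hb : (b : ↥(modularFunctionFieldFullC K M)) ∈ gaussValM O M),
      gaussRedM O M ⟨(a : ↥(modularFunctionFieldFullC K M)), ha⟩ ≠ 0 ∧
      gaussRedM O M ⟨(b : ↥(modularFunctionFieldFullC K M)), hb⟩ ≠ 0 ∧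
      e * gaussRedM O M ⟨(b : ↥(modularFunctionFieldFullC K M)), hb⟩ =
        gaussRedM O M ⟨(a : ↥(modularFunctionFieldFullC K M)), ha⟩ := by
  haveI : CharZero ↥(modularFunctionFieldFullC K M) :=
    charZero_of_injective_algebraMap (algebraMap K ↥(modularFunctionFieldFullC K M)).injective
  obtain ⟨y, hyF, hyred⟩ := Fermat.Agent.S18x.Qepo.exists_lift O M e he
  have hyV : (⟨gIota O y, hyF⟩ : ↥(modularFunctionFieldFullC K M)) ∈ gaussValM O M :=
    mem_gaussValM_of_coe O M ⟨gIota O y, hyF⟩ y rfl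
  have hyr : gaussRedM O M ⟨⟨gIota O y, hyF⟩, hyV⟩ = e :=
    (gaussRedM_of_coe O M ⟨gIota O y, hyF⟩ y rfl).trans hyred
  obtain ⟨a, b, ha, hb, hab⟩ := exists_chart_frac π₀ (algebraMap_unif_ne_zero O M π₀ hπ₀) x hx
    hfin (gaussValM O M) (hOV_gaussValM O M) hxV (hπV_gaussValM O M π₀ hπ₀)
    (hVmax_gaussValM O M π₀ hπ₀) hsat (gaussRedM O M) (gaussRedM_algebraMap_unif O M π₀ hπ₀)
    ⟨⟨gIota O y, hyF⟩, hyV⟩ (by rw [hyr]; exact he0)
  refine ⟨a, b, chart_le_val x (gaussValM O M) (hOV_gaussValM O M) hxV a.2,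
    chart_le_val x (gaussValM O M) (hOV_gaussValM O M) hxV b.2, ha, hb, ?_⟩
  rw [← hyr, ← map_mul]
  congr 1
  exact Subtype.ext hab

include hxV hρ hπ₀ hx hfin hsat in
/-- Every nonzero element of `F̄_k` which descends to `κ` is a quotient `ρ a / ρ b`. -/
theorem exists_frac_rho (e : ↥(modularFunctionFieldFullC k M)) (he0 : e ≠ 0)
    (e' : LaurentSeries (IsLocalRing.ResidueField O))
    (he' : e' ∈ modularFunctionFieldFullC (IsLocalRing.ResidueField O) M)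
    (hee' : coeffMap φ e' = (e : LaurentSeries k)) :
    ∃ a b : ↥(chart O x).toSubring, ρ a ≠ 0 ∧ ρ b ≠ 0 ∧ e * ρ b = ρ a := by
  have he'0 : e' ≠ 0 := by
    rintro rfl
    rw [map_zero] at hee'
    exact he0 (Subtype.ext hee'.symm)
  obtain ⟨a, b, ha, hb, hra, hrb, hab⟩ :=
    exists_chart_frac_gauss O M x hxV π₀ hπ₀ hx hfin hsat e' he' he'0
  have hne : ∀ (c : ↥(chart O x).toSubring)
      (hc : (c : ↥(modularFunctionFieldFullC K M)) ∈ gaussValM O M),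
      gaussRedM O M ⟨(c : ↥(modularFunctionFieldFullC K M)), hc⟩ ≠ 0 → ρ c ≠ 0 := by
    intro c hc hc0 h
    have h1 := hρ c hc
    rw [h] at h1
    have h2 : coeffMap φ (gaussRedM O M ⟨(c : ↥(modularFunctionFieldFullC K M)), hc⟩) =
        coeffMap φ 0 := by
      rw [map_zero]
      exact h1.symm
    exact hc0 (Fermat.Agent.S24.LD.coeffMap_injective φ h2)
  refine ⟨a, b, hne a ha hra, hne b hb hrb, ?_⟩
  apply Subtype.ext
  have h1 : ((e * ρ b : ↥(modularFunctionFieldFullC k M)) : LaurentSeries k) =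
      (e : LaurentSeries k) * ((ρ b : ↥(modularFunctionFieldFullC k M)) : LaurentSeries k) := rfl
  rw [h1, hρ a ha, hρ b hb, ← hee', ← map_mul, hab]

include hxV hπ₀ hx hfin hsat in
/-- **`hfrac'`**: `F̄_κ = Frac (red B)` for ANY `ρ'` which is the Gauss reduction on Laurent
series. -/
theorem exists_frac_red
    (ρ' : ↥(chart O x).toSubring →+* ↥(modularFunctionFieldFullC (IsLocalRing.ResidueField O) M))
    (hρ' : ∀ (b : ↥(chart O x).toSubring)
      (hb : (b : ↥(modularFunctionFieldFullC K M)) ∈ gaussValM O M),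
      ((ρ' b : ↥(modularFunctionFieldFullC (IsLocalRing.ResidueField O) M)) :
        LaurentSeries (IsLocalRing.ResidueField O)) =
        gaussRedM O M ⟨(b : ↥(modularFunctionFieldFullC K M)), hb⟩)
    (e : ↥(modularFunctionFieldFullC (IsLocalRing.ResidueField O) M)) :
    ∃ a b : ↥(chart O x).toSubring, ρ' b ≠ 0 ∧ e * ρ' b = ρ' a := by
  by_cases he0 : e = 0
  · refine ⟨0, 1, ?_, by rw [he0, zero_mul, map_zero]⟩
    rw [map_one]
    exact one_ne_zero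
  have he0' : (e : LaurentSeries (IsLocalRing.ResidueField O)) ≠ 0 :=
    fun h => he0 (Subtype.ext h)
  obtain ⟨a, b, ha, hb, -, hrb, hab⟩ :=
    exists_chart_frac_gauss O M x hxV π₀ hπ₀ hx hfin hsat
      (e : LaurentSeries (IsLocalRing.ResidueField O)) e.2 he0'
  refine ⟨a, b, ?_, ?_⟩
  · intro h
    apply hrb
    rw [← hρ' b hb, h]
    rfl
  · apply Subtype.ext
    have h1 : ((e * ρ' b : ↥(modularFunctionFieldFullC (IsLocalRing.ResidueField O) M)) :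
        LaurentSeries (IsLocalRing.ResidueField O)) =
        (e : LaurentSeries (IsLocalRing.ResidueField O)) *
          ((ρ' b : ↥(modularFunctionFieldFullC (IsLocalRing.ResidueField O) M)) :
            LaurentSeries (IsLocalRing.ResidueField O)) := rfl
    rw [h1, hρ' a ha, hρ' b hb, hab]

include hxV hρ hπ₀ hx hfin hsat in
/-- **(K3), generic**: `hunif` from the descent of a uniformiser. -/
theorem exists_unif_of_descent (Q : Place k ↥(modularFunctionFieldFullC k M))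
    (u : ↥(modularFunctionFieldFullC k M)) (hu : Q.ord u = 1)
    (u' : LaurentSeries (IsLocalRing.ResidueField O))
    (hu' : u' ∈ modularFunctionFieldFullC (IsLocalRing.ResidueField O) M)
    (huu' : coeffMap φ u' = (u : LaurentSeries k)) :
    ∃ b₁ b₂ : ↥(chart O x).toSubring, ρ b₁ ≠ 0 ∧ ρ b₂ ≠ 0 ∧
      Q.ord (ρ b₁) - Q.ord (ρ b₂) = 1 := by
  have hu0 : u ≠ 0 := by
    rintro rfl
    rw [Q.ord_zero] at hu
    exact zero_ne_one hu
  obtain ⟨a, b, ha, hb, hab⟩ :=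
    exists_frac_rho O M φ x hxV ρ hρ π₀ hπ₀ hx hfin hsat u hu0 u' hu' huu'
  refine ⟨a, b, ha, hb, ?_⟩
  rw [← hab, Q.ord_mul hu0 hb, hu]
  ring

include hxV hρ hπ₀ hx hfin hsat in
/-- **(K5), generic**: the (X2)-conjuncts of `cons_asm` at the centre of `Q`. -/
theorem centre_bundle [IsAlgClosed k] (hk : ∀ c : k, c ≠ 0 → ∃ m : ℕ, 0 < m ∧ c ^ m = 1)
    (Q : Place k ↥(modularFunctionFieldFullC k M))
    (hxQ : 0 ≤ Q.ord (ρ (chartX O x))) (hSMc : HSMChart O x π₀)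
    (hunif : ∃ b₁ b₂ : ↥(chart O x).toSubring, ρ b₁ ≠ 0 ∧ ρ b₂ ≠ 0 ∧
      Q.ord (ρ b₁) - Q.ord (ρ b₂) = 1) :
    ∃ (𝔫 : Ideal ↥(chart O x).toSubring) (t : ↥(chart O x).toSubring),
      𝔫.IsMaximal ∧ chartPi O x π₀ ∈ 𝔫 ∧ t ∈ 𝔫 ∧
      (∀ y ∈ 𝔫, ∃ s : ↥(chart O x).toSubring, s ∉ 𝔫 ∧
        ∃ u v : ↥(chart O x).toSubring, s * y = chartPi O x π₀ * u + t * v) ∧
      (∀ s : ↥(chart O x).toSubring, s ∉ 𝔫 → Q.ord (ρ s) = 0) ∧ Q.ord (ρ t) = 1 ∧
      (∀ b, b ∈ 𝔫 ↔ ρ b = 0 ∨ 0 < Q.ord (ρ b)) ∧ 𝔫 = placeCentre O M x ρ Q := by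
  have hreg := centreK_reg O M φ x ρ hρ Q hxQ
  have hmem := mem_placeCentre O M x ρ Q hreg
  have hmax := placeCentre_isMaximal O M x ρ hk Q hreg
  have hπ0 : ρ (chartPi O x π₀) = 0 := rho_chartPi O M φ x hxV ρ hρ π₀ hπ₀ hsat
  have hπ𝔫 : chartPi O x π₀ ∈ placeCentre O M x ρ Q := (hmem _).mpr (Or.inl hπ0)
  obtain ⟨t, ht, hSM⟩ := hSMc (placeCentre O M x ρ Q) hmax hπ𝔫
  obtain ⟨-, ht1⟩ := Fermat.Agent.S37x.Red.H20.ord_witness_eq_one ρ (chartPi O x π₀) hπ0 Q hreg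
    (placeCentre O M x ρ Q) hmem t ht hSM hunif
  refine ⟨placeCentre O M x ρ Q, t, hmax, hπ𝔫, ht, hSM, ?_, ht1, hmem, rfl⟩
  intro s hs
  rw [hmem] at hs
  push Not at hs
  exact le_antisymm hs.2 (hreg s)

include hxV hρ hπ₀ hx hfin hsat in
/-- **(K4), generic**: two places separated by a function which descends to `κ` have different
centres on the chart. -/
theorem placeCentre_ne_of_sep [IsAlgClosed k]
    (hk : ∀ c : k, c ≠ 0 → ∃ m : ℕ, 0 < m ∧ c ^ m = 1)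
    (Q Q' : Place k ↥(modularFunctionFieldFullC k M))
    (hreg : ∀ b, 0 ≤ Q.ord (ρ b)) (hreg' : ∀ b, 0 ≤ Q'.ord (ρ b)) (hSMc : HSMChart O x π₀)
    (g : ↥(modularFunctionFieldFullC k M)) (hgQ : 0 ≤ Q.ord g) (hgQ' : Q'.ord g < 0)
    (g' : LaurentSeries (IsLocalRing.ResidueField O))
    (hg' : g' ∈ modularFunctionFieldFullC (IsLocalRing.ResidueField O) M)
    (hgg' : coeffMap φ g' = (g : LaurentSeries k)) :
    placeCentre O M x ρ Q' ≠ placeCentre O M x ρ Q := by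
  intro hcen
  have hg0 : g ≠ 0 := by
    rintro rfl
    rw [Q'.ord_zero] at hgQ'
    exact lt_irrefl _ hgQ'
  obtain ⟨a, b, ha, hb, hab⟩ :=
    exists_frac_rho O M φ x hxV ρ hρ π₀ hπ₀ hx hfin hsat g hg0 g' hg' hgg'
  have hmem := mem_placeCentre O M x ρ Q hreg
  have hmax := placeCentre_isMaximal O M x ρ hk Q hreg
  haveI := hmax.isPrime
  have hπ0 : ρ (chartPi O x π₀) = 0 := rho_chartPi O M φ x hxV ρ hρ π₀ hπ₀ hsat
  have hπ𝔫 : chartPi O x π₀ ∈ placeCentre O M x ρ Q := (hmem _).mpr (Or.inl hπ0)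
  obtain ⟨t, ht, hSM⟩ := hSMc (placeCentre O M x ρ Q) hmax hπ𝔫
  obtain ⟨da, hda⟩ := ord_eq_mul_of_centre O M φ x hxV ρ hρ π₀ hπ₀ hx hfin hsat
    (placeCentre O M x ρ Q) hπ𝔫 t ht hSM a ha
  obtain ⟨db, hdb⟩ := ord_eq_mul_of_centre O M φ x hxV ρ hρ π₀ hπ₀ hx hfin hsat
    (placeCentre O M x ρ Q) hπ𝔫 t ht hSM b hb
  have h1 : Q.ord (ρ a) = Q.ord g + Q.ord (ρ b) := by
    rw [← hab, Q.ord_mul hg0 hb]
  have h1' : Q'.ord (ρ a) = Q'.ord g + Q'.ord (ρ b) := by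
    rw [← hab, Q'.ord_mul hg0 hb]
  rw [hda Q hreg rfl, hdb Q hreg rfl] at h1
  rw [hda Q' hreg' hcen, hdb Q' hreg' hcen] at h1'
  -- signs
  have he' : 0 ≤ Q'.ord (ρ t) := hreg' t
  have he : 0 ≤ Q.ord (ρ t) := hreg t
  have h2 : ((da : ℤ) - db) * Q'.ord (ρ t) < 0 := by
    have : ((da : ℤ) - db) * Q'.ord (ρ t) = Q'.ord g := by
      rw [sub_mul, h1']
      ring
    rw [this]
    exact hgQ'
  have h3 : 0 ≤ ((da : ℤ) - db) * Q.ord (ρ t) := by
    have : ((da : ℤ) - db) * Q.ord (ρ t) = Q.ord g := by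
      rw [sub_mul, h1]
      ring
    rw [this]
    exact hgQ
  have h4 : 0 < Q'.ord (ρ t) := by
    rcases lt_or_eq_of_le he' with h | h
    · exact h
    · rw [← h, mul_zero] at h2
      exact absurd h2 (lt_irrefl _)
  have h5 : (da : ℤ) - db < 0 := by
    by_contra hcon
    push Not at hcon
    exact absurd h2 (not_lt.mpr (mul_nonneg hcon he'))
  have ht0 : ρ t ≠ 0 := by
    intro h
    rw [h, Q'.ord_zero] at h4
    exact lt_irrefl _ h4
  have h6 : 0 < Q.ord (ρ t) := ((hmem t).mp ht).resolve_left ht0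
  have h7 : ((da : ℤ) - db) * Q.ord (ρ t) < 0 := mul_neg_of_neg_of_pos h5 h6
  exact absurd h3 (not_le.mpr h7)

/-! ### The choice of the chart -/

include hxV hρ in
/-- One of the two coordinates `x`, `x⁻¹` is regular at `Q`: for reductions `ρ₁` on the chart
of `x` and `ρ₂` on the chart of `x⁻¹`, `ρ₂ x⁻¹ = (ρ₁ x)⁻¹`. -/
theorem rho_chartX_inv (hx0 : x ≠ 0) (hx'V : x⁻¹ ∈ gaussValM O M)
    (ρ₂ : ↥(chart O x⁻¹).toSubring →+* ↥(modularFunctionFieldFullC k M))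
    (hρ₂ : ∀ (b : ↥(chart O x⁻¹).toSubring)
      (hb : (b : ↥(modularFunctionFieldFullC K M)) ∈ gaussValM O M),
      ((ρ₂ b : ↥(modularFunctionFieldFullC k M)) : LaurentSeries k) =
        coeffMap φ (gaussRedM O M ⟨(b : ↥(modularFunctionFieldFullC K M)), hb⟩)) :
    ρ₂ (chartX O x⁻¹) = (ρ (chartX O x))⁻¹ := by
  have h1 := hρ (chartX O x) hxV
  have h2 := hρ₂ (chartX O x⁻¹) hx'V
  have h3 : (⟨((chartX O x : ↥(chart O x).toSubring) : ↥(modularFunctionFieldFullC K M)),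
      hxV⟩ : gaussValM O M) * ⟨((chartX O x⁻¹ : ↥(chart O x⁻¹).toSubring) :
        ↥(modularFunctionFieldFullC K M)), hx'V⟩ = 1 :=
    Subtype.ext (mul_inv_cancel₀ hx0)
  have h4 : ρ (chartX O x) * ρ₂ (chartX O x⁻¹) = 1 := by
    apply Subtype.ext
    have h5 : ((ρ (chartX O x) * ρ₂ (chartX O x⁻¹) : ↥(modularFunctionFieldFullC k M)) :
        LaurentSeries k) =
        ((ρ (chartX O x) : ↥(modularFunctionFieldFullC k M)) : LaurentSeries k) *
          ((ρ₂ (chartX O x⁻¹) : ↥(modularFunctionFieldFullC k M)) : LaurentSeries k) := rfl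
    rw [h5, h1, h2, ← map_mul, ← map_mul, h3, map_one, map_one]
    rfl
  exact eq_inv_of_mul_eq_one_right h4

include hxV hρ in
theorem ord_chartX_nonneg_or (hx0 : x ≠ 0) (hx'V : x⁻¹ ∈ gaussValM O M)
    (ρ₂ : ↥(chart O x⁻¹).toSubring →+* ↥(modularFunctionFieldFullC k M))
    (hρ₂ : ∀ (b : ↥(chart O x⁻¹).toSubring)
      (hb : (b : ↥(modularFunctionFieldFullC K M)) ∈ gaussValM O M),
      ((ρ₂ b : ↥(modularFunctionFieldFullC k M)) : LaurentSeries k) =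
        coeffMap φ (gaussRedM O M ⟨(b : ↥(modularFunctionFieldFullC K M)), hb⟩))
    (Q : Place k ↥(modularFunctionFieldFullC k M)) :
    0 ≤ Q.ord (ρ (chartX O x)) ∨ 0 ≤ Q.ord (ρ₂ (chartX O x⁻¹)) := by
  rw [rho_chartX_inv O M φ x hxV ρ hρ hx0 hx'V ρ₂ hρ₂, Q.ord_inv]
  rcases le_total 0 (Q.ord (ρ (chartX O x))) with h | h
  · exact Or.inl h
  · exact Or.inr (neg_nonneg.mpr h)

end GenericTop

/-! ## The concrete statements: `O = A ∩ K`, `K ≥ K₀` -/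

section ConcreteTop

open Fermat.Agent.S18x.Dict.H23 IntermediateField

variable (A : ValuationSubring (AlgebraicClosure ℚ)) (M : ℕ) [NeZero M]
  {ℓ : ℕ} (hℓ : ℓ.Prime) (hA : A.LiesOverPrime ℓ)

local notation "𝒪[" K "]" => ValuationSubring.comap A (algebraMap (↥K) (AlgebraicClosure ℚ))

local notation "𝓀" => IsLocalRing.ResidueField A

/-- A place is determined by its valuation subring up to inclusion. -/
theorem place_eq_of_le' {k F : Type*} [Field k] [Field F] [Algebra k F] {P P' : Place k F}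
    (h : P.toValuationSubring ≤ P'.toValuationSubring) : P = P' := by
  apply Place.ext
  have hK : Ring.KrullDimLE 1 P.toValuationSubring := inferInstance
  exact ValuationSubring.eq_of_le_of_ne_top (A := P.toValuationSubring) h P'.ne_top'

/-- Two distinct places are separated by a function regular at the first one with a pole at
the second one. -/
theorem exists_sep_fun {k F : Type*} [Field k] [Field F] [Algebra k F] (Q Q' : Place k F)
    (hne : Q' ≠ Q) : ∃ g : F, 0 ≤ Q.ord g ∧ Q'.ord g < 0 := by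
  by_contra hcon
  push Not at hcon
  apply hne
  symm
  apply place_eq_of_le'
  intro g hg
  have h1 := hcon g (ord_nonneg_of_mem Q hg)
  exact mem_of_ord_nonneg Q' h1

/-- Every place has a uniformiser. -/
theorem exists_ord_one {k F : Type*} [Field k] [Field F] [Algebra k F] (Q : Place k F) :
    ∃ u : F, Q.ord u = 1 := by
  obtain ⟨π, hπ⟩ := IsDiscreteValuationRing.exists_irreducible Q.toValuationSubring
  exact ⟨(π : F), Q.ord_coe_irreducible hπ⟩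

include hℓ hA in
/-- **(K3)** `hunif` of `wa_core` / `ord_witness_eq_one` for `K ≥ K₀(Q)`. -/
theorem exists_unif_K (Q : Place 𝓀 ↥(modularFunctionFieldFullC 𝓀 M)) :
    ∃ K₀ : IntermediateField ℚ (AlgebraicClosure ℚ), FiniteDimensional ℚ K₀ ∧
      ∀ K : IntermediateField ℚ (AlgebraicClosure ℚ), K₀ ≤ K →
      ∀ (_ : IsDiscreteValuationRing 𝒪[K]) (π₀ : 𝒪[K]) (_ : Irreducible π₀)
        (x : ↥(modularFunctionFieldFullC ↥K M)) (_ : x ∈ gaussValM 𝒪[K] M)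
        (_ : Transcendental 𝒪[K] x) (_ : H26FinOver 𝒪[K] x)
        (_ : ∀ v ∈ gaussValM 𝒪[K] M,
          algebraMap 𝒪[K] ↥(modularFunctionFieldFullC ↥K M) π₀ * v ∈ chart 𝒪[K] x →
            v ∈ chart 𝒪[K] x)
        (ρ : ↥(chart 𝒪[K] x).toSubring →+* ↥(modularFunctionFieldFullC 𝓀 M))
        (_ : ∀ (b : ↥(chart 𝒪[K] x).toSubring)
          (hb : (b : ↥(modularFunctionFieldFullC ↥K M)) ∈ gaussValM 𝒪[K] M),
          ((ρ b : ↥(modularFunctionFieldFullC 𝓀 M)) : LaurentSeries 𝓀) =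
            coeffMap (h23_resEmb A)
              (gaussRedM 𝒪[K] M ⟨(b : ↥(modularFunctionFieldFullC ↥K M)), hb⟩)),
        ∃ b₁ b₂ : ↥(chart 𝒪[K] x).toSubring, ρ b₁ ≠ 0 ∧ ρ b₂ ≠ 0 ∧
          Q.ord (ρ b₁) - Q.ord (ρ b₂) = 1 := by
  obtain ⟨u, hu⟩ := exists_ord_one Q
  obtain ⟨K₀, hK₀, hdesc⟩ := exists_descent_res A M u.2
  refine ⟨K₀, hK₀, ?_⟩
  intro K hK hdvr π₀ hπ₀ x hxV hx hfin hsat ρ hρ
  haveI := hdvr
  haveI : IsScalarTower 𝒪[K] ↥K ↥(modularFunctionFieldFullC ↥K M) :=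
    IsScalarTower.of_algebraMap_eq (fun c => rfl)
  obtain ⟨u', hu', huu'⟩ := hdesc K hK
  exact exists_unif_of_descent 𝒪[K] M (h23_resEmb A) x hxV ρ hρ π₀ hπ₀ hx hfin hsat Q u hu
    u' hu' huu'

include hℓ hA in
/-- **(K5)** THE (X2) BUNDLE: for `K ≥ K₀(Q)`, on a chart whose coordinate is regular at `Q`,
the centre `𝔫` of `Q` with its (SM)-generator `t` satisfies the (X2)-hypotheses of
`cons_asm` (`h𝔫`, `hπ𝔫`, `ht𝔫`, `hSM`, `hQs`, `hQt`). -/
theorem centre_bundle_K (Q : Place 𝓀 ↥(modularFunctionFieldFullC 𝓀 M)) :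
    ∃ K₀ : IntermediateField ℚ (AlgebraicClosure ℚ), FiniteDimensional ℚ K₀ ∧
      ∀ K : IntermediateField ℚ (AlgebraicClosure ℚ), K₀ ≤ K →
      ∀ (_ : IsDiscreteValuationRing 𝒪[K]) (π₀ : 𝒪[K]) (_ : Irreducible π₀)
        (x : ↥(modularFunctionFieldFullC ↥K M)) (_ : x ∈ gaussValM 𝒪[K] M)
        (_ : Transcendental 𝒪[K] x) (_ : H26FinOver 𝒪[K] x)
        (_ : ∀ v ∈ gaussValM 𝒪[K] M,
          algebraMap 𝒪[K] ↥(modularFunctionFieldFullC ↥K M) π₀ * v ∈ chart 𝒪[K] x →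
            v ∈ chart 𝒪[K] x)
        (_ : HSMChart 𝒪[K] x π₀)
        (ρ : ↥(chart 𝒪[K] x).toSubring →+* ↥(modularFunctionFieldFullC 𝓀 M))
        (_ : ∀ (b : ↥(chart 𝒪[K] x).toSubring)
          (hb : (b : ↥(modularFunctionFieldFullC ↥K M)) ∈ gaussValM 𝒪[K] M),
          ((ρ b : ↥(modularFunctionFieldFullC 𝓀 M)) : LaurentSeries 𝓀) =
            coeffMap (h23_resEmb A)
              (gaussRedM 𝒪[K] M ⟨(b : ↥(modularFunctionFieldFullC ↥K M)), hb⟩))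
        (_ : 0 ≤ Q.ord (ρ (chartX 𝒪[K] x))),
        ∃ (𝔫 : Ideal ↥(chart 𝒪[K] x).toSubring) (t : ↥(chart 𝒪[K] x).toSubring),
          𝔫.IsMaximal ∧ chartPi 𝒪[K] x π₀ ∈ 𝔫 ∧ t ∈ 𝔫 ∧
          (∀ y ∈ 𝔫, ∃ s : ↥(chart 𝒪[K] x).toSubring, s ∉ 𝔫 ∧
            ∃ u v : ↥(chart 𝒪[K] x).toSubring, s * y = chartPi 𝒪[K] x π₀ * u + t * v) ∧
          (∀ s : ↥(chart 𝒪[K] x).toSubring, s ∉ 𝔫 → Q.ord (ρ s) = 0) ∧ Q.ord (ρ t) = 1 ∧
          (∀ b, b ∈ 𝔫 ↔ ρ b = 0 ∨ 0 < Q.ord (ρ b)) ∧ 𝔫 = placeCentre 𝒪[K] M x ρ Q := by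
  obtain ⟨K₀, hK₀, hunif⟩ := exists_unif_K A M hℓ hA Q
  refine ⟨K₀, hK₀, ?_⟩
  intro K hK hdvr π₀ hπ₀ x hxV hx hfin hsat hSMc ρ hρ hxQ
  haveI := hdvr
  haveI : IsScalarTower 𝒪[K] ↥K ↥(modularFunctionFieldFullC ↥K M) :=
    IsScalarTower.of_algebraMap_eq (fun c => rfl)
  haveI : IsAlgClosed 𝓀 := Fermat.Agent.S37x.FFk.H19.h19_isAlgClosed_res A
  exact centre_bundle 𝒪[K] M (h23_resEmb A) x hxV ρ hρ π₀ hπ₀ hx hfin hsat
    (exists_pow_eq_one_res A hℓ hA) Q hxQ hSMc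
    (hunif K hK hdvr π₀ hπ₀ x hxV hx hfin hsat ρ hρ)

include hℓ hA in
/-- **(K4)** `hsep` of `wa_core`: two distinct places have different centres for `K ≥ K₀`. -/
theorem exists_sep_K (Q Q' : Place 𝓀 ↥(modularFunctionFieldFullC 𝓀 M)) (hne : Q' ≠ Q) :
    ∃ K₀ : IntermediateField ℚ (AlgebraicClosure ℚ), FiniteDimensional ℚ K₀ ∧
      ∀ K : IntermediateField ℚ (AlgebraicClosure ℚ), K₀ ≤ K →
      ∀ (_ : IsDiscreteValuationRing 𝒪[K]) (π₀ : 𝒪[K]) (_ : Irreducible π₀)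
        (x : ↥(modularFunctionFieldFullC ↥K M)) (_ : x ∈ gaussValM 𝒪[K] M)
        (_ : Transcendental 𝒪[K] x) (_ : H26FinOver 𝒪[K] x)
        (_ : ∀ v ∈ gaussValM 𝒪[K] M,
          algebraMap 𝒪[K] ↥(modularFunctionFieldFullC ↥K M) π₀ * v ∈ chart 𝒪[K] x →
            v ∈ chart 𝒪[K] x)
        (_ : HSMChart 𝒪[K] x π₀)
        (ρ : ↥(chart 𝒪[K] x).toSubring →+* ↥(modularFunctionFieldFullC 𝓀 M))
        (_ : ∀ (b : ↥(chart 𝒪[K] x).toSubring)
          (hb : (b : ↥(modularFunctionFieldFullC ↥K M)) ∈ gaussValM 𝒪[K] M),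
          ((ρ b : ↥(modularFunctionFieldFullC 𝓀 M)) : LaurentSeries 𝓀) =
            coeffMap (h23_resEmb A)
              (gaussRedM 𝒪[K] M ⟨(b : ↥(modularFunctionFieldFullC ↥K M)), hb⟩))
        (_ : ∀ b, 0 ≤ Q.ord (ρ b)) (_ : ∀ b, 0 ≤ Q'.ord (ρ b)),
        placeCentre 𝒪[K] M x ρ Q' ≠ placeCentre 𝒪[K] M x ρ Q := by
  obtain ⟨g, hgQ, hgQ'⟩ := exists_sep_fun Q Q' hne
  obtain ⟨K₀, hK₀, hdesc⟩ := exists_descent_res A M g.2
  refine ⟨K₀, hK₀, ?_⟩
  intro K hK hdvr π₀ hπ₀ x hxV hx hfin hsat hSMc ρ hρ hreg hreg'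
  haveI := hdvr
  haveI : IsScalarTower 𝒪[K] ↥K ↥(modularFunctionFieldFullC ↥K M) :=
    IsScalarTower.of_algebraMap_eq (fun c => rfl)
  haveI : IsAlgClosed 𝓀 := Fermat.Agent.S37x.FFk.H19.h19_isAlgClosed_res A
  obtain ⟨g', hg', hgg'⟩ := hdesc K hK
  exact placeCentre_ne_of_sep 𝒪[K] M (h23_resEmb A) x hxV ρ hρ π₀ hπ₀ hx hfin hsat
    (exists_pow_eq_one_res A hℓ hA) Q Q' hreg hreg' hSMc g hgQ hgQ' g' hg' hgg'

include hℓ hA in
/-- **(K4)** for a finite set of places (the form used by `wa_core`). -/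
theorem exists_sep_finset_K (Q : Place 𝓀 ↥(modularFunctionFieldFullC 𝓀 M))
    (𝒯 : Finset (Place 𝓀 ↥(modularFunctionFieldFullC 𝓀 M))) :
    ∃ K₀ : IntermediateField ℚ (AlgebraicClosure ℚ), FiniteDimensional ℚ K₀ ∧
      ∀ K : IntermediateField ℚ (AlgebraicClosure ℚ), K₀ ≤ K →
      ∀ (_ : IsDiscreteValuationRing 𝒪[K]) (π₀ : 𝒪[K]) (_ : Irreducible π₀)
        (x : ↥(modularFunctionFieldFullC ↥K M)) (_ : x ∈ gaussValM 𝒪[K] M)
        (_ : Transcendental 𝒪[K] x) (_ : H26FinOver 𝒪[K] x)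
        (_ : ∀ v ∈ gaussValM 𝒪[K] M,
          algebraMap 𝒪[K] ↥(modularFunctionFieldFullC ↥K M) π₀ * v ∈ chart 𝒪[K] x →
            v ∈ chart 𝒪[K] x)
        (_ : HSMChart 𝒪[K] x π₀)
        (ρ : ↥(chart 𝒪[K] x).toSubring →+* ↥(modularFunctionFieldFullC 𝓀 M))
        (_ : ∀ (b : ↥(chart 𝒪[K] x).toSubring)
          (hb : (b : ↥(modularFunctionFieldFullC ↥K M)) ∈ gaussValM 𝒪[K] M),
          ((ρ b : ↥(modularFunctionFieldFullC 𝓀 M)) : LaurentSeries 𝓀) =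
            coeffMap (h23_resEmb A)
              (gaussRedM 𝒪[K] M ⟨(b : ↥(modularFunctionFieldFullC ↥K M)), hb⟩))
        (_ : ∀ b, 0 ≤ Q.ord (ρ b)),
        ∀ Q' ∈ 𝒯, Q' ≠ Q → (∀ b, 0 ≤ Q'.ord (ρ b)) →
          placeCentre 𝒪[K] M x ρ Q' ≠ placeCentre 𝒪[K] M x ρ Q := by
  classical
  induction 𝒯 using Finset.induction_on with
  | empty =>
    refine ⟨⊥, inferInstance, ?_⟩
    intro K _ _ π₀ _ x _ _ _ _ _ ρ _ _ Q' hQ'
    exact absurd hQ' (Finset.notMem_empty _)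
  | insert Q₁ 𝒯 _ ih =>
    obtain ⟨K₁, hK₁, h₁⟩ := ih
    by_cases hQ₁ : Q₁ = Q
    · refine ⟨K₁, hK₁, ?_⟩
      intro K hK hdvr π₀ hπ₀ x hxV hx hfin hsat hSMc ρ hρ hreg Q' hQ' hne hreg'
      rcases Finset.mem_insert.mp hQ' with h | h
      · exact absurd (h.trans hQ₁) hne
      · exact h₁ K hK hdvr π₀ hπ₀ x hxV hx hfin hsat hSMc ρ hρ hreg Q' h hne hreg'
    · obtain ⟨K₂, hK₂, h₂⟩ := exists_sep_K A M hℓ hA Q Q₁ hQ₁
      haveI := hK₁
      haveI := hK₂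
      refine ⟨K₁ ⊔ K₂, IntermediateField.finiteDimensional_sup K₁ K₂, ?_⟩
      intro K hK hdvr π₀ hπ₀ x hxV hx hfin hsat hSMc ρ hρ hreg Q' hQ' hne hreg'
      rcases Finset.mem_insert.mp hQ' with h | h
      · subst h
        exact h₂ K (le_trans le_sup_right hK) hdvr π₀ hπ₀ x hxV hx hfin hsat hSMc ρ hρ hreg
          hreg'
      · exact h₁ K (le_trans le_sup_left hK) hdvr π₀ hπ₀ x hxV hx hfin hsat hSMc ρ hρ hreg
          Q' h hne hreg'

end ConcreteTop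

end Fermat.Agent.S37x.Red.H29
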