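import Mathlib
import Fermat.Prelude.Def_AlgebraicCurve_DivisorClassGroup
import Fermat.Agent.S37x.Red.H11_Cons

/-!
# S37 / [RED-M] (b-asm): values at a rational place through a closed point (helper11)

`O` a discrete valuation ring with uniformiser `π₀` and fraction field `K`, `B ⊇ O` a subring of
`F ⊇ K`, `𝔫` a proper ideal of `B` containing `π₀`, `v` a `K`-rational place of `F / K` centred
at `𝔫` (`B_𝔫 ⊆ O_v`).

* `Centred.mem_of_ord_pos` : `𝔪_v ∩ B ⊆ 𝔫`;
* `centred_rational_value` : every `b ∈ B` has a value `c ∈ O` at `v`, and `b ∈ 𝔫 ↔ π₀ ∣ c`;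
  so `B = O + 𝔫`, `B / 𝔫 = O / π₀`: the closed point `𝔫` is rational over the residue field;
* `centred_rational_residue` : `∀ b : B, ∃ c : O, b - c ∈ 𝔫`.
-/

set_option autoImplicit false
set_option linter.unusedSectionVars false
set_option linter.unusedVariables false

namespace Fermat.Agent.S37x.Red.H11

open AlgebraicCurve

section Value

variable {O K F : Type*} [CommRing O] [IsDomain O] [IsDiscreteValuationRing O] [Field K]
  [Field F] [Algebra O K] [IsFractionRing O K] [Algebra K F] [Algebra O F]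
  [IsScalarTower O K F]

/-- `𝔪_v ∩ B ⊆ 𝔫` for a place centred at `𝔫` -/
theorem Centred.mem_of_ord_pos {B : Subring F} {𝔫 : Ideal B} {v : Place K F}
    (hc : Centred B 𝔫 v) (b : B) (hb : 0 < v.ord (b : F)) : b ∈ 𝔫 := by
  by_contra h
  have := hc.2 b h
  omega

/-- **Values at a rational place through the closed point `𝔫`.** -/
theorem centred_rational_value (π₀ : O) (hπ₀ : Irreducible π₀) (B : Subring F)
    (hOB : ∀ c : O, algebraMap O F c ∈ B) (𝔫 : Ideal B) (h𝔫 : 𝔫 ≠ ⊤)
    (hπ𝔫 : (⟨algebraMap O F π₀, hOB π₀⟩ : B) ∈ 𝔫) (v : Place K F) (hc : Centred B 𝔫 v)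
    (hrat : Rational v) (b : B) :
    ∃ c : O, ((b : F) = algebraMap O F c ∨ 0 < v.ord ((b : F) - algebraMap O F c)) ∧
      (b ∈ 𝔫 ↔ π₀ ∣ c) := by
  have hinjK : Function.Injective (algebraMap O K) := IsFractionRing.injective O K
  have hinj : Function.Injective (algebraMap O F) := by
    rw [IsScalarTower.algebraMap_eq O K F]
    exact (algebraMap K F).injective.comp hinjK
  have hπF : algebraMap O F π₀ ≠ 0 := (map_ne_zero_iff _ hinj).mpr hπ₀.ne_zero
  have hπv : v.ord (algebraMap O F π₀) = 0 := by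
    rw [IsScalarTower.algebraMap_apply O K F]
    exact ord_algebraMap_eq_zero v _
  -- units of `O` are not in `𝔫`
  have hunit : ∀ u : O, IsUnit u → (⟨algebraMap O F u, hOB u⟩ : B) ∉ 𝔫 := by
    intro u hu hmem
    obtain ⟨u', huu'⟩ := hu.exists_right_inv
    apply h𝔫
    rw [Ideal.eq_top_iff_one]
    have h1 : (1 : B) = ⟨algebraMap O F u, hOB u⟩ * ⟨algebraMap O F u', hOB u'⟩ := by
      apply Subtype.ext
      show (1 : F) = algebraMap O F u * algebraMap O F u'
      rw [← map_mul, huu', map_one]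
    rw [h1]
    exact Ideal.mul_mem_right _ _ hmem
  -- the key: for `c : O`, `b - c ∈ 𝔪_v` or `b = c` gives the equivalence
  have key : ∀ c : O, ((b : F) = algebraMap O F c ∨ 0 < v.ord ((b : F) - algebraMap O F c)) →
      (b ∈ 𝔫 ↔ π₀ ∣ c) := by
    intro c hbc
    have hdiff : b - ⟨algebraMap O F c, hOB c⟩ ∈ 𝔫 := by
      rcases hbc with h | h
      · have : b - ⟨algebraMap O F c, hOB c⟩ = 0 := by
          apply Subtype.ext
          show (b : F) - algebraMap O F c = 0
          rw [h, sub_self]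
        rw [this]
        exact Ideal.zero_mem _
      · exact hc.mem_of_ord_pos _ h
    have hcmem : (⟨algebraMap O F c, hOB c⟩ : B) ∈ 𝔫 ↔ π₀ ∣ c := by
      constructor
      · intro hmem
        by_contra hnd
        have hu : IsUnit c := by
          by_contra hnu
          exact hnd ((IsDiscreteValuationRing.irreducible_iff_uniformizer π₀).mp hπ₀ ▸
            (IsLocalRing.mem_maximalIdeal c).mpr hnu |> Ideal.mem_span_singleton.mp)
        exact hunit c hu hmem
      · rintro ⟨e, rfl⟩
        have : (⟨algebraMap O F (π₀ * e), hOB _⟩ : B) =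
            ⟨algebraMap O F π₀, hOB π₀⟩ * ⟨algebraMap O F e, hOB e⟩ := by
          apply Subtype.ext
          show algebraMap O F (π₀ * e) = algebraMap O F π₀ * algebraMap O F e
          rw [map_mul]
        rw [this]
        exact Ideal.mul_mem_right _ _ hπ𝔫
    rw [← hcmem]
    constructor
    · intro hb
      have := Ideal.sub_mem _ hb hdiff
      rwa [sub_sub_cancel] at this
    · intro hcm
      have := Ideal.add_mem _ hdiff hcm
      rwa [sub_add_cancel] at this
  -- the value in `K`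
  obtain ⟨c, hcv⟩ := hrat (b : F) (hc.1 b)
  rcases eq_or_ne c 0 with rfl | hc0
  · refine ⟨0, ?_, key 0 ?_⟩ <;>
    · rw [map_zero] at hcv ⊢
      exact hcv
  obtain ⟨n, u, hu⟩ := IsDiscreteValuationRing.exists_units_eq_smul_zpow_of_irreducible
    (K := K) hπ₀ hc0
  have hcF : algebraMap K F c = algebraMap O F π₀ ^ n * algebraMap O F (u : O) := by
    rw [hu, Units.smul_def, Algebra.smul_def, map_mul, map_zpow₀,
      ← IsScalarTower.algebraMap_apply O K F, ← IsScalarTower.algebraMap_apply O K F]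
    ring
  rcases le_or_gt 0 n with hn | hn
  · -- `c ∈ O`
    obtain ⟨m, rfl⟩ : ∃ m : ℕ, n = (m : ℤ) := ⟨n.toNat, by rw [Int.toNat_of_nonneg hn]⟩
    have hcO : algebraMap K F c = algebraMap O F (π₀ ^ m * (u : O)) := by
      rw [hcF, zpow_natCast, map_mul, map_pow]
    rw [hcO] at hcv
    exact ⟨π₀ ^ m * (u : O), hcv, key _ hcv⟩
  · -- impossible: a unit of `O` would lie in `𝔫`
    exfalso
    obtain ⟨m, hm⟩ : ∃ m : ℕ, n = -((m : ℤ) + 1) := ⟨(-n - 1).toNat, by
      rw [Int.toNat_of_nonneg (by omega)]; ring⟩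
    have hcF' : algebraMap O F π₀ ^ (m + 1) * algebraMap K F c = algebraMap O F (u : O) := by
      rw [hcF, hm, zpow_neg]
      have : algebraMap O F π₀ ^ ((m : ℤ) + 1) = algebraMap O F π₀ ^ (m + 1) := by
        rw [← zpow_natCast]
        push_cast
        rfl
      rw [this]
      field_simp
    set πB : B := ⟨algebraMap O F π₀, hOB π₀⟩ with hπB
    have hmem : πB ^ (m + 1) * b - ⟨algebraMap O F (u : O), hOB _⟩ ∈ 𝔫 := by
      have hval : ((πB ^ (m + 1) * b - ⟨algebraMap O F (u : O), hOB _⟩ : B) : F) =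
          algebraMap O F π₀ ^ (m + 1) * ((b : F) - algebraMap K F c) := by
        show algebraMap O F π₀ ^ (m + 1) * (b : F) - algebraMap O F (u : O) = _
        rw [mul_sub, hcF']
      rcases hcv with h | h
      · have : πB ^ (m + 1) * b - ⟨algebraMap O F (u : O), hOB _⟩ = 0 := by
          apply Subtype.ext
          rw [hval, h, sub_self, mul_zero]
          rfl
        rw [this]
        exact Ideal.zero_mem _
      · apply hc.mem_of_ord_pos
        have hne : (b : F) - algebraMap K F c ≠ 0 := by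
          intro h0
          rw [h0, v.ord_zero] at h
          exact lt_irrefl _ h
        rw [hval, v.ord_mul (pow_ne_zero _ hπF) hne, ← zpow_natCast, v.ord_zpow, hπv]
        simpa using h
    have h1 : πB ^ (m + 1) * b ∈ 𝔫 := by
      rw [pow_succ, mul_assoc]
      exact Ideal.mul_mem_left _ _ (Ideal.mul_mem_right _ _ hπ𝔫)
    have h2 : (⟨algebraMap O F (u : O), hOB _⟩ : B) ∈ 𝔫 := by
      have := Ideal.sub_mem _ h1 hmem
      rwa [sub_sub_cancel] at this
    exact hunit (u : O) u.isUnit h2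

/-- `B = O + 𝔫`: the closed point `𝔫` is rational over the residue field of `O`. -/
theorem centred_rational_residue (π₀ : O) (hπ₀ : Irreducible π₀) (B : Subring F)
    (hOB : ∀ c : O, algebraMap O F c ∈ B) (𝔫 : Ideal B) (h𝔫 : 𝔫 ≠ ⊤)
    (hπ𝔫 : (⟨algebraMap O F π₀, hOB π₀⟩ : B) ∈ 𝔫) (v : Place K F) (hc : Centred B 𝔫 v)
    (hrat : Rational v) (b : B) : ∃ c : O, b - ⟨algebraMap O F c, hOB c⟩ ∈ 𝔫 := by
  obtain ⟨c, hcv, -⟩ := centred_rational_value π₀ hπ₀ B hOB 𝔫 h𝔫 hπ𝔫 v hc hrat b
  refine ⟨c, ?_⟩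
  rcases hcv with h | h
  · have : b - ⟨algebraMap O F c, hOB c⟩ = 0 := by
      apply Subtype.ext
      show (b : F) - algebraMap O F c = 0
      rw [h, sub_self]
    rw [this]
    exact Ideal.zero_mem _
  · exact hc.mem_of_ord_pos _ h

end Value

end Fermat.Agent.S37x.Red.H11
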