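import Mathlib
import Fermat.Prelude.Def_AlgebraicCurve_DivisorClassGroup
import Fermat.Agent.S37x.Red.H1_RatExt
import Fermat.Agent.S37x.Red.H29_Centre
import Fermat.Agent.S37x.Red.H11_ConsAsm
import Fermat.Agent.S37x.Red.H11_ConsValue

/-!
# S37 / [RED-M] (b-asm) (X3): the hypotheses `hr1`, `hr2` of `cons_asm` (helper11)

`r : Place L E → Place k Ē` a reduction of places with the pointwise specialisation property
(U2) on the chart `B`; `Q` a place of the special fibre with centre `𝔫` on `B`.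

* `centre_unique` : a place of `Ē / k` is determined by its centre `𝔫` on the chart, if (SM)
  holds at `𝔫` and `𝔫` is rational over the residue field (`B = O + 𝔫`);
* `hr1_of_u2` : `r P = Q → res P` is centred at `𝔫`;
* `hr2_of_u2` : `res P` rational and centred at `𝔫` `→ r P = Q`;
* `cons_u2`, `cons_u2_quot` : `cons_asm`, `cons_asm_quot` with `hr1`, `hr2` discharged.
-/

set_option autoImplicit false
set_option linter.unusedSectionVars false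
set_option linter.unusedVariables false
set_option linter.style.haveILetI false

namespace Fermat.Agent.S37x.Red.H11

open AlgebraicCurve

section Unique

variable {B κ k F' Ebar : Type*} [CommRing B] [IsDomain B] [IsNoetherianRing B]
  [Field κ] [Field k] [Field F'] [Field Ebar] [Algebra κ k] [Algebra κ F'] [Algebra k Ebar]

/-- membership in the valuation ring of a place from the centre data -/
theorem map_mem_of_centre (ι' : F' →+* Ebar) (ρ' : B →+* F') (𝔫 : Ideal B)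
    (Q : Place k Ebar) (hQs : ∀ s : B, s ∉ 𝔫 → Q.ord (ι' (ρ' s)) = 0)
    (hQ𝔫 : ∀ b ∈ 𝔫, ρ' b = 0 ∨ 0 < Q.ord (ι' (ρ' b))) (b : B) :
    ρ' b ∈ Q.toValuationSubring.comap ι' := by
  rw [ValuationSubring.mem_comap]
  rcases eq_or_ne (ι' (ρ' b)) 0 with h0 | h0
  · rw [h0]
    exact zero_mem _
  rw [Fermat.Agent.S24.Orb.mem_place_iff_ord_nonneg Q h0]
  by_cases hb : b ∈ 𝔫
  · rcases hQ𝔫 b hb with h | h
    · rw [h, map_zero] at h0
      exact absurd rfl h0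
    · exact h.le
  · rw [hQs b hb]

/-- the centre of a place with centre data `𝔫` is `𝔫` -/
theorem centre_eq_of_centre (π : B) (ι' : F' →+* Ebar) (ρ' : B →+* F')
    (hker : ∀ b : B, ρ' b = 0 ↔ π ∣ b) (𝔫 : Ideal B) (hπ𝔫 : π ∈ 𝔫)
    (Q : Place k Ebar) (hQs : ∀ s : B, s ∉ 𝔫 → Q.ord (ι' (ρ' s)) = 0)
    (hQ𝔫 : ∀ b ∈ 𝔫, ρ' b = 0 ∨ 0 < Q.ord (ι' (ρ' b))) :
    Fermat.Agent.S37x.Red.H29.centre ρ' (Q.toValuationSubring.comap ι')
      (map_mem_of_centre ι' ρ' 𝔫 Q hQs hQ𝔫) = 𝔫 := by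
  ext b
  rw [Fermat.Agent.S37x.Red.H29.mem_centre_iff, Fermat.Agent.S37x.Red.H1.h1_comap_val_lt_one]
  constructor
  · intro hlt
    by_contra hb
    have h0 : ι' (ρ' b) ≠ 0 := by
      intro h0
      have : ρ' b = 0 := by simpa using h0
      obtain ⟨c, rfl⟩ := (hker b).mp this
      exact hb (Ideal.mul_mem_right _ _ hπ𝔫)
    have h1 := (Fermat.Agent.S24.Orb.ord_pos_iff_val_lt_one Q h0).mpr hlt
    rw [hQs b hb] at h1
    exact lt_irrefl _ h1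
  · intro hb
    rcases hQ𝔫 b hb with h | h
    · rw [h, map_zero, map_zero]
      exact zero_lt_one
    · have h0 : ι' (ρ' b) ≠ 0 := by
        intro h0
        rw [h0, Q.ord_zero] at h
        exact lt_irrefl _ h
      exact (Fermat.Agent.S24.Orb.ord_pos_iff_val_lt_one Q h0).mp h

/-- the restriction of a place of `Ē / k` to `F'` is not trivial, if `Ē = k[ι' F']` -/
theorem comap_ne_top (ι' : F' →+* Ebar)
    (hgen' : ∀ z : Ebar, ∃ (n : ℕ) (c : Fin n → k) (f : Fin n → F'),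
      z = ∑ i, algebraMap k Ebar (c i) * ι' (f i))
    (Q : Place k Ebar) : Q.toValuationSubring.comap ι' ≠ ⊤ := by
  intro htop
  apply Q.ne_top'
  refine SetLike.ext fun z => ⟨fun _ => ValuationSubring.mem_top z, fun _ => ?_⟩
  obtain ⟨n, c, f, rfl⟩ := hgen' z
  refine Subring.sum_mem _ fun i _ => ?_
  refine Subring.mul_mem _ (Q.algebraMap_mem' (c i)) ?_
  have : f i ∈ Q.toValuationSubring.comap ι' := by
    rw [htop]
    exact ValuationSubring.mem_top _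
  exact this

/-- **Uniqueness of the place with a given rational centre.**  `B` a noetherian domain with a
prime element `π`, `ρ' : B → F'` the reduction (kernel `π B`, `F' = Frac ρ'(B)`), `Ē = k[ι' F']`
the function field of the special fibre over the big residue field `k ⊇ κ`.  If (SM) holds at
the prime `𝔫 ∋ π` and `𝔫` is `κ`-rational (`ρ'(B) ⊆ κ + ρ'(𝔫)`), then there is at most one place
of `Ē / k` with centre `𝔫`. -/
theorem centre_unique (π : B) (hπ : Prime π) (ι' : F' →+* Ebar)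
    (hι' : ∀ a : κ, ι' (algebraMap κ F' a) = algebraMap k Ebar (algebraMap κ k a))
    (hgen' : ∀ z : Ebar, ∃ (n : ℕ) (c : Fin n → k) (f : Fin n → F'),
      z = ∑ i, algebraMap k Ebar (c i) * ι' (f i))
    (ρ' : B →+* F') (hker : ∀ b : B, ρ' b = 0 ↔ π ∣ b)
    (hfrac' : ∀ e : F', ∃ a b : B, ρ' b ≠ 0 ∧ e * ρ' b = ρ' a)
    (𝔫 : Ideal B) (hπ𝔫 : π ∈ 𝔫) (hSM : Fermat.Agent.S18x.IG.HSM π 𝔫)
    (hκ : ∀ b : B, ∃ a : κ, ∃ n ∈ 𝔫, ρ' b = algebraMap κ F' a + ρ' n)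
    (Q Q' : Place k Ebar)
    (hQs : ∀ s : B, s ∉ 𝔫 → Q.ord (ι' (ρ' s)) = 0)
    (hQ𝔫 : ∀ b ∈ 𝔫, ρ' b = 0 ∨ 0 < Q.ord (ι' (ρ' b)))
    (hQ's : ∀ s : B, s ∉ 𝔫 → Q'.ord (ι' (ρ' s)) = 0)
    (hQ'𝔫 : ∀ b ∈ 𝔫, ρ' b = 0 ∨ 0 < Q'.ord (ι' (ρ' b))) : Q = Q' := by
  set W : ValuationSubring F' := Q.toValuationSubring.comap ι' with hWdef
  set W' : ValuationSubring F' := Q'.toValuationSubring.comap ι' with hW'def
  have hW : ∀ b : B, ρ' b ∈ W := map_mem_of_centre ι' ρ' 𝔫 Q hQs hQ𝔫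
  have hW' : ∀ b : B, ρ' b ∈ W' := map_mem_of_centre ι' ρ' 𝔫 Q' hQ's hQ'𝔫
  have hc : Fermat.Agent.S37x.Red.H29.centre ρ' W hW = 𝔫 :=
    centre_eq_of_centre π ι' ρ' hker 𝔫 hπ𝔫 Q hQs hQ𝔫
  have hc' : Fermat.Agent.S37x.Red.H29.centre ρ' W' hW' = 𝔫 :=
    centre_eq_of_centre π ι' ρ' hker 𝔫 hπ𝔫 Q' hQ's hQ'𝔫
  have hWtop : W ≠ ⊤ := comap_ne_top ι' hgen' Q
  have hW'top : W' ≠ ⊤ := comap_ne_top ι' hgen' Q'
  have hSMc : Fermat.Agent.S18x.IG.HSM π (Fermat.Agent.S37x.Red.H29.centre ρ' W hW) := by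
    rw [hc]
    exact hSM
  have hWW' : W = W' :=
    Fermat.Agent.S37x.Red.H29.eq_of_centre_eq ρ' π hπ hker hfrac' W W' hW hW' hWtop hW'top
      (hc.trans hc'.symm) hSMc
  obtain ⟨t, ht, hSMt⟩ := hSMc
  have ht0 : ρ' t ≠ 0 :=
    Fermat.Agent.S37x.Red.H29.map_gen_ne_zero ρ' W hW π t hπ hker ht hSMt hfrac' hWtop
  have hconst : ∀ a : κ, algebraMap κ F' a ∈ W := by
    intro a
    rw [hWdef, ValuationSubring.mem_comap, hι']
    exact Q.algebraMap_mem' _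
  have hrat : ∀ f ∈ W, ∃ a : κ, W.valuation (f - algebraMap κ F' a) < 1 := by
    intro f hf
    obtain ⟨a₁, s, hs, hfs⟩ :=
      (Fermat.Agent.S37x.Red.H29.mem_iff_exists_frac ρ' W hW π t hπ hker ht hSMt hfrac' hWtop
        f).mp hf
    obtain ⟨α, na, hna, hα⟩ := hκ a₁
    obtain ⟨σ, ns, hns, hσ⟩ := hκ s
    have hs𝔫 : s ∉ 𝔫 := by rwa [hc] at hs
    have hσ0 : algebraMap κ F' σ ≠ 0 := by
      intro h0
      rw [h0, zero_add] at hσ
      have h1 : ρ' (s - ns) = 0 := by rw [map_sub, hσ, sub_self]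
      obtain ⟨c, hc1⟩ := (hker _).mp h1
      apply hs𝔫
      have : s = π * c + ns := by rw [← hc1]; ring
      rw [this]
      exact Ideal.add_mem _ (Ideal.mul_mem_right _ _ hπ𝔫) hns
    have hσ0' : σ ≠ 0 := by
      rintro rfl
      exact hσ0 (map_zero _)
    refine ⟨α / σ, ?_⟩
    have hvs : W.valuation (ρ' s) = 1 :=
      Fermat.Agent.S37x.Red.H29.val_eq_one_of_not_mem_centre ρ' W hW hs
    have hna' : W.valuation (ρ' na) < 1 := by
      rw [← Fermat.Agent.S37x.Red.H29.mem_centre_iff ρ' W hW, hc]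
      exact hna
    have hns' : W.valuation (ρ' ns) < 1 := by
      rw [← Fermat.Agent.S37x.Red.H29.mem_centre_iff ρ' W hW, hc]
      exact hns
    have hcst : W.valuation (algebraMap κ F' (α / σ)) ≤ 1 :=
      (ValuationSubring.valuation_le_one_iff W _).mpr (hconst _)
    have hprod : (f - algebraMap κ F' (α / σ)) * ρ' s
        = ρ' na - algebraMap κ F' (α / σ) * ρ' ns := by
      rw [sub_mul, hfs, hα, hσ, map_div₀]
      field_simp
      ring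
    have hlt : W.valuation (ρ' na - algebraMap κ F' (α / σ) * ρ' ns) < 1 := by
      apply lt_of_le_of_lt (Valuation.map_sub _ _ _)
      apply max_lt hna'
      rw [map_mul]
      calc W.valuation (algebraMap κ F' (α / σ)) * W.valuation (ρ' ns)
          ≤ 1 * W.valuation (ρ' ns) := by gcongr
        _ < 1 := by rw [one_mul]; exact hns'
    rw [← hprod, map_mul, hvs, mul_one] at hlt
    exact hlt
  apply Place.ext
  exact Fermat.Agent.S37x.Red.H1.h1_ratExt_unique ι' hι' hgen' W (ρ' t) (hW t) ht0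
    (fun e he => Fermat.Agent.S37x.Red.H29.exists_zpow_val_eq_one ρ' W hW π t hπ hker ht hSMt
      hfrac' hWtop e he) hrat
    (Fermat.Agent.S37x.Red.H29.val_gen_lt_one ρ' W hW t ht) _ _ Q.algebraMap_mem'
    Q'.algebraMap_mem' rfl hWW'.symm

end Unique

section R

variable {O K L F E k Ebar : Type*} [CommRing O] [IsDomain O] [IsDiscreteValuationRing O]
  [Field K] [Field F] [Algebra O K] [IsFractionRing O K] [Algebra K F] [Algebra O F]
  [IsScalarTower O K F] [Field L] [Field E] [Algebra L E] [Field k] [Field Ebar]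
  [Algebra k Ebar]

/-- `ord ≥ 0` descends along the restriction of places -/
theorem ord_nonneg_of_comap_rev (ι : F →+* E) (P : Place L E) (v : Place K F)
    (h : P.toValuationSubring.comap ι = v.toValuationSubring) (f : F)
    (hf : 0 ≤ P.ord (ι f)) : 0 ≤ v.ord f := by
  rcases eq_or_ne f 0 with rfl | hf0
  · simp
  have hιf : ι f ≠ 0 := by simpa using hf0
  have h1 : ι f ∈ P.toValuationSubring :=
    (Fermat.Agent.S24.Orb.mem_place_iff_ord_nonneg P hιf).mpr hf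
  have h2 : f ∈ v.toValuationSubring := by
    rw [← h, ValuationSubring.mem_comap]
    exact h1
  exact (Fermat.Agent.S24.Orb.mem_place_iff_ord_nonneg v hf0).mp h2

/-- `O → F` is injective -/
theorem algebraMap_base_injective (O K F : Type*) [CommRing O] [IsDomain O] [Field K] [Field F]
    [Algebra O K] [IsFractionRing O K] [Algebra K F] [Algebra O F] [IsScalarTower O K F] :
    Function.Injective (algebraMap O F) := by
  have hinjK : Function.Injective (algebraMap O K) := IsFractionRing.injective O K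
  rw [IsScalarTower.algebraMap_eq O K F]
  exact (algebraMap K F).injective.comp hinjK

/-- the uniformiser of the base is a prime element of the chart -/
theorem chart_pi_prime (K : Type*) [Field K] [Algebra O K] [IsFractionRing O K] [Algebra K F]
    [IsScalarTower O K F] (π₀ : O) (hπ₀ : Irreducible π₀) (B : Subring F)
    (hOB : ∀ c : O, algebraMap O F c ∈ B)
    (hπp : (Ideal.span {(⟨algebraMap O F π₀, hOB π₀⟩ : B)}).IsPrime) :
    Prime (⟨algebraMap O F π₀, hOB π₀⟩ : B) := by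
  have hinj : Function.Injective (algebraMap O F) := algebraMap_base_injective O K F
  have hπF : algebraMap O F π₀ ≠ 0 := (map_ne_zero_iff _ hinj).mpr hπ₀.ne_zero
  have hne : (⟨algebraMap O F π₀, hOB π₀⟩ : B) ≠ 0 := by
    intro h0
    exact hπF (congrArg Subtype.val h0)
  exact (Ideal.span_singleton_prime hne).mp hπp

/-- the kernel of the reduction, in divisibility form -/
theorem map_eq_zero_iff_dvd (π₀ : O) (B : Subring F)
    (hOB : ∀ c : O, algebraMap O F c ∈ B) (ρ : B →+* Ebar)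
    (hρπ : ρ ⟨algebraMap O F π₀, hOB π₀⟩ = 0)
    (hρ0 : ∀ b : B, b ∉ Ideal.span {(⟨algebraMap O F π₀, hOB π₀⟩ : B)} → ρ b ≠ 0) (b : B) :
    ρ b = 0 ↔ (⟨algebraMap O F π₀, hOB π₀⟩ : B) ∣ b := by
  constructor
  · intro h
    by_contra hnd
    exact hρ0 b (fun hmem => hnd (Ideal.mem_span_singleton.mp hmem)) h
  · rintro ⟨c, rfl⟩
    rw [map_mul, hρπ, zero_mul]

/-- **The order of `ρ z` at a place with centre `𝔫`** is a multiple of the order of `ρ t`. -/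
theorem ord_map_of_sm (π₀ : O) (B : Subring F) [IsNoetherianRing B]
    (hOB : ∀ c : O, algebraMap O F c ∈ B)
    (hπ : Prime (⟨algebraMap O F π₀, hOB π₀⟩ : B))
    (𝔫 : Ideal B) (h𝔫 : 𝔫.IsMaximal) (hπ𝔫 : (⟨algebraMap O F π₀, hOB π₀⟩ : B) ∈ 𝔫)
    (t : B) (ht𝔫 : t ∈ 𝔫)
    (hSM : ∀ x ∈ 𝔫, ∃ s : B, s ∉ 𝔫 ∧ ∃ u v : B,
      s * x = ⟨algebraMap O F π₀, hOB π₀⟩ * u + t * v)
    (ρ : B →+* Ebar) (hρπ : ρ ⟨algebraMap O F π₀, hOB π₀⟩ = 0)
    (hρ0 : ∀ b : B, b ∉ Ideal.span {(⟨algebraMap O F π₀, hOB π₀⟩ : B)} → ρ b ≠ 0)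
    (Q : Place k Ebar) (hQs : ∀ s : B, s ∉ 𝔫 → Q.ord (ρ s) = 0)
    (z : B) (hz : z ∉ Ideal.span {(⟨algebraMap O F π₀, hOB π₀⟩ : B)}) :
    ∃ d : ℕ, Q.ord (ρ z) = d * Q.ord (ρ t) ∧ (z ∈ 𝔫 → 0 < d) := by
  have hspan_le : (Ideal.span {(⟨algebraMap O F π₀, hOB π₀⟩ : B)}) ≤ 𝔫 := by
    rw [Ideal.span_le]
    simpa using hπ𝔫
  haveI : 𝔫.IsPrime := h𝔫.isPrime
  obtain ⟨d, s, u, c, hs, hu, hszu⟩ :=
    Fermat.Agent.S37x.Red.H29.exists_unit_pow_chart _ t hπ 𝔫 hπ𝔫 ht𝔫 hSM z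
      (fun h => hz (Ideal.mem_span_singleton.mpr h))
  have hρs : ρ s ≠ 0 := hρ0 s (fun h => hs (hspan_le h))
  have hρu : ρ u ≠ 0 := hρ0 u (fun h => hu (hspan_le h))
  have hρz : ρ z ≠ 0 := hρ0 z hz
  have heq : ρ s * ρ z = ρ u * ρ t ^ d := by
    have := congrArg ρ hszu
    rw [map_mul, map_add, map_mul, map_mul, hρπ, zero_mul, add_zero, map_pow] at this
    exact this
  have hpow : ρ t ^ d ≠ 0 := by
    intro h0
    rw [h0, mul_zero] at heq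
    exact mul_ne_zero hρs hρz heq
  have hord := congrArg Q.ord heq
  rw [Q.ord_mul hρs hρz, Q.ord_mul hρu hpow, hQs s hs, hQs u hu, zero_add, zero_add,
    ← zpow_natCast, Q.ord_zpow] at hord
  refine ⟨d, hord, fun hz𝔫 => ?_⟩
  rcases Nat.eq_zero_or_pos d with hd | hd
  · exfalso
    rw [hd, pow_zero, mul_one] at hszu
    apply hu
    have : u = s * z - ⟨algebraMap O F π₀, hOB π₀⟩ * c := by rw [hszu]; ring
    rw [this]
    exact Ideal.sub_mem _ (Ideal.mul_mem_left _ _ hz𝔫) (Ideal.mul_mem_right _ _ hπ𝔫)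
  · exact hd

/-- **`hr1` of `cons_asm`** from the pointwise specialisation property (U2) of `r`. -/
theorem hr1_of_u2 (π₀ : O) (hπ₀ : Irreducible π₀) (B : Subring F) [IsNoetherianRing B]
    (hOB : ∀ c : O, algebraMap O F c ∈ B)
    (hπp : (Ideal.span {(⟨algebraMap O F π₀, hOB π₀⟩ : B)}).IsPrime)
    (𝔫 : Ideal B) (h𝔫 : 𝔫.IsMaximal) (hπ𝔫 : (⟨algebraMap O F π₀, hOB π₀⟩ : B) ∈ 𝔫)
    (t : B) (ht𝔫 : t ∈ 𝔫)
    (hSM : ∀ x ∈ 𝔫, ∃ s : B, s ∉ 𝔫 ∧ ∃ u v : B,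
      s * x = ⟨algebraMap O F π₀, hOB π₀⟩ * u + t * v)
    (ι : F →+* E) (ρ : B →+* Ebar) (hρπ : ρ ⟨algebraMap O F π₀, hOB π₀⟩ = 0)
    (hρ0 : ∀ b : B, b ∉ Ideal.span {(⟨algebraMap O F π₀, hOB π₀⟩ : B)} → ρ b ≠ 0)
    (Q : Place k Ebar) (hQs : ∀ s : B, s ∉ 𝔫 → Q.ord (ρ s) = 0) (hQt : Q.ord (ρ t) = 1)
    (res : Place L E → Place K F)
    (hres : ∀ P, P.toValuationSubring.comap ι = (res P).toValuationSubring)
    (r : Place L E → Place k Ebar) (Reg : Place L E → Prop)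
    (hReg1 : ∀ P, Reg P → ∀ b : B, 0 ≤ P.ord (ι (b : F)))
    (hU2 : ∀ P, Reg P → ∀ b : B, 0 < P.ord (ι (b : F)) → ρ b = 0 ∨ 0 < (r P).ord (ρ b))
    (hU2n : ∀ P, ¬ Reg P → ∃ b : B, (r P).ord (ρ b) < 0)
    (P : Place L E) (hPQ : r P = Q) : Centred B 𝔫 (res P) := by
  have hπ := chart_pi_prime K π₀ hπ₀ B hOB hπp
  have hspan_le : (Ideal.span {(⟨algebraMap O F π₀, hOB π₀⟩ : B)}) ≤ 𝔫 := by
    rw [Ideal.span_le]
    simpa using hπ𝔫
  have hQ0 : ∀ b : B, 0 ≤ Q.ord (ρ b) := by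
    intro b
    by_cases hb : b ∈ Ideal.span {(⟨algebraMap O F π₀, hOB π₀⟩ : B)}
    · have : ρ b = 0 :=
        (map_eq_zero_iff_dvd π₀ B hOB ρ hρπ hρ0 b).mpr (Ideal.mem_span_singleton.mp hb)
      rw [this, Q.ord_zero]
    · obtain ⟨d, hd, -⟩ := ord_map_of_sm π₀ B hOB hπ 𝔫 h𝔫 hπ𝔫 t ht𝔫 hSM ρ hρπ hρ0 Q hQs
        b hb
      rw [hd, hQt]
      positivity
  have hReg : Reg P := by
    by_contra hn
    obtain ⟨b, hb⟩ := hU2n P hn
    rw [hPQ] at hb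
    have := hQ0 b
    omega
  have h1 : ∀ b : B, 0 ≤ (res P).ord (b : F) := fun b =>
    ord_nonneg_of_comap_rev ι P (res P) (hres P) _ (hReg1 P hReg b)
  refine ⟨h1, fun s hs => ?_⟩
  by_contra hne
  have hpos : 0 < (res P).ord (s : F) := by
    have := h1 s
    omega
  have hP := ord_pos_of_comap ι P (res P) (hres P) _ hpos
  rcases hU2 P hReg s hP with h | h
  · exact hρ0 s (fun hmem => hs (hspan_le hmem)) h
  · rw [hPQ, hQs s hs] at h
    exact lt_irrefl _ h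

/-- **`hr2` of `cons_asm`** from the pointwise specialisation property (U2) of `r`: a place `P`
whose restriction is rational and centred at `𝔫` is sent to the place `Q` with centre `𝔫`. -/
theorem hr2_of_u2 {κ F' : Type*} [Field κ] [Field F'] [Algebra κ k] [Algebra κ F']
    (π₀ : O) (hπ₀ : Irreducible π₀) (B : Subring F) [IsNoetherianRing B]
    (hOB : ∀ c : O, algebraMap O F c ∈ B)
    (hπp : (Ideal.span {(⟨algebraMap O F π₀, hOB π₀⟩ : B)}).IsPrime)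
    (𝔫 : Ideal B) (h𝔫 : 𝔫.IsMaximal) (hπ𝔫 : (⟨algebraMap O F π₀, hOB π₀⟩ : B) ∈ 𝔫)
    (t : B) (ht𝔫 : t ∈ 𝔫)
    (hSM : ∀ x ∈ 𝔫, ∃ s : B, s ∉ 𝔫 ∧ ∃ u v : B,
      s * x = ⟨algebraMap O F π₀, hOB π₀⟩ * u + t * v)
    (ι : F →+* E) (ρ : B →+* Ebar) (hρπ : ρ ⟨algebraMap O F π₀, hOB π₀⟩ = 0)
    (hρ0 : ∀ b : B, b ∉ Ideal.span {(⟨algebraMap O F π₀, hOB π₀⟩ : B)} → ρ b ≠ 0)
    (Q : Place k Ebar) (hQs : ∀ s : B, s ∉ 𝔫 → Q.ord (ρ s) = 0) (hQt : Q.ord (ρ t) = 1)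
    (res : Place L E → Place K F)
    (hres : ∀ P, P.toValuationSubring.comap ι = (res P).toValuationSubring)
    (r : Place L E → Place k Ebar) (Reg : Place L E → Prop)
    (hReg2 : ∀ P, (∀ b : B, ∃ c : O, (b : F) = algebraMap O F c ∨
      0 < P.ord (ι ((b : F) - algebraMap O F c))) → Reg P)
    (hU2 : ∀ P, Reg P → ∀ b : B, 0 < P.ord (ι (b : F)) → ρ b = 0 ∨ 0 < (r P).ord (ρ b))
    (ι' : F' →+* Ebar)
    (hι' : ∀ a : κ, ι' (algebraMap κ F' a) = algebraMap k Ebar (algebraMap κ k a))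
    (hgen' : ∀ z : Ebar, ∃ (n : ℕ) (c : Fin n → k) (f : Fin n → F'),
      z = ∑ i, algebraMap k Ebar (c i) * ι' (f i))
    (ρ' : B →+* F') (hρρ' : ∀ b : B, ρ b = ι' (ρ' b))
    (hfrac' : ∀ e : F', ∃ a b : B, ρ' b ≠ 0 ∧ e * ρ' b = ρ' a)
    (hρO : ∀ c : O, ∃ a : κ, ρ' ⟨algebraMap O F c, hOB c⟩ = algebraMap κ F' a)
    (P : Place L E) (hrat : Rational (res P)) (hc : Centred B 𝔫 (res P)) : r P = Q := by
  have hπ := chart_pi_prime K π₀ hπ₀ B hOB hπp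
  have hspan_le : (Ideal.span {(⟨algebraMap O F π₀, hOB π₀⟩ : B)}) ≤ 𝔫 := by
    rw [Ideal.span_le]
    simpa using hπ𝔫
  have hval := centred_rational_value π₀ hπ₀ B hOB 𝔫 h𝔫.ne_top hπ𝔫 (res P) hc hrat
  have hReg : Reg P := by
    apply hReg2
    intro b
    obtain ⟨c, h | h, -⟩ := hval b
    · exact ⟨c, Or.inl h⟩
    · exact ⟨c, Or.inr (ord_pos_of_comap ι P (res P) (hres P) _ h)⟩
  have hι'0 : ∀ x : F', ι' x = 0 ↔ x = 0 := fun x => map_eq_zero ι'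
  have hker : ∀ b : B, ρ' b = 0 ↔ (⟨algebraMap O F π₀, hOB π₀⟩ : B) ∣ b := by
    intro b
    rw [← map_eq_zero_iff_dvd π₀ B hOB ρ hρπ hρ0 b, hρρ', hι'0]
  -- the reduction of `b - c` for a value `c` of `b`
  have hdiff : ∀ (b : B) (c : O), ((b : F) = algebraMap O F c ∨
      0 < (res P).ord ((b : F) - algebraMap O F c)) →
      ρ (b - ⟨algebraMap O F c, hOB c⟩) = 0 ∨
        0 < (r P).ord (ρ (b - ⟨algebraMap O F c, hOB c⟩)) := by
    intro b c hbc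
    rcases hbc with h | h
    · left
      have : b - ⟨algebraMap O F c, hOB c⟩ = 0 := by
        apply Subtype.ext
        show (b : F) - algebraMap O F c = 0
        rw [h, sub_self]
      rw [this, map_zero]
    · exact hU2 P hReg _ (ord_pos_of_comap ι P (res P) (hres P) _ h)
  have hconst : ∀ c : O, ρ ⟨algebraMap O F c, hOB c⟩ = 0 ∨
      ((r P).ord (ρ ⟨algebraMap O F c, hOB c⟩) = 0 ∧
        (r P).toValuationSubring.valuation (ρ ⟨algebraMap O F c, hOB c⟩) = 1) := by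
    intro c
    rcases eq_or_ne (ρ ⟨algebraMap O F c, hOB c⟩) 0 with h0 | h0
    · exact Or.inl h0
    · right
      obtain ⟨a, ha⟩ := hρO c
      have h1 : (r P).ord (ρ ⟨algebraMap O F c, hOB c⟩) = 0 := by
        rw [hρρ', ha, hι']
        exact ord_algebraMap_eq_zero (r P) _
      exact ⟨h1, (Fermat.Agent.S24.Orb.ord_eq_zero_iff_val_eq_one (r P) h0).mp h1⟩
  have hQ'𝔫 : ∀ b ∈ 𝔫, ρ' b = 0 ∨ 0 < (r P).ord (ι' (ρ' b)) := by
    intro b hb
    obtain ⟨c, hbc, hiff⟩ := hval b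
    obtain ⟨e, rfl⟩ := hiff.mp hb
    have hc0 : ρ ⟨algebraMap O F (π₀ * e), hOB _⟩ = 0 := by
      have : (⟨algebraMap O F (π₀ * e), hOB _⟩ : B) =
          ⟨algebraMap O F π₀, hOB π₀⟩ * ⟨algebraMap O F e, hOB e⟩ := by
        apply Subtype.ext
        show algebraMap O F (π₀ * e) = algebraMap O F π₀ * algebraMap O F e
        rw [map_mul]
      rw [this, map_mul, hρπ, zero_mul]
    have h2 := hdiff b _ hbc
    rw [map_sub, hc0, sub_zero, hρρ'] at h2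
    rcases h2 with h | h
    · exact Or.inl ((hι'0 _).mp h)
    · exact Or.inr h
  have hQ's : ∀ s : B, s ∉ 𝔫 → (r P).ord (ι' (ρ' s)) = 0 := by
    intro s hs
    obtain ⟨c, hsc, hiff⟩ := hval s
    have hρs : ρ s ≠ 0 := hρ0 s (fun h => hs (hspan_le h))
    have hsplit : ρ s = ρ ⟨algebraMap O F c, hOB c⟩ + ρ (s - ⟨algebraMap O F c, hOB c⟩) := by
      rw [← map_add]
      congr 1
      ring
    rw [← hρρ']
    rcases hdiff s c hsc with h | h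
    · rw [h, add_zero] at hsplit
      rcases hconst c with h0 | ⟨h0, -⟩
      · rw [h0] at hsplit
        exact absurd hsplit hρs
      · rw [hsplit]
        exact h0
    · have hne : ρ (s - ⟨algebraMap O F c, hOB c⟩) ≠ 0 := by
        intro h0
        rw [h0, (r P).ord_zero] at h
        exact lt_irrefl _ h
      have hlt := (Fermat.Agent.S24.Orb.ord_pos_iff_val_lt_one (r P) hne).mp h
      rcases hconst c with h0 | ⟨-, h0⟩
      · -- then `c ∈ π₀ O`, so `s ∈ 𝔫`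
        exfalso
        have hcm : (⟨algebraMap O F c, hOB c⟩ : B) ∈ 𝔫 := by
          by_contra hcn
          exact hρ0 _ (fun h => hcn (hspan_le h)) h0
        have hsm : s - ⟨algebraMap O F c, hOB c⟩ ∈ 𝔫 := by
          rcases hsc with h' | h'
          · have : s - ⟨algebraMap O F c, hOB c⟩ = 0 := by
              apply Subtype.ext
              show (s : F) - algebraMap O F c = 0
              rw [h', sub_self]
            rw [this]
            exact Ideal.zero_mem _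
          · exact hc.mem_of_ord_pos _ h'
        apply hs
        have := Ideal.add_mem _ hsm hcm
        rwa [sub_add_cancel] at this
      · rw [Fermat.Agent.S24.Orb.ord_eq_zero_iff_val_eq_one (r P) hρs, hsplit,
          Valuation.map_add_eq_of_lt_left _ (by rw [h0]; exact hlt), h0]
  have hQ𝔫 : ∀ b ∈ 𝔫, ρ' b = 0 ∨ 0 < Q.ord (ι' (ρ' b)) := by
    intro b hb
    by_cases hbs : b ∈ Ideal.span {(⟨algebraMap O F π₀, hOB π₀⟩ : B)}
    · exact Or.inl ((hker b).mpr (Ideal.mem_span_singleton.mp hbs))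
    · right
      obtain ⟨d, hd, hpos⟩ := ord_map_of_sm π₀ B hOB hπ 𝔫 h𝔫 hπ𝔫 t ht𝔫 hSM ρ hρπ hρ0 Q
        hQs b hbs
      rw [← hρρ', hd, hQt, mul_one]
      exact_mod_cast hpos hb
  have hQs' : ∀ s : B, s ∉ 𝔫 → Q.ord (ι' (ρ' s)) = 0 := by
    intro s hs
    rw [← hρρ']
    exact hQs s hs
  have hκ : ∀ b : B, ∃ a : κ, ∃ n ∈ 𝔫, ρ' b = algebraMap κ F' a + ρ' n := by
    intro b
    obtain ⟨c, hcn⟩ := centred_rational_residue π₀ hπ₀ B hOB 𝔫 h𝔫.ne_top hπ𝔫 (res P) hc hrat b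
    obtain ⟨a, ha⟩ := hρO c
    refine ⟨a, _, hcn, ?_⟩
    rw [← ha, ← map_add]
    congr 1
    ring
  exact (centre_unique (κ := κ) _ hπ ι' hι' hgen' ρ' hker hfrac' 𝔫 hπ𝔫 ⟨t, ht𝔫, hSM⟩ hκ Q (r P)
    hQs' hQ𝔫 hQ's hQ'𝔫).symm

/-- **(b-asm) with the `r`-side discharged**: `cons_asm` with `hr1`, `hr2` replaced by the
pointwise specialisation property (U2) of `r` on the chart `B` and the description of the
special fibre (`ρ = ι' ∘ ρ'`, `Ē = k[ι' F']`). -/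
theorem cons_u2 {κ F' : Type*} [Field κ] [Field F'] [Algebra κ k] [Algebra κ F']
    (π₀ : O) (hπ₀ : Irreducible π₀) (B : Subring F) [IsNoetherianRing B]
    (hOB : ∀ c : O, algebraMap O F c ∈ B)
    (hπp : (Ideal.span {(⟨algebraMap O F π₀, hOB π₀⟩ : B)}).IsPrime)
    (hfrac : ∀ x : F, ∃ a b : B, b ≠ 0 ∧ x * (b : F) = (a : F))
    (𝔫 : Ideal B) (h𝔫 : 𝔫.IsMaximal) (hπ𝔫 : (⟨algebraMap O F π₀, hOB π₀⟩ : B) ∈ 𝔫)
    (t : B) (ht𝔫 : t ∈ 𝔫)
    (hSM : ∀ x ∈ 𝔫, ∃ s : B, s ∉ 𝔫 ∧ ∃ u v : B,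
      s * x = ⟨algebraMap O F π₀, hOB π₀⟩ * u + t * v)
    (ι : F →+* E) (ρ : B →+* Ebar) (hρπ : ρ ⟨algebraMap O F π₀, hOB π₀⟩ = 0)
    (hρ0 : ∀ b : B, b ∉ Ideal.span {(⟨algebraMap O F π₀, hOB π₀⟩ : B)} → ρ b ≠ 0)
    (Q : Place k Ebar) (hQs : ∀ s : B, s ∉ 𝔫 → Q.ord (ρ s) = 0) (hQt : Q.ord (ρ t) = 1)
    (res : Place L E → Place K F)
    (hres : ∀ P, P.toValuationSubring.comap ι = (res P).toValuationSubring)
    (hab : ∀ v : Place K F, ∃ P, res P = v)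
    (r : Place L E → Place k Ebar) (Reg : Place L E → Prop)
    (hReg1 : ∀ P, Reg P → ∀ b : B, 0 ≤ P.ord (ι (b : F)))
    (hReg2 : ∀ P, (∀ b : B, ∃ c : O, (b : F) = algebraMap O F c ∨
      0 < P.ord (ι ((b : F) - algebraMap O F c))) → Reg P)
    (hU2 : ∀ P, Reg P → ∀ b : B, 0 < P.ord (ι (b : F)) → ρ b = 0 ∨ 0 < (r P).ord (ρ b))
    (hU2n : ∀ P, ¬ Reg P → ∃ b : B, (r P).ord (ρ b) < 0)
    (ι' : F' →+* Ebar)
    (hι' : ∀ a : κ, ι' (algebraMap κ F' a) = algebraMap k Ebar (algebraMap κ k a))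
    (hgen' : ∀ z : Ebar, ∃ (n : ℕ) (c : Fin n → k) (f : Fin n → F'),
      z = ∑ i, algebraMap k Ebar (c i) * ι' (f i))
    (ρ' : B →+* F') (hρρ' : ∀ b : B, ρ b = ι' (ρ' b))
    (hfrac' : ∀ e : F', ∃ a b : B, ρ' b ≠ 0 ∧ e * ρ' b = ρ' a)
    (hρO : ∀ c : O, ∃ a : κ, ρ' ⟨algebraMap O F c, hOB c⟩ = algebraMap κ F' a)
    (y : B) (hy : y ∉ Ideal.span {(⟨algebraMap O F π₀, hOB π₀⟩ : B)})
    (D : Divisor L E) (hD : ∀ P, D P = P.ord (ι (y : F)))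
    (hrat : ∀ P ∈ D.support, Rational (res P))
    (he : ∀ P ∈ D.support, ∀ f : F, P.ord (ι f) = (res P).ord f)
    (huniq : ∀ P ∈ D.support, ∀ P', res P' = res P → P' = P) :
    Finsupp.mapDomain r D Q = Q.ord (ρ y) :=
  cons_asm π₀ hπ₀ B hOB hπp hfrac 𝔫 h𝔫 hπ𝔫 t ht𝔫 hSM ι ρ hρπ hρ0 Q hQs hQt res hres hab r y hy
    D hD hrat he huniq
    (hr1_of_u2 π₀ hπ₀ B hOB hπp 𝔫 h𝔫 hπ𝔫 t ht𝔫 hSM ι ρ hρπ hρ0 Q hQs hQt res hres r Reg hReg1
      hU2 hU2n)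
    (fun P hP hc => hr2_of_u2 (κ := κ) π₀ hπ₀ B hOB hπp 𝔫 h𝔫 hπ𝔫 t ht𝔫 hSM ι ρ hρπ hρ0 Q hQs
      hQt res hres r Reg hReg2 hU2 ι' hι' hgen' ρ' hρρ' hfrac' hρO P (hrat P hP) hc)

/-- **(b-asm) with the `r`-side discharged, quotient form.** -/
theorem cons_u2_quot {κ F' : Type*} [Field κ] [Field F'] [Algebra κ k] [Algebra κ F']
    (π₀ : O) (hπ₀ : Irreducible π₀) (B : Subring F) [IsNoetherianRing B]
    (hOB : ∀ c : O, algebraMap O F c ∈ B)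
    (hπp : (Ideal.span {(⟨algebraMap O F π₀, hOB π₀⟩ : B)}).IsPrime)
    (hfrac : ∀ x : F, ∃ a b : B, b ≠ 0 ∧ x * (b : F) = (a : F))
    (𝔫 : Ideal B) (h𝔫 : 𝔫.IsMaximal) (hπ𝔫 : (⟨algebraMap O F π₀, hOB π₀⟩ : B) ∈ 𝔫)
    (t : B) (ht𝔫 : t ∈ 𝔫)
    (hSM : ∀ x ∈ 𝔫, ∃ s : B, s ∉ 𝔫 ∧ ∃ u v : B,
      s * x = ⟨algebraMap O F π₀, hOB π₀⟩ * u + t * v)
    (ι : F →+* E) (ρ : B →+* Ebar) (hρπ : ρ ⟨algebraMap O F π₀, hOB π₀⟩ = 0)
    (hρ0 : ∀ b : B, b ∉ Ideal.span {(⟨algebraMap O F π₀, hOB π₀⟩ : B)} → ρ b ≠ 0)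
    (Q : Place k Ebar) (hQs : ∀ s : B, s ∉ 𝔫 → Q.ord (ρ s) = 0) (hQt : Q.ord (ρ t) = 1)
    (res : Place L E → Place K F)
    (hres : ∀ P, P.toValuationSubring.comap ι = (res P).toValuationSubring)
    (hab : ∀ v : Place K F, ∃ P, res P = v)
    (r : Place L E → Place k Ebar) (Reg : Place L E → Prop)
    (hReg1 : ∀ P, Reg P → ∀ b : B, 0 ≤ P.ord (ι (b : F)))
    (hReg2 : ∀ P, (∀ b : B, ∃ c : O, (b : F) = algebraMap O F c ∨
      0 < P.ord (ι ((b : F) - algebraMap O F c))) → Reg P)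
    (hU2 : ∀ P, Reg P → ∀ b : B, 0 < P.ord (ι (b : F)) → ρ b = 0 ∨ 0 < (r P).ord (ρ b))
    (hU2n : ∀ P, ¬ Reg P → ∃ b : B, (r P).ord (ρ b) < 0)
    (ι' : F' →+* Ebar)
    (hι' : ∀ a : κ, ι' (algebraMap κ F' a) = algebraMap k Ebar (algebraMap κ k a))
    (hgen' : ∀ z : Ebar, ∃ (n : ℕ) (c : Fin n → k) (f : Fin n → F'),
      z = ∑ i, algebraMap k Ebar (c i) * ι' (f i))
    (ρ' : B →+* F') (hρρ' : ∀ b : B, ρ b = ι' (ρ' b))
    (hfrac' : ∀ e : F', ∃ a b : B, ρ' b ≠ 0 ∧ e * ρ' b = ρ' a)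
    (hρO : ∀ c : O, ∃ a : κ, ρ' ⟨algebraMap O F c, hOB c⟩ = algebraMap κ F' a)
    (a b : B)
    (ha : a ∉ Ideal.span {(⟨algebraMap O F π₀, hOB π₀⟩ : B)})
    (hb : b ∉ Ideal.span {(⟨algebraMap O F π₀, hOB π₀⟩ : B)})
    (Da Db : Divisor L E) (hDa : ∀ P, Da P = P.ord (ι (a : F)))
    (hDb : ∀ P, Db P = P.ord (ι (b : F)))
    (hrat : ∀ P, P ∈ Da.support ∨ P ∈ Db.support → Rational (res P))
    (he : ∀ P, P ∈ Da.support ∨ P ∈ Db.support → ∀ f : F, P.ord (ι f) = (res P).ord f)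
    (huniq : ∀ P, P ∈ Da.support ∨ P ∈ Db.support → ∀ P', res P' = res P → P' = P)
    (z : E) (hz : z * ι (b : F) = ι (a : F)) (D : Divisor L E) (hD : ∀ P, D P = P.ord z) :
    Finsupp.mapDomain r D Q = Q.ord (ρ a) - Q.ord (ρ b) :=
  cons_asm_quot π₀ hπ₀ B hOB hπp hfrac 𝔫 h𝔫 hπ𝔫 t ht𝔫 hSM ι ρ hρπ hρ0 Q hQs hQt res hres hab r
    a b ha hb Da Db hDa hDb hrat he huniq
    (hr1_of_u2 π₀ hπ₀ B hOB hπp 𝔫 h𝔫 hπ𝔫 t ht𝔫 hSM ι ρ hρπ hρ0 Q hQs hQt res hres r Reg hReg1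
      hU2 hU2n)
    (fun P hP hc => hr2_of_u2 (κ := κ) π₀ hπ₀ B hOB hπp 𝔫 h𝔫 hπ𝔫 t ht𝔫 hSM ι ρ hρπ hρ0 Q hQs
      hQt res hres r Reg hReg2 hU2 ι' hι' hgen' ρ' hρρ' hfrac' hρO P (hrat P hP) hc)
    z hz D hD

end R

end Fermat.Agent.S37x.Red.H11
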