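import Mathlib
import Fermat.Prelude.Def_ModularCurve_ReductionModL
import Fermat.Agent.S37x.Red.H7_ConsDefs
import Fermat.Agent.S37x.Red.H22_RedCoord
import Fermat.Agent.S37x.Red.H11_ConsR

/-!
# S37 / [RED-M] (b-asm) (X3-INST): the `r`-side hypotheses of `cons_u2` for `F_M` (helper11)

`L = ℚ̄`, `A` a valuation subring of `L` over `ℓ ∤ M`, `K ⊆ L` an intermediate field with
`O = A ∩ K` a discrete valuation ring, `x ∈ F_K` a coordinate, `B = chart O x`,
`ρ = h7rho : B → F̄_k` (helper7), `ι = iotaK`.  For a map `r` of places with the specialisation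
property `RSpec` of helper22 (both charts `x`, `x⁻¹`):

* `RegAt A M K x P` : `x` has a value in `A` at `P`;
* `regAt_ord_nonneg` (`hReg1`), `regAt_of_values` (`hReg2`), `regAt_u2` (`hU2`),
  `not_regAt_u2` (`hU2n`) : the four `r`-side hypotheses of `cons_u2`, verbatim;
* `u2_of_rSpec`, `u2_of_rSpec_inv` : all four at once from `RSpec`, for the chart of `x` and
  for the chart of `x⁻¹`.
-/

set_option autoImplicit false
set_option linter.unusedSectionVars false
set_option linter.unusedVariables false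
set_option linter.style.haveILetI false
set_option synthInstance.maxHeartbeats 400000
set_option maxHeartbeats 1000000

open ModularCurve AlgebraicCurve IntermediateField

noncomputable section

namespace Fermat.Agent.S37x.Red.H11

open Fermat.Agent.S18x.Dict.H20 Fermat.Agent.S18x.Dict.H23 Fermat.Agent.S18x.Dict.H22
open Fermat.Agent.S18x.Spec.H26 Fermat.Agent.S18x.IG
open Fermat.Agent.S37x.Red.H22 Fermat.Agent.S37x.Red.H7

local notation "Lbar" => AlgebraicClosure ℚ

section Inst

variable (A : ValuationSubring Lbar) {ℓ : ℕ} (hℓ : ℓ.Prime) (hA : A.LiesOverPrime ℓ)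
  (M : ℕ) [NeZero M] (hℓM : ¬ ℓ ∣ M) (K : IntermediateField ℚ Lbar)
  [IsDiscreteValuationRing (A.comap (algebraMap ↥K Lbar))]
  (x : ↥(modularFunctionFieldFullC ↥K M))
  (hxV : x ∈ gaussValM (A.comap (algebraMap ↥K Lbar)) M)

/-- The chart coordinate `x` has a value in `A` at `P`. -/
def RegAt (P : Place Lbar ↥(modularFunctionFieldBar M)) : Prop :=
  ∃ a : A, ValAt P (iotaK ↥K M x) (a : Lbar)

/-- **`hReg1`**: the chart is regular at a place where the coordinate has a value in `A`. -/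
theorem regAt_ord_nonneg (P : Place Lbar ↥(modularFunctionFieldBar M))
    (hP : RegAt A M K x P) (b : ↥(chart (A.comap (algebraMap ↥K Lbar)) x).toSubring) :
    0 ≤ P.ord (iotaK ↥K M (b : ↥(modularFunctionFieldFullC ↥K M))) := by
  have hint : IsIntegral (Algebra.adjoin A {iotaK ↥K M x})
      (iotaK ↥K M (b : ↥(modularFunctionFieldFullC ↥K M))) :=
    isIntegral_iotaK A M K x _ b.2
  obtain ⟨b', hb'⟩ := exists_valAt_of_isIntegral A P (residueTrivial_bar M P) (R₀ := A)
    {iotaK ↥K M x} (fun r => ⟨r, valAt_const P (r : Lbar)⟩)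
    (fun s hs => by
      rw [Set.mem_singleton_iff] at hs
      subst hs
      exact hP) hint
  exact (Fermat.Agent.S24.RH.ord_nonneg_iff P).mpr hb'.mem

/-- **`hReg2`**: a place at which every element of the chart has a value in `O` is regular. -/
theorem regAt_of_values (P : Place Lbar ↥(modularFunctionFieldBar M))
    (h : ∀ b : ↥(chart (A.comap (algebraMap ↥K Lbar)) x).toSubring,
      ∃ c : A.comap (algebraMap ↥K Lbar),
        (b : ↥(modularFunctionFieldFullC ↥K M)) =
            algebraMap (A.comap (algebraMap ↥K Lbar)) ↥(modularFunctionFieldFullC ↥K M) c ∨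
          0 < P.ord (iotaK ↥K M ((b : ↥(modularFunctionFieldFullC ↥K M)) -
            algebraMap (A.comap (algebraMap ↥K Lbar)) ↥(modularFunctionFieldFullC ↥K M) c))) :
    RegAt A M K x P := by
  obtain ⟨c, hc⟩ := h (chartX (A.comap (algebraMap ↥K Lbar)) x)
  refine ⟨⟨algebraMap ↥K Lbar (c : ↥K), c.2⟩, ?_⟩
  have hι : iotaK ↥K M (algebraMap (A.comap (algebraMap ↥K Lbar))
      ↥(modularFunctionFieldFullC ↥K M) c) =
      algebraMap Lbar ↥(modularFunctionFieldBar M) (algebraMap ↥K Lbar (c : ↥K)) := by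
    rw [iotaK_algebraMap_O]
    rfl
  rw [coe_chartX] at hc
  rcases hc with h1 | h1
  · left
    rw [h1, hι]
  · right
    rw [map_sub, hι] at h1
    exact h1

include hxV in
/-- the reduction of helper22 on the image of the chart is helper7's `ρ` -/
theorem redL_iotaK_eq_h7rho (b : ↥(chart (A.comap (algebraMap ↥K Lbar)) x).toSubring) :
    redL A M hℓ hA hℓM ⟨iotaK ↥K M (b : ↥(modularFunctionFieldFullC ↥K M)),
      iotaK_mem_gaussL A M K (h7_chart_le (A.comap (algebraMap ↥K Lbar)) M x hxV b.1 b.2)⟩ =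
      h7rho A hℓ hA M hℓM K x hxV b := by
  apply Subtype.ext
  rw [coe_redL, redLS_iotaK, coe_h7rho]
  rfl

/-- **`hU2`**: specialisation of the zeros of chart elements. -/
theorem regAt_u2
    (r : Place Lbar ↥(modularFunctionFieldBar M) →
      Place (IsLocalRing.ResidueField A)
        ↥(modularFunctionFieldFullC (IsLocalRing.ResidueField A) M))
    (xL : ↥(modularFunctionFieldBar M)) (hxL : iotaK ↥K M x = xL)
    (hspec : ∀ (P : Place Lbar ↥(modularFunctionFieldBar M)) (a : A),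
      ValAt P xL (a : Lbar) → ∀ (g : gaussL A M),
        IsIntegral (Algebra.adjoin A {xL}) (g : ↥(modularFunctionFieldBar M)) →
        ∀ b : A, ValAt P (g : ↥(modularFunctionFieldBar M)) (b : Lbar) →
          ValAt (r P) (redL A M hℓ hA hℓM g) (IsLocalRing.residue A b))
    (P : Place Lbar ↥(modularFunctionFieldBar M)) (hP : RegAt A M K x P)
    (b : ↥(chart (A.comap (algebraMap ↥K Lbar)) x).toSubring)
    (hb : 0 < P.ord (iotaK ↥K M (b : ↥(modularFunctionFieldFullC ↥K M)))) :
    h7rho A hℓ hA M hℓM K x hxV b = 0 ∨ 0 < (r P).ord (h7rho A hℓ hA M hℓM K x hxV b) := by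
  subst hxL
  obtain ⟨a, ha⟩ := hP
  have hint : IsIntegral (Algebra.adjoin A {iotaK ↥K M x})
      (iotaK ↥K M (b : ↥(modularFunctionFieldFullC ↥K M))) :=
    isIntegral_iotaK A M K x _ b.2
  have hval : ValAt P (iotaK ↥K M (b : ↥(modularFunctionFieldFullC ↥K M)))
      (((0 : A) : A) : Lbar) := by
    right
    have : (((0 : A) : A) : Lbar) = 0 := rfl
    rw [this, map_zero, sub_zero]
    exact hb
  have h1 := hspec P a ha ⟨iotaK ↥K M (b : ↥(modularFunctionFieldFullC ↥K M)),
      iotaK_mem_gaussL A M K (h7_chart_le (A.comap (algebraMap ↥K Lbar)) M x hxV b.1 b.2)⟩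
    hint 0 hval
  rw [redL_iotaK_eq_h7rho A hℓ hA M hℓM K x hxV b, map_zero] at h1
  rcases h1 with h2 | h2
  · left
    rw [h2, map_zero]
  · right
    rw [map_zero, sub_zero] at h2
    exact h2

/-- **`hU2n`**: a place at which the coordinate has no value in `A` is sent to a pole of the
reduced coordinate. -/
theorem not_regAt_u2 (hxV' : x⁻¹ ∈ gaussValM (A.comap (algebraMap ↥K Lbar)) M)
    (r : Place Lbar ↥(modularFunctionFieldBar M) →
      Place (IsLocalRing.ResidueField A)
        ↥(modularFunctionFieldFullC (IsLocalRing.ResidueField A) M))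
    (xL' : ↥(modularFunctionFieldBar M)) (hxL' : (iotaK ↥K M x)⁻¹ = xL')
    (hspec' : ∀ (P : Place Lbar ↥(modularFunctionFieldBar M)) (a : A),
      ValAt P xL' (a : Lbar) → ∀ (g : gaussL A M),
        IsIntegral (Algebra.adjoin A {xL'}) (g : ↥(modularFunctionFieldBar M)) →
        ∀ b : A, ValAt P (g : ↥(modularFunctionFieldBar M)) (b : Lbar) →
          ValAt (r P) (redL A M hℓ hA hℓM g) (IsLocalRing.residue A b))
    (P : Place Lbar ↥(modularFunctionFieldBar M)) (hP : ¬ RegAt A M K x P) :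
    ∃ b : ↥(chart (A.comap (algebraMap ↥K Lbar)) x).toSubring,
      (r P).ord (h7rho A hℓ hA M hℓM K x hxV b) < 0 := by
  subst hxL'
  refine ⟨chartX (A.comap (algebraMap ↥K Lbar)) x, ?_⟩
  obtain ⟨a', ha'⟩ :=
    (exists_valAt_or_inv A P (residueTrivial_bar M P) (iotaK ↥K M x)).resolve_left hP
  -- the value of `x⁻¹` is not a unit
  have hres : IsLocalRing.residue A a' = 0 := by
    by_contra hne
    have hu : IsUnit a' := by
      by_contra hnu
      exact hne ((IsLocalRing.residue_eq_zero_iff a').mpr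
        ((IsLocalRing.mem_maximalIdeal a').mpr hnu))
    obtain ⟨u, hu'⟩ := hu
    have ha0 : (a' : Lbar) ≠ 0 := by
      intro h0
      have : a' = 0 := Subtype.ext h0
      rw [this, map_zero] at hne
      exact hne rfl
    have h1 := ha'.inv ha0
    rw [inv_inv] at h1
    apply hP
    refine ⟨((u⁻¹ : Aˣ) : A), ?_⟩
    have : (((u⁻¹ : Aˣ) : A) : Lbar) = (a' : Lbar)⁻¹ := by
      have h2 : ((u⁻¹ : Aˣ) : A) * a' = 1 := by rw [← hu']; exact u.inv_mul
      have h3 := congrArg (Subtype.val) h2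
      exact eq_inv_of_mul_eq_one_left h3
    rw [this]
    exact h1
  have hx0 : x ≠ 0 := by
    rintro rfl
    apply hP
    refine ⟨0, ?_⟩
    left
    rw [map_zero]
    exact (map_zero _).symm
  -- the two elements of the Gauss ring
  set gx : gaussL A M := ⟨iotaK ↥K M x, iotaK_mem_gaussL A M K hxV⟩ with hgx
  set gx' : gaussL A M := ⟨(iotaK ↥K M x)⁻¹, by
    rw [← map_inv₀]
    exact iotaK_mem_gaussL A M K hxV'⟩ with hgx'
  have hmul : gx' * gx = 1 := by
    apply Subtype.ext
    show (iotaK ↥K M x)⁻¹ * iotaK ↥K M x = 1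
    exact inv_mul_cancel₀ (by simpa using hx0)
  have hint : IsIntegral (Algebra.adjoin A {(iotaK ↥K M x)⁻¹})
      (gx' : ↥(modularFunctionFieldBar M)) :=
    isIntegral_algebraMap (R := Algebra.adjoin A {(iotaK ↥K M x)⁻¹})
      (x := ⟨(iotaK ↥K M x)⁻¹, Algebra.subset_adjoin (Set.mem_singleton _)⟩)
  have h1 := hspec' P a' ha' gx' hint a' ha'
  rw [hres, valAt_def, map_zero, sub_zero] at h1
  have hred : redL A M hℓ hA hℓM gx' * redL A M hℓ hA hℓM gx = 1 := by
    rw [← map_mul, hmul, map_one]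
  have hne' : redL A M hℓ hA hℓM gx' ≠ 0 := left_ne_zero_of_mul_eq_one hred
  have hpos : 0 < (r P).ord (redL A M hℓ hA hℓM gx') := h1.resolve_left hne'
  have hinv : redL A M hℓ hA hℓM gx = (redL A M hℓ hA hℓM gx')⁻¹ :=
    eq_inv_of_mul_eq_one_right hred
  have hx_eq : h7rho A hℓ hA M hℓM K x hxV (chartX (A.comap (algebraMap ↥K Lbar)) x) =
      redL A M hℓ hA hℓM gx :=
    (redL_iotaK_eq_h7rho A hℓ hA M hℓM K x hxV (chartX (A.comap (algebraMap ↥K Lbar)) x)).symm
  rw [hx_eq, hinv, (r P).ord_inv]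
  omega

/-- `RSpec` is symmetric in the two charts. -/
theorem rSpec_inv {xL : ↥(modularFunctionFieldBar M)}
    {r : Place Lbar ↥(modularFunctionFieldBar M) →
      Place (IsLocalRing.ResidueField A)
        ↥(modularFunctionFieldFullC (IsLocalRing.ResidueField A) M)}
    (h : RSpec A M hℓ hA hℓM xL r) : RSpec A M hℓ hA hℓM xL⁻¹ r := by
  intro P
  refine ⟨(h P).2, ?_⟩
  rw [inv_inv]
  exact (h P).1

/-- **(X3-INST), chart of `x`**: the four `r`-side hypotheses of `cons_u2` / `cons_u2_quot`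
(`hReg1`, `hReg2`, `hU2`, `hU2n`, verbatim, with `Reg := RegAt A M K x`, `ρ := h7rho`,
`ι := iotaK`) from helper22's `RSpec`. -/
theorem u2_of_rSpec (hxV' : x⁻¹ ∈ gaussValM (A.comap (algebraMap ↥K Lbar)) M)
    {xL : ↥(modularFunctionFieldBar M)} (hxL : iotaK ↥K M x = xL)
    {r : Place Lbar ↥(modularFunctionFieldBar M) →
      Place (IsLocalRing.ResidueField A)
        ↥(modularFunctionFieldFullC (IsLocalRing.ResidueField A) M)}
    (h : RSpec A M hℓ hA hℓM xL r) :
    (∀ P, RegAt A M K x P → ∀ b : ↥(chart (A.comap (algebraMap ↥K Lbar)) x).toSubring,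
      0 ≤ P.ord (iotaK ↥K M (b : ↥(modularFunctionFieldFullC ↥K M)))) ∧
    (∀ P : Place Lbar ↥(modularFunctionFieldBar M),
      (∀ b : ↥(chart (A.comap (algebraMap ↥K Lbar)) x).toSubring,
        ∃ c : A.comap (algebraMap ↥K Lbar),
          (b : ↥(modularFunctionFieldFullC ↥K M)) =
              algebraMap (A.comap (algebraMap ↥K Lbar)) ↥(modularFunctionFieldFullC ↥K M) c ∨
            0 < P.ord (iotaK ↥K M ((b : ↥(modularFunctionFieldFullC ↥K M)) -
              algebraMap (A.comap (algebraMap ↥K Lbar)) ↥(modularFunctionFieldFullC ↥K M) c))) →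
        RegAt A M K x P) ∧
    (∀ P, RegAt A M K x P → ∀ b : ↥(chart (A.comap (algebraMap ↥K Lbar)) x).toSubring,
      0 < P.ord (iotaK ↥K M (b : ↥(modularFunctionFieldFullC ↥K M))) →
      h7rho A hℓ hA M hℓM K x hxV b = 0 ∨
        0 < (r P).ord (h7rho A hℓ hA M hℓM K x hxV b)) ∧
    (∀ P, ¬ RegAt A M K x P → ∃ b : ↥(chart (A.comap (algebraMap ↥K Lbar)) x).toSubring,
      (r P).ord (h7rho A hℓ hA M hℓM K x hxV b) < 0) :=
  ⟨fun P hP b => regAt_ord_nonneg A M K x P hP b,
    fun P hP => regAt_of_values A M K x P hP,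
    fun P hP b hb => regAt_u2 A hℓ hA M hℓM K x hxV r xL hxL (fun P' => (h P').1) P hP b hb,
    fun P hP => not_regAt_u2 A hℓ hA M hℓM K x hxV hxV' r xL⁻¹ (by rw [hxL])
      (fun P' => (h P').2) P hP⟩

include hxV in
/-- **(X3-INST), chart of `x⁻¹`**: the same for the chart at infinity. -/
theorem u2_of_rSpec_inv (hxV' : x⁻¹ ∈ gaussValM (A.comap (algebraMap ↥K Lbar)) M)
    {xL : ↥(modularFunctionFieldBar M)} (hxL : iotaK ↥K M x = xL)
    {r : Place Lbar ↥(modularFunctionFieldBar M) →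
      Place (IsLocalRing.ResidueField A)
        ↥(modularFunctionFieldFullC (IsLocalRing.ResidueField A) M)}
    (h : RSpec A M hℓ hA hℓM xL r) :
    (∀ P, RegAt A M K x⁻¹ P → ∀ b : ↥(chart (A.comap (algebraMap ↥K Lbar)) x⁻¹).toSubring,
      0 ≤ P.ord (iotaK ↥K M (b : ↥(modularFunctionFieldFullC ↥K M)))) ∧
    (∀ P : Place Lbar ↥(modularFunctionFieldBar M),
      (∀ b : ↥(chart (A.comap (algebraMap ↥K Lbar)) x⁻¹).toSubring,
        ∃ c : A.comap (algebraMap ↥K Lbar),
          (b : ↥(modularFunctionFieldFullC ↥K M)) =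
              algebraMap (A.comap (algebraMap ↥K Lbar)) ↥(modularFunctionFieldFullC ↥K M) c ∨
            0 < P.ord (iotaK ↥K M ((b : ↥(modularFunctionFieldFullC ↥K M)) -
              algebraMap (A.comap (algebraMap ↥K Lbar)) ↥(modularFunctionFieldFullC ↥K M) c))) →
        RegAt A M K x⁻¹ P) ∧
    (∀ P, RegAt A M K x⁻¹ P → ∀ b : ↥(chart (A.comap (algebraMap ↥K Lbar)) x⁻¹).toSubring,
      0 < P.ord (iotaK ↥K M (b : ↥(modularFunctionFieldFullC ↥K M))) →
      h7rho A hℓ hA M hℓM K x⁻¹ hxV' b = 0 ∨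
        0 < (r P).ord (h7rho A hℓ hA M hℓM K x⁻¹ hxV' b)) ∧
    (∀ P, ¬ RegAt A M K x⁻¹ P → ∃ b : ↥(chart (A.comap (algebraMap ↥K Lbar)) x⁻¹).toSubring,
      (r P).ord (h7rho A hℓ hA M hℓM K x⁻¹ hxV' b) < 0) :=
  u2_of_rSpec A hℓ hA M hℓM K x⁻¹ hxV' (by rw [inv_inv]; exact hxV)
    (by rw [map_inv₀, hxL]) (rSpec_inv A hℓ hA M hℓM h)

end Inst

end Fermat.Agent.S37x.Red.H11
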