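import Mathlib
import Fermat.Agent.S18x.Spec.H26_Charts

/-!
# S37 / [RED-M] (b-asm), (X4d): charts under a change of base (helper2)

`τ : F₁ →+* F₂` a ring homomorphism which maps the constants `O₁` of `F₁` into the constants `O₂`
of `F₂`.  Then `τ` maps the chart of `x` (the integral closure of `O₁[x]` in `F₁`) into the chart
of `τ x`.
-/

set_option autoImplicit false

open Polynomial

namespace Fermat.Agent.S37x.Red.H2

open Fermat.Agent.S18x.Spec.H26

variable {O₁ O₂ F₁ F₂ : Type*} [CommRing O₁] [CommRing O₂] [CommRing F₁] [CommRing F₂]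
  [Algebra O₁ F₁] [Algebra O₂ F₂]

/-- `τ` maps `O₁[x]` into `O₂[τ x]`. -/
theorem h2c_adjoin_map (τ : F₁ →+* F₂)
    (hO : ∀ c : O₁, ∃ c' : O₂, τ (algebraMap O₁ F₁ c) = algebraMap O₂ F₂ c')
    (x : F₁) (z : F₁) (hz : z ∈ Algebra.adjoin O₁ {x}) :
    τ z ∈ Algebra.adjoin O₂ {τ x} := by
  induction hz using Algebra.adjoin_induction with
  | mem g hg =>
    rw [Set.mem_singleton_iff] at hg
    rw [hg]
    exact Algebra.subset_adjoin (Set.mem_singleton _)
  | algebraMap c =>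
    obtain ⟨c', hc'⟩ := hO c
    rw [hc']
    exact Subalgebra.algebraMap_mem _ c'
  | add u v _ _ hu hv =>
    rw [map_add]
    exact Subalgebra.add_mem _ hu hv
  | mul u v _ _ hu hv =>
    rw [map_mul]
    exact Subalgebra.mul_mem _ hu hv

/-- **(X4d)** `τ` maps the chart of `x` into the chart of `τ x`. -/
theorem h2c_chart_map (τ : F₁ →+* F₂)
    (hO : ∀ c : O₁, ∃ c' : O₂, τ (algebraMap O₁ F₁ c) = algebraMap O₂ F₂ c')
    (x : F₁) (a : F₁) (ha : a ∈ chart O₁ x) : τ a ∈ chart O₂ (τ x) := by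
  rw [mem_chart, h26_isIntegral_iff] at ha ⊢
  obtain ⟨p, hp, hcoeff, hz⟩ := ha
  refine ⟨p.map τ, hp.map τ, fun i => ?_, ?_⟩
  · rw [coeff_map]
    exact h2c_adjoin_map τ hO x _ (hcoeff i)
  · rw [eval_map, eval₂_at_apply, hz, map_zero]

end Fermat.Agent.S37x.Red.H2
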