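import Mathlib
import Fermat.Prelude.Def_ModularCurve_ReductionModL
import Fermat.Agent.S37x.Red.H11_ConsAsm
import Fermat.Agent.S18x.Dict.H20_GaussModular
import Fermat.Agent.S18x.Dict.H22_Ext
import Fermat.Agent.S18x.Dict.H23_Dvr
import Fermat.Agent.S18x.IG.Defs

/-!
# S37 / [RED-M] (b-asm), (X4c): the inputs of the conservation law (helper2)

`L = ℚ̄`, `A` a valuation subring of `L` over `ℓ`, `k = A / 𝔪`, `K` a number field inside `L`,
`O = A ∩ K`, `F_K = modularFunctionFieldFullC K M`, `x ∈ F_K` a coordinate, `B = chart O x`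
(the integral closure of `O[x]` in `F_K`), `V = gaussValM O M` the Gauss valuation ring.

* `H2Chart A M K x` : the facts on the chart needed to write a unit of `V` in lowest terms
  (`x ∈ V`, `Frac B = F_K`, `B` saturated in `V`);
* `H2ConsAt A M r K x Q S` : the inputs of helper11's `cons_asm_quot` at the number field `K`, on
  the chart of `x`, for the place `Q` of the special fibre and the finite set `S` of places of the
  generic fibre: exactly the hypotheses of `cons_asm_quot` which do not mention the function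
  `a / b` (with `S` for the supports), plus the formula for `ρ` on Laurent series.
-/

set_option autoImplicit false
set_option linter.unusedSectionVars false
set_option linter.unusedVariables false
set_option linter.style.haveILetI false
set_option synthInstance.maxHeartbeats 400000
set_option maxHeartbeats 1000000

open HahnSeries AlgebraicCurve IntermediateField ModularCurve

noncomputable section

namespace Fermat.Agent.S37x.Red.H2

open Fermat.Agent.S18x.Dict.H20 Fermat.Agent.S18x.Dict.H22 Fermat.Agent.S18x.Dict.H23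
open Fermat.Agent.S18x.Spec.H26 Fermat.Agent.S18x.IG

local notation "Lbar" => AlgebraicClosure ℚ

/-- **The chart facts for lowest terms** at `(K, x)`: `x` lies in the Gauss valuation ring `V`,
`Frac (chart O x) = F_K`, and the chart is saturated in `V` with respect to a uniformiser. -/
def H2Chart (A : ValuationSubring Lbar) (M : ℕ) [NeZero M] (K : IntermediateField ℚ Lbar)
    [IsDiscreteValuationRing (A.comap (algebraMap ↥K Lbar))]
    (x : ↥(modularFunctionFieldFullC ↥K M)) : Prop :=
  x ∈ gaussValM (A.comap (algebraMap ↥K Lbar)) M ∧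
  (∀ z : ↥(modularFunctionFieldFullC ↥K M),
    ∃ a b : ↥(chart (A.comap (algebraMap ↥K Lbar)) x).toSubring, b ≠ 0 ∧
      z * (b : ↥(modularFunctionFieldFullC ↥K M)) = (a : ↥(modularFunctionFieldFullC ↥K M))) ∧
  ∃ π₀ : A.comap (algebraMap ↥K Lbar), Irreducible π₀ ∧
    ∀ v ∈ gaussValM (A.comap (algebraMap ↥K Lbar)) M,
      algebraMap (A.comap (algebraMap ↥K Lbar)) ↥(modularFunctionFieldFullC ↥K M) π₀ * v ∈
        chart (A.comap (algebraMap ↥K Lbar)) x → v ∈ chart (A.comap (algebraMap ↥K Lbar)) x

/-- **The inputs of `cons_asm_quot` at the number field `K` on the chart of `x`**, for the place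
`Q` of the special fibre and the finite set `S` of places of the generic fibre. -/
def H2ConsAt (A : ValuationSubring Lbar) (M : ℕ) [NeZero M]
    (r : Place Lbar ↥(modularFunctionFieldBar M) →
      Place (IsLocalRing.ResidueField A)
        ↥(modularFunctionFieldFullC (IsLocalRing.ResidueField A) M))
    (K : IntermediateField ℚ Lbar)
    [IsDiscreteValuationRing (A.comap (algebraMap ↥K Lbar))]
    (x : ↥(modularFunctionFieldFullC ↥K M))
    (Q : Place (IsLocalRing.ResidueField A)
      ↥(modularFunctionFieldFullC (IsLocalRing.ResidueField A) M))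
    (S : Finset (Place Lbar ↥(modularFunctionFieldBar M))) : Prop :=
  ∃ π₀ : A.comap (algebraMap ↥K Lbar), Irreducible π₀ ∧
    IsNoetherianRing ↥(chart (A.comap (algebraMap ↥K Lbar)) x).toSubring ∧
    (Ideal.span {chartPi (A.comap (algebraMap ↥K Lbar)) x π₀}).IsPrime ∧
    (∀ z : ↥(modularFunctionFieldFullC ↥K M),
      ∃ a b : ↥(chart (A.comap (algebraMap ↥K Lbar)) x).toSubring, b ≠ 0 ∧
        z * (b : ↥(modularFunctionFieldFullC ↥K M)) = (a : ↥(modularFunctionFieldFullC ↥K M))) ∧
    ∃ (𝔫 : Ideal ↥(chart (A.comap (algebraMap ↥K Lbar)) x).toSubring)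
      (t : ↥(chart (A.comap (algebraMap ↥K Lbar)) x).toSubring)
      (ρ : ↥(chart (A.comap (algebraMap ↥K Lbar)) x).toSubring →+*
        ↥(modularFunctionFieldFullC (IsLocalRing.ResidueField A) M))
      (res : Place Lbar ↥(modularFunctionFieldBar M) →
        Place ↥K ↥(modularFunctionFieldFullC ↥K M)),
      𝔫.IsMaximal ∧ chartPi (A.comap (algebraMap ↥K Lbar)) x π₀ ∈ 𝔫 ∧ t ∈ 𝔫 ∧
      (∀ y ∈ 𝔫, ∃ s : ↥(chart (A.comap (algebraMap ↥K Lbar)) x).toSubring, s ∉ 𝔫 ∧
        ∃ u v : ↥(chart (A.comap (algebraMap ↥K Lbar)) x).toSubring,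
          s * y = chartPi (A.comap (algebraMap ↥K Lbar)) x π₀ * u + t * v) ∧
      ρ (chartPi (A.comap (algebraMap ↥K Lbar)) x π₀) = 0 ∧
      (∀ b : ↥(chart (A.comap (algebraMap ↥K Lbar)) x).toSubring,
        b ∉ Ideal.span {chartPi (A.comap (algebraMap ↥K Lbar)) x π₀} → ρ b ≠ 0) ∧
      (∀ (b : ↥(chart (A.comap (algebraMap ↥K Lbar)) x).toSubring)
        (hb : (b : ↥(modularFunctionFieldFullC ↥K M)) ∈ gaussValM (A.comap (algebraMap ↥K Lbar)) M),
        ((ρ b : ↥(modularFunctionFieldFullC (IsLocalRing.ResidueField A) M)) :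
            LaurentSeries (IsLocalRing.ResidueField A)) =
          coeffMap (h23_resEmb A) (gaussRedM (A.comap (algebraMap ↥K Lbar)) M ⟨b, hb⟩)) ∧
      (∀ s : ↥(chart (A.comap (algebraMap ↥K Lbar)) x).toSubring, s ∉ 𝔫 → Q.ord (ρ s) = 0) ∧
      Q.ord (ρ t) = 1 ∧
      (∀ P, P.toValuationSubring.comap (iotaK ↥K M) = (res P).toValuationSubring) ∧
      (∀ v : Place ↥K ↥(modularFunctionFieldFullC ↥K M), ∃ P, res P = v) ∧
      (∀ P ∈ S, Fermat.Agent.S37x.Red.H11.Rational (res P)) ∧
      (∀ P ∈ S, ∀ f : ↥(modularFunctionFieldFullC ↥K M), P.ord (iotaK ↥K M f) = (res P).ord f) ∧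
      (∀ P ∈ S, ∀ P', res P' = res P → P' = P) ∧
      (∀ P, r P = Q → Fermat.Agent.S37x.Red.H11.Centred
        (chart (A.comap (algebraMap ↥K Lbar)) x).toSubring 𝔫 (res P)) ∧
      (∀ P ∈ S, Fermat.Agent.S37x.Red.H11.Centred
        (chart (A.comap (algebraMap ↥K Lbar)) x).toSubring 𝔫 (res P) → r P = Q)

/-- **The inputs of the conservation law** for `r` at level `M`, for a coordinate family `x`:
the chart facts on both charts over every number field, and for every place `Q` of the special
fibre and every finite set `S` of places of the generic fibre the inputs of `cons_asm_quot` on one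
of the two charts over every large number field. -/
def H2ConsInputs (A : ValuationSubring Lbar) (M : ℕ) [NeZero M]
    (r : Place Lbar ↥(modularFunctionFieldBar M) →
      Place (IsLocalRing.ResidueField A)
        ↥(modularFunctionFieldFullC (IsLocalRing.ResidueField A) M))
    (x : ∀ K : IntermediateField ℚ Lbar, ↥(modularFunctionFieldFullC ↥K M)) : Prop :=
  (∀ K K' : IntermediateField ℚ Lbar, iotaK ↥K M (x K) = iotaK ↥K' M (x K')) ∧
  (∀ K : IntermediateField ℚ Lbar, FiniteDimensional ℚ ↥K →
    ∀ _ : IsDiscreteValuationRing (A.comap (algebraMap ↥K Lbar)),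
      H2Chart A M K (x K) ∧ H2Chart A M K (x K)⁻¹) ∧
  ∀ (Q : Place (IsLocalRing.ResidueField A)
      ↥(modularFunctionFieldFullC (IsLocalRing.ResidueField A) M))
    (S : Finset (Place Lbar ↥(modularFunctionFieldBar M))),
    ∃ K₀ : IntermediateField ℚ Lbar, FiniteDimensional ℚ ↥K₀ ∧
      ∀ K : IntermediateField ℚ Lbar, K₀ ≤ K → FiniteDimensional ℚ ↥K →
        ∀ _ : IsDiscreteValuationRing (A.comap (algebraMap ↥K Lbar)),
          H2ConsAt A M r K (x K) Q S ∨ H2ConsAt A M r K (x K)⁻¹ Q S

end Fermat.Agent.S37x.Red.H2
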