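import Mathlib

/-!
# S37 / [RED-M] (b-asm), (X4a): lowest terms in a chart (helper2)

`F` a field, `V ⊆ F` a discrete valuation ring with uniformiser `π` (in element form), `B ⊆ V` a
subring with fraction field `F`, saturated in `V` (`v ∈ V`, `π v ∈ B → v ∈ B`).  Then every unit
`y` of `V` is a quotient `a / b` with `a, b ∈ B` units of `V`; in particular `a, b ∉ π B`.
-/

set_option autoImplicit false

noncomputable section

namespace Fermat.Agent.S37x.Red.H2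

variable {F : Type*} [Field F]

/-- iterated saturation. -/
theorem h2c_sat_pow (B V : Subring F) (π : F) (hπB : π ∈ B) (hBV : B ≤ V)
    (hsat : ∀ v ∈ V, π * v ∈ B → v ∈ B) (n : ℕ) (v : F) (hv : v ∈ V)
    (h : π ^ n * v ∈ B) : v ∈ B := by
  induction n with
  | zero => simpa using h
  | succ n ih =>
    apply ih
    apply hsat _ (V.mul_mem (V.pow_mem (hBV hπB) n) hv)
    rw [← mul_assoc, ← pow_succ']
    exact h

/-- a unit of `V` is not divisible by `π` in `B`. -/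
theorem h2c_not_mem_span_of_unit (B V : Subring F) (hBV : B ≤ V) (π : F) (hπB : π ∈ B)
    (hπV : ∀ v ∈ V, π * v ≠ 1) (a : B) (hai : (a : F)⁻¹ ∈ V) (ha0 : (a : F) ≠ 0) :
    a ∉ Ideal.span {(⟨π, hπB⟩ : B)} := by
  intro h
  rw [Ideal.mem_span_singleton'] at h
  obtain ⟨c, hc⟩ := h
  have hc' : (c : F) * π = (a : F) := congrArg Subtype.val hc
  apply hπV ((c : F) * (a : F)⁻¹) (V.mul_mem (hBV c.2) hai)
  rw [← mul_assoc, mul_comm π, hc', mul_inv_cancel₀ ha0]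

/-- **(X4a) lowest terms.** -/
theorem h2c_lowest_terms (B V : Subring F) (hBV : B ≤ V) (π : F) (hπB : π ∈ B)
    (hπ0 : π ≠ 0) (hπV : ∀ v ∈ V, π * v ≠ 1)
    (hfrac : ∀ x : F, ∃ a b : B, b ≠ 0 ∧ x * (b : F) = (a : F))
    (hnorm : ∀ x : F, x ≠ 0 → ∃ (e : ℤ) (u : F), u ∈ V ∧ u⁻¹ ∈ V ∧ x = π ^ e * u)
    (hsat : ∀ v ∈ V, π * v ∈ B → v ∈ B)
    (y : F) (hy : y ∈ V) (hyi : y⁻¹ ∈ V) (hy0 : y ≠ 0) :
    ∃ a b : B, (a : F) ≠ 0 ∧ (b : F) ≠ 0 ∧ (a : F)⁻¹ ∈ V ∧ (b : F)⁻¹ ∈ V ∧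
      a ∉ Ideal.span {(⟨π, hπB⟩ : B)} ∧ b ∉ Ideal.span {(⟨π, hπB⟩ : B)} ∧
      y * (b : F) = (a : F) := by
  obtain ⟨a₀, b₀, hb₀, hab⟩ := hfrac y
  have hb₀F : (b₀ : F) ≠ 0 := fun h => hb₀ (Subtype.ext h)
  obtain ⟨e, u, hu, hui, hbe⟩ := hnorm (b₀ : F) hb₀F
  have hu0 : u ≠ 0 := by
    rintro rfl
    rw [mul_zero] at hbe
    exact hb₀F hbe
  -- `e ≥ 0`
  have he : 0 ≤ e := by
    by_contra hneg
    rw [not_le] at hneg
    obtain ⟨n, hn⟩ : ∃ n : ℕ, e = -((n : ℤ) + 1) := ⟨(-e - 1).toNat, by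
      rw [Int.toNat_of_nonneg (by omega)]; ring⟩
    apply hπV ((π ^ n * (b₀ : F)) * u⁻¹)
      (V.mul_mem (V.mul_mem (V.pow_mem (hBV hπB) n) (hBV b₀.2)) hui)
    rw [hbe, hn, zpow_neg, zpow_add_one₀ hπ0, zpow_natCast]
    field_simp
  obtain ⟨n, rfl⟩ : ∃ n : ℕ, e = (n : ℤ) := ⟨e.toNat, by rw [Int.toNat_of_nonneg he]⟩
  rw [zpow_natCast] at hbe
  have huB : u ∈ B := h2c_sat_pow B V π hπB hBV hsat n u hu (by rw [← hbe]; exact b₀.2)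
  have hyu : y * u ∈ V := V.mul_mem hy hu
  have hyuB : y * u ∈ B := by
    apply h2c_sat_pow B V π hπB hBV hsat n (y * u) hyu
    have : π ^ n * (y * u) = (a₀ : F) := by rw [← hab, hbe]; ring
    rw [this]
    exact a₀.2
  have hyu0 : y * u ≠ 0 := mul_ne_zero hy0 hu0
  have hyui : (y * u)⁻¹ ∈ V := by
    rw [mul_inv]
    exact V.mul_mem hyi hui
  exact ⟨⟨y * u, hyuB⟩, ⟨u, huB⟩, hyu0, hu0, hyui, hui,
    h2c_not_mem_span_of_unit B V hBV π hπB hπV ⟨y * u, hyuB⟩ hyui hyu0,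
    h2c_not_mem_span_of_unit B V hBV π hπB hπV ⟨u, huB⟩ hui hu0, rfl⟩

end Fermat.Agent.S37x.Red.H2
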