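import Mathlib
import Fermat.Agent.S37x.Red.H2_ConsDefs
import Fermat.Agent.S37x.Red.H2_Lowest
import Fermat.Agent.S37x.Red.H2_ChartMap
import Fermat.Agent.S18x.Dict.H22_GaussDesc
import Fermat.Agent.S18x.Dict.H7_KumInst
import Fermat.Agent.S18x.Desc.H19_Bridge
import Fermat.Agent.S18x.IG.H10_VertInstM

/-!
# S37 / [RED-M] (b-asm), (X4a-inst) + (X4d): lowest terms on a chart, change of number field
(helper2)

* `h2Tau h M : F_{K₁} →+* F_K` for number fields `K₁ ≤ K` inside `ℚ̄`, with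
  `iotaK_h2Tau : ι_K (τ f) = ι_{K₁} f`;
* `h2_mem_gaussValM_iff` : `f ∈ V_K ↔ ι_K f ∈ gaussRing A`;
* `h2_tau_mem_chart` : `τ` maps the chart of `x₁` over `O₁` into the chart of `τ x₁` over `O_K`;
* `h2_lowest_chart` : a unit of the Gauss valuation ring is a quotient of two elements of the
  chart which are units of the Gauss valuation ring.
-/

set_option autoImplicit false
set_option linter.unusedSectionVars false
set_option linter.unusedVariables false
set_option linter.style.haveILetI false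
set_option synthInstance.maxHeartbeats 400000
set_option maxHeartbeats 1000000

open HahnSeries AlgebraicCurve IntermediateField ModularCurve

noncomputable section

namespace Fermat.Agent.S37x.Red.H2

open Fermat.Agent.S18x.Dict.H20 Fermat.Agent.S18x.Dict.H22 Fermat.Agent.S18x.Dict.H23
open Fermat.Agent.S18x.Spec.H26 Fermat.Agent.S18x.IG Fermat.Agent.S18x.Desc.H19

local notation "Lbar" => AlgebraicClosure ℚ

section Tau

variable {K₁ K : IntermediateField ℚ Lbar} (h : K₁ ≤ K) (M : ℕ) [NeZero M]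

/-- The change of number field `F_{K₁} → F_K`, `K₁ ≤ K`. -/
def h2Tau : ↥(modularFunctionFieldFullC ↥K₁ M) →+* ↥(modularFunctionFieldFullC ↥K M) :=
  ((coeffMap (h19_incl h)).comp
      (modularFunctionFieldFullC ↥K₁ M).toSubfield.subtype).codRestrict
    (modularFunctionFieldFullC ↥K M).toSubfield
    (fun x => h19_coeffMap_mem_full (h19_incl h) M x.2)

theorem coe_h2Tau (f : ↥(modularFunctionFieldFullC ↥K₁ M)) :
    ((h2Tau h M f : ↥(modularFunctionFieldFullC ↥K M)) : LaurentSeries ↥K) =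
      coeffMap (h19_incl h) (f : LaurentSeries ↥K₁) := rfl

theorem iotaK_h2Tau (f : ↥(modularFunctionFieldFullC ↥K₁ M)) :
    iotaK ↥K M (h2Tau h M f) = iotaK ↥K₁ M f := by
  apply Subtype.ext
  rw [coe_iotaK, coe_iotaK, coe_h2Tau, coeffMap_coeffMap]
  exact coeffMap_congr (RingHom.ext fun c => rfl) _

theorem iotaK_injective (K : IntermediateField ℚ Lbar) :
    Function.Injective (iotaK ↥K M) := (iotaK ↥K M).injective

/-- `τ` is determined by `ι`. -/
theorem h2Tau_eq_of_iotaK (f : ↥(modularFunctionFieldFullC ↥K₁ M))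
    (g : ↥(modularFunctionFieldFullC ↥K M)) (hfg : iotaK ↥K M g = iotaK ↥K₁ M f) :
    h2Tau h M f = g := by
  apply (iotaK ↥K M).injective
  rw [iotaK_h2Tau, hfg]

end Tau

section Gauss

variable (A : ValuationSubring Lbar) (M : ℕ) [NeZero M] (K : IntermediateField ℚ Lbar)
  [IsDiscreteValuationRing (A.comap (algebraMap ↥K Lbar))]

/-- membership in the Gauss valuation ring is tested in `ℚ̄((q))`. -/
theorem h2_mem_gaussValM_iff (f : ↥(modularFunctionFieldFullC ↥K M)) :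
    f ∈ gaussValM (A.comap (algebraMap ↥K Lbar)) M ↔
      ((iotaK ↥K M f : ↥(modularFunctionFieldBar M)) : LaurentSeries Lbar) ∈ gaussRing A := by
  rw [mem_gaussValM_iff]
  exact (mem_gaussRing_iotaK_iff A M K f).symm

/-- the reduction of `ι f` -/
theorem h2_gaussRed_iotaK (f : ↥(modularFunctionFieldFullC ↥K M))
    (hf : f ∈ gaussValM (A.comap (algebraMap ↥K Lbar)) M)
    (hf' : ((iotaK ↥K M f : ↥(modularFunctionFieldBar M)) : LaurentSeries Lbar) ∈ gaussRing A) :
    gaussRed A ⟨((iotaK ↥K M f : ↥(modularFunctionFieldBar M)) : LaurentSeries Lbar), hf'⟩ =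
      coeffMap (h23_resEmb A) (gaussRedM (A.comap (algebraMap ↥K Lbar)) M ⟨f, hf⟩) :=
  gaussRed_iotaK A M K ((mem_gaussValM_iff _ M).mp hf)

/-- units of the Gauss valuation ring, tested in `ℚ̄((q))` -/
theorem h2_inv_mem_gaussValM_iff (f : ↥(modularFunctionFieldFullC ↥K M)) :
    f⁻¹ ∈ gaussValM (A.comap (algebraMap ↥K Lbar)) M ↔
      ((iotaK ↥K M f : ↥(modularFunctionFieldBar M)) : LaurentSeries Lbar)⁻¹ ∈ gaussRing A := by
  rw [h2_mem_gaussValM_iff, map_inv₀]
  rfl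

end Gauss

section TauChart

variable (A : ValuationSubring Lbar) (M : ℕ) [NeZero M] {K₁ K : IntermediateField ℚ Lbar}
  (h : K₁ ≤ K)

/-- `τ` maps the constants `O₁` into `O_K`. -/
theorem h2_tau_const (c : A.comap (algebraMap ↥K₁ Lbar)) :
    ∃ c' : A.comap (algebraMap ↥K Lbar),
      h2Tau h M (algebraMap (A.comap (algebraMap ↥K₁ Lbar)) ↥(modularFunctionFieldFullC ↥K₁ M) c)
        = algebraMap (A.comap (algebraMap ↥K Lbar)) ↥(modularFunctionFieldFullC ↥K M) c' := by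
  refine ⟨⟨h19_incl h (c : ↥K₁), c.2⟩, ?_⟩
  apply Subtype.ext
  rw [coe_h2Tau]
  show coeffMap (h19_incl h) (algebraMap ↥K₁ (LaurentSeries ↥K₁) (c : ↥K₁)) =
    algebraMap ↥K (LaurentSeries ↥K) (h19_incl h (c : ↥K₁))
  exact h19_coeffMap_algebraMap (h19_incl h) _

/-- **(X4d)** `τ` maps the chart of `x₁` into the chart of `τ x₁`. -/
theorem h2_tau_mem_chart (x₁ a : ↥(modularFunctionFieldFullC ↥K₁ M))
    (ha : a ∈ chart (A.comap (algebraMap ↥K₁ Lbar)) x₁) :
    h2Tau h M a ∈ chart (A.comap (algebraMap ↥K Lbar)) (h2Tau h M x₁) :=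
  h2c_chart_map (h2Tau h M) (h2_tau_const A M h) x₁ a ha

variable [IsDiscreteValuationRing (A.comap (algebraMap ↥K₁ Lbar))]
  [IsDiscreteValuationRing (A.comap (algebraMap ↥K Lbar))]

/-- `τ` maps the Gauss valuation ring into the Gauss valuation ring. -/
theorem h2_tau_mem_gaussValM (f : ↥(modularFunctionFieldFullC ↥K₁ M))
    (hf : f ∈ gaussValM (A.comap (algebraMap ↥K₁ Lbar)) M) :
    h2Tau h M f ∈ gaussValM (A.comap (algebraMap ↥K Lbar)) M := by
  rw [h2_mem_gaussValM_iff, iotaK_h2Tau, ← h2_mem_gaussValM_iff]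
  exact hf

theorem h2_tau_inv_mem_gaussValM (f : ↥(modularFunctionFieldFullC ↥K₁ M))
    (hf : f⁻¹ ∈ gaussValM (A.comap (algebraMap ↥K₁ Lbar)) M) :
    (h2Tau h M f)⁻¹ ∈ gaussValM (A.comap (algebraMap ↥K Lbar)) M := by
  rw [← map_inv₀]
  exact h2_tau_mem_gaussValM A M h _ hf

end TauChart

section Lowest

variable (A : ValuationSubring Lbar) (M : ℕ) [NeZero M] (K : IntermediateField ℚ Lbar)
  [IsDiscreteValuationRing (A.comap (algebraMap ↥K Lbar))]

/-- the chart of a coordinate in the Gauss valuation ring lies in the Gauss valuation ring -/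
theorem h2_chart_le_gaussValM (x : ↥(modularFunctionFieldFullC ↥K M))
    (hxV : x ∈ gaussValM (A.comap (algebraMap ↥K Lbar)) M)
    (b : ↥(modularFunctionFieldFullC ↥K M))
    (hb : b ∈ chart (A.comap (algebraMap ↥K Lbar)) x) :
    b ∈ gaussValM (A.comap (algebraMap ↥K Lbar)) M :=
  Fermat.Agent.S18x.IG.H10.h10_chart_le_gaussVal (A.comap (algebraMap ↥K Lbar)) (inclM M)
    (inclM_mem_fracLam _ M) (Fermat.Agent.S18x.IG.H10.h10_hO_full _ M) x hxV b hb

/-- **(X4a-inst)** lowest terms on the chart of `x`: a unit `y` of the Gauss valuation ring is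
`a / b` with `a, b` in the chart, units of the Gauss valuation ring. -/
theorem h2_lowest_chart (x : ↥(modularFunctionFieldFullC ↥K M)) (hc : H2Chart A M K x)
    (y : ↥(modularFunctionFieldFullC ↥K M))
    (hy : y ∈ gaussValM (A.comap (algebraMap ↥K Lbar)) M)
    (hyi : y⁻¹ ∈ gaussValM (A.comap (algebraMap ↥K Lbar)) M) (hy0 : y ≠ 0) :
    ∃ a b : ↥(modularFunctionFieldFullC ↥K M),
      a ∈ chart (A.comap (algebraMap ↥K Lbar)) x ∧ b ∈ chart (A.comap (algebraMap ↥K Lbar)) x ∧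
      a ≠ 0 ∧ b ≠ 0 ∧
      a ∈ gaussValM (A.comap (algebraMap ↥K Lbar)) M ∧
      b ∈ gaussValM (A.comap (algebraMap ↥K Lbar)) M ∧
      a⁻¹ ∈ gaussValM (A.comap (algebraMap ↥K Lbar)) M ∧
      b⁻¹ ∈ gaussValM (A.comap (algebraMap ↥K Lbar)) M ∧ y * b = a := by
  obtain ⟨hxV, hfrac, π₀, hπ₀, hsat⟩ := hc
  have hBV : (chart (A.comap (algebraMap ↥K Lbar)) x).toSubring ≤
      (gaussValM (A.comap (algebraMap ↥K Lbar)) M).toSubring :=
    fun b hb => h2_chart_le_gaussValM A M K x hxV b hb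
  have hπB : algebraMap (A.comap (algebraMap ↥K Lbar)) ↥(modularFunctionFieldFullC ↥K M) π₀ ∈
      (chart (A.comap (algebraMap ↥K Lbar)) x).toSubring :=
    (chart (A.comap (algebraMap ↥K Lbar)) x).algebraMap_mem π₀
  have hπ0 : algebraMap (A.comap (algebraMap ↥K Lbar)) ↥(modularFunctionFieldFullC ↥K M) π₀ ≠ 0 := by
    intro h0
    have := Fermat.Agent.S18x.Dict.H7.h7_hπV (A.comap (algebraMap ↥K Lbar)) M π₀ hπ₀ 0
      (gaussValM (A.comap (algebraMap ↥K Lbar)) M).zero_mem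
    have h1 := Fermat.Agent.S18x.Dict.H7.h7_hπV (A.comap (algebraMap ↥K Lbar)) M π₀ hπ₀
      (algebraMap (A.comap (algebraMap ↥K Lbar)) ↥(modularFunctionFieldFullC ↥K M) π₀)⁻¹
    rw [h0, inv_zero] at h1
    exact hπ₀.ne_zero (by
      have h2 : algebraMap ↥K ↥(modularFunctionFieldFullC ↥K M) ((π₀ : ↥K)) = 0 := h0
      have h3 : ((π₀ : A.comap (algebraMap ↥K Lbar)) : ↥K) = 0 :=
        (map_eq_zero (algebraMap ↥K ↥(modularFunctionFieldFullC ↥K M))).mp h2
      exact Subtype.ext h3)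
  have hnorm : ∀ z : ↥(modularFunctionFieldFullC ↥K M), z ≠ 0 → ∃ (e : ℤ)
      (u : ↥(modularFunctionFieldFullC ↥K M)),
      u ∈ (gaussValM (A.comap (algebraMap ↥K Lbar)) M).toSubring ∧
      u⁻¹ ∈ (gaussValM (A.comap (algebraMap ↥K Lbar)) M).toSubring ∧
      z = algebraMap (A.comap (algebraMap ↥K Lbar)) ↥(modularFunctionFieldFullC ↥K M) π₀ ^ e * u := by
    intro z hz
    obtain ⟨e, u, hzu, hu⟩ := gaussValM_exists_zpow_mul (A.comap (algebraMap ↥K Lbar)) M π₀ hπ₀ hz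
    refine ⟨e, u, u.2, ?_, hzu⟩
    obtain ⟨w, hw⟩ := (isUnit_iff_gaussRedM_ne_zero (A.comap (algebraMap ↥K Lbar)) M).mpr hu
    have h1 : (w : gaussValM (A.comap (algebraMap ↥K Lbar)) M) *
        ((w⁻¹ : (gaussValM (A.comap (algebraMap ↥K Lbar)) M)ˣ) :
          gaussValM (A.comap (algebraMap ↥K Lbar)) M) = 1 := Units.mul_inv w
    rw [hw] at h1
    have h2 : (u : ↥(modularFunctionFieldFullC ↥K M)) *
        (((w⁻¹ : (gaussValM (A.comap (algebraMap ↥K Lbar)) M)ˣ) :
          gaussValM (A.comap (algebraMap ↥K Lbar)) M) : ↥(modularFunctionFieldFullC ↥K M)) = 1 :=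
      congrArg Subtype.val h1
    rw [← eq_inv_of_mul_eq_one_right h2]
    exact (((w⁻¹ : (gaussValM (A.comap (algebraMap ↥K Lbar)) M)ˣ) :
      gaussValM (A.comap (algebraMap ↥K Lbar)) M)).2
  obtain ⟨a, b, ha0, hb0, hai, hbi, -, -, hyab⟩ :=
    h2c_lowest_terms (chart (A.comap (algebraMap ↥K Lbar)) x).toSubring
      (gaussValM (A.comap (algebraMap ↥K Lbar)) M).toSubring hBV
      (algebraMap (A.comap (algebraMap ↥K Lbar)) ↥(modularFunctionFieldFullC ↥K M) π₀) hπB hπ0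
      (fun v hv => Fermat.Agent.S18x.Dict.H7.h7_hπV (A.comap (algebraMap ↥K Lbar)) M π₀ hπ₀ v hv)
      hfrac hnorm hsat y hy hyi hy0
  exact ⟨a, b, a.2, b.2, ha0, hb0, hBV a.2, hBV b.2, hai, hbi, hyab⟩

end Lowest

end Fermat.Agent.S37x.Red.H2
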