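import Mathlib
import Fermat.Agent.S37x.Red.H2_ConsChart
import Fermat.Agent.S37x.Red.H11_ConsAsm
import Fermat.Agent.S37x.FFk.H19_RedDeg
import Fermat.Agent.S18x.Desc.H19_BridgeFin
import Fermat.Agent.S18x.E.H12_Div

/-!
# S37 / [RED-M] (b-asm), (X4c): the conservation law from its inputs (helper2)

* `h2_cons_case` : the conservation law `(r_* div y)(Q) = ord_Q (red y)` for one integral `y`,
  from a lowest-terms representation `y = a / b` on a chart over a number field `K₁` and the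
  inputs `H2ConsAt` of helper11's `cons_asm_quot` over a larger number field `K`;
* `h2cons_cons` : the conservation clause of `IsPlaceReductionModL A M r` from `H2ConsInputs`;
* `h2cons_top` : `H2ConsInputs A M r x → IsPlaceReductionModL A M r`.
-/

set_option autoImplicit false
set_option linter.unusedSectionVars false
set_option linter.unusedVariables false
set_option linter.style.haveILetI false
set_option synthInstance.maxHeartbeats 400000
set_option maxHeartbeats 1000000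

open HahnSeries AlgebraicCurve IntermediateField ModularCurve

noncomputable section

namespace Fermat.Agent.S37x.Red.H2

open Fermat.Agent.S18x.Dict.H20 Fermat.Agent.S18x.Dict.H22 Fermat.Agent.S18x.Dict.H23
open Fermat.Agent.S18x.Spec.H26 Fermat.Agent.S18x.IG Fermat.Agent.S18x.Desc.H19

local notation "Lbar" => AlgebraicClosure ℚ

section Units

variable (A : ValuationSubring Lbar) (M : ℕ) [NeZero M] (K : IntermediateField ℚ Lbar)
  [IsDiscreteValuationRing (A.comap (algebraMap ↥K Lbar))]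

/-- an element of the Gauss valuation ring with nonzero reduction is a unit -/
theorem h2_inv_mem_of_gaussRedM_ne_zero (u : gaussValM (A.comap (algebraMap ↥K Lbar)) M)
    (hu : gaussRedM (A.comap (algebraMap ↥K Lbar)) M u ≠ 0) :
    (u : ↥(modularFunctionFieldFullC ↥K M))⁻¹ ∈ gaussValM (A.comap (algebraMap ↥K Lbar)) M := by
  obtain ⟨w, hw⟩ := (isUnit_iff_gaussRedM_ne_zero (A.comap (algebraMap ↥K Lbar)) M).mpr hu
  have h1 : (w : gaussValM (A.comap (algebraMap ↥K Lbar)) M) *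
      ((w⁻¹ : (gaussValM (A.comap (algebraMap ↥K Lbar)) M)ˣ) :
        gaussValM (A.comap (algebraMap ↥K Lbar)) M) = 1 := Units.mul_inv w
  rw [hw] at h1
  have h2 : (u : ↥(modularFunctionFieldFullC ↥K M)) *
      (((w⁻¹ : (gaussValM (A.comap (algebraMap ↥K Lbar)) M)ˣ) :
        gaussValM (A.comap (algebraMap ↥K Lbar)) M) : ↥(modularFunctionFieldFullC ↥K M)) = 1 :=
    congrArg Subtype.val h1
  rw [← eq_inv_of_mul_eq_one_right h2]
  exact (((w⁻¹ : (gaussValM (A.comap (algebraMap ↥K Lbar)) M)ˣ) :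
    gaussValM (A.comap (algebraMap ↥K Lbar)) M)).2

/-- the reduction of a unit of the Gauss ring of `ℚ̄((q))` is nonzero -/
theorem h2_gaussRed_ne_zero_of_inv (z : LaurentSeries Lbar) (hz : z ∈ gaussRing A)
    (hzi : z⁻¹ ∈ gaussRing A) (hz0 : z ≠ 0) : gaussRed A ⟨z, hz⟩ ≠ 0 := by
  intro h0
  have h1 : (⟨z, hz⟩ : gaussRing A) * ⟨z⁻¹, hzi⟩ = 1 := Subtype.ext (mul_inv_cancel₀ hz0)
  have h2 := congrArg (gaussRed A) h1
  rw [map_mul, h0, zero_mul, map_one] at h2
  exact zero_ne_one h2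

end Units

section Case

variable (A : ValuationSubring Lbar) (M : ℕ) [NeZero M]
  (r : Place Lbar ↥(modularFunctionFieldBar M) →
    Place (IsLocalRing.ResidueField A)
      ↥(modularFunctionFieldFullC (IsLocalRing.ResidueField A) M))

/-- **The conservation law for one function on one chart.** -/
theorem h2_cons_case {K₁ K : IntermediateField ℚ Lbar} (hK : K₁ ≤ K)
    [IsDiscreteValuationRing (A.comap (algebraMap ↥K₁ Lbar))]
    [IsDiscreteValuationRing (A.comap (algebraMap ↥K Lbar))]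
    (x₁ : ↥(modularFunctionFieldFullC ↥K₁ M)) (xK : ↥(modularFunctionFieldFullC ↥K M))
    (hx : iotaK ↥K M xK = iotaK ↥K₁ M x₁)
    (Q : Place (IsLocalRing.ResidueField A)
      ↥(modularFunctionFieldFullC (IsLocalRing.ResidueField A) M))
    (S : Finset (Place Lbar ↥(modularFunctionFieldBar M)))
    (hat : H2ConsAt A M r K xK Q S)
    (a b : ↥(modularFunctionFieldFullC ↥K₁ M))
    (ha : a ∈ chart (A.comap (algebraMap ↥K₁ Lbar)) x₁)
    (hb : b ∈ chart (A.comap (algebraMap ↥K₁ Lbar)) x₁)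
    (ha0 : a ≠ 0) (hb0 : b ≠ 0)
    (haV : a ∈ gaussValM (A.comap (algebraMap ↥K₁ Lbar)) M)
    (hbV : b ∈ gaussValM (A.comap (algebraMap ↥K₁ Lbar)) M)
    (haiV : a⁻¹ ∈ gaussValM (A.comap (algebraMap ↥K₁ Lbar)) M)
    (hbiV : b⁻¹ ∈ gaussValM (A.comap (algebraMap ↥K₁ Lbar)) M)
    (Da Db : Divisor Lbar ↥(modularFunctionFieldBar M))
    (hDa : ∀ P, Da P = P.ord (iotaK ↥K₁ M a)) (hDb : ∀ P, Db P = P.ord (iotaK ↥K₁ M b))
    (hSa : Da.support ⊆ S) (hSb : Db.support ⊆ S)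
    (y : LaurentSeries A)
    (hy : coeffMap A.subtype y ∈ modularFunctionFieldBar M)
    (hyk : coeffMap (IsLocalRing.residue A) y ∈
      modularFunctionFieldFullC (IsLocalRing.ResidueField A) M)
    (hne : coeffMap (IsLocalRing.residue A) y ≠ 0)
    (hyab : (⟨coeffMap A.subtype y, hy⟩ : ↥(modularFunctionFieldBar M)) * iotaK ↥K₁ M b
      = iotaK ↥K₁ M a)
    (D : Divisor Lbar ↥(modularFunctionFieldBar M))
    (hD : ∀ P, D P = P.ord (⟨coeffMap A.subtype y, hy⟩ : ↥(modularFunctionFieldBar M))) :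
    Finsupp.mapDomain r D Q =
      Q.ord (⟨coeffMap (IsLocalRing.residue A) y, hyk⟩ :
        ↥(modularFunctionFieldFullC (IsLocalRing.ResidueField A) M)) := by
  obtain ⟨π₀, hπ₀, hnoeth, hπp, hfrac, 𝔫, t, ρ, res, h𝔫, hπ𝔫, ht𝔫, hSM, hρπ, hρ0, hρ, hQs, hQt,
    hres, hab, hrat, he, huniq, hr1, hr2⟩ := hat
  haveI := hnoeth
  have hτx : h2Tau hK M x₁ = xK := h2Tau_eq_of_iotaK hK M x₁ xK hx
  have ha' : h2Tau hK M a ∈ chart (A.comap (algebraMap ↥K Lbar)) xK := by
    rw [← hτx]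
    exact h2_tau_mem_chart A M hK x₁ a ha
  have hb' : h2Tau hK M b ∈ chart (A.comap (algebraMap ↥K Lbar)) xK := by
    rw [← hτx]
    exact h2_tau_mem_chart A M hK x₁ b hb
  have ha'V : h2Tau hK M a ∈ gaussValM (A.comap (algebraMap ↥K Lbar)) M :=
    h2_tau_mem_gaussValM A M hK a haV
  have hb'V : h2Tau hK M b ∈ gaussValM (A.comap (algebraMap ↥K Lbar)) M :=
    h2_tau_mem_gaussValM A M hK b hbV
  -- in `ℚ̄((q))`
  have hαmem : ((iotaK ↥K₁ M a : ↥(modularFunctionFieldBar M)) : LaurentSeries Lbar) ∈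
      gaussRing A := (h2_mem_gaussValM_iff A M K₁ a).mp haV
  have hβmem : ((iotaK ↥K₁ M b : ↥(modularFunctionFieldBar M)) : LaurentSeries Lbar) ∈
      gaussRing A := (h2_mem_gaussValM_iff A M K₁ b).mp hbV
  have hαi : ((iotaK ↥K₁ M a : ↥(modularFunctionFieldBar M)) : LaurentSeries Lbar)⁻¹ ∈
      gaussRing A := (h2_inv_mem_gaussValM_iff A M K₁ a).mp haiV
  have hβi : ((iotaK ↥K₁ M b : ↥(modularFunctionFieldBar M)) : LaurentSeries Lbar)⁻¹ ∈
      gaussRing A := (h2_inv_mem_gaussValM_iff A M K₁ b).mp hbiV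
  have hα0 : ((iotaK ↥K₁ M a : ↥(modularFunctionFieldBar M)) : LaurentSeries Lbar) ≠ 0 := by
    intro h0
    have h1 : iotaK ↥K₁ M a = 0 := Subtype.ext h0
    exact ha0 ((map_eq_zero (iotaK ↥K₁ M)).mp h1)
  have hβ0 : ((iotaK ↥K₁ M b : ↥(modularFunctionFieldBar M)) : LaurentSeries Lbar) ≠ 0 := by
    intro h0
    have h1 : iotaK ↥K₁ M b = 0 := Subtype.ext h0
    exact hb0 ((map_eq_zero (iotaK ↥K₁ M)).mp h1)
  -- the values of `ρ`
  have hρval : ∀ (f : ↥(modularFunctionFieldFullC ↥K₁ M))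
      (hf : h2Tau hK M f ∈ chart (A.comap (algebraMap ↥K Lbar)) xK)
      (hfV : f ∈ gaussValM (A.comap (algebraMap ↥K₁ Lbar)) M)
      (hfm : ((iotaK ↥K₁ M f : ↥(modularFunctionFieldBar M)) : LaurentSeries Lbar) ∈
        gaussRing A),
      ((ρ ⟨h2Tau hK M f, hf⟩ :
          ↥(modularFunctionFieldFullC (IsLocalRing.ResidueField A) M)) :
          LaurentSeries (IsLocalRing.ResidueField A)) =
        gaussRed A ⟨((iotaK ↥K₁ M f : ↥(modularFunctionFieldBar M)) : LaurentSeries Lbar),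
          hfm⟩ := by
    intro f hf hfV hfm
    have hfV' : h2Tau hK M f ∈ gaussValM (A.comap (algebraMap ↥K Lbar)) M :=
      h2_tau_mem_gaussValM A M hK f hfV
    have hfm' : ((iotaK ↥K M (h2Tau hK M f) : ↥(modularFunctionFieldBar M)) :
        LaurentSeries Lbar) ∈ gaussRing A := (h2_mem_gaussValM_iff A M K _).mp hfV'
    have hE : (⟨((iotaK ↥K M (h2Tau hK M f) : ↥(modularFunctionFieldBar M)) :
        LaurentSeries Lbar), hfm'⟩ : gaussRing A) =
        ⟨((iotaK ↥K₁ M f : ↥(modularFunctionFieldBar M)) : LaurentSeries Lbar), hfm⟩ :=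
      Subtype.ext (congrArg (fun z : ↥(modularFunctionFieldBar M) => (z : LaurentSeries Lbar))
        (iotaK_h2Tau hK M f))
    rw [hρ ⟨h2Tau hK M f, hf⟩ hfV', ← h2_gaussRed_iotaK A M K (h2Tau hK M f) hfV' hfm', hE]
  have hρa := hρval a ha' haV hαmem
  have hρb := hρval b hb' hbV hβmem
  have hρa0 : ρ ⟨h2Tau hK M a, ha'⟩ ≠ 0 := by
    intro h0
    rw [h0] at hρa
    exact h2_gaussRed_ne_zero_of_inv A _ hαmem hαi hα0 hρa.symm
  have hρb0 : ρ ⟨h2Tau hK M b, hb'⟩ ≠ 0 := by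
    intro h0
    rw [h0] at hρb
    exact h2_gaussRed_ne_zero_of_inv A _ hβmem hβi hβ0 hρb.symm
  have haspan : (⟨h2Tau hK M a, ha'⟩ : ↥(chart (A.comap (algebraMap ↥K Lbar)) xK).toSubring) ∉
      Ideal.span {chartPi (A.comap (algebraMap ↥K Lbar)) xK π₀} := by
    intro hmem
    obtain ⟨c, hc⟩ := Ideal.mem_span_singleton'.mp hmem
    apply hρa0
    rw [← hc, map_mul, hρπ, mul_zero]
  have hbspan : (⟨h2Tau hK M b, hb'⟩ : ↥(chart (A.comap (algebraMap ↥K Lbar)) xK).toSubring) ∉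
      Ideal.span {chartPi (A.comap (algebraMap ↥K Lbar)) xK π₀} := by
    intro hmem
    obtain ⟨c, hc⟩ := Ideal.mem_span_singleton'.mp hmem
    apply hρb0
    rw [← hc, map_mul, hρπ, mul_zero]
  -- the conservation law for the quotient
  have hmain := Fermat.Agent.S37x.Red.H11.cons_asm_quot π₀ hπ₀
    (chart (A.comap (algebraMap ↥K Lbar)) xK).toSubring
    (fun c => (chart (A.comap (algebraMap ↥K Lbar)) xK).algebraMap_mem c)
    hπp hfrac 𝔫 h𝔫 hπ𝔫 t ht𝔫 hSM (iotaK ↥K M) ρ hρπ hρ0 Q hQs hQt res hres hab r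
    ⟨h2Tau hK M a, ha'⟩ ⟨h2Tau hK M b, hb'⟩ haspan hbspan Da Db
    (fun P => by rw [hDa P]; exact congrArg P.ord (iotaK_h2Tau hK M a).symm)
    (fun P => by rw [hDb P]; exact congrArg P.ord (iotaK_h2Tau hK M b).symm)
    (fun P hP => hrat P (hP.elim (fun h => hSa h) (fun h => hSb h)))
    (fun P hP => he P (hP.elim (fun h => hSa h) (fun h => hSb h)))
    (fun P hP => huniq P (hP.elim (fun h => hSa h) (fun h => hSb h)))
    hr1 (fun P hP => hr2 P (hP.elim (fun h => hSa h) (fun h => hSb h)))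
    (⟨coeffMap A.subtype y, hy⟩ : ↥(modularFunctionFieldBar M))
    (by
      show (⟨coeffMap A.subtype y, hy⟩ : ↥(modularFunctionFieldBar M)) *
        iotaK ↥K M (h2Tau hK M b) = iotaK ↥K M (h2Tau hK M a)
      rw [iotaK_h2Tau, iotaK_h2Tau]
      exact hyab)
    D hD
  rw [hmain]
  -- the reduction of the quotient
  have hYmem : coeffMap (A.subtype : A →+* Lbar) y ∈ gaussRing A :=
    coeffMap_subtype_mem_gaussRing A y
  have hprod : (⟨coeffMap (A.subtype : A →+* Lbar) y, hYmem⟩ : gaussRing A) *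
      ⟨((iotaK ↥K₁ M b : ↥(modularFunctionFieldBar M)) : LaurentSeries Lbar), hβmem⟩ =
      ⟨((iotaK ↥K₁ M a : ↥(modularFunctionFieldBar M)) : LaurentSeries Lbar), hαmem⟩ := by
    apply Subtype.ext
    exact congrArg (fun z : ↥(modularFunctionFieldBar M) => (z : LaurentSeries Lbar)) hyab
  have hred := congrArg (gaussRed A) hprod
  rw [map_mul, gaussRed_coeffMap_subtype, ← hρa, ← hρb] at hred
  have hred' : (⟨coeffMap (IsLocalRing.residue A) y, hyk⟩ :
      ↥(modularFunctionFieldFullC (IsLocalRing.ResidueField A) M)) *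
      ρ ⟨h2Tau hK M b, hb'⟩ = ρ ⟨h2Tau hK M a, ha'⟩ := Subtype.ext hred
  have hy0 : (⟨coeffMap (IsLocalRing.residue A) y, hyk⟩ :
      ↥(modularFunctionFieldFullC (IsLocalRing.ResidueField A) M)) ≠ 0 := by
    intro h0
    exact hne (congrArg Subtype.val h0)
  have hord := Q.ord_mul hy0 hρb0
  rw [hred'] at hord
  omega

end Case

section Top

variable (A : ValuationSubring Lbar) {ℓ : ℕ} (hℓ : ℓ.Prime) (hA : A.LiesOverPrime ℓ)
  (M : ℕ) [NeZero M]
  (r : Place Lbar ↥(modularFunctionFieldBar M) →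
    Place (IsLocalRing.ResidueField A)
      ↥(modularFunctionFieldFullC (IsLocalRing.ResidueField A) M))
  (x : ∀ K : IntermediateField ℚ Lbar, ↥(modularFunctionFieldFullC ↥K M))

include hℓ hA in
/-- **(X4c)** the conservation clause of `IsPlaceReductionModL A M r` from `H2ConsInputs`. -/
theorem h2cons_cons (h : H2ConsInputs A M r x) :
    ∀ (y : LaurentSeries A)
      (hy : coeffMap A.subtype y ∈ modularFunctionFieldBar M)
      (hyk : coeffMap (IsLocalRing.residue A) y ∈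
        modularFunctionFieldFullC (IsLocalRing.ResidueField A) M),
      coeffMap (IsLocalRing.residue A) y ≠ 0 →
        ∀ D : Divisor Lbar ↥(modularFunctionFieldBar M),
          (∀ P, D P = P.ord (⟨coeffMap A.subtype y, hy⟩ : ↥(modularFunctionFieldBar M))) →
            ∀ Q, Finsupp.mapDomain r D Q =
              Q.ord (⟨coeffMap (IsLocalRing.residue A) y, hyk⟩ :
                ↥(modularFunctionFieldFullC (IsLocalRing.ResidueField A) M)) := by
  classical
  intro y hy hyk hne D hD Q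
  obtain ⟨hcompat, hchart, hin⟩ := h
  obtain ⟨K₁, hK₁fin, hdesc⟩ := h19_exists_descent_bar M
    (⟨coeffMap A.subtype y, hy⟩ : ↥(modularFunctionFieldBar M))
  haveI := hK₁fin
  haveI dvr₁ : IsDiscreteValuationRing (A.comap (algebraMap ↥K₁ Lbar)) :=
    h23_isDVR_intermediate A hℓ hA K₁
  obtain ⟨y₁, hy₁⟩ := hdesc K₁ le_rfl
  obtain ⟨hc1, hc2⟩ := hchart K₁ hK₁fin dvr₁
  -- `y₁` is a unit of the Gauss valuation ring
  have hYmem : coeffMap (A.subtype : A →+* Lbar) y ∈ gaussRing A :=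
    coeffMap_subtype_mem_gaussRing A y
  have hy₁coe : ((iotaK ↥K₁ M y₁ : ↥(modularFunctionFieldBar M)) : LaurentSeries Lbar) =
      coeffMap (A.subtype : A →+* Lbar) y := congrArg Subtype.val hy₁
  have hy₁m : ((iotaK ↥K₁ M y₁ : ↥(modularFunctionFieldBar M)) : LaurentSeries Lbar) ∈
      gaussRing A := by
    rw [hy₁coe]
    exact hYmem
  have hy₁V : y₁ ∈ gaussValM (A.comap (algebraMap ↥K₁ Lbar)) M :=
    (h2_mem_gaussValM_iff A M K₁ y₁).mpr hy₁m
  have hy₁red : gaussRedM (A.comap (algebraMap ↥K₁ Lbar)) M ⟨y₁, hy₁V⟩ ≠ 0 := by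
    intro h0
    have h1 := h2_gaussRed_iotaK A M K₁ y₁ hy₁V hy₁m
    rw [h0, map_zero] at h1
    have h2 : gaussRed A ⟨coeffMap (A.subtype : A →+* Lbar) y, hYmem⟩ = 0 := by
      rw [← h1]
      congr 1
      exact Subtype.ext hy₁coe.symm
    rw [gaussRed_coeffMap_subtype] at h2
    exact hne h2
  have hy₁i : y₁⁻¹ ∈ gaussValM (A.comap (algebraMap ↥K₁ Lbar)) M :=
    h2_inv_mem_of_gaussRedM_ne_zero A M K₁ ⟨y₁, hy₁V⟩ hy₁red
  have hy₁0 : y₁ ≠ 0 := by
    rintro rfl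
    apply hy₁red
    have : (⟨0, hy₁V⟩ : gaussValM (A.comap (algebraMap ↥K₁ Lbar)) M) = 0 := rfl
    rw [this, map_zero]
  -- lowest terms on both charts
  obtain ⟨a, b, ha, hb, ha0, hb0, haV, hbV, haiV, hbiV, hyab⟩ :=
    h2_lowest_chart A M K₁ (x K₁) hc1 y₁ hy₁V hy₁i hy₁0
  obtain ⟨a', b', ha', hb', ha'0, hb'0, ha'V, hb'V, ha'iV, hb'iV, hyab'⟩ :=
    h2_lowest_chart A M K₁ (x K₁)⁻¹ hc2 y₁ hy₁V hy₁i hy₁0
  -- the divisors
  haveI := Fermat.Agent.S18x.E.H12.h12_hasPrincipalDivisors_bar M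
  obtain ⟨Da, hDa, -⟩ := HasPrincipalDivisors.exists_divisor (K := Lbar) (iotaK ↥K₁ M a)
    ((map_ne_zero (iotaK ↥K₁ M)).mpr ha0)
  obtain ⟨Db, hDb, -⟩ := HasPrincipalDivisors.exists_divisor (K := Lbar) (iotaK ↥K₁ M b)
    ((map_ne_zero (iotaK ↥K₁ M)).mpr hb0)
  obtain ⟨Da', hDa', -⟩ := HasPrincipalDivisors.exists_divisor (K := Lbar) (iotaK ↥K₁ M a')
    ((map_ne_zero (iotaK ↥K₁ M)).mpr ha'0)
  obtain ⟨Db', hDb', -⟩ := HasPrincipalDivisors.exists_divisor (K := Lbar) (iotaK ↥K₁ M b')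
    ((map_ne_zero (iotaK ↥K₁ M)).mpr hb'0)
  obtain ⟨K₀, hK₀fin, hK₀⟩ := hin Q (Da.support ∪ Db.support ∪ Da'.support ∪ Db'.support)
  haveI := hK₀fin
  have hKfin : FiniteDimensional ℚ ↥(K₁ ⊔ K₀) := IntermediateField.finiteDimensional_sup K₁ K₀
  haveI dvr : IsDiscreteValuationRing (A.comap (algebraMap ↥(K₁ ⊔ K₀) Lbar)) :=
    h23_isDVR_intermediate A hℓ hA (K₁ ⊔ K₀)
  have hyι : ∀ a b : ↥(modularFunctionFieldFullC ↥K₁ M), y₁ * b = a →
      (⟨coeffMap A.subtype y, hy⟩ : ↥(modularFunctionFieldBar M)) * iotaK ↥K₁ M b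
        = iotaK ↥K₁ M a := by
    intro a b hab
    rw [← hy₁, ← map_mul, hab]
  rcases hK₀ (K₁ ⊔ K₀) le_sup_right hKfin dvr with hat | hat
  · exact h2_cons_case A M r (le_sup_left : K₁ ≤ K₁ ⊔ K₀) (x K₁) (x (K₁ ⊔ K₀))
      (hcompat (K₁ ⊔ K₀) K₁) Q _ hat a b ha hb ha0 hb0 haV hbV haiV hbiV Da Db hDa hDb
      (fun P hP => by simp only [Finset.mem_union]; exact Or.inl (Or.inl (Or.inl hP)))
      (fun P hP => by simp only [Finset.mem_union]; exact Or.inl (Or.inl (Or.inr hP)))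
      y hy hyk hne (hyι a b hyab) D hD
  · exact h2_cons_case A M r (le_sup_left : K₁ ≤ K₁ ⊔ K₀) (x K₁)⁻¹ (x (K₁ ⊔ K₀))⁻¹
      (by rw [map_inv₀, map_inv₀, hcompat (K₁ ⊔ K₀) K₁]) Q _ hat a' b' ha' hb' ha'0 hb'0
      ha'V hb'V ha'iV hb'iV Da' Db' hDa' hDb'
      (fun P hP => by simp only [Finset.mem_union]; exact Or.inl (Or.inr hP))
      (fun P hP => by simp only [Finset.mem_union]; exact Or.inr hP)
      y hy hyk hne (hyι a' b' hyab') D hD

include hℓ hA in
/-- **(X4)** `IsPlaceReductionModL A M r` from the inputs of the conservation law. -/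
theorem h2cons_top (h : H2ConsInputs A M r x) : IsPlaceReductionModL A M r :=
  Fermat.Agent.S37x.FFk.H19.h19_isPlaceReductionModL_of_cons (A := A) (M := M) r
    (h2cons_cons A hℓ hA M r x h)

end Top

end Fermat.Agent.S37x.Red.H2
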