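import Mathlib
import Fermat.Agent.S18x.Desc.H19_BridgeFin
import Fermat.Agent.S18x.E.H12_Div
import Fermat.Agent.S37x.Kron.H2_Place

/-!
# S37 / [RED-M] (b-asm), [RAT-INST] (helper15): rationality of the places of `F_L` over large
number fields

`L = ℚ̄`, `F_L = modularFunctionFieldBar M`, `K` an intermediate field of `L / ℚ`,
`F_K = modularFunctionFieldFullC K M`, `ι = Dict.H22.iotaK K M : F_K → F_L`.

* `h15_smul_iotaK` : an automorphism of `L` fixing `K` pointwise fixes `ι F_K` pointwise;
* `h15_exists_sep` : two distinct places of `F_L` are separated by a function;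
* `h15_stab`       : every place `P` of `F_L` is fixed by `Gal(L / K₀)` for a number field `K₀`;
* `h15_rat`        : for `K ≥ K₀` the values at `P` of the functions of `F_K` regular at `P`
  lie in `K`.
-/

set_option autoImplicit false
set_option linter.unusedSectionVars false
set_option linter.style.haveILetI false
set_option synthInstance.maxHeartbeats 400000
set_option maxHeartbeats 1000000

open HahnSeries IntermediateField AlgebraicCurve ModularCurve

noncomputable section

namespace Fermat.Agent.S37x.Red.H15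

open Fermat.Agent.S18x.Dict.H22

local notation "Lbar" => AlgebraicClosure ℚ

section Sep

variable {K F : Type*} [Field K] [Field F] [Algebra K F]

/-- A place whose valuation ring is contained in the one of another place equals it. -/
theorem h15_place_eq_of_le {P P' : Place K F}
    (h : P.toValuationSubring ≤ P'.toValuationSubring) : P = P' := by
  apply Place.ext
  have hK : Ring.KrullDimLE 1 P.toValuationSubring := inferInstance
  exact ValuationSubring.eq_of_le_of_ne_top (A := P.toValuationSubring) h P'.ne_top'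

/-- Two distinct places (the first residue-trivial) are separated by a function. -/
theorem h15_exists_sep {P P' : Place K F} (hres : Fermat.Agent.S24.RH.ResidueTrivial P)
    (hne : P' ≠ P) : ∃ g : F, 0 < P.ord g ∧ P'.ord g < 0 := by
  have hnle : ¬ P.toValuationSubring ≤ P'.toValuationSubring := fun h =>
    hne (h15_place_eq_of_le h).symm
  obtain ⟨g₀, hg₀, hg₀'⟩ := SetLike.not_le_iff_exists.mp hnle
  obtain ⟨c, hc⟩ := hres ⟨g₀, hg₀⟩
  have hcoe : (((⟨g₀, hg₀⟩ : P.toValuationSubring) - algebraMap K P.toValuationSubring c :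
      P.toValuationSubring) : F) = g₀ - algebraMap K F c := rfl
  have hnot : g₀ - algebraMap K F c ∉ P'.toValuationSubring := by
    intro hmem
    apply hg₀'
    have := add_mem hmem (P'.algebraMap_mem' c)
    rwa [sub_add_cancel] at this
  have hne0 : (⟨g₀, hg₀⟩ : P.toValuationSubring) - algebraMap K P.toValuationSubring c ≠ 0 := by
    intro h0
    apply hnot
    have : g₀ - algebraMap K F c = 0 := by rw [← hcoe, h0]; rfl
    rw [this]
    exact zero_mem _
  refine ⟨g₀ - algebraMap K F c, ?_, Fermat.Agent.S24.RH.ord_neg_of_not_mem P' hnot⟩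
  have := Fermat.Agent.S24.RH.ord_pos_of_mem_maximalIdeal P hc hne0
  rwa [hcoe] at this

end Sep

section Galois

variable (M : ℕ) [NeZero M]

/-- An automorphism of `ℚ̄` fixing `K` pointwise fixes `ι F_K` pointwise. -/
theorem h15_smul_iotaK (K : IntermediateField ℚ Lbar) (σ : Lbar ≃ₐ[ℚ] Lbar)
    (hσ : ∀ x ∈ K, σ x = x) (f : ↥(modularFunctionFieldFullC ↥K M)) :
    arithmeticGalois (modularFunctionFieldFull M) σ • (iotaK ↥K M f) = iotaK ↥K M f := by
  refine Subtype.ext ?_
  rw [coe_arithmeticGalois_smul, coe_iotaK, coeffMap_coeffMap]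
  exact coeffMap_congr (RingHom.ext fun a => hσ _ a.2) _

/-- **(T1)** every place of `F_L` is fixed by `Gal(ℚ̄ / K₀)` for some number field `K₀`. -/
theorem h15_stab (P : Place Lbar ↥(modularFunctionFieldBar M)) :
    ∃ K₀ : IntermediateField ℚ Lbar, FiniteDimensional ℚ K₀ ∧
      ∀ σ : Lbar ≃ₐ[ℚ] Lbar, (∀ x ∈ K₀, σ x = x) →
        arithmeticGalois (modularFunctionFieldFull M) σ • P = P := by
  classical
  obtain ⟨t, ht⟩ : ∃ t : ↥(modularFunctionFieldBar M), P.ord t = 1 := by
    obtain ⟨π, hπ⟩ := IsDiscreteValuationRing.exists_irreducible P.toValuationSubring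
    exact ⟨π, P.ord_coe_irreducible hπ⟩
  have ht0 : t ≠ 0 := by rintro rfl; simp at ht
  obtain ⟨D, hD⟩ := Fermat.Agent.S18x.E.H12.stDiv M t ht0
  have hres := Fermat.Agent.S37x.Kron.H2.h2kron_residueTrivial M P
  have hsep : ∀ P' : Place Lbar ↥(modularFunctionFieldBar M),
      ∃ g : ↥(modularFunctionFieldBar M), P' ≠ P → 0 < P.ord g ∧ P'.ord g < 0 := by
    intro P'
    by_cases h : P' = P
    · exact ⟨0, fun h' => absurd h h'⟩
    · obtain ⟨g, hg⟩ := h15_exists_sep hres h
      exact ⟨g, fun _ => hg⟩
  choose g hg using hsep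
  obtain ⟨K₀, hfin, hK₀⟩ :=
    Fermat.Agent.S18x.Desc.H19.h19_exists_descent_finset M (insert t (D.support.image g))
  refine ⟨K₀, hfin, fun σ hσ => ?_⟩
  have hfix : ∀ x ∈ insert t (D.support.image g),
      arithmeticGalois (modularFunctionFieldFull M) σ • x = x := by
    intro x hx
    obtain ⟨x', hx'⟩ := hK₀ K₀ le_rfl x hx
    rw [← hx']
    exact h15_smul_iotaK M K₀ σ hσ x'
  by_contra hne
  have hZ : arithmeticGalois (modularFunctionFieldFull M) σ • P ∈ D.support := by
    rw [Finsupp.mem_support_iff, hD]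
    have h1 := SemilinearAut.ord_smul (arithmeticGalois (modularFunctionFieldFull M) σ) P t
    rw [hfix t (Finset.mem_insert_self _ _)] at h1
    rw [h1, ht]
    exact one_ne_zero
  obtain ⟨h1, h2⟩ := hg _ hne
  have h3 := SemilinearAut.ord_smul (arithmeticGalois (modularFunctionFieldFull M) σ) P
    (g (arithmeticGalois (modularFunctionFieldFull M) σ • P))
  rw [hfix _ (Finset.mem_insert_of_mem (Finset.mem_image_of_mem g hZ))] at h3
  omega

theorem h15_isGalois : IsGalois ℚ Lbar := by
  have h1 : IsAlgClosure ℚ Lbar :=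
    (inferInstance : @IsAlgClosure ℚ Lbar _ _ (AlgebraicClosure.instAlgebra ℚ) _)
  have h2 : Algebra.IsAlgebraic ℚ Lbar := IsAlgClosure.isAlgebraic
  have : Normal ℚ Lbar := IsAlgClosure.normal ℚ Lbar
  exact IsGalois.mk

/-- An element of `ℚ̄` fixed by `Gal(ℚ̄ / K)` lies in `K`. -/
theorem h15_mem_of_fixed (K : IntermediateField ℚ Lbar) (c : Lbar)
    (h : ∀ σ : Lbar ≃ₐ[ℚ] Lbar, (∀ x ∈ K, σ x = x) → σ c = c) : c ∈ K := by
  haveI := h15_isGalois
  rw [← InfiniteGalois.fixedField_fixingSubgroup K]
  rw [IntermediateField.mem_fixedField_iff]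
  intro σ hσ
  apply h σ
  intro x hx
  exact (mem_fixingSubgroup_iff (Lbar ≃ₐ[ℚ] Lbar)).mp hσ x hx

/-- **(T2)** for every number field `K ≥ K₀(P)` the values at `P` of the functions of `F_K`
regular at `P` lie in `K`. -/
theorem h15_rat (P : Place Lbar ↥(modularFunctionFieldBar M)) :
    ∃ K₀ : IntermediateField ℚ Lbar, FiniteDimensional ℚ K₀ ∧
      ∀ K : IntermediateField ℚ Lbar, K₀ ≤ K →
        ∀ f : ↥(modularFunctionFieldFullC ↥K M), 0 ≤ P.ord (iotaK ↥K M f) →
          ∃ c : ↥K, iotaK ↥K M f = algebraMap Lbar ↥(modularFunctionFieldBar M) (c : Lbar) ∨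
            0 < P.ord (iotaK ↥K M f -
              algebraMap Lbar ↥(modularFunctionFieldBar M) (c : Lbar)) := by
  obtain ⟨K₀, hfin, hK₀⟩ := h15_stab M P
  refine ⟨K₀, hfin, fun K hK f hf => ?_⟩
  have hres := Fermat.Agent.S37x.Kron.H2.h2kron_residueTrivial M P
  have hmem : iotaK ↥K M f ∈ P.toValuationSubring :=
    (Fermat.Agent.S24.RH.ord_nonneg_iff P).mp hf
  obtain ⟨c, hc⟩ := hres ⟨iotaK ↥K M f, hmem⟩
  have hcoe : (((⟨iotaK ↥K M f, hmem⟩ : P.toValuationSubring) -
      algebraMap Lbar P.toValuationSubring c : P.toValuationSubring) :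
        ↥(modularFunctionFieldBar M)) =
      iotaK ↥K M f - algebraMap Lbar ↥(modularFunctionFieldBar M) c := rfl
  -- the alternative at `c`
  have halt : iotaK ↥K M f = algebraMap Lbar ↥(modularFunctionFieldBar M) c ∨
      0 < P.ord (iotaK ↥K M f - algebraMap Lbar ↥(modularFunctionFieldBar M) c) := by
    by_cases h0 : (⟨iotaK ↥K M f, hmem⟩ : P.toValuationSubring) -
        algebraMap Lbar P.toValuationSubring c = 0
    · left
      have : iotaK ↥K M f - algebraMap Lbar ↥(modularFunctionFieldBar M) c = 0 := by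
        rw [← hcoe, h0]; rfl
      exact sub_eq_zero.mp this
    · right
      have := Fermat.Agent.S24.RH.ord_pos_of_mem_maximalIdeal P hc h0
      rwa [hcoe] at this
  -- `c` is fixed by `Gal(ℚ̄ / K)`
  have hcK : c ∈ K := by
    apply h15_mem_of_fixed K c
    intro σ hσ
    have hP : arithmeticGalois (modularFunctionFieldFull M) σ • P = P :=
      hK₀ σ (fun x hx => hσ x (hK hx))
    have hf' := h15_smul_iotaK M K σ hσ f
    have hsm : arithmeticGalois (modularFunctionFieldFull M) σ •
        (iotaK ↥K M f - algebraMap Lbar ↥(modularFunctionFieldBar M) c) =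
        iotaK ↥K M f - algebraMap Lbar ↥(modularFunctionFieldBar M) (σ c) := by
      rw [smul_sub, hf', SemilinearAut.smul_algebraMap, baseAut_arithmeticGalois]
      rfl
    rcases halt with h | h
    · have h1 : arithmeticGalois (modularFunctionFieldFull M) σ •
          (iotaK ↥K M f - algebraMap Lbar ↥(modularFunctionFieldBar M) c) = 0 := by
        rw [h, sub_self, smul_zero]
      rw [hsm, h, sub_eq_zero] at h1
      exact ((algebraMap Lbar ↥(modularFunctionFieldBar M)).injective h1).symm
    · have h1 := SemilinearAut.ord_smul (arithmeticGalois (modularFunctionFieldFull M) σ) P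
        (iotaK ↥K M f - algebraMap Lbar ↥(modularFunctionFieldBar M) c)
      rw [hP, hsm] at h1
      have h2 : 0 < P.ord (iotaK ↥K M f -
          algebraMap Lbar ↥(modularFunctionFieldBar M) (σ c)) := by rw [h1]; exact h
      exact Fermat.Agent.S24.RH.eq_of_ord_sub_pos P h2 h
  exact ⟨⟨c, hcK⟩, halt⟩

end Galois

end Fermat.Agent.S37x.Red.H15
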