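import Mathlib
import Fermat.Agent.S18x.Dict.H23_Dvr
import Fermat.Agent.S37x.Red.H1_RatRes

/-!
# S37 [RED-M] (centre), (C-d): descent of functions of the special fibre (helper1)

`Lbar = ℚ̄`, `A` a valuation subring of `Lbar` over the prime `ℓ`, `k = ResidueField A`,
`K : IntermediateField ℚ Lbar`, `κ_K = ResidueField (A ∩ K)`, `κ_K → k` the embedding
`h23_resEmb A`.

* `h1_exists_descent_const`, `h1_exists_descent_fin` : every element (finite family of elements)
  of `k` comes from `κ_K` for all `K` above a number field `K₀`;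
* `h1_isAlgebraic_zmod` : `k` is algebraic over `𝔽_ℓ`;
* `h1_exists_descent_res` : every `z ∈ F̄_k = modularFunctionFieldFullC k M` is
  `coeffMap (h23_resEmb A) z'` with `z' ∈ F̄_{κ_K}`, for all `K` above a number field `K₀`;
* `h1_exists_descent_res_fin` : the same for a finite family;
* `h1_exists_descent_iota` : the same in the spelling `h1IotaFull κ_K k M z' = z`.
-/

set_option autoImplicit false
set_option synthInstance.maxHeartbeats 400000
set_option maxHeartbeats 1000000
set_option linter.unusedSectionVars false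
set_option linter.style.haveILetI false

open Polynomial ModularCurve HahnSeries IntermediateField

noncomputable section

namespace Fermat.Agent.S37x.Red.H1

open Fermat.Agent.S18x.Dict.H23

local notation "Lbar" => AlgebraicClosure ℚ

variable (A : ValuationSubring Lbar)

/-- An element of `A` lying in `K`, as an element of `A ∩ K`. -/
def h1Down (K : IntermediateField ℚ Lbar) (a : A) (ha : (a : Lbar) ∈ K) :
    ↥(A.comap (algebraMap ↥K Lbar)) :=
  ⟨⟨(a : Lbar), ha⟩, a.2⟩

theorem h1_incl_down (K : IntermediateField ℚ Lbar) (a : A) (ha : (a : Lbar) ∈ K) :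
    h23_incl (K := ↥K) A (h1Down A K a ha) = a :=
  Subtype.ext rfl

theorem h1_resEmb_down (K : IntermediateField ℚ Lbar) (a : A) (ha : (a : Lbar) ∈ K) :
    h23_resEmb (K := ↥K) A (IsLocalRing.residue _ (h1Down A K a ha)) = IsLocalRing.residue A a := by
  rw [h23_resEmb_residue, h1_incl_down]

/-- Every element of `k` comes from `κ_K` for `K` large. -/
theorem h1_exists_descent_const (c : IsLocalRing.ResidueField A) :
    ∃ K₀ : IntermediateField ℚ Lbar, FiniteDimensional ℚ K₀ ∧
      ∀ K : IntermediateField ℚ Lbar, K₀ ≤ K →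
        ∃ c' : IsLocalRing.ResidueField (A.comap (algebraMap ↥K Lbar)),
          h23_resEmb (K := ↥K) A c' = c := by
  obtain ⟨a, rfl⟩ := IsLocalRing.residue_surjective c
  haveI : Algebra.IsAlgebraic ℚ Lbar := AlgebraicClosure.isAlgebraic ℚ
  haveI : Algebra.IsIntegral ℚ Lbar := Algebra.IsAlgebraic.isIntegral
  have hint : IsIntegral ℚ (a : Lbar) := Algebra.IsIntegral.isIntegral _
  refine ⟨ℚ⟮(a : Lbar)⟯, IntermediateField.adjoin.finiteDimensional hint, fun K hK => ?_⟩
  have ha : (a : Lbar) ∈ K := hK (IntermediateField.mem_adjoin_simple_self ℚ _)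
  exact ⟨IsLocalRing.residue _ (h1Down A K a ha), h1_resEmb_down A K a ha⟩

/-- Finitely many elements of `k` come from `κ_K` for `K` large. -/
theorem h1_exists_descent_fin {n : ℕ} (c : Fin n → IsLocalRing.ResidueField A) :
    ∃ K₀ : IntermediateField ℚ Lbar, FiniteDimensional ℚ K₀ ∧
      ∀ K : IntermediateField ℚ Lbar, K₀ ≤ K →
        ∃ c' : Fin n → IsLocalRing.ResidueField (A.comap (algebraMap ↥K Lbar)),
          ∀ i, h23_resEmb (K := ↥K) A (c' i) = c i := by
  choose K₀ hfin hK₀ using fun i => h1_exists_descent_const A (c i)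
  haveI := hfin
  refine ⟨⨆ i, K₀ i, inferInstance, fun K hK => ?_⟩
  have h : ∀ i, ∃ c' : IsLocalRing.ResidueField (A.comap (algebraMap ↥K Lbar)),
      h23_resEmb (K := ↥K) A c' = c i := fun i => hK₀ i K (le_trans (le_iSup K₀ i) hK)
  choose c' hc' using h
  exact ⟨c', hc'⟩

variable {ℓ : ℕ}

/-- `k` is algebraic over `𝔽_ℓ`. -/
theorem h1_isAlgebraic_zmod (hℓ : ℓ.Prime) (hA : A.LiesOverPrime ℓ) :
    haveI : Fact ℓ.Prime := ⟨hℓ⟩
    haveI : CharP (IsLocalRing.ResidueField A) ℓ := h23_charP_residueField' hℓ A hA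
    @Algebra.IsAlgebraic (ZMod ℓ) (IsLocalRing.ResidueField A) _ _
      (ZMod.algebra (IsLocalRing.ResidueField A) ℓ) := by
  haveI : Fact ℓ.Prime := ⟨hℓ⟩
  haveI : CharP (IsLocalRing.ResidueField A) ℓ := h23_charP_residueField' hℓ A hA
  letI algk : Algebra (ZMod ℓ) (IsLocalRing.ResidueField A) :=
    ZMod.algebra (IsLocalRing.ResidueField A) ℓ
  haveI : CharP (IsLocalRing.ResidueField (A.comap (algebraMap ℚ Lbar))) ℓ :=
    h23_charP_residueField (K := ℚ) A hℓ hA
  letI algκ : Algebra (ZMod ℓ) (IsLocalRing.ResidueField (A.comap (algebraMap ℚ Lbar))) :=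
    ZMod.algebra _ ℓ
  letI algκk := h1ResAlgebra (K := ℚ) A
  haveI : Algebra.IsAlgebraic ℚ Lbar := AlgebraicClosure.isAlgebraic ℚ
  haveI hκk := h1_isAlgebraic_residue (K := ℚ) A
  haveI : Finite (IsLocalRing.ResidueField (A.comap (algebraMap ℚ Lbar))) :=
    h23_finite_residueField (K := ℚ) A hA
  haveI : Module.Finite (ZMod ℓ) (IsLocalRing.ResidueField (A.comap (algebraMap ℚ Lbar))) :=
    Module.Finite.of_finite
  haveI : Algebra.IsAlgebraic (ZMod ℓ)
      (IsLocalRing.ResidueField (A.comap (algebraMap ℚ Lbar))) :=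
    Algebra.IsAlgebraic.of_finite _ _
  haveI : IsScalarTower (ZMod ℓ) (IsLocalRing.ResidueField (A.comap (algebraMap ℚ Lbar)))
      (IsLocalRing.ResidueField A) :=
    IsScalarTower.of_algebraMap_eq' (RingHom.ext_zmod _ _)
  exact Algebra.IsAlgebraic.trans (ZMod ℓ)
    (IsLocalRing.ResidueField (A.comap (algebraMap ℚ Lbar))) (IsLocalRing.ResidueField A)

variable (M : ℕ) [NeZero M]

/-- **(C-d)** every function of the special fibre over `k` descends to `κ_K`, `K` large. -/
theorem h1_exists_descent_res (hℓ : ℓ.Prime) (hA : A.LiesOverPrime ℓ)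
    (z : ↥(modularFunctionFieldFullC (IsLocalRing.ResidueField A) M)) :
    ∃ K₀ : IntermediateField ℚ Lbar, FiniteDimensional ℚ K₀ ∧
      ∀ K : IntermediateField ℚ Lbar, K₀ ≤ K →
        ∃ z' : ↥(modularFunctionFieldFullC
            (IsLocalRing.ResidueField (A.comap (algebraMap ↥K Lbar))) M),
          coeffMap (h23_resEmb (K := ↥K) A) (z' : LaurentSeries _) =
            (z : LaurentSeries (IsLocalRing.ResidueField A)) := by
  haveI : Fact ℓ.Prime := ⟨hℓ⟩
  haveI : CharP (IsLocalRing.ResidueField A) ℓ := h23_charP_residueField' hℓ A hA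
  letI algk : Algebra (ZMod ℓ) (IsLocalRing.ResidueField A) :=
    ZMod.algebra (IsLocalRing.ResidueField A) ℓ
  haveI : Algebra.IsAlgebraic (ZMod ℓ) (IsLocalRing.ResidueField A) :=
    h1_isAlgebraic_zmod A hℓ hA
  obtain ⟨n, c, f, hz⟩ := h1_hgen_laurent (ZMod ℓ) (IsLocalRing.ResidueField A) M
    (z : LaurentSeries (IsLocalRing.ResidueField A)) z.2
  obtain ⟨K₀, hK₀, h⟩ := h1_exists_descent_fin A c
  refine ⟨K₀, hK₀, fun K hK => ?_⟩
  obtain ⟨c', hc'⟩ := h K hK
  haveI : CharP (IsLocalRing.ResidueField (A.comap (algebraMap ↥K Lbar))) ℓ :=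
    h23_charP_residueField (K := ↥K) A hℓ hA
  letI algκ : Algebra (ZMod ℓ) (IsLocalRing.ResidueField (A.comap (algebraMap ↥K Lbar))) :=
    ZMod.algebra _ ℓ
  have hcomp : (h23_resEmb (K := ↥K) A).comp
      (algebraMap (ZMod ℓ) (IsLocalRing.ResidueField (A.comap (algebraMap ↥K Lbar)))) =
      algebraMap (ZMod ℓ) (IsLocalRing.ResidueField A) := RingHom.ext_zmod _ _
  refine ⟨⟨∑ i, algebraMap (IsLocalRing.ResidueField (A.comap (algebraMap ↥K Lbar)))
      (LaurentSeries (IsLocalRing.ResidueField (A.comap (algebraMap ↥K Lbar)))) (c' i) *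
      coeffMap (algebraMap (ZMod ℓ) (IsLocalRing.ResidueField (A.comap (algebraMap ↥K Lbar))))
        (f i : LaurentSeries (ZMod ℓ)), ?_⟩, ?_⟩
  · refine sum_mem (fun i _ => mul_mem (IntermediateField.algebraMap_mem _ _) ?_)
    exact Fermat.Agent.S18x.Desc.H19.h19_coeffMap_mem_full _ M (f i).2
  · show coeffMap (h23_resEmb (K := ↥K) A) (∑ i, _) = _
    rw [map_sum, hz]
    refine Finset.sum_congr rfl (fun i _ => ?_)
    rw [map_mul, Fermat.Agent.S18x.Desc.H19.h19_coeffMap_algebraMap, hc', coeffMap_coeffMap,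
      hcomp]

/-- **(C-d)** for a finite family. -/
theorem h1_exists_descent_res_fin (hℓ : ℓ.Prime) (hA : A.LiesOverPrime ℓ) {n : ℕ}
    (z : Fin n → ↥(modularFunctionFieldFullC (IsLocalRing.ResidueField A) M)) :
    ∃ K₀ : IntermediateField ℚ Lbar, FiniteDimensional ℚ K₀ ∧
      ∀ K : IntermediateField ℚ Lbar, K₀ ≤ K →
        ∃ z' : Fin n → ↥(modularFunctionFieldFullC
            (IsLocalRing.ResidueField (A.comap (algebraMap ↥K Lbar))) M),
          ∀ i, coeffMap (h23_resEmb (K := ↥K) A) (z' i : LaurentSeries _) =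
            (z i : LaurentSeries (IsLocalRing.ResidueField A)) := by
  choose K₀ hfin hK₀ using fun i => h1_exists_descent_res A M hℓ hA (z i)
  haveI := hfin
  refine ⟨⨆ i, K₀ i, inferInstance, fun K hK => ?_⟩
  have h : ∀ i, ∃ z' : ↥(modularFunctionFieldFullC
      (IsLocalRing.ResidueField (A.comap (algebraMap ↥K Lbar))) M),
      coeffMap (h23_resEmb (K := ↥K) A) (z' : LaurentSeries _) =
        (z i : LaurentSeries (IsLocalRing.ResidueField A)) :=
    fun i => hK₀ i K (le_trans (le_iSup K₀ i) hK)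
  choose z' hz' using h
  exact ⟨z', hz'⟩

/-- **(C-d)** in the spelling of `h1IotaFull`. -/
theorem h1_exists_descent_iota (hℓ : ℓ.Prime) (hA : A.LiesOverPrime ℓ)
    (z : ↥(modularFunctionFieldFullC (IsLocalRing.ResidueField A) M)) :
    ∃ K₀ : IntermediateField ℚ Lbar, FiniteDimensional ℚ K₀ ∧
      ∀ K : IntermediateField ℚ Lbar, K₀ ≤ K →
        letI := h1ResAlgebra (K := ↥K) A
        ∃ z' : ↥(modularFunctionFieldFullC
            (IsLocalRing.ResidueField (A.comap (algebraMap ↥K Lbar))) M),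
          h1IotaFull (IsLocalRing.ResidueField (A.comap (algebraMap ↥K Lbar)))
            (IsLocalRing.ResidueField A) M z' = z := by
  obtain ⟨K₀, hK₀, h⟩ := h1_exists_descent_res A M hℓ hA z
  refine ⟨K₀, hK₀, fun K hK => ?_⟩
  obtain ⟨z', hz'⟩ := h K hK
  exact ⟨z', Subtype.ext hz'⟩

end Fermat.Agent.S37x.Red.H1
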