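import Mathlib
import Fermat.Prelude.Def_AlgebraicCurve_DivisorClassGroup
import Fermat.Agent.S24.H21_Surj
import Fermat.Agent.S24.H15_Kaehler
import Fermat.Agent.S37x.Red.H1_DescRes

/-!
# S37 [RED-M] (centre), (K2): the centre of a rational place is a maximal ideal (helper1)

* `h1_zero_or_pos_iff` : `f = 0 ∨ 0 < ord_Q f  ↔  |f|_Q < 1`;
* `h1_val_pow_sub_pow_lt_one` : `x ≡ y ⟹ x ^ m ≡ y ^ m` modulo the maximal ideal;
* `h1_rational_of_residueTrivial` : `ResidueTrivial Q` in the `ord` spelling;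
* `h1_centre_isMaximal` : for `ρ : B →+* F'` with `ρ B ⊆ O_Q`, `Q` a `k`-rational place and every
  element of `kˣ` of finite order, the ideal `𝔫 = {b | ρ b = 0 ∨ 0 < ord_Q (ρ b)}` is maximal;
* `h1_residue_finite_order` : every nonzero element of the residue field of a valuation subring of
  `ℚ̄` over `ℓ` has finite order.
-/

set_option autoImplicit false
set_option linter.unusedSectionVars false
set_option linter.style.haveILetI false

open AlgebraicCurve IntermediateField

noncomputable section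

namespace Fermat.Agent.S37x.Red.H1

open Fermat.Agent.S24.Orb

section CentreMax

variable {k F' : Type*} [Field k] [Field F'] [Algebra k F']

/-- `f = 0 ∨ 0 < ord f` iff `|f| < 1`. -/
theorem h1_zero_or_pos_iff (Q : Place k F') (f : F') :
    (f = 0 ∨ 0 < Q.ord f) ↔ Q.toValuationSubring.valuation f < 1 := by
  rcases eq_or_ne f 0 with rfl | hf
  · simp
  · rw [ord_pos_iff_val_lt_one Q hf]
    simp [hf]

/-- `x ≡ y` implies `x ^ m ≡ y ^ m` modulo the maximal ideal of a valuation ring. -/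
theorem h1_val_pow_sub_pow_lt_one (W : ValuationSubring F') (x y : F')
    (hx : W.valuation x ≤ 1) (hy : W.valuation y ≤ 1) (hxy : W.valuation (x - y) < 1) (m : ℕ) :
    W.valuation (x ^ m - y ^ m) < 1 := by
  induction m with
  | zero => simp
  | succ m ih =>
    have h : x ^ (m + 1) - y ^ (m + 1) = x ^ m * (x - y) + (x ^ m - y ^ m) * y := by ring
    rw [h]
    refine lt_of_le_of_lt (Valuation.map_add _ _ _) (max_lt ?_ ?_)
    · rw [map_mul, map_pow]
      exact lt_of_le_of_lt (mul_le_of_le_one_left' (pow_le_one' hx m)) hxy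
    · rw [map_mul]
      exact lt_of_le_of_lt (mul_le_of_le_one_right' hy) ih

/-- `ResidueTrivial` in the `ord` spelling. -/
theorem h1_rational_of_residueTrivial (Q : Place k F')
    (hres : Fermat.Agent.S24.RH.ResidueTrivial Q) (f : F') (hf : 0 ≤ Q.ord f) :
    ∃ c : k, f = algebraMap k F' c ∨ 0 < Q.ord (f - algebraMap k F' c) := by
  have hmem : f ∈ Q.toValuationSubring := (Fermat.Agent.S24.RH.ord_nonneg_iff Q).mp hf
  obtain ⟨c, hc⟩ := hres ⟨f, hmem⟩
  refine ⟨c, ?_⟩
  have hcoe : (((⟨f, hmem⟩ : Q.toValuationSubring) -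
      algebraMap k Q.toValuationSubring c : Q.toValuationSubring) : F') =
      f - algebraMap k F' c := rfl
  by_cases h0 : (⟨f, hmem⟩ : Q.toValuationSubring) - algebraMap k Q.toValuationSubring c = 0
  · left
    have : f - algebraMap k F' c = 0 := by
      rw [← hcoe, h0]; rfl
    exact sub_eq_zero.mp this
  · right
    have := Fermat.Agent.S24.RH.ord_pos_of_mem_maximalIdeal Q hc h0
    rwa [hcoe] at this

/-- **(K2), abstract**: the centre of a rational place on `B` is a maximal ideal, if every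
nonzero constant has finite order. -/
theorem h1_centre_isMaximal {B : Type*} [CommRing B] (ρ : B →+* F') (Q : Place k F')
    (𝔫 : Ideal B) (h𝔫 : ∀ b, b ∈ 𝔫 ↔ ρ b = 0 ∨ 0 < Q.ord (ρ b))
    (hreg : ∀ b, 0 ≤ Q.ord (ρ b))
    (hrat : ∀ f : F', 0 ≤ Q.ord f →
      ∃ c : k, f = algebraMap k F' c ∨ 0 < Q.ord (f - algebraMap k F' c))
    (hfin : ∀ c : k, c ≠ 0 → ∃ m : ℕ, 0 < m ∧ c ^ m = 1) : 𝔫.IsMaximal := by
  rw [Ideal.isMaximal_iff]
  refine ⟨?_, fun J b hJ hb hbJ => ?_⟩
  · intro h1
    rcases (h𝔫 1).mp h1 with h | h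
    · rw [map_one] at h
      exact one_ne_zero h
    · rw [map_one, Q.ord_one] at h
      exact lt_irrefl _ h
  · have hb' : ¬ (ρ b = 0 ∨ 0 < Q.ord (ρ b)) := fun h => hb ((h𝔫 b).mpr h)
    have hb0 : ρ b ≠ 0 := fun h => hb' (Or.inl h)
    have hbpos : ¬ 0 < Q.ord (ρ b) := fun h => hb' (Or.inr h)
    obtain ⟨c, hc⟩ := hrat (ρ b) (hreg b)
    have hc0 : c ≠ 0 := by
      rintro rfl
      rw [map_zero, sub_zero] at hc
      rcases hc with h | h
      · exact hb0 h
      · exact hbpos h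
    obtain ⟨m, hm, hcm⟩ := hfin c hc0
    have key : b ^ m - 1 ∈ 𝔫 := by
      rw [h𝔫, h1_zero_or_pos_iff]
      have hxy : Q.toValuationSubring.valuation (ρ b - algebraMap k F' c) < 1 := by
        rw [← h1_zero_or_pos_iff]
        rcases hc with h | h
        · left
          rw [h, sub_self]
        · right
          exact h
      have hx : Q.toValuationSubring.valuation (ρ b) ≤ 1 :=
        (ord_nonneg_iff_val_le_one Q hb0).mp (hreg b)
      have hy : Q.toValuationSubring.valuation (algebraMap k F' c) ≤ 1 :=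
        (ValuationSubring.valuation_le_one_iff _ _).mpr (Q.algebraMap_mem' c)
      have h := h1_val_pow_sub_pow_lt_one Q.toValuationSubring (ρ b) (algebraMap k F' c) hx hy
        hxy m
      rw [← map_pow (algebraMap k F'), hcm, map_one] at h
      rw [map_sub, map_pow, map_one]
      exact h
    have h1 : (1 : B) = b ^ m - (b ^ m - 1) := by ring
    rw [h1]
    exact J.sub_mem (Ideal.pow_mem_of_mem J hbJ m hm) (hJ key)

end CentreMax

section FiniteOrder

local notation "Lbar" => AlgebraicClosure ℚ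

open Fermat.Agent.S18x.Dict.H23

/-- Every nonzero element of a field algebraic over `𝔽_ℓ` has finite order. -/
theorem h1_finite_order_of_isAlgebraic {ℓ : ℕ} [Fact ℓ.Prime] {k : Type*} [Field k]
    [Algebra (ZMod ℓ) k] [Algebra.IsAlgebraic (ZMod ℓ) k] (c : k) (hc : c ≠ 0) :
    ∃ m : ℕ, 0 < m ∧ c ^ m = 1 := by
  have hint : IsIntegral (ZMod ℓ) c := Algebra.IsIntegral.isIntegral c
  haveI : FiniteDimensional (ZMod ℓ) (ZMod ℓ)⟮c⟯ := IntermediateField.adjoin.finiteDimensional hint
  haveI : Finite (ZMod ℓ)⟮c⟯ := Module.finite_of_finite (ZMod ℓ)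
  set c' : (ZMod ℓ)⟮c⟯ := ⟨c, IntermediateField.mem_adjoin_simple_self _ c⟩ with hc'
  have hc'0 : c' ≠ 0 := fun h => hc (congrArg Subtype.val h)
  obtain ⟨m, hm, hpow⟩ := (isOfFinOrder_of_finite (Units.mk0 c' hc'0)).exists_pow_eq_one
  refine ⟨m, hm, ?_⟩
  have h1 := congrArg (fun u : (↥(ZMod ℓ)⟮c⟯)ˣ => ((u : ↥(ZMod ℓ)⟮c⟯) : k)) hpow
  simpa using h1

/-- Every nonzero element of the residue field of a valuation subring of `ℚ̄` over `ℓ` has finite
order. -/
theorem h1_residue_finite_order (A : ValuationSubring Lbar) {ℓ : ℕ} (hℓ : ℓ.Prime)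
    (hA : A.LiesOverPrime ℓ) (c : IsLocalRing.ResidueField A) (hc : c ≠ 0) :
    ∃ m : ℕ, 0 < m ∧ c ^ m = 1 := by
  haveI : Fact ℓ.Prime := ⟨hℓ⟩
  haveI : CharP (IsLocalRing.ResidueField A) ℓ := h23_charP_residueField' hℓ A hA
  letI algk : Algebra (ZMod ℓ) (IsLocalRing.ResidueField A) :=
    ZMod.algebra (IsLocalRing.ResidueField A) ℓ
  haveI : Algebra.IsAlgebraic (ZMod ℓ) (IsLocalRing.ResidueField A) :=
    h1_isAlgebraic_zmod A hℓ hA
  exact h1_finite_order_of_isAlgebraic (ℓ := ℓ) c hc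

end FiniteOrder

end Fermat.Agent.S37x.Red.H1
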