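import Mathlib
import Fermat.Agent.S37x.Red.H1_CentreMax
import Fermat.Agent.S37x.Red.H11_ConsPlace
import Fermat.Agent.S37x.FFk.H19_RedDeg
import Fermat.Agent.S37x.Desc.H28_DescVoc

/-!
# S37 [RED-M] (centre), (K2), concrete form (helper1)

`A` a valuation subring of `ℚ̄` over `ℓ`, `k = ResidueField A`, `F̄ = modularFunctionFieldFullC k M`.

* `h1_rational_place_res` : every place of `F̄ / k` is `k`-rational (`Red.H11.Rational`);
* `h1_rational_place_bar` : every place of `F_ℚ̄ / ℚ̄` is `ℚ̄`-rational;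
* `h1_centre_isMaximal_res` : for `ρ : B →+* F̄` with `ρ B ⊆ O_Q`, the centre
  `𝔫 = {b | ρ b = 0 ∨ 0 < ord_Q (ρ b)}` of `Q` on `B` is a maximal ideal.
-/

set_option autoImplicit false
set_option synthInstance.maxHeartbeats 400000
set_option maxHeartbeats 1000000
set_option linter.unusedSectionVars false
set_option linter.style.haveILetI false

open AlgebraicCurve ModularCurve

noncomputable section

namespace Fermat.Agent.S37x.Red.H1

local notation "Lbar" => AlgebraicClosure ℚ

variable (A : ValuationSubring Lbar) (M : ℕ) [NeZero M]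

/-- Every place of the special fibre is `k`-rational. -/
theorem h1_rational_place_res
    (Q : Place (IsLocalRing.ResidueField A)
      ↥(modularFunctionFieldFullC (IsLocalRing.ResidueField A) M)) :
    Fermat.Agent.S37x.Red.H11.Rational Q :=
  fun f hf => h1_rational_of_residueTrivial Q
    (Fermat.Agent.S37x.Desc.H28.h28_residueTrivial Q
      (Fermat.Agent.S37x.FFk.H19.h19_deg_eq_one_res A M Q)) f hf

/-- Every place of the generic fibre over `ℚ̄` is `ℚ̄`-rational. -/
theorem h1_rational_place_bar (P : Place Lbar ↥(modularFunctionFieldBar M)) :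
    Fermat.Agent.S37x.Red.H11.Rational P :=
  fun f hf => h1_rational_of_residueTrivial P
    (Fermat.Agent.S37x.Desc.H28.h28_residueTrivial P
      (Fermat.Agent.S37x.FFk.H19.h19_deg_eq_one_bar M P)) f hf

/-- **(K2)** the centre of a place of the special fibre on `B` is a maximal ideal. -/
theorem h1_centre_isMaximal_res {ℓ : ℕ} (hℓ : ℓ.Prime) (hA : A.LiesOverPrime ℓ)
    {B : Type*} [CommRing B]
    (ρ : B →+* ↥(modularFunctionFieldFullC (IsLocalRing.ResidueField A) M))
    (Q : Place (IsLocalRing.ResidueField A)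
      ↥(modularFunctionFieldFullC (IsLocalRing.ResidueField A) M))
    (𝔫 : Ideal B) (h𝔫 : ∀ b, b ∈ 𝔫 ↔ ρ b = 0 ∨ 0 < Q.ord (ρ b))
    (hreg : ∀ b, 0 ≤ Q.ord (ρ b)) : 𝔫.IsMaximal :=
  h1_centre_isMaximal ρ Q 𝔫 h𝔫 hreg (h1_rational_place_res A M Q)
    (h1_residue_finite_order A hℓ hA)

end Fermat.Agent.S37x.Red.H1
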