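import Mathlib
import Fermat.Agent.S37x.Red.H1_DescRes
import Fermat.Agent.S37x.Red.H1_CentreMaxInst
import Fermat.Agent.S37x.Red.H15_Rat
import Fermat.Agent.S37x.Red.H29_Centre
import Fermat.Agent.S18x.IG.Defs

/-!
# S37 [RED-M] (centre), (K3) + (K4): uniformisers and separation of centres over large number
fields (helper1)

`A` a valuation subring of `ℚ̄` over `ℓ`, `k = ResidueField A`, `F̄_k = modularFunctionFieldFullC k M`,
`K` a number field, `κ = ResidueField (A ∩ K)`, `ῑ = h1IotaFull κ k M : F̄_κ → F̄_k`.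
`B` a ring with `ρ' : B →+* F̄_κ`, `ρ = ῑ ∘ ρ'`, `F̄_κ = Frac ρ'(B)` (`hfrac'`).

* `h1_exists_unif` **(K3)** : for `K` large, a uniformiser of `Q` is a quotient `ρ b₁ / ρ b₂`
  (`hunif` of `wa_core`, `ord_witness_eq_one`);
* `h1_exists_sep` **(K4)** : for `K` large, two distinct places `Q ≠ Q'` have distinct centres on
  `B`, if (SM) holds at the centre of `Q`;
* `h1_exists_sep_finset` : `hsep` of `wa_core` VERBATIM;
* `h1_exists_unif_sep` : both at once (one `K₀`).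
-/

set_option autoImplicit false
set_option synthInstance.maxHeartbeats 400000
set_option maxHeartbeats 1000000
set_option linter.unusedSectionVars false
set_option linter.style.haveILetI false

open AlgebraicCurve ModularCurve IntermediateField

noncomputable section

namespace Fermat.Agent.S37x.Red.H1

open Fermat.Agent.S18x.Dict.H23

local notation "Lbar" => AlgebraicClosure ℚ

variable (A : ValuationSubring Lbar) (M : ℕ) [NeZero M] {ℓ : ℕ}

/-- **(K3)** for `K` large, a uniformiser at `Q` is a quotient of two elements of `ρ B`. -/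
theorem h1_exists_unif (hℓ : ℓ.Prime) (hA : A.LiesOverPrime ℓ)
    (Q : Place (IsLocalRing.ResidueField A)
      ↥(modularFunctionFieldFullC (IsLocalRing.ResidueField A) M)) :
    ∃ K₀ : IntermediateField ℚ Lbar, FiniteDimensional ℚ K₀ ∧
      ∀ K : IntermediateField ℚ Lbar, K₀ ≤ K →
        letI := h1ResAlgebra (K := ↥K) A
        ∀ {B : Type*} [CommRing B]
          (ρ : B →+* ↥(modularFunctionFieldFullC (IsLocalRing.ResidueField A) M))
          (ρ' : B →+* ↥(modularFunctionFieldFullC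
            (IsLocalRing.ResidueField (A.comap (algebraMap ↥K Lbar))) M)),
          (∀ b, ρ b = h1IotaFull (IsLocalRing.ResidueField (A.comap (algebraMap ↥K Lbar)))
            (IsLocalRing.ResidueField A) M (ρ' b)) →
          (∀ e : ↥(modularFunctionFieldFullC
              (IsLocalRing.ResidueField (A.comap (algebraMap ↥K Lbar))) M),
            ∃ a b : B, ρ' b ≠ 0 ∧ e * ρ' b = ρ' a) →
          ∃ b₁ b₂ : B, ρ b₁ ≠ 0 ∧ ρ b₂ ≠ 0 ∧ Q.ord (ρ b₁) - Q.ord (ρ b₂) = 1 := by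
  obtain ⟨z, -, hz0, -, hzord, -⟩ := h1_place_unif Q
  obtain ⟨K₀, hK₀, h⟩ := h1_exists_descent_iota A M hℓ hA z
  refine ⟨K₀, hK₀, fun K hK => ?_⟩
  letI := h1ResAlgebra (K := ↥K) A
  intro B _ ρ ρ' hρρ' hfrac'
  obtain ⟨z', hz'⟩ := h K hK
  obtain ⟨a, b, hb, hab⟩ := hfrac' z'
  have hρb : ρ b ≠ 0 := by
    rw [hρρ']
    exact (map_ne_zero _).mpr hb
  have hρa : ρ a = z * ρ b := by
    rw [hρρ', hρρ', ← hab, map_mul, hz']
  refine ⟨a, b, ?_, hρb, ?_⟩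
  · rw [hρa]
    exact mul_ne_zero hz0 hρb
  · rw [hρa, Q.ord_mul hz0 hρb, hzord]
    ring

/-- The order of a quotient of elements of `B` at a place with centre `𝔫`, from (C-a). -/
theorem h1_ord_of_centre {k F' : Type*} [Field k] [Field F'] [Algebra k F']
    {B : Type*} [CommRing B] (π t : B) (ρ : B →+* F') (hρπ : ρ π = 0) (𝔫 : Ideal B)
    (Q : Place k F') (h𝔫 : ∀ b, b ∈ 𝔫 ↔ ρ b = 0 ∨ 0 < Q.ord (ρ b))
    (hreg : ∀ b, 0 ≤ Q.ord (ρ b)) (a : B) (ha : ρ a ≠ 0)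
    (d : ℕ) (s u c : B) (hs : s ∉ 𝔫) (hu : u ∉ 𝔫) (he : s * a = u * t ^ d + π * c) :
    Q.ord (ρ a) = (d : ℤ) * Q.ord (ρ t) := by
  have hunit : ∀ x : B, x ∉ 𝔫 → ρ x ≠ 0 ∧ Q.ord (ρ x) = 0 := by
    intro x hx
    have h := mt (h𝔫 x).mpr hx
    push Not at h
    exact ⟨h.1, le_antisymm h.2 (hreg x)⟩
  obtain ⟨hs0, hsord⟩ := hunit s hs
  obtain ⟨hu0, huord⟩ := hunit u hu
  have heq : ρ s * ρ a = ρ u * ρ t ^ d := by
    have := congrArg ρ he
    rw [map_mul, map_add, map_mul, map_mul, hρπ, zero_mul, add_zero, map_pow] at this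
    exact this
  have hpow : ρ t ^ d ≠ 0 := by
    intro h0
    rw [h0, mul_zero] at heq
    exact mul_ne_zero hs0 ha heq
  have hord := congrArg Q.ord heq
  rw [Q.ord_mul hs0 ha, Q.ord_mul hu0 hpow, hsord, huord, zero_add, zero_add,
    ← zpow_natCast, Q.ord_zpow] at hord
  exact hord

/-- **(K4)** for `K` large, two distinct places have distinct centres on `B`. -/
theorem h1_exists_sep (hℓ : ℓ.Prime) (hA : A.LiesOverPrime ℓ)
    (Q Q' : Place (IsLocalRing.ResidueField A)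
      ↥(modularFunctionFieldFullC (IsLocalRing.ResidueField A) M)) (hne : Q' ≠ Q) :
    ∃ K₀ : IntermediateField ℚ Lbar, FiniteDimensional ℚ K₀ ∧
      ∀ K : IntermediateField ℚ Lbar, K₀ ≤ K →
        letI := h1ResAlgebra (K := ↥K) A
        ∀ {B : Type*} [CommRing B] [IsDomain B] [IsNoetherianRing B] (π : B), Prime π →
          ∀ (ρ : B →+* ↥(modularFunctionFieldFullC (IsLocalRing.ResidueField A) M))
          (ρ' : B →+* ↥(modularFunctionFieldFullC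
            (IsLocalRing.ResidueField (A.comap (algebraMap ↥K Lbar))) M)),
          (∀ b, ρ b = h1IotaFull (IsLocalRing.ResidueField (A.comap (algebraMap ↥K Lbar)))
            (IsLocalRing.ResidueField A) M (ρ' b)) →
          (∀ b, ρ' b = 0 ↔ π ∣ b) →
          (∀ e : ↥(modularFunctionFieldFullC
              (IsLocalRing.ResidueField (A.comap (algebraMap ↥K Lbar))) M),
            ∃ a b : B, ρ' b ≠ 0 ∧ e * ρ' b = ρ' a) →
          ∀ 𝔫 𝔫' : Ideal B, (∀ b, b ∈ 𝔫 ↔ ρ b = 0 ∨ 0 < Q.ord (ρ b)) →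
            (∀ b, b ∈ 𝔫' ↔ ρ b = 0 ∨ 0 < Q'.ord (ρ b)) →
            (∀ b, 0 ≤ Q.ord (ρ b)) → (∀ b, 0 ≤ Q'.ord (ρ b)) →
            𝔫.IsPrime → Fermat.Agent.S18x.IG.HSM π 𝔫 → 𝔫' ≠ 𝔫 := by
  have hres : Fermat.Agent.S24.RH.ResidueTrivial Q :=
    Fermat.Agent.S37x.Desc.H28.h28_residueTrivial Q
      (Fermat.Agent.S37x.FFk.H19.h19_deg_eq_one_res A M Q)
  obtain ⟨g, hgQ, hgQ'⟩ := Fermat.Agent.S37x.Red.H15.h15_exists_sep hres hne
  have hg0 : g ≠ 0 := by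
    rintro rfl
    rw [Q.ord_zero] at hgQ
    exact lt_irrefl _ hgQ
  obtain ⟨K₀, hK₀, h⟩ := h1_exists_descent_iota A M hℓ hA g
  refine ⟨K₀, hK₀, fun K hK => ?_⟩
  letI := h1ResAlgebra (K := ↥K) A
  intro B _ _ _ π hπ ρ ρ' hρρ' hker hfrac' 𝔫 𝔫' h𝔫 h𝔫' hreg hreg' hp hSM heq
  obtain ⟨g', hg'⟩ := h K hK
  obtain ⟨a, b, hb, hab⟩ := hfrac' g'
  have hg'0 : g' ≠ 0 := by
    rintro rfl
    rw [map_zero] at hg'
    exact hg0 hg'.symm
  have ha : ρ' a ≠ 0 := by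
    rw [← hab]
    exact mul_ne_zero hg'0 hb
  have hπa : ¬ π ∣ a := fun h => ha ((hker a).mpr h)
  have hπb : ¬ π ∣ b := fun h => hb ((hker b).mpr h)
  have hρπ : ρ π = 0 := by
    rw [hρρ', (hker π).mpr dvd_rfl, map_zero]
  have hπ𝔫 : π ∈ 𝔫 := (h𝔫 π).mpr (Or.inl hρπ)
  have hρa0 : ρ a ≠ 0 := by
    rw [hρρ']
    exact (map_ne_zero _).mpr ha
  have hρb0 : ρ b ≠ 0 := by
    rw [hρρ']
    exact (map_ne_zero _).mpr hb
  have hρab : ρ a = g * ρ b := by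
    rw [hρρ', hρρ', ← hab, map_mul, hg']
  obtain ⟨t, ht, hSMt⟩ := hSM
  obtain ⟨da, sa, ua, ca, hsa, hua, hea⟩ :=
    Fermat.Agent.S37x.Red.H29.exists_unit_pow_chart π t hπ 𝔫 hπ𝔫 ht hSMt a hπa
  obtain ⟨db, sb, ub, cb, hsb, hub, heb⟩ :=
    Fermat.Agent.S37x.Red.H29.exists_unit_pow_chart π t hπ 𝔫 hπ𝔫 ht hSMt b hπb
  have key : ∀ Q'' : Place (IsLocalRing.ResidueField A)
      ↥(modularFunctionFieldFullC (IsLocalRing.ResidueField A) M),
      (∀ b, b ∈ 𝔫 ↔ ρ b = 0 ∨ 0 < Q''.ord (ρ b)) → (∀ b, 0 ≤ Q''.ord (ρ b)) →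
      Q''.ord g = ((da : ℤ) - db) * Q''.ord (ρ t) := by
    intro Q'' h𝔫'' hreg''
    have h1 := h1_ord_of_centre π t ρ hρπ 𝔫 Q'' h𝔫'' hreg'' a hρa0 da sa ua ca hsa hua hea
    have h2 := h1_ord_of_centre π t ρ hρπ 𝔫 Q'' h𝔫'' hreg'' b hρb0 db sb ub cb hsb hub heb
    have h3 : Q''.ord (ρ a) = Q''.ord g + Q''.ord (ρ b) := by
      rw [hρab, Q''.ord_mul hg0 hρb0]
    rw [h1, h2] at h3
    linarith
  have h1 := key Q h𝔫 hreg
  have h2 := key Q' (fun b => by rw [← heq]; exact h𝔫' b) hreg'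
  have h3 := hreg t
  have h4 := hreg' t
  rw [h1] at hgQ
  rw [h2] at hgQ'
  have h5 : (0 : ℤ) < (da : ℤ) - db := by
    by_contra hcon
    push Not at hcon
    have := mul_nonpos_of_nonpos_of_nonneg hcon h3
    linarith
  have := mul_nonneg h5.le h4
  linarith

/-- **(K4)**, `Finset` form: `hsep` of `wa_core`. -/
theorem h1_exists_sep_finset (hℓ : ℓ.Prime) (hA : A.LiesOverPrime ℓ)
    (Q : Place (IsLocalRing.ResidueField A)
      ↥(modularFunctionFieldFullC (IsLocalRing.ResidueField A) M))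
    (𝒯 : Finset (Place (IsLocalRing.ResidueField A)
      ↥(modularFunctionFieldFullC (IsLocalRing.ResidueField A) M))) :
    ∃ K₀ : IntermediateField ℚ Lbar, FiniteDimensional ℚ K₀ ∧
      ∀ K : IntermediateField ℚ Lbar, K₀ ≤ K →
        letI := h1ResAlgebra (K := ↥K) A
        ∀ {B : Type*} [CommRing B] [IsDomain B] [IsNoetherianRing B] (π : B), Prime π →
          ∀ (ρ : B →+* ↥(modularFunctionFieldFullC (IsLocalRing.ResidueField A) M))
          (ρ' : B →+* ↥(modularFunctionFieldFullC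
            (IsLocalRing.ResidueField (A.comap (algebraMap ↥K Lbar))) M)),
          (∀ b, ρ b = h1IotaFull (IsLocalRing.ResidueField (A.comap (algebraMap ↥K Lbar)))
            (IsLocalRing.ResidueField A) M (ρ' b)) →
          (∀ b, ρ' b = 0 ↔ π ∣ b) →
          (∀ e : ↥(modularFunctionFieldFullC
              (IsLocalRing.ResidueField (A.comap (algebraMap ↥K Lbar))) M),
            ∃ a b : B, ρ' b ≠ 0 ∧ e * ρ' b = ρ' a) →
          ∀ 𝔫 : Place (IsLocalRing.ResidueField A)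
              ↥(modularFunctionFieldFullC (IsLocalRing.ResidueField A) M) → Ideal B,
            (∀ Q', (Q' = Q ∨ Q' ∈ 𝒯) → ∀ b, b ∈ 𝔫 Q' ↔ ρ b = 0 ∨ 0 < Q'.ord (ρ b)) →
            (∀ Q', (Q' = Q ∨ Q' ∈ 𝒯) → ∀ b, 0 ≤ Q'.ord (ρ b)) →
            (𝔫 Q).IsPrime → Fermat.Agent.S18x.IG.HSM π (𝔫 Q) →
            ∀ Q' ∈ 𝒯, Q' ≠ Q → 𝔫 Q' ≠ 𝔫 Q := by
  classical
  induction 𝒯 using Finset.induction_on with
  | empty =>
    refine ⟨⊥, inferInstance, fun K _ => ?_⟩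
    intro B _ _ _ π _ ρ ρ' _ _ _ 𝔫 _ _ _ _ Q' hQ'
    exact absurd hQ' (Finset.notMem_empty Q')
  | insert Q₁ 𝒯 _ ih =>
    obtain ⟨K₂, hK₂, h₂⟩ := ih
    by_cases hQ₁ : Q₁ = Q
    · refine ⟨K₂, hK₂, fun K hK => ?_⟩
      intro B _ _ _ π hπ ρ ρ' hρρ' hker hfrac' 𝔫 h𝔫 hreg hp hSM Q' hQ' hne
      rcases Finset.mem_insert.mp hQ' with h | h
      · exact absurd (h.trans hQ₁) hne
      · exact h₂ K hK π hπ ρ ρ' hρρ' hker hfrac' 𝔫
          (fun Q'' hQ'' => h𝔫 Q'' (hQ''.imp id (Finset.mem_insert_of_mem)))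
          (fun Q'' hQ'' => hreg Q'' (hQ''.imp id (Finset.mem_insert_of_mem))) hp hSM Q' h hne
    · obtain ⟨K₁, hK₁, h₁⟩ := h1_exists_sep A M hℓ hA Q Q₁ hQ₁
      refine ⟨K₁ ⊔ K₂, IntermediateField.finiteDimensional_sup K₁ K₂, fun K hK => ?_⟩
      intro B _ _ _ π hπ ρ ρ' hρρ' hker hfrac' 𝔫 h𝔫 hreg hp hSM Q' hQ' hne
      rcases Finset.mem_insert.mp hQ' with h | h
      · subst h
        exact h₁ K (le_trans le_sup_left hK) π hπ ρ ρ' hρρ' hker hfrac' (𝔫 Q) (𝔫 Q')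
          (h𝔫 Q (Or.inl rfl)) (h𝔫 Q' (Or.inr (Finset.mem_insert_self _ _)))
          (hreg Q (Or.inl rfl)) (hreg Q' (Or.inr (Finset.mem_insert_self _ _))) hp hSM
      · exact h₂ K (le_trans le_sup_right hK) π hπ ρ ρ' hρρ' hker hfrac' 𝔫
          (fun Q'' hQ'' => h𝔫 Q'' (hQ''.imp id (Finset.mem_insert_of_mem)))
          (fun Q'' hQ'' => hreg Q'' (hQ''.imp id (Finset.mem_insert_of_mem))) hp hSM Q' h hne

end Fermat.Agent.S37x.Red.H1
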