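import Mathlib
import Fermat.Agent.S18x.Dict.H22_Ext
import Fermat.Agent.S37x.Red.H1_RatInst
import Fermat.Agent.S37x.Red.H11_ConsPlace

/-!
# S37 [RED-M] (b), the transfer of places `F_ℚ̄ ↔ F_K` (helper1)

`Lbar = ℚ̄`, `K : IntermediateField ℚ Lbar`, `F_L = modularFunctionFieldBar M`,
`F_K = modularFunctionFieldFullC K M`, `ι = Dict.H22.iotaK K M`.

* `h1Res K M : Place Lbar F_L → Place K F_K` : the restriction of places, with
  `h1Res_comap` (`hres` of `cons_asm`), `h1Res_ord` (`P.ord (ι f) = e * (res P).ord f`),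
  `h1Res_surjective` (`hab` of `cons_asm`);
* `h1_rational_res` : the values of `ι F_K` at `P` are in `K`  ⟹  `Rational (h1Res K M P)`;
* `h1_transfer_one` : rationality ⟹ `e = 1` and `P` is the only place above its restriction;
* `h1_transfer` : for a finite set `S` of places, given the rationality statement (T2) for every
  place, a number field `K₀` such that `hrat`, `he`, `huniq` of `cons_asm` hold for `P ∈ S` and
  every `K ≥ K₀`.
-/

set_option autoImplicit false
set_option linter.unusedSectionVars false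
set_option linter.style.haveILetI false
set_option synthInstance.maxHeartbeats 400000
set_option maxHeartbeats 1000000

open AlgebraicCurve ModularCurve HahnSeries IntermediateField

noncomputable section

namespace Fermat.Agent.S37x.Red.H1

open Fermat.Agent.S18x.Dict.H22 Fermat.Agent.S37x.Red.H11

local notation "Lbar" => AlgebraicClosure ℚ

variable (K : IntermediateField ℚ Lbar) (M : ℕ) [NeZero M]

/-- Restriction of a place of `F_ℚ̄` to `F_K`: existence. -/
theorem h1_exists_restrict_iotaK (P : Place Lbar ↥(modularFunctionFieldBar M)) :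
    ∃ v : Place ↥K ↥(modularFunctionFieldFullC ↥K M),
      P.toValuationSubring.comap (iotaK ↥K M) = v.toValuationSubring ∧
      ∃ e : ℕ, 0 < e ∧ ∀ f : ↥(modularFunctionFieldFullC ↥K M),
        P.ord (iotaK ↥K M f) = (e : ℤ) * v.ord f := by
  haveI := isIntegral_intermediate K
  exact h1_exists_restrict (iotaK ↥K M) (iotaK_algebraMap ↥K M) (h1_hgen_iotaK ↥K M) P

/-- **The restriction of places** `F_ℚ̄ → F_K`. -/
def h1Res (P : Place Lbar ↥(modularFunctionFieldBar M)) :
    Place ↥K ↥(modularFunctionFieldFullC ↥K M) :=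
  (h1_exists_restrict_iotaK K M P).choose

theorem h1Res_comap (P : Place Lbar ↥(modularFunctionFieldBar M)) :
    P.toValuationSubring.comap (iotaK ↥K M) = (h1Res K M P).toValuationSubring :=
  (h1_exists_restrict_iotaK K M P).choose_spec.1

theorem h1Res_ord (P : Place Lbar ↥(modularFunctionFieldBar M)) :
    ∃ e : ℕ, 0 < e ∧ ∀ f : ↥(modularFunctionFieldFullC ↥K M),
      P.ord (iotaK ↥K M f) = (e : ℤ) * (h1Res K M P).ord f :=
  (h1_exists_restrict_iotaK K M P).choose_spec.2

/-- A place of `F_K` with the valuation ring `P ∩ F_K` is the restriction of `P`. -/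
theorem h1Res_eq_of_comap (P : Place Lbar ↥(modularFunctionFieldBar M))
    (v : Place ↥K ↥(modularFunctionFieldFullC ↥K M))
    (h : P.toValuationSubring.comap (iotaK ↥K M) = v.toValuationSubring) : h1Res K M P = v := by
  apply Place.ext
  rw [← h1Res_comap, h]

/-- Every place of `F_K` is the restriction of a place of `F_ℚ̄`. -/
theorem h1Res_surjective (v : Place ↥K ↥(modularFunctionFieldFullC ↥K M)) :
    ∃ P : Place Lbar ↥(modularFunctionFieldBar M), h1Res K M P = v := by
  obtain ⟨P, h1, h2, -⟩ := exists_place_above_intermediate K M v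
  exact ⟨P, h1Res_eq_of_comap K M P v
    (h1_comap_eq_of_above (iotaK ↥K M) P.toValuationSubring v.toValuationSubring h1 h2)⟩

theorem h1_iotaK_injective : Function.Injective (iotaK ↥K M) := (iotaK ↥K M).injective

/-- Rationality of the restriction from the values of `ι F_K` at `P`. -/
theorem h1_rational_res (P : Place Lbar ↥(modularFunctionFieldBar M))
    (hP : ∀ f : ↥(modularFunctionFieldFullC ↥K M), 0 ≤ P.ord (iotaK ↥K M f) →
      ∃ c : ↥K, iotaK ↥K M f =
          algebraMap Lbar ↥(modularFunctionFieldBar M) (c : Lbar) ∨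
        0 < P.ord (iotaK ↥K M f -
          algebraMap Lbar ↥(modularFunctionFieldBar M) (c : Lbar))) :
    Rational (h1Res K M P) := by
  obtain ⟨e, he0, he⟩ := h1Res_ord K M P
  intro f hf
  have h0 : 0 ≤ P.ord (iotaK ↥K M f) := by
    rw [he]
    positivity
  obtain ⟨c, hc | hc⟩ := hP f h0
  · refine ⟨c, Or.inl ?_⟩
    apply h1_iotaK_injective K M
    rw [hc]
    exact (iotaK_algebraMap ↥K M c).symm
  · refine ⟨c, Or.inr ?_⟩
    have hιc : iotaK ↥K M (algebraMap ↥K ↥(modularFunctionFieldFullC ↥K M) c) =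
        algebraMap Lbar ↥(modularFunctionFieldBar M) (c : Lbar) := iotaK_algebraMap ↥K M c
    rw [← hιc, ← map_sub, he] at hc
    have he' : (0 : ℤ) < e := by exact_mod_cast he0
    exact (mul_pos_iff_of_pos_left he').mp hc

/-- Above a rational restriction: `e = 1` and uniqueness. -/
theorem h1_transfer_one (P : Place Lbar ↥(modularFunctionFieldBar M))
    (hrat : Rational (h1Res K M P)) :
    (∀ f : ↥(modularFunctionFieldFullC ↥K M), P.ord (iotaK ↥K M f) = (h1Res K M P).ord f) ∧
      ∀ P' : Place Lbar ↥(modularFunctionFieldBar M), h1Res K M P' = h1Res K M P → P' = P := by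
  haveI := isIntegral_intermediate K
  refine ⟨fun f => ?_, fun P' hP' => ?_⟩
  · exact h1_ord_eq' (iotaK ↥K M) (iotaK_algebraMap ↥K M) (h1_hgen_iotaK ↥K M) P (h1Res K M P)
      (h1Res_comap K M P) hrat f
  · have h' : P'.toValuationSubring.comap (iotaK ↥K M) = (h1Res K M P).toValuationSubring := by
      rw [h1Res_comap, hP']
    exact (h1_place_unique' (iotaK ↥K M) (iotaK_algebraMap ↥K M) (h1_hgen_iotaK ↥K M) P P'
      (h1Res K M P) (h1Res_comap K M P) h' hrat).symm

/-- The rationality statement (T2) for one place. -/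
def H1T2 (P : Place Lbar ↥(modularFunctionFieldBar M)) : Prop :=
  ∃ K₀ : IntermediateField ℚ Lbar, FiniteDimensional ℚ K₀ ∧
    ∀ K : IntermediateField ℚ Lbar, K₀ ≤ K →
      ∀ f : ↥(modularFunctionFieldFullC ↥K M), 0 ≤ P.ord (iotaK ↥K M f) →
        ∃ c : ↥K, iotaK ↥K M f =
            algebraMap Lbar ↥(modularFunctionFieldBar M) (c : Lbar) ∨
          0 < P.ord (iotaK ↥K M f -
            algebraMap Lbar ↥(modularFunctionFieldBar M) (c : Lbar))

/-- (T2) for finitely many places at once. -/
theorem h1_T2_finset (hT2 : ∀ P : Place Lbar ↥(modularFunctionFieldBar M), H1T2 M P)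
    (S : Finset (Place Lbar ↥(modularFunctionFieldBar M))) :
    ∃ K₀ : IntermediateField ℚ Lbar, FiniteDimensional ℚ K₀ ∧
      ∀ K : IntermediateField ℚ Lbar, K₀ ≤ K → ∀ P ∈ S,
        ∀ f : ↥(modularFunctionFieldFullC ↥K M), 0 ≤ P.ord (iotaK ↥K M f) →
          ∃ c : ↥K, iotaK ↥K M f =
              algebraMap Lbar ↥(modularFunctionFieldBar M) (c : Lbar) ∨
            0 < P.ord (iotaK ↥K M f -
              algebraMap Lbar ↥(modularFunctionFieldBar M) (c : Lbar)) := by
  classical
  induction S using Finset.induction_on with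
  | empty =>
    exact ⟨⊥, inferInstance, fun K _ P hP => absurd hP (Finset.notMem_empty P)⟩
  | insert P S _ ih =>
    obtain ⟨K₁, hK₁, h₁⟩ := hT2 P
    obtain ⟨K₂, hK₂, h₂⟩ := ih
    refine ⟨K₁ ⊔ K₂, IntermediateField.finiteDimensional_sup K₁ K₂, fun K hK P' hP' => ?_⟩
    rcases Finset.mem_insert.mp hP' with rfl | hP'
    · exact h₁ K (le_trans le_sup_left hK)
    · exact h₂ K (le_trans le_sup_right hK) P' hP'

/-- **The transfer package**: `hrat`, `he`, `huniq` of `cons_asm` for the places of a finite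
set, over every sufficiently large number field. -/
theorem h1_transfer (hT2 : ∀ P : Place Lbar ↥(modularFunctionFieldBar M), H1T2 M P)
    (S : Finset (Place Lbar ↥(modularFunctionFieldBar M))) :
    ∃ K₀ : IntermediateField ℚ Lbar, FiniteDimensional ℚ K₀ ∧
      ∀ K : IntermediateField ℚ Lbar, K₀ ≤ K →
        (∀ P ∈ S, Rational (h1Res K M P)) ∧
        (∀ P ∈ S, ∀ f : ↥(modularFunctionFieldFullC ↥K M),
          P.ord (iotaK ↥K M f) = (h1Res K M P).ord f) ∧
        (∀ P ∈ S, ∀ P' : Place Lbar ↥(modularFunctionFieldBar M),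
          h1Res K M P' = h1Res K M P → P' = P) := by
  obtain ⟨K₀, hK₀, h⟩ := h1_T2_finset M hT2 S
  refine ⟨K₀, hK₀, fun K hK => ?_⟩
  have hrat : ∀ P ∈ S, Rational (h1Res K M P) := fun P hP =>
    h1_rational_res K M P (h K hK P hP)
  exact ⟨hrat, fun P hP => (h1_transfer_one K M P (hrat P hP)).1,
    fun P hP => (h1_transfer_one K M P (hrat P hP)).2⟩

end Fermat.Agent.S37x.Red.H1
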