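import Mathlib
import Fermat.Agent.S37x.Red.H1_Transfer
import Fermat.Agent.S37x.Red.H15_Rat

/-!
# S37 [RED-M] (b), the transfer of places `F_ℚ̄ ↔ F_K`, hypothesis-free (helper1)

`H1_Transfer` with the rationality statement (T2) discharged by helper15's `h15_rat`.

* `h1_T2 M P : H1T2 M P`;
* `h1_transfer_fin M S` : `hrat`, `he`, `huniq` of `cons_asm` for the places of a finite set `S`
  and every number field `K ≥ K₀`;
* `h1_transfer_quot M Da Db` : the same in the spelling of `cons_asm_quot`;
* `h1_rat_pack M S` : the bundled form (`∃ res` with `hres`, `hab`, `hrat`, `he`, `huniq`).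
-/

set_option autoImplicit false
set_option linter.unusedSectionVars false
set_option linter.style.haveILetI false
set_option synthInstance.maxHeartbeats 400000
set_option maxHeartbeats 1000000

open AlgebraicCurve ModularCurve HahnSeries IntermediateField

noncomputable section

namespace Fermat.Agent.S37x.Red.H1

open Fermat.Agent.S18x.Dict.H22 Fermat.Agent.S37x.Red.H11

local notation "Lbar" => AlgebraicClosure ℚ

variable (M : ℕ) [NeZero M]

/-- (T2), by helper15's `h15_rat`. -/
theorem h1_T2 (P : Place Lbar ↥(modularFunctionFieldBar M)) : H1T2 M P :=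
  Fermat.Agent.S37x.Red.H15.h15_rat M P

/-- **The transfer package, hypothesis-free**: `hrat`, `he`, `huniq` of `cons_asm` for the
places of a finite set, over every sufficiently large number field. -/
theorem h1_transfer_fin (S : Finset (Place Lbar ↥(modularFunctionFieldBar M))) :
    ∃ K₀ : IntermediateField ℚ Lbar, FiniteDimensional ℚ K₀ ∧
      ∀ K : IntermediateField ℚ Lbar, K₀ ≤ K →
        (∀ P ∈ S, Rational (h1Res K M P)) ∧
        (∀ P ∈ S, ∀ f : ↥(modularFunctionFieldFullC ↥K M),
          P.ord (iotaK ↥K M f) = (h1Res K M P).ord f) ∧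
        (∀ P ∈ S, ∀ P' : Place Lbar ↥(modularFunctionFieldBar M),
          h1Res K M P' = h1Res K M P → P' = P) :=
  h1_transfer M (h1_T2 M) S

/-- The transfer package in the spelling of `cons_asm_quot`. -/
theorem h1_transfer_quot (Da Db : Divisor Lbar ↥(modularFunctionFieldBar M)) :
    ∃ K₀ : IntermediateField ℚ Lbar, FiniteDimensional ℚ K₀ ∧
      ∀ K : IntermediateField ℚ Lbar, K₀ ≤ K →
        (∀ P, P ∈ Da.support ∨ P ∈ Db.support → Rational (h1Res K M P)) ∧
        (∀ P, P ∈ Da.support ∨ P ∈ Db.support → ∀ f : ↥(modularFunctionFieldFullC ↥K M),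
          P.ord (iotaK ↥K M f) = (h1Res K M P).ord f) ∧
        (∀ P, P ∈ Da.support ∨ P ∈ Db.support →
          ∀ P' : Place Lbar ↥(modularFunctionFieldBar M),
            h1Res K M P' = h1Res K M P → P' = P) := by
  classical
  obtain ⟨K₀, hK₀, h⟩ := h1_transfer_fin M (Da.support ∪ Db.support)
  refine ⟨K₀, hK₀, fun K hK => ?_⟩
  obtain ⟨h1, h2, h3⟩ := h K hK
  exact ⟨fun P hP => h1 P (Finset.mem_union.mpr hP), fun P hP => h2 P (Finset.mem_union.mpr hP),
    fun P hP => h3 P (Finset.mem_union.mpr hP)⟩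

/-- The bundled form: a restriction map with `hres`, `hab`, and `hrat`, `he`, `huniq` on `S`. -/
theorem h1_rat_pack (S : Finset (Place Lbar ↥(modularFunctionFieldBar M))) :
    ∃ K₀ : IntermediateField ℚ Lbar, FiniteDimensional ℚ K₀ ∧
      ∀ K : IntermediateField ℚ Lbar, K₀ ≤ K →
        ∃ res : Place Lbar ↥(modularFunctionFieldBar M) →
            Place ↥K ↥(modularFunctionFieldFullC ↥K M),
          (∀ P, P.toValuationSubring.comap (iotaK ↥K M) = (res P).toValuationSubring) ∧
          (∀ v : Place ↥K ↥(modularFunctionFieldFullC ↥K M), ∃ P, res P = v) ∧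
          ∀ P ∈ S, Rational (res P) ∧
            (∀ f : ↥(modularFunctionFieldFullC ↥K M), P.ord (iotaK ↥K M f) = (res P).ord f) ∧
            (∀ P', res P' = res P → P' = P) := by
  obtain ⟨K₀, hK₀, h⟩ := h1_transfer_fin M S
  refine ⟨K₀, hK₀, fun K hK => ⟨h1Res K M, h1Res_comap K M, h1Res_surjective K M, ?_⟩⟩
  obtain ⟨h1, h2, h3⟩ := h K hK
  exact fun P hP => ⟨h1 P hP, h2 P hP, h3 P hP⟩

end Fermat.Agent.S37x.Red.H1
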