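import Mathlib
import Fermat.Agent.S37x.Red.H7_ConsDefs
import Fermat.Agent.S18x.IG.H24_HsmFinal
import Fermat.Agent.S18x.IG.H29_CoordInv

/-!
# S37 / [RED-M] (b-asm), chart package (helper7)

For `O = A ∩ K` (`K` a number field in `ℚ̄`, `A` over `ℓ ∤ M`) and the coordinate
`x = coordM K M x₀` (resp. `x⁻¹`):

* `h7rho_chartX`, `h7rho_chartX_inv` : the reduction of the coordinate is the coordinate over
  `k = ResidueField A` (resp. its inverse) — independent of `K`;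
* `h7_pack_two`, `h7_pack_three` : at the levels `2 ∣ M` (`ℓ ≠ 2`), `3 ∣ M` (`ℓ ≠ 3`), for both
  charts `x = h`, `x = h⁻¹`: a uniformiser `π₀`, the saturation of the chart, and (SM) at every
  maximal ideal of the chart containing `π₀` (helper24), i.e. the "setting" of the centre
  dictionary and of `cons_asm`.
-/

set_option autoImplicit false
set_option linter.unusedSectionVars false
set_option linter.style.haveILetI false
set_option synthInstance.maxHeartbeats 400000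
set_option maxHeartbeats 1000000

noncomputable section

namespace Fermat.Agent.S37x.Red.H7

open AlgebraicCurve ModularCurve Polynomial
open Fermat.Agent.S18x.Dict.H20 Fermat.Agent.S18x.Dict.H23 Fermat.Agent.S18x.Spec.H26
open Fermat.Agent.S18x.IG Fermat.Agent.S18x.IG.H29

local notation "Lbar" => AlgebraicClosure ℚ

section Coord

variable (A : ValuationSubring Lbar) {ℓ : ℕ} (hℓ : ℓ.Prime) (hA : A.LiesOverPrime ℓ)
  (M : ℕ) [NeZero M] (hℓM : ¬ ℓ ∣ M) (K : IntermediateField ℚ Lbar)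
  [IsDiscreteValuationRing (A.comap (algebraMap ↥K Lbar))]
  (x₀ : LaurentSeries ℤ) (hord : x₀.order = -1) (hlead : x₀.coeff (-1) = 1)
  (hmem : coeffMap (Int.castRingHom ↥K) x₀ ∈ modularFunctionFieldFullC ↥K M)

/-- the reduction of the coordinate `x` is the coordinate over `k` -/
theorem h7rho_chartX :
    ((h7rho A hℓ hA M hℓM K (coordM ↥K M x₀ hmem)
        (coordM_mem_gaussValM (A.comap (algebraMap ↥K Lbar)) M x₀ hmem)
        (chartX (A.comap (algebraMap ↥K Lbar)) (coordM ↥K M x₀ hmem)) :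
        ↥(modularFunctionFieldFullC (IsLocalRing.ResidueField A) M)) :
      LaurentSeries (IsLocalRing.ResidueField A)) =
      coeffMap (Int.castRingHom (IsLocalRing.ResidueField A)) x₀ := by
  rw [coe_h7rho]
  have h1 := gaussRedM_coordM (A.comap (algebraMap ↥K Lbar)) M x₀ hmem
  have h2 : gaussRedM (A.comap (algebraMap ↥K Lbar)) M
      ⟨((chartX (A.comap (algebraMap ↥K Lbar)) (coordM ↥K M x₀ hmem) :
        ↥(chart (A.comap (algebraMap ↥K Lbar)) (coordM ↥K M x₀ hmem)).toSubring) :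
        ↥(modularFunctionFieldFullC ↥K M)), h7_chart_le (A.comap (algebraMap ↥K Lbar)) M
          (coordM ↥K M x₀ hmem) (coordM_mem_gaussValM (A.comap (algebraMap ↥K Lbar)) M x₀ hmem)
          _ (chartX (A.comap (algebraMap ↥K Lbar)) (coordM ↥K M x₀ hmem)).2⟩ =
      coeffMap (Int.castRingHom (IsLocalRing.ResidueField (A.comap (algebraMap ↥K Lbar)))) x₀ :=
    h1
  rw [h2, coeffMap_coeffMap]
  exact coeffMap_congr (RingHom.ext_int _ _) x₀

include hlead in
/-- the reduction of the coordinate `x⁻¹` is the inverse of the coordinate over `k` -/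
theorem h7rho_chartX_inv :
    ((h7rho A hℓ hA M hℓM K (coordM ↥K M x₀ hmem)⁻¹
        (coordM_inv_mem_gaussValM (A.comap (algebraMap ↥K Lbar)) M x₀ hlead hmem)
        (chartX (A.comap (algebraMap ↥K Lbar)) (coordM ↥K M x₀ hmem)⁻¹) :
        ↥(modularFunctionFieldFullC (IsLocalRing.ResidueField A) M)) :
      LaurentSeries (IsLocalRing.ResidueField A)) =
      (coeffMap (Int.castRingHom (IsLocalRing.ResidueField A)) x₀)⁻¹ := by
  rw [coe_h7rho]
  have h1 := gaussRedM_coordM_inv' (A.comap (algebraMap ↥K Lbar)) M x₀ hlead hmem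
  have h2 : gaussRedM (A.comap (algebraMap ↥K Lbar)) M
      ⟨((chartX (A.comap (algebraMap ↥K Lbar)) (coordM ↥K M x₀ hmem)⁻¹ :
        ↥(chart (A.comap (algebraMap ↥K Lbar)) (coordM ↥K M x₀ hmem)⁻¹).toSubring) :
        ↥(modularFunctionFieldFullC ↥K M)), h7_chart_le (A.comap (algebraMap ↥K Lbar)) M
          (coordM ↥K M x₀ hmem)⁻¹
          (coordM_inv_mem_gaussValM (A.comap (algebraMap ↥K Lbar)) M x₀ hlead hmem)
          _ (chartX (A.comap (algebraMap ↥K Lbar)) (coordM ↥K M x₀ hmem)⁻¹).2⟩ =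
      (coeffMap (Int.castRingHom
        (IsLocalRing.ResidueField (A.comap (algebraMap ↥K Lbar)))) x₀)⁻¹ :=
    h1
  rw [h2, map_inv₀, coeffMap_coeffMap,
    coeffMap_congr (RingHom.ext_int ((h23_resEmb (K := ↥K) A).comp (Int.castRingHom _))
      (Int.castRingHom (IsLocalRing.ResidueField A))) x₀]

end Coord

section Const

variable {K : Type} [Field K] [CharZero K] (O : ValuationSubring K) [IsDiscreteValuationRing O]
  (M : ℕ) [NeZero M]
  [Algebra O ↥(modularFunctionFieldFullC K M)]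
  [IsScalarTower O K ↥(modularFunctionFieldFullC K M)]
  (ℓ : ℕ) [Fact ℓ.Prime] [CharP (IsLocalRing.ResidueField O) ℓ] (hℓM : ¬ ℓ ∣ M)
  (x : ↥(modularFunctionFieldFullC K M)) (hxV : x ∈ gaussValM O M)

/-- the reduction of a constant is a constant (`hρO` of helper11's `cons_u2`) -/
theorem h7red_const (c : O) :
    h7red O M ℓ hℓM x hxV
        ⟨algebraMap O ↥(modularFunctionFieldFullC K M) c, (chart O x).algebraMap_mem c⟩ =
      algebraMap (IsLocalRing.ResidueField O)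
        ↥(modularFunctionFieldFullC (IsLocalRing.ResidueField O) M) (IsLocalRing.residue O c) := by
  apply Subtype.ext
  rw [coe_h7red]
  show _ = algebraMap (IsLocalRing.ResidueField O) (LaurentSeries (IsLocalRing.ResidueField O))
    (IsLocalRing.residue O c)
  rw [Fermat.Agent.S18x.IG.H10.h10_algebraMap_laurent]
  exact gaussRedM_algebraMap_O O M c

end Const

/-- **The setting at `(K, x, π₀)`**: the coordinate facts, the saturation of the chart and (SM)
at every closed point of the special fibre of the chart. -/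
structure H7Setting (A : ValuationSubring Lbar) (M : ℕ) [NeZero M]
    (K : IntermediateField ℚ Lbar) [IsDiscreteValuationRing (A.comap (algebraMap ↥K Lbar))]
    (x : ↥(modularFunctionFieldFullC ↥K M)) (π₀ : A.comap (algebraMap ↥K Lbar)) : Prop where
  irr : Irreducible π₀
  mem : x ∈ gaussValM (A.comap (algebraMap ↥K Lbar)) M
  tr : Transcendental (A.comap (algebraMap ↥K Lbar)) x
  fin : H26FinOver (A.comap (algebraMap ↥K Lbar)) x
  sat : ∀ v ∈ gaussValM (A.comap (algebraMap ↥K Lbar)) M,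
    algebraMap (A.comap (algebraMap ↥K Lbar)) ↥(modularFunctionFieldFullC ↥K M) π₀ * v ∈
      chart (A.comap (algebraMap ↥K Lbar)) x → v ∈ chart (A.comap (algebraMap ↥K Lbar)) x
  sm : HSMChart (A.comap (algebraMap ↥K Lbar)) x π₀

section Levels

variable (A : ValuationSubring Lbar) {ℓ : ℕ} (hℓ : ℓ.Prime) (hA : A.LiesOverPrime ℓ)
  (M : ℕ) [NeZero M]

open Fermat.Agent.S18x.IG.H28 Fermat.Agent.S18x.Dict.H7

include hℓ hA in
/-- the setting for a coordinate with an identity `j * D(x₀) = N(x₀)`, from (SM) -/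
theorem h7_setting_of_identity (hℓM : ¬ ℓ ∣ M) (K : IntermediateField ℚ Lbar)
    [IsDiscreteValuationRing (A.comap (algebraMap ↥K Lbar))]
    (x₀ : LaurentSeries ℤ) (hord : x₀.order = -1) (hlead : x₀.coeff (-1) = 1)
    (hmem : coeffMap (Int.castRingHom ↥K) x₀ ∈ modularFunctionFieldFullC ↥K M)
    (N D : ℤ[X]) (hN : N.Monic) (hD : D.Monic) (hdeg : D.natDegree < N.natDegree)
    (hD0 : D.coeff 0 = 0) (n₀ : ℕ) (hn₀ : N.coeff 0 = (n₀ : ℤ)) (hℓn₀ : ¬ ℓ ∣ n₀)
    (hid : jqModC ℤ * aeval x₀ D = aeval x₀ N)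
    (π₀ : A.comap (algebraMap ↥K Lbar)) (hπ₀ : Irreducible π₀)
    (hSM₁ : HSMChart (A.comap (algebraMap ↥K Lbar)) (coordM ↥K M x₀ hmem) π₀)
    (hSM₂ : HSMChart (A.comap (algebraMap ↥K Lbar)) (coordM ↥K M x₀ hmem)⁻¹ π₀) :
    H7Setting A M K (coordM ↥K M x₀ hmem) π₀ ∧ H7Setting A M K (coordM ↥K M x₀ hmem)⁻¹ π₀ := by
  haveI := h7_isScalarTower A M K
  obtain ⟨s1, s2⟩ := h24_hsat_of_identity A hℓ hA M hℓM K x₀ hord hlead hmem N D hN hD hdeg hD0
    n₀ hn₀ hℓn₀ hid π₀ hπ₀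
  exact ⟨⟨hπ₀, coordM_mem_gaussValM _ M x₀ hmem,
      transcendental_coordM_O _ M x₀ hord hlead hmem, finOver_coordM _ M x₀ hord hlead hmem,
      s1, hSM₁⟩,
    ⟨hπ₀, coordM_inv_mem_gaussValM _ M x₀ hlead hmem,
      transcendental_coordM_inv_O _ M x₀ hord hlead hmem,
      finOver_coordM_inv _ M x₀ hord hlead hmem, s2, hSM₂⟩⟩

include hℓ hA in
/-- **The setting at level `2 ∣ M`, `ℓ ≠ 2`**, charts of `h₂` and `h₂⁻¹`, over every number
field. -/
theorem h7_setting_two (hℓ2 : ℓ ≠ 2) (h2M : 2 ∣ M) (hℓM : ¬ ℓ ∣ M)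
    (K : IntermediateField ℚ Lbar) [hK : FiniteDimensional ℚ K]
    [hdvr : IsDiscreteValuationRing (A.comap (algebraMap ↥K Lbar))] :
    ∃ π₀ : A.comap (algebraMap ↥K Lbar),
      H7Setting A M K (h7x2 M ↥K h2M) π₀ ∧ H7Setting A M K (h7x2 M ↥K h2M)⁻¹ π₀ := by
  obtain ⟨π₀, hπ₀, hSM₁, hSM₂⟩ := h24_hSM_all_two A hℓ hA M hℓ2 h2M hℓM K hK hdvr
  refine ⟨π₀, h7_setting_of_identity A hℓ hA M hℓM K h2 h7_order_h2 coeff_h2_neg_one
    (h7_mem_two M ↥K h2M) ((X + C 256) ^ 3) (X ^ 2) ((monic_X_add_C 256).pow 3) (monic_X_pow 2)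
    ?_ ?_ (256 ^ 3) ?_ ?_ ?_ π₀ hπ₀ hSM₁ hSM₂⟩
  · rw [natDegree_X_pow, natDegree_pow, natDegree_X_add_C]
    norm_num
  · rw [coeff_X_pow]
    norm_num
  · rw [coeff_zero_eq_eval_zero, eval_pow, eval_add, eval_X, eval_C]
    norm_num
  · intro h
    have h1 : ℓ ∣ 2 := by
      have h2 : (256 : ℕ) ^ 3 = 2 ^ 24 := by norm_num
      rw [h2] at h
      exact hℓ.dvd_of_dvd_pow h
    exact hℓ2 ((Nat.prime_dvd_prime_iff_eq hℓ Nat.prime_two).mp h1)
  · rw [map_pow, map_pow, map_add, aeval_X, aeval_C]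
    have e : algebraMap ℤ (LaurentSeries ℤ) 256 = 256 := map_ofNat _ 256
    rw [e]
    exact j_h2

include hℓ hA in
/-- **The setting at level `3 ∣ M`, `ℓ ≠ 3`**, charts of `h₃` and `h₃⁻¹`, over every number
field. -/
theorem h7_setting_three (hℓ3 : ℓ ≠ 3) (h3M : 3 ∣ M) (hℓM : ¬ ℓ ∣ M)
    (K : IntermediateField ℚ Lbar) [hK : FiniteDimensional ℚ K]
    [hdvr : IsDiscreteValuationRing (A.comap (algebraMap ↥K Lbar))] :
    ∃ π₀ : A.comap (algebraMap ↥K Lbar),
      H7Setting A M K (h7x3 M ↥K h3M) π₀ ∧ H7Setting A M K (h7x3 M ↥K h3M)⁻¹ π₀ := by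
  obtain ⟨π₀, hπ₀, hSM₁, hSM₂⟩ := h24_hSM_all_three A hℓ hA M hℓ3 h3M hℓM K hK hdvr
  refine ⟨π₀, h7_setting_of_identity A hℓ hA M hℓM K h3 h7_order_h3 coeff_h3_neg_one
    (h7_mem_three M ↥K h3M) ((X + C 243) ^ 3 * (X + C 27)) (X ^ 3)
    (((monic_X_add_C 243).pow 3).mul (monic_X_add_C 27)) (monic_X_pow 3) ?_ ?_
    (243 ^ 3 * 27) ?_ ?_ ?_ π₀ hπ₀ hSM₁ hSM₂⟩
  · rw [natDegree_X_pow,
      (((monic_X_add_C (243 : ℤ)).pow 3).natDegree_mul (monic_X_add_C 27)),
      natDegree_pow, natDegree_X_add_C, natDegree_X_add_C]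
    norm_num
  · rw [coeff_X_pow]
    norm_num
  · rw [coeff_zero_eq_eval_zero, eval_mul, eval_pow, eval_add, eval_add, eval_X, eval_C, eval_C]
    norm_num
  · intro h
    have h1 : ℓ ∣ 3 := by
      have h2 : (243 : ℕ) ^ 3 * 27 = 3 ^ 18 := by norm_num
      rw [h2] at h
      exact hℓ.dvd_of_dvd_pow h
    exact hℓ3 ((Nat.prime_dvd_prime_iff_eq hℓ Nat.prime_three).mp h1)
  · rw [map_pow, map_mul, map_pow, map_add, map_add, aeval_X, aeval_C, aeval_C]
    have e : algebraMap ℤ (LaurentSeries ℤ) 243 = 243 := map_ofNat _ 243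
    have e' : algebraMap ℤ (LaurentSeries ℤ) 27 = 27 := map_ofNat _ 27
    rw [e, e']
    exact j_h3

end Levels

section Consequences

variable {A : ValuationSubring Lbar} {ℓ : ℕ} (hℓ : ℓ.Prime) (hA : A.LiesOverPrime ℓ)
  {M : ℕ} [NeZero M] (hℓM : ¬ ℓ ∣ M) {K : IntermediateField ℚ Lbar}
  [IsDiscreteValuationRing (A.comap (algebraMap ↥K Lbar))]
  {x : ↥(modularFunctionFieldFullC ↥K M)} {π₀ : A.comap (algebraMap ↥K Lbar)}

/-- the chart is noetherian -/
theorem H7Setting.noeth (h : H7Setting A M K x π₀) :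
    IsNoetherianRing ↥(chart (A.comap (algebraMap ↥K Lbar)) x).toSubring :=
  h26_isNoetherianRing_chart (A.comap (algebraMap ↥K Lbar)) h.tr h.fin

/-- `hfrac` of `cons_asm` -/
theorem H7Setting.hfrac (h : H7Setting A M K x π₀) (z : ↥(modularFunctionFieldFullC ↥K M)) :
    ∃ a b : ↥(chart (A.comap (algebraMap ↥K Lbar)) x).toSubring, b ≠ 0 ∧
      z * (b : ↥(modularFunctionFieldFullC ↥K M)) = (a : ↥(modularFunctionFieldFullC ↥K M)) :=
  h26_chart_hfrac (A.comap (algebraMap ↥K Lbar)) h.tr h.fin z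

include hℓ hA hℓM in
/-- `hπp` of `cons_asm` -/
theorem H7Setting.hπp (h : H7Setting A M K x π₀) :
    (Ideal.span {chartPi (A.comap (algebraMap ↥K Lbar)) x π₀}).IsPrime :=
  h7_hπp A hℓ hA M hℓM K x h.mem π₀ h.irr h.sat

/-- `hρπ` of `cons_asm` -/
theorem H7Setting.hρπ (h : H7Setting A M K x π₀) :
    h7rho A hℓ hA M hℓM K x h.mem (chartPi (A.comap (algebraMap ↥K Lbar)) x π₀) = 0 :=
  h7rho_pi A hℓ hA M hℓM K x h.mem π₀ h.irr

/-- `hρ0` of `cons_asm` -/
theorem H7Setting.hρ0 (h : H7Setting A M K x π₀)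
    (b : ↥(chart (A.comap (algebraMap ↥K Lbar)) x).toSubring)
    (hb : b ∉ Ideal.span {chartPi (A.comap (algebraMap ↥K Lbar)) x π₀}) :
    h7rho A hℓ hA M hℓM K x h.mem b ≠ 0 :=
  h7rho_ne_zero A hℓ hA M hℓM K x h.mem π₀ h.irr h.sat b hb

end Consequences

end Fermat.Agent.S37x.Red.H7
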