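import Mathlib
import Fermat.Agent.S37x.Red.H7_ConsChart
import Fermat.Agent.S37x.Red.H2_ConsDefs
import Fermat.Agent.S37x.Red.H11_ConsR
import Fermat.Agent.S37x.Red.H29_CentreK
import Fermat.Agent.S37x.Red.H1_CentreK
import Fermat.Agent.S37x.Red.H1_CentreMaxInst
import Fermat.Agent.S37x.Red.H1_TransferInst
import Fermat.Agent.S37x.Red.H20_WaCore

/-!
# S37 / [RED-M] (b-asm), the plug at one number field (helper7)

`A` a valuation subring of `ℚ̄` over `ℓ ∤ M`, `K` a number field, `O = A ∩ K` a discrete valuation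
ring, `x ∈ F_K` a coordinate with the setting `H7Setting A M K x π₀`, `B = chart O x`,
`ρ = h7rho : B → F̄_k`, `ρ' = h7red : B → F̄_κ`.

* `H7RSide` : the `r`-side at `(K, x)`: a regularity predicate on the places of `F_ℚ̄` with the
  four properties `hReg1`, `hReg2`, `hU2`, `hU2n` of helper11's `hr1_of_u2`, `hr2_of_u2`;
* `H7Frac` : `F̄_κ = Frac (ρ' B)` (`hfrac'` of helper11 / helper1);
* `h7_centre` : the centre bundle (X2) at a place `Q` of the special fibre which is regular on the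
  chart: `𝔫 := placeCentre`, maximal, `∋ π`, with (SM)-witness `t`, `hQs`, `hQt`;
* `h7_consAt` : helper2's `H2ConsAt A M r K x Q S` from the setting, the regularity of `Q` on the
  chart, `hunif`, the transfer package on `S`, `H7Frac` and `H7RSide`.
-/

set_option autoImplicit false
set_option linter.unusedSectionVars false
set_option linter.unusedVariables false
set_option linter.style.haveILetI false
set_option synthInstance.maxHeartbeats 400000
set_option maxHeartbeats 1000000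

noncomputable section

namespace Fermat.Agent.S37x.Red.H7

open AlgebraicCurve ModularCurve Polynomial IntermediateField
open Fermat.Agent.S18x.Dict.H20 Fermat.Agent.S18x.Dict.H22 Fermat.Agent.S18x.Dict.H23
open Fermat.Agent.S18x.Spec.H26 Fermat.Agent.S18x.IG

local notation "Lbar" => AlgebraicClosure ℚ

section Defs

variable (A : ValuationSubring Lbar) {ℓ : ℕ} (hℓ : ℓ.Prime) (hA : A.LiesOverPrime ℓ)
  (M : ℕ) [NeZero M] (hℓM : ¬ ℓ ∣ M)
  (r : Place Lbar ↥(modularFunctionFieldBar M) →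
    Place (IsLocalRing.ResidueField A)
      ↥(modularFunctionFieldFullC (IsLocalRing.ResidueField A) M))
  (K : IntermediateField ℚ Lbar)
  [IsDiscreteValuationRing (A.comap (algebraMap ↥K Lbar))]
  (x : ↥(modularFunctionFieldFullC ↥K M))
  (hxV : x ∈ gaussValM (A.comap (algebraMap ↥K Lbar)) M)

/-- **The `r`-side at `(K, x)`**: a regularity predicate `Reg` on the places of the generic fibre
with the properties `hReg1`, `hReg2`, `hU2`, `hU2n` of helper11's `hr1_of_u2` / `hr2_of_u2`, for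
`ρ := h7rho`. -/
def H7RSide : Prop :=
  ∃ Reg : Place Lbar ↥(modularFunctionFieldBar M) → Prop,
    (∀ P, Reg P → ∀ b : ↥(chart (A.comap (algebraMap ↥K Lbar)) x).toSubring,
      0 ≤ P.ord (iotaK ↥K M (b : ↥(modularFunctionFieldFullC ↥K M)))) ∧
    (∀ P, (∀ b : ↥(chart (A.comap (algebraMap ↥K Lbar)) x).toSubring,
      ∃ c : A.comap (algebraMap ↥K Lbar),
        (b : ↥(modularFunctionFieldFullC ↥K M)) =
            algebraMap (A.comap (algebraMap ↥K Lbar)) ↥(modularFunctionFieldFullC ↥K M) c ∨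
          0 < P.ord (iotaK ↥K M ((b : ↥(modularFunctionFieldFullC ↥K M)) -
            algebraMap (A.comap (algebraMap ↥K Lbar)) ↥(modularFunctionFieldFullC ↥K M) c))) →
      Reg P) ∧
    (∀ P, Reg P → ∀ b : ↥(chart (A.comap (algebraMap ↥K Lbar)) x).toSubring,
      0 < P.ord (iotaK ↥K M (b : ↥(modularFunctionFieldFullC ↥K M))) →
        h7rho A hℓ hA M hℓM K x hxV b = 0 ∨ 0 < (r P).ord (h7rho A hℓ hA M hℓM K x hxV b)) ∧
    (∀ P, ¬ Reg P → ∃ b : ↥(chart (A.comap (algebraMap ↥K Lbar)) x).toSubring,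
      (r P).ord (h7rho A hℓ hA M hℓM K x hxV b) < 0)

/-- **`F̄_κ = Frac (ρ' B)`** for `ρ' := h7red` (`hfrac'` of helper11's `hr2_of_u2` and of
helper1's `h1_exists_unif`). -/
def H7Frac : Prop :=
  haveI := h7_isScalarTower A M K
  haveI : Fact ℓ.Prime := ⟨hℓ⟩
  haveI : CharP (IsLocalRing.ResidueField (A.comap (algebraMap ↥K Lbar))) ℓ :=
    h23_charP_residueField (K := ↥K) A hℓ hA
  ∀ e : ↥(modularFunctionFieldFullC (IsLocalRing.ResidueField (A.comap (algebraMap ↥K Lbar))) M),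
    ∃ a b : ↥(chart (A.comap (algebraMap ↥K Lbar)) x).toSubring,
      h7red (A.comap (algebraMap ↥K Lbar)) M ℓ hℓM x hxV b ≠ 0 ∧
      e * h7red (A.comap (algebraMap ↥K Lbar)) M ℓ hℓM x hxV b =
        h7red (A.comap (algebraMap ↥K Lbar)) M ℓ hℓM x hxV a

end Defs

section Centre

variable {A : ValuationSubring Lbar} {ℓ : ℕ} (hℓ : ℓ.Prime) (hA : A.LiesOverPrime ℓ)
  {M : ℕ} [NeZero M] (hℓM : ¬ ℓ ∣ M) {K : IntermediateField ℚ Lbar}
  [IsDiscreteValuationRing (A.comap (algebraMap ↥K Lbar))]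
  {x : ↥(modularFunctionFieldFullC ↥K M)} {π₀ : A.comap (algebraMap ↥K Lbar)}

/-- the formula of `h7rho` on Laurent series, in the spelling of helper29's `hρ` -/
theorem h7rho_coe (hxV : x ∈ gaussValM (A.comap (algebraMap ↥K Lbar)) M)
    (b : ↥(chart (A.comap (algebraMap ↥K Lbar)) x).toSubring)
    (hb : (b : ↥(modularFunctionFieldFullC ↥K M)) ∈ gaussValM (A.comap (algebraMap ↥K Lbar)) M) :
    ((h7rho A hℓ hA M hℓM K x hxV b :
        ↥(modularFunctionFieldFullC (IsLocalRing.ResidueField A) M)) :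
      LaurentSeries (IsLocalRing.ResidueField A)) =
      coeffMap (h23_resEmb (K := ↥K) A)
        (gaussRedM (A.comap (algebraMap ↥K Lbar)) M
          ⟨(b : ↥(modularFunctionFieldFullC ↥K M)), hb⟩) :=
  rfl

/-- **(K1)** the chart is regular at `Q` as soon as its coordinate is -/
theorem H7Setting.reg (h : H7Setting A M K x π₀)
    (Q : Place (IsLocalRing.ResidueField A)
      ↥(modularFunctionFieldFullC (IsLocalRing.ResidueField A) M))
    (hx : 0 ≤ Q.ord (h7rho A hℓ hA M hℓM K x h.mem (chartX (A.comap (algebraMap ↥K Lbar)) x)))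
    (b : ↥(chart (A.comap (algebraMap ↥K Lbar)) x).toSubring) :
    0 ≤ Q.ord (h7rho A hℓ hA M hℓM K x h.mem b) :=
  haveI := h7_isScalarTower A M K
  Fermat.Agent.S37x.Red.H29.centreK_reg (A.comap (algebraMap ↥K Lbar)) M (h23_resEmb (K := ↥K) A)
    x (h7rho A hℓ hA M hℓM K x h.mem) (h7rho_coe hℓ hA hℓM h.mem) Q hx b

/-- **The centre bundle (X2)** at a place `Q` of the special fibre which is regular on the
chart. -/
theorem H7Setting.centre (h : H7Setting A M K x π₀)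
    (Q : Place (IsLocalRing.ResidueField A)
      ↥(modularFunctionFieldFullC (IsLocalRing.ResidueField A) M))
    (hx : 0 ≤ Q.ord (h7rho A hℓ hA M hℓM K x h.mem (chartX (A.comap (algebraMap ↥K Lbar)) x)))
    (hunif : ∃ b₁ b₂ : ↥(chart (A.comap (algebraMap ↥K Lbar)) x).toSubring,
      h7rho A hℓ hA M hℓM K x h.mem b₁ ≠ 0 ∧ h7rho A hℓ hA M hℓM K x h.mem b₂ ≠ 0 ∧
        Q.ord (h7rho A hℓ hA M hℓM K x h.mem b₁) -
          Q.ord (h7rho A hℓ hA M hℓM K x h.mem b₂) = 1) :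
    ∃ (𝔫 : Ideal ↥(chart (A.comap (algebraMap ↥K Lbar)) x).toSubring)
      (t : ↥(chart (A.comap (algebraMap ↥K Lbar)) x).toSubring),
      𝔫.IsMaximal ∧ chartPi (A.comap (algebraMap ↥K Lbar)) x π₀ ∈ 𝔫 ∧ t ∈ 𝔫 ∧
      (∀ y ∈ 𝔫, ∃ s : ↥(chart (A.comap (algebraMap ↥K Lbar)) x).toSubring, s ∉ 𝔫 ∧
        ∃ u v : ↥(chart (A.comap (algebraMap ↥K Lbar)) x).toSubring,
          s * y = chartPi (A.comap (algebraMap ↥K Lbar)) x π₀ * u + t * v) ∧
      (∀ s : ↥(chart (A.comap (algebraMap ↥K Lbar)) x).toSubring, s ∉ 𝔫 →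
        Q.ord (h7rho A hℓ hA M hℓM K x h.mem s) = 0) ∧
      Q.ord (h7rho A hℓ hA M hℓM K x h.mem t) = 1 ∧
      (∀ b, b ∈ 𝔫 ↔ h7rho A hℓ hA M hℓM K x h.mem b = 0 ∨
        0 < Q.ord (h7rho A hℓ hA M hℓM K x h.mem b)) := by
  haveI := h7_isScalarTower A M K
  have hreg := h.reg hℓ hA hℓM Q hx
  have h𝔫 := Fermat.Agent.S37x.Red.H29.mem_placeCentre (A.comap (algebraMap ↥K Lbar)) M x
    (h7rho A hℓ hA M hℓM K x h.mem) Q hreg
  have hmax : (Fermat.Agent.S37x.Red.H29.placeCentre (A.comap (algebraMap ↥K Lbar)) M x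
      (h7rho A hℓ hA M hℓM K x h.mem) Q).IsMaximal :=
    Fermat.Agent.S37x.Red.H1.h1_centre_isMaximal_res A M hℓ hA _ Q _ h𝔫 hreg
  have hπ𝔫 : chartPi (A.comap (algebraMap ↥K Lbar)) x π₀ ∈
      Fermat.Agent.S37x.Red.H29.placeCentre (A.comap (algebraMap ↥K Lbar)) M x
        (h7rho A hℓ hA M hℓM K x h.mem) Q :=
    (h𝔫 _).mpr (Or.inl (h.hρπ hℓ hA hℓM))
  obtain ⟨t, ht, hSM⟩ := h.sm _ hmax hπ𝔫
  have hQt := (Fermat.Agent.S37x.Red.H20.ord_witness_eq_one (h7rho A hℓ hA M hℓM K x h.mem)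
    (chartPi (A.comap (algebraMap ↥K Lbar)) x π₀) (h.hρπ hℓ hA hℓM) Q hreg _ h𝔫 t ht hSM
    hunif).2
  refine ⟨_, t, hmax, hπ𝔫, ht, hSM, fun s hs => ?_, hQt, h𝔫⟩
  rw [h𝔫] at hs
  push Not at hs
  exact le_antisymm hs.2 (hreg s)

end Centre

section At

variable {A : ValuationSubring Lbar} {ℓ : ℕ} (hℓ : ℓ.Prime) (hA : A.LiesOverPrime ℓ)
  {M : ℕ} [NeZero M] (hℓM : ¬ ℓ ∣ M)
  (r : Place Lbar ↥(modularFunctionFieldBar M) →
    Place (IsLocalRing.ResidueField A)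
      ↥(modularFunctionFieldFullC (IsLocalRing.ResidueField A) M))
  {K : IntermediateField ℚ Lbar}
  [IsDiscreteValuationRing (A.comap (algebraMap ↥K Lbar))]
  {x : ↥(modularFunctionFieldFullC ↥K M)} {π₀ : A.comap (algebraMap ↥K Lbar)}

open Fermat.Agent.S37x.Red.H1 Fermat.Agent.S37x.Red.H11 in
/-- **The inputs of `cons_asm_quot` at `(K, x, Q, S)`** (helper2's `H2ConsAt`) from the setting,
the regularity of `Q` on the chart, `hunif`, the transfer package on `S`, `H7Frac` and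
`H7RSide`. -/
theorem H7Setting.consAt (h : H7Setting A M K x π₀)
    (Q : Place (IsLocalRing.ResidueField A)
      ↥(modularFunctionFieldFullC (IsLocalRing.ResidueField A) M))
    (S : Finset (Place Lbar ↥(modularFunctionFieldBar M)))
    (hx : 0 ≤ Q.ord (h7rho A hℓ hA M hℓM K x h.mem (chartX (A.comap (algebraMap ↥K Lbar)) x)))
    (hunif : ∃ b₁ b₂ : ↥(chart (A.comap (algebraMap ↥K Lbar)) x).toSubring,
      h7rho A hℓ hA M hℓM K x h.mem b₁ ≠ 0 ∧ h7rho A hℓ hA M hℓM K x h.mem b₂ ≠ 0 ∧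
        Q.ord (h7rho A hℓ hA M hℓM K x h.mem b₁) -
          Q.ord (h7rho A hℓ hA M hℓM K x h.mem b₂) = 1)
    (hrat : ∀ P ∈ S, Rational (h1Res K M P))
    (he : ∀ P ∈ S, ∀ f : ↥(modularFunctionFieldFullC ↥K M),
      P.ord (iotaK ↥K M f) = (h1Res K M P).ord f)
    (huniq : ∀ P ∈ S, ∀ P' : Place Lbar ↥(modularFunctionFieldBar M),
      h1Res K M P' = h1Res K M P → P' = P)
    (hfrac' : H7Frac A hℓ hA M hℓM K x h.mem)
    (hR : H7RSide A hℓ hA M hℓM r K x h.mem) :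
    Fermat.Agent.S37x.Red.H2.H2ConsAt A M r K x Q S := by
  haveI := h7_isScalarTower A M K
  haveI : Fact ℓ.Prime := ⟨hℓ⟩
  haveI : CharP (IsLocalRing.ResidueField (A.comap (algebraMap ↥K Lbar))) ℓ :=
    h23_charP_residueField (K := ↥K) A hℓ hA
  letI := h1ResAlgebra (K := ↥K) A
  haveI := h.noeth
  haveI : Algebra.IsIntegral ↥K Lbar := Fermat.Agent.S18x.Dict.H22.isIntegral_intermediate K
  haveI : Algebra.IsAlgebraic ↥K Lbar := Algebra.IsIntegral.isAlgebraic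
  obtain ⟨𝔫, t, hmax, hπ𝔫, ht, hSM, hQs, hQt, -⟩ := h.centre hℓ hA hℓM Q hx hunif
  obtain ⟨Reg, hReg1, hReg2, hU2, hU2n⟩ := hR
  have hπp := h.hπp hℓ hA hℓM
  have hρπ := h.hρπ hℓ hA hℓM
  have hρ0 := h.hρ0 hℓ hA hℓM
  refine ⟨π₀, h.irr, h.noeth, hπp, h.hfrac, 𝔫, t, h7rho A hℓ hA M hℓM K x h.mem, h1Res K M,
    hmax, hπ𝔫, ht, hSM, hρπ, hρ0, fun b hb => rfl, hQs, hQt, h1Res_comap K M,
    h1Res_surjective K M, hrat, he, huniq, ?_, ?_⟩
  · intro P hPQ
    exact hr1_of_u2 π₀ h.irr (chart (A.comap (algebraMap ↥K Lbar)) x).toSubring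
      (h7_hOB A M K x) hπp 𝔫 hmax hπ𝔫 t ht hSM (iotaK ↥K M) (h7rho A hℓ hA M hℓM K x h.mem)
      hρπ hρ0 Q hQs hQt (h1Res K M) (h1Res_comap K M) r Reg hReg1 hU2 hU2n P hPQ
  · intro P hP hc
    exact hr2_of_u2 (κ := IsLocalRing.ResidueField (A.comap (algebraMap ↥K Lbar)))
      π₀ h.irr (chart (A.comap (algebraMap ↥K Lbar)) x).toSubring
      (h7_hOB A M K x) hπp 𝔫 hmax hπ𝔫 t ht hSM (iotaK ↥K M) (h7rho A hℓ hA M hℓM K x h.mem)
      hρπ hρ0 Q hQs hQt (h1Res K M) (h1Res_comap K M) r Reg hReg2 hU2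
      (h1IotaFull (IsLocalRing.ResidueField (A.comap (algebraMap ↥K Lbar)))
        (IsLocalRing.ResidueField A) M)
      (h1IotaFull_algebraMap (IsLocalRing.ResidueField (A.comap (algebraMap ↥K Lbar)))
        (IsLocalRing.ResidueField A) M)
      (h1_hgen_res (K := ↥K) A M)
      (h7red (A.comap (algebraMap ↥K Lbar)) M ℓ hℓM x h.mem) (fun _ => rfl) hfrac'
      (fun c => ⟨_, h7red_const (A.comap (algebraMap ↥K Lbar)) M ℓ hℓM x h.mem c⟩)
      P (hrat P hP) hc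

/-- helper2's `H2Chart` from the setting -/
theorem H7Setting.h2chart (h : H7Setting A M K x π₀) :
    Fermat.Agent.S37x.Red.H2.H2Chart A M K x :=
  ⟨h.mem, h.hfrac, π₀, h.irr, h.sat⟩

end At

end Fermat.Agent.S37x.Red.H7
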