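import Mathlib
import Fermat.Agent.S37x.Red.H7_ConsPlug
import Fermat.Agent.S37x.Red.H11_ConsRInst
import Fermat.Agent.S37x.Red.H2_ConsTop
import Fermat.Agent.S37x.Red.H22_RedCoord

/-!
# S37 / [RED-M] (b-asm) = [CONS], the final plug (helper7)

`A` a valuation subring of `ℚ̄` over `ℓ ∤ M`; `x₀ = q⁻¹ + …` an integral coordinate with
`x K := coordM K M x₀ ∈ F_K` for every number field `K`, `xL := coordL M x₀ ∈ F_ℚ̄`.

* `h7_consInputs_coord` : helper2's `H2ConsInputs A M r x` for every `r` with helper22's `RSpec`,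
  from the setting on both charts over every number field (`hset`) and `F̄_κ = Frac (ρ' B)`
  (`hfrac`);
* `h7_cons_coord` : `IsPlaceReductionModL A M r` (through helper2's `h2cons_top`);
* `h7_cons_two_of`, `h7_cons_three_of` : the levels `2 ∣ M`, `3 ∣ M` (`hset` discharged), in the
  spelling `hcons` of helper22's `stRed_two`, `stRed_three`.
-/

set_option autoImplicit false
set_option linter.unusedSectionVars false
set_option linter.unusedVariables false
set_option linter.style.haveILetI false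
set_option synthInstance.maxHeartbeats 400000
set_option maxHeartbeats 1000000

noncomputable section

namespace Fermat.Agent.S37x.Red.H7

open AlgebraicCurve ModularCurve Polynomial IntermediateField
open Fermat.Agent.S18x.Dict.H20 Fermat.Agent.S18x.Dict.H22 Fermat.Agent.S18x.Dict.H23
open Fermat.Agent.S18x.Spec.H26 Fermat.Agent.S18x.IG Fermat.Agent.S18x.IG.H29
open Fermat.Agent.S37x.Red.H22

local notation "Lbar" => AlgebraicClosure ℚ

section Coord

variable (A : ValuationSubring Lbar) {ℓ : ℕ} (hℓ : ℓ.Prime) (hA : A.LiesOverPrime ℓ)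
  (M : ℕ) [NeZero M] (hℓM : ¬ ℓ ∣ M)
  (x₀ : LaurentSeries ℤ) (hord : x₀.order = -1) (hlead : x₀.coeff (-1) = 1)
  (hmem : ∀ K : IntermediateField ℚ Lbar,
    coeffMap (Int.castRingHom ↥K) x₀ ∈ modularFunctionFieldFullC ↥K M)

include hlead in
/-- the reduction of the coordinate of the chart at infinity is the inverse of the reduction of
the coordinate -/
theorem h7rho_chartX_inv_eq (K : IntermediateField ℚ Lbar)
    [IsDiscreteValuationRing (A.comap (algebraMap ↥K Lbar))]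
    (hxV : coordM ↥K M x₀ (hmem K) ∈ gaussValM (A.comap (algebraMap ↥K Lbar)) M)
    (hxV' : (coordM ↥K M x₀ (hmem K))⁻¹ ∈ gaussValM (A.comap (algebraMap ↥K Lbar)) M) :
    h7rho A hℓ hA M hℓM K (coordM ↥K M x₀ (hmem K))⁻¹ hxV'
        (chartX (A.comap (algebraMap ↥K Lbar)) (coordM ↥K M x₀ (hmem K))⁻¹) =
      (h7rho A hℓ hA M hℓM K (coordM ↥K M x₀ (hmem K)) hxV
        (chartX (A.comap (algebraMap ↥K Lbar)) (coordM ↥K M x₀ (hmem K))))⁻¹ := by
  apply Subtype.ext
  have h1 := h7rho_chartX_inv A hℓ hA M hℓM K x₀ hlead (hmem K)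
  have h2 := h7rho_chartX A hℓ hA M hℓM K x₀ (hmem K)
  rw [h1]
  show _ = ((h7rho A hℓ hA M hℓM K (coordM ↥K M x₀ (hmem K)) hxV
    (chartX (A.comap (algebraMap ↥K Lbar)) (coordM ↥K M x₀ (hmem K))) :
      ↥(modularFunctionFieldFullC (IsLocalRing.ResidueField A) M)) :
    LaurentSeries (IsLocalRing.ResidueField A))⁻¹
  rw [← h2]

include hord hlead in
/-- **The inputs of the conservation law** (helper2's `H2ConsInputs`) for the coordinate `x₀`
and every `r` with `RSpec`. -/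
theorem h7_consInputs_coord
    (hset : ∀ K : IntermediateField ℚ Lbar, FiniteDimensional ℚ ↥K →
      ∀ _ : IsDiscreteValuationRing (A.comap (algebraMap ↥K Lbar)),
        ∃ π₀ : A.comap (algebraMap ↥K Lbar),
          H7Setting A M K (coordM ↥K M x₀ (hmem K)) π₀ ∧
          H7Setting A M K (coordM ↥K M x₀ (hmem K))⁻¹ π₀)
    (hfrac : ∀ K : IntermediateField ℚ Lbar, FiniteDimensional ℚ ↥K →
      ∀ _ : IsDiscreteValuationRing (A.comap (algebraMap ↥K Lbar)),
        ∀ (x : ↥(modularFunctionFieldFullC ↥K M)) (π₀ : A.comap (algebraMap ↥K Lbar))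
          (h : H7Setting A M K x π₀), H7Frac A hℓ hA M hℓM K x h.mem)
    (r : Place Lbar ↥(modularFunctionFieldBar M) →
      Place (IsLocalRing.ResidueField A)
        ↥(modularFunctionFieldFullC (IsLocalRing.ResidueField A) M))
    (hr : RSpec A M hℓ hA hℓM (coordL M x₀ hmem) r) :
    Fermat.Agent.S37x.Red.H2.H2ConsInputs A M r (fun K => coordM ↥K M x₀ (hmem K)) := by
  refine ⟨fun K K' => (iotaK_coordM M x₀ hmem K).trans (iotaK_coordM M x₀ hmem K').symm,
    fun K hK hdvr => ?_, fun Q S => ?_⟩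
  · obtain ⟨π₀, h1, h2⟩ := hset K hK hdvr
    exact ⟨h1.h2chart, h2.h2chart⟩
  · obtain ⟨K₁, hK₁, hu⟩ := Fermat.Agent.S37x.Red.H1.h1_exists_unif A M hℓ hA Q
    obtain ⟨K₂, hK₂, ht⟩ := Fermat.Agent.S37x.Red.H1.h1_transfer_fin M S
    haveI := hK₁
    haveI := hK₂
    refine ⟨K₁ ⊔ K₂, IntermediateField.finiteDimensional_sup K₁ K₂, fun K hK hKf hdvr => ?_⟩
    haveI := hdvr
    obtain ⟨π₀, h1, h2⟩ := hset K hKf hdvr
    obtain ⟨hrat, he, huniq⟩ := ht K (le_sup_right.trans hK)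
    by_cases hx : 0 ≤ Q.ord (h7rho A hℓ hA M hℓM K (coordM ↥K M x₀ (hmem K)) h1.mem
        (chartX (A.comap (algebraMap ↥K Lbar)) (coordM ↥K M x₀ (hmem K))))
    · left
      have hf := hfrac K hKf hdvr _ π₀ h1
      exact h1.consAt hℓ hA hℓM r Q S hx
        (hu K (le_sup_left.trans hK)
          (h7rho A hℓ hA M hℓM K (coordM ↥K M x₀ (hmem K)) h1.mem) _ (fun _ => rfl) hf)
        hrat he huniq hf
        ⟨_, Fermat.Agent.S37x.Red.H11.u2_of_rSpec A hℓ hA M hℓM K (coordM ↥K M x₀ (hmem K))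
          h1.mem h2.mem (iotaK_coordM M x₀ hmem K) hr⟩
    · right
      have hx' : 0 ≤ Q.ord (h7rho A hℓ hA M hℓM K (coordM ↥K M x₀ (hmem K))⁻¹ h2.mem
          (chartX (A.comap (algebraMap ↥K Lbar)) (coordM ↥K M x₀ (hmem K))⁻¹)) := by
        rw [h7rho_chartX_inv_eq A hℓ hA M hℓM x₀ hlead hmem K h1.mem h2.mem, Q.ord_inv]
        omega
      have hf := hfrac K hKf hdvr _ π₀ h2
      exact h2.consAt hℓ hA hℓM r Q S hx'
        (hu K (le_sup_left.trans hK)
          (h7rho A hℓ hA M hℓM K (coordM ↥K M x₀ (hmem K))⁻¹ h2.mem) _ (fun _ => rfl) hf)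
        hrat he huniq hf
        ⟨_, Fermat.Agent.S37x.Red.H11.u2_of_rSpec_inv A hℓ hA M hℓM K
          (coordM ↥K M x₀ (hmem K)) h1.mem h2.mem (iotaK_coordM M x₀ hmem K) hr⟩

include hord hlead in
/-- **[CONS] for the coordinate `x₀`**: every `r` with `RSpec` is a place reduction mod `ℓ`. -/
theorem h7_cons_coord
    (hset : ∀ K : IntermediateField ℚ Lbar, FiniteDimensional ℚ ↥K →
      ∀ _ : IsDiscreteValuationRing (A.comap (algebraMap ↥K Lbar)),
        ∃ π₀ : A.comap (algebraMap ↥K Lbar),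
          H7Setting A M K (coordM ↥K M x₀ (hmem K)) π₀ ∧
          H7Setting A M K (coordM ↥K M x₀ (hmem K))⁻¹ π₀)
    (hfrac : ∀ K : IntermediateField ℚ Lbar, FiniteDimensional ℚ ↥K →
      ∀ _ : IsDiscreteValuationRing (A.comap (algebraMap ↥K Lbar)),
        ∀ (x : ↥(modularFunctionFieldFullC ↥K M)) (π₀ : A.comap (algebraMap ↥K Lbar))
          (h : H7Setting A M K x π₀), H7Frac A hℓ hA M hℓM K x h.mem)
    (r : Place Lbar ↥(modularFunctionFieldBar M) →
      Place (IsLocalRing.ResidueField A)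
        ↥(modularFunctionFieldFullC (IsLocalRing.ResidueField A) M))
    (hr : RSpec A M hℓ hA hℓM (coordL M x₀ hmem) r) :
    IsPlaceReductionModL A M r :=
  Fermat.Agent.S37x.Red.H2.h2cons_top A hℓ hA M r _
    (h7_consInputs_coord A hℓ hA M hℓM x₀ hord hlead hmem hset hfrac r hr)

end Coord

section Levels

variable (A : ValuationSubring Lbar) {ℓ : ℕ} (hℓ : ℓ.Prime) (hA : A.LiesOverPrime ℓ)
  (M : ℕ) [NeZero M] (hℓM : ¬ ℓ ∣ M)

/-- **[CONS] at level `2 ∣ M`, `ℓ ≠ 2`** (`hcons` of helper22's `stRed_two`), modulo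
`F̄_κ = Frac (ρ' B)`. -/
theorem h7_cons_two_of (hM : 2 ∣ M) (hℓ2 : ℓ ≠ 2)
    (hfrac : ∀ K : IntermediateField ℚ Lbar, FiniteDimensional ℚ ↥K →
      ∀ _ : IsDiscreteValuationRing (A.comap (algebraMap ↥K Lbar)),
        ∀ (x : ↥(modularFunctionFieldFullC ↥K M)) (π₀ : A.comap (algebraMap ↥K Lbar))
          (h : H7Setting A M K x π₀), H7Frac A hℓ hA M hℓM K x h.mem) :
    ∀ r, RSpec A M hℓ hA hℓM (coordL M H28.h2 (h2_mem_inter M hM)) r →
      IsPlaceReductionModL A M r :=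
  fun r hr => h7_cons_coord A hℓ hA M hℓM H28.h2 Fermat.Agent.S18x.Dict.H7.h7_order_h2
    H28.coeff_h2_neg_one (h2_mem_inter M hM)
    (fun K hK hdvr => h7_setting_two A hℓ hA M hℓ2 hM hℓM K) hfrac r hr

/-- **[CONS] at level `3 ∣ M`, `ℓ ≠ 3`** (`hcons` of helper22's `stRed_three`), modulo
`F̄_κ = Frac (ρ' B)`. -/
theorem h7_cons_three_of (hM : 3 ∣ M) (hℓ3 : ℓ ≠ 3)
    (hfrac : ∀ K : IntermediateField ℚ Lbar, FiniteDimensional ℚ ↥K →
      ∀ _ : IsDiscreteValuationRing (A.comap (algebraMap ↥K Lbar)),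
        ∀ (x : ↥(modularFunctionFieldFullC ↥K M)) (π₀ : A.comap (algebraMap ↥K Lbar))
          (h : H7Setting A M K x π₀), H7Frac A hℓ hA M hℓM K x h.mem) :
    ∀ r, RSpec A M hℓ hA hℓM (coordL M H28.h3 (h3_mem_inter M hM)) r →
      IsPlaceReductionModL A M r :=
  fun r hr => h7_cons_coord A hℓ hA M hℓM H28.h3 Fermat.Agent.S18x.Dict.H7.h7_order_h3
    H28.coeff_h3_neg_one (h3_mem_inter M hM)
    (fun K hK hdvr => h7_setting_three A hℓ hA M hℓ3 hM hℓM K) hfrac r hr

end Levels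

end Fermat.Agent.S37x.Red.H7
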