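import Mathlib
import Fermat.Agent.S37x.Red.H7_ConsTop
import Fermat.Agent.S37x.Red.H29_CentreTop

/-!
# S37 / [RED-M] (b-asm) = [CONS], hypothesis-free at the levels `2 ∣ M` and `3 ∣ M` (helper7)

* `H7Setting.frac` : `F̄_κ = Frac (ρ' B)` for `ρ' = h7red` (helper29's `exists_frac_red`);
* `h7_cons_two`, `h7_cons_three` : for `ℓ ∤ M`, `2 ∣ M`, `ℓ ≠ 2` (resp. `3 ∣ M`, `ℓ ≠ 3`), every
  map of places `r` with helper22's `RSpec` for the Hauptmodul is a place reduction mod `ℓ`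
  (`IsPlaceReductionModL A M r`): the hypothesis `hcons` of helper22's `stRed_two`,
  `stRedOne_two` (resp. `_three`), verbatim.
-/

set_option autoImplicit false
set_option linter.unusedSectionVars false
set_option linter.unusedVariables false
set_option linter.style.haveILetI false
set_option synthInstance.maxHeartbeats 400000
set_option maxHeartbeats 1000000

noncomputable section

namespace Fermat.Agent.S37x.Red.H7

open AlgebraicCurve ModularCurve Polynomial IntermediateField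
open Fermat.Agent.S18x.Dict.H20 Fermat.Agent.S18x.Dict.H22 Fermat.Agent.S18x.Dict.H23
open Fermat.Agent.S18x.Spec.H26 Fermat.Agent.S18x.IG Fermat.Agent.S18x.IG.H29
open Fermat.Agent.S37x.Red.H22

local notation "Lbar" => AlgebraicClosure ℚ

variable (A : ValuationSubring Lbar) {ℓ : ℕ} (hℓ : ℓ.Prime) (hA : A.LiesOverPrime ℓ)
  (M : ℕ) [NeZero M] (hℓM : ¬ ℓ ∣ M)

/-- **`F̄_κ = Frac (ρ' B)`** for `ρ' = h7red`, from the setting. -/
theorem H7Setting.frac {K : IntermediateField ℚ Lbar}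
    [IsDiscreteValuationRing (A.comap (algebraMap ↥K Lbar))]
    {x : ↥(modularFunctionFieldFullC ↥K M)} {π₀ : A.comap (algebraMap ↥K Lbar)}
    (h : H7Setting A M K x π₀) : H7Frac A hℓ hA M hℓM K x h.mem := by
  haveI := h7_isScalarTower A M K
  haveI : Fact ℓ.Prime := ⟨hℓ⟩
  haveI : CharP (IsLocalRing.ResidueField (A.comap (algebraMap ↥K Lbar))) ℓ :=
    h23_charP_residueField (K := ↥K) A hℓ hA
  intro e
  exact Fermat.Agent.S37x.Red.H29.exists_frac_red (A.comap (algebraMap ↥K Lbar)) M x h.mem π₀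
    h.irr h.tr h.fin h.sat (h7red (A.comap (algebraMap ↥K Lbar)) M ℓ hℓM x h.mem)
    (fun _ _ => rfl) e

/-- **[CONS] at level `2 ∣ M`, `ℓ ≠ 2`**: every `r` with `RSpec` for the Hauptmodul of level `2`
is a place reduction mod `ℓ`. -/
theorem h7_cons_two (hM : 2 ∣ M) (hℓ2 : ℓ ≠ 2) :
    ∀ r, RSpec A M hℓ hA hℓM (coordL M H28.h2 (h2_mem_inter M hM)) r →
      IsPlaceReductionModL A M r :=
  h7_cons_two_of A hℓ hA M hℓM hM hℓ2
    (fun K hK hdvr x π₀ h => h.frac A hℓ hA M hℓM)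

/-- **[CONS] at level `3 ∣ M`, `ℓ ≠ 3`**: every `r` with `RSpec` for the Hauptmodul of level `3`
is a place reduction mod `ℓ`. -/
theorem h7_cons_three (hM : 3 ∣ M) (hℓ3 : ℓ ≠ 3) :
    ∀ r, RSpec A M hℓ hA hℓM (coordL M H28.h3 (h3_mem_inter M hM)) r →
      IsPlaceReductionModL A M r :=
  h7_cons_three_of A hℓ hA M hℓM hM hℓ3
    (fun K hK hdvr x π₀ h => h.frac A hℓ hA M hℓM)

end Fermat.Agent.S37x.Red.H7
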