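import Mathlib
import Fermat.Agent.S37x.Red.H7_ConsFinal
import Fermat.Agent.S37x.Red.H20_WaLift
import Fermat.Agent.S37x.Red.H22_Top

/-!
# S37 / [RED-M] (ζ-K): weak approximation on the charts over the number fields (helper7)

* `h7_stWAK_of` : helper20's `StWAK` for a coordinate family `x` with the setting over every
  number field and reduction `T'` (from helper20's `wa_core`, helper29's `placeCentre`,
  helper1's `h1_exists_unif`, `h1_exists_sep_finset`, `h1_centre_isMaximal_res`);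
* `h7_stWAG_coord` : helper20's `StWAG` on both charts of an integral coordinate `x₀`;
* `h7_stWAG_two`, `h7_stWAG_three` : the levels `2 ∣ M`, `3 ∣ M`, in the spelling `hwa`, `hwa'` of
  helper22's `stRedOne_two`, `stRedOne_three`.
-/

set_option autoImplicit false
set_option linter.unusedSectionVars false
set_option linter.unusedVariables false
set_option linter.style.haveILetI false
set_option synthInstance.maxHeartbeats 400000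
set_option maxHeartbeats 1000000

noncomputable section

namespace Fermat.Agent.S37x.Red.H7

open AlgebraicCurve ModularCurve Polynomial IntermediateField
open Fermat.Agent.S18x.Dict.H20 Fermat.Agent.S18x.Dict.H22 Fermat.Agent.S18x.Dict.H23
open Fermat.Agent.S18x.Spec.H26 Fermat.Agent.S18x.IG Fermat.Agent.S18x.IG.H29
open Fermat.Agent.S37x.Red.H22 Fermat.Agent.S37x.Red.H20

local notation "Lbar" => AlgebraicClosure ℚ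

variable (A : ValuationSubring Lbar) {ℓ : ℕ} (hℓ : ℓ.Prime) (hA : A.LiesOverPrime ℓ)
  (M : ℕ) [NeZero M] (hℓM : ¬ ℓ ∣ M)

/-- **(ζ-K)** weak approximation on the chart of a coordinate family with the setting over every
number field. -/
theorem h7_stWAK_of
    (x : ∀ K : IntermediateField ℚ Lbar, ↥(modularFunctionFieldFullC ↥K M))
    (T' : ↥(modularFunctionFieldFullC (IsLocalRing.ResidueField A) M))
    (hset : ∀ K : IntermediateField ℚ Lbar, FiniteDimensional ℚ ↥K →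
      ∀ _ : IsDiscreteValuationRing (A.comap (algebraMap ↥K Lbar)),
        ∃ (π₀ : A.comap (algebraMap ↥K Lbar)) (h : H7Setting A M K (x K) π₀),
          h7rho A hℓ hA M hℓM K (x K) h.mem
            (chartX (A.comap (algebraMap ↥K Lbar)) (x K)) = T') :
    StWAK A M hℓ hA hℓM x T' := by
  intro Q 𝒯 hreg0
  obtain ⟨K₁, hK₁, hu⟩ := Fermat.Agent.S37x.Red.H1.h1_exists_unif A M hℓ hA Q
  obtain ⟨K₂, hK₂, hs⟩ := Fermat.Agent.S37x.Red.H1.h1_exists_sep_finset A M hℓ hA Q 𝒯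
  haveI := hK₁
  haveI := hK₂
  have hKf : FiniteDimensional ℚ ↥(K₁ ⊔ K₂) := IntermediateField.finiteDimensional_sup K₁ K₂
  haveI := hKf
  have hdvr : IsDiscreteValuationRing (A.comap (algebraMap ↥(K₁ ⊔ K₂) Lbar)) :=
    h23_isDVR_intermediate A hℓ hA (K₁ ⊔ K₂)
  haveI := hdvr
  obtain ⟨π₀, h, hT⟩ := hset (K₁ ⊔ K₂) hKf hdvr
  refine ⟨K₁ ⊔ K₂, hdvr, h.mem, ?_⟩
  haveI := h7_isScalarTower A M (K₁ ⊔ K₂)
  haveI : Fact ℓ.Prime := ⟨hℓ⟩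
  haveI : CharP (IsLocalRing.ResidueField (A.comap (algebraMap ↥(K₁ ⊔ K₂) Lbar))) ℓ :=
    h23_charP_residueField (K := ↥(K₁ ⊔ K₂)) A hℓ hA
  letI := Fermat.Agent.S37x.Red.H1.h1ResAlgebra (K := ↥(K₁ ⊔ K₂)) A
  haveI := h.noeth
  have hρπ := h.hρπ hℓ hA hℓM
  have hreg : ∀ Q', (Q' = Q ∨ Q' ∈ 𝒯) →
      ∀ b, 0 ≤ Q'.ord (h7rho A hℓ hA M hℓM (K₁ ⊔ K₂) (x (K₁ ⊔ K₂)) h.mem b) := by
    intro Q' hQ'
    refine h.reg hℓ hA hℓM Q' ?_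
    rw [hT]
    exact hreg0 Q' hQ'
  have h𝔫 : ∀ Q', (Q' = Q ∨ Q' ∈ 𝒯) → ∀ b,
      b ∈ Fermat.Agent.S37x.Red.H29.placeCentre (A.comap (algebraMap ↥(K₁ ⊔ K₂) Lbar)) M
          (x (K₁ ⊔ K₂)) (h7rho A hℓ hA M hℓM (K₁ ⊔ K₂) (x (K₁ ⊔ K₂)) h.mem) Q' ↔
        h7rho A hℓ hA M hℓM (K₁ ⊔ K₂) (x (K₁ ⊔ K₂)) h.mem b = 0 ∨
          0 < Q'.ord (h7rho A hℓ hA M hℓM (K₁ ⊔ K₂) (x (K₁ ⊔ K₂)) h.mem b) :=
    fun Q' hQ' => Fermat.Agent.S37x.Red.H29.mem_placeCentre _ M _ _ Q' (hreg Q' hQ')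
  have hmax : ∀ Q', (Q' = Q ∨ Q' ∈ 𝒯) →
      (Fermat.Agent.S37x.Red.H29.placeCentre (A.comap (algebraMap ↥(K₁ ⊔ K₂) Lbar)) M
          (x (K₁ ⊔ K₂)) (h7rho A hℓ hA M hℓM (K₁ ⊔ K₂) (x (K₁ ⊔ K₂)) h.mem) Q').IsMaximal :=
    fun Q' hQ' => Fermat.Agent.S37x.Red.H1.h1_centre_isMaximal_res A M hℓ hA _ Q' _
      (h𝔫 Q' hQ') (hreg Q' hQ')
  have hπ𝔫 : chartPi (A.comap (algebraMap ↥(K₁ ⊔ K₂) Lbar)) (x (K₁ ⊔ K₂)) π₀ ∈
      Fermat.Agent.S37x.Red.H29.placeCentre (A.comap (algebraMap ↥(K₁ ⊔ K₂) Lbar)) M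
        (x (K₁ ⊔ K₂)) (h7rho A hℓ hA M hℓM (K₁ ⊔ K₂) (x (K₁ ⊔ K₂)) h.mem) Q :=
    (h𝔫 Q (Or.inl rfl) _).mpr (Or.inl hρπ)
  have hSM := h.sm _ (hmax Q (Or.inl rfl)) hπ𝔫
  have hfrac := h.frac A hℓ hA M hℓM
  have hprime : Prime (chartPi (A.comap (algebraMap ↥(K₁ ⊔ K₂) Lbar)) (x (K₁ ⊔ K₂)) π₀) :=
    Fermat.Agent.S37x.Red.H11.chart_pi_prime ↥(K₁ ⊔ K₂) π₀ h.irr
      (chart (A.comap (algebraMap ↥(K₁ ⊔ K₂) Lbar)) (x (K₁ ⊔ K₂))).toSubring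
      (h7_hOB A M (K₁ ⊔ K₂) (x (K₁ ⊔ K₂))) (h.hπp hℓ hA hℓM)
  have hker : ∀ b : ↥(chart (A.comap (algebraMap ↥(K₁ ⊔ K₂) Lbar)) (x (K₁ ⊔ K₂))).toSubring,
      h7red (A.comap (algebraMap ↥(K₁ ⊔ K₂) Lbar)) M ℓ hℓM (x (K₁ ⊔ K₂)) h.mem b = 0 ↔
        chartPi (A.comap (algebraMap ↥(K₁ ⊔ K₂) Lbar)) (x (K₁ ⊔ K₂)) π₀ ∣ b := by
    intro b
    constructor
    · exact h7red_dvd _ M ℓ hℓM _ h.mem π₀ h.irr h.sat b
    · rintro ⟨c, rfl⟩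
      rw [map_mul, h7red_pi _ M ℓ hℓM _ h.mem π₀ h.irr, zero_mul]
  have hunif := hu (K₁ ⊔ K₂) le_sup_left
    (h7rho A hℓ hA M hℓM (K₁ ⊔ K₂) (x (K₁ ⊔ K₂)) h.mem)
    (h7red (A.comap (algebraMap ↥(K₁ ⊔ K₂) Lbar)) M ℓ hℓM (x (K₁ ⊔ K₂)) h.mem)
    (fun _ => rfl) hfrac
  have hsep := hs (K₁ ⊔ K₂) le_sup_right
    (chartPi (A.comap (algebraMap ↥(K₁ ⊔ K₂) Lbar)) (x (K₁ ⊔ K₂)) π₀) hprime
    (h7rho A hℓ hA M hℓM (K₁ ⊔ K₂) (x (K₁ ⊔ K₂)) h.mem)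
    (h7red (A.comap (algebraMap ↥(K₁ ⊔ K₂) Lbar)) M ℓ hℓM (x (K₁ ⊔ K₂)) h.mem)
    (fun _ => rfl) hker hfrac
    (Fermat.Agent.S37x.Red.H29.placeCentre (A.comap (algebraMap ↥(K₁ ⊔ K₂) Lbar)) M
      (x (K₁ ⊔ K₂)) (h7rho A hℓ hA M hℓM (K₁ ⊔ K₂) (x (K₁ ⊔ K₂)) h.mem))
    h𝔫 hreg (hmax Q (Or.inl rfl)).isPrime hSM
  exact wa_core (h7rho A hℓ hA M hℓM (K₁ ⊔ K₂) (x (K₁ ⊔ K₂)) h.mem)
    (chartPi (A.comap (algebraMap ↥(K₁ ⊔ K₂) Lbar)) (x (K₁ ⊔ K₂)) π₀) hρπ Q 𝒯 hreg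
    (Fermat.Agent.S37x.Red.H29.placeCentre (A.comap (algebraMap ↥(K₁ ⊔ K₂) Lbar)) M
      (x (K₁ ⊔ K₂)) (h7rho A hℓ hA M hℓM (K₁ ⊔ K₂) (x (K₁ ⊔ K₂)) h.mem))
    h𝔫 hmax hSM hunif hsep

section Coord

variable (x₀ : LaurentSeries ℤ) (hord : x₀.order = -1) (hlead : x₀.coeff (-1) = 1)
  (hmem : ∀ K : IntermediateField ℚ Lbar,
    coeffMap (Int.castRingHom ↥K) x₀ ∈ modularFunctionFieldFullC ↥K M)

include hord hlead in
/-- **(ζ)** helper20's `StWAG` on both charts of an integral coordinate. -/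
theorem h7_stWAG_coord
    (hset : ∀ K : IntermediateField ℚ Lbar, FiniteDimensional ℚ ↥K →
      ∀ _ : IsDiscreteValuationRing (A.comap (algebraMap ↥K Lbar)),
        ∃ π₀ : A.comap (algebraMap ↥K Lbar),
          H7Setting A M K (coordM ↥K M x₀ (hmem K)) π₀ ∧
          H7Setting A M K (coordM ↥K M x₀ (hmem K))⁻¹ π₀) :
    StWAG A M hℓ hA hℓM (coordL M x₀ hmem) (coordL_mem_gaussL A M x₀ hmem) ∧
    StWAG A M hℓ hA hℓM (coordL M x₀ hmem)⁻¹ (coordL_inv_mem_gaussL A M x₀ hlead hmem) := by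
  constructor
  · refine stWAG_of_stWAK A M hℓ hA hℓM (fun K => coordM ↥K M x₀ (hmem K)) _
      (fun K => iotaK_coordM M x₀ hmem K) _ ?_
    refine h7_stWAK_of A hℓ hA M hℓM _ _ (fun K hK hdvr => ?_)
    obtain ⟨π₀, h1, h2⟩ := hset K hK hdvr
    refine ⟨π₀, h1, ?_⟩
    exact (redL_coordL A M hℓ hA hℓM x₀ hmem _ (h7rho_chartX A hℓ hA M hℓM K x₀ (hmem K))).symm
  · refine stWAG_of_stWAK A M hℓ hA hℓM (fun K => (coordM ↥K M x₀ (hmem K))⁻¹) _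
      (fun K => by rw [map_inv₀, iotaK_coordM M x₀ hmem K]) _ ?_
    refine h7_stWAK_of A hℓ hA M hℓM _ _ (fun K hK hdvr => ?_)
    obtain ⟨π₀, h1, h2⟩ := hset K hK hdvr
    refine ⟨π₀, h2, ?_⟩
    rw [h7rho_chartX_inv_eq A hℓ hA M hℓM x₀ hlead hmem K h1.mem h2.mem]
    exact (redL_coordL_inv A M hℓ hA hℓM x₀ hlead hmem _
      (h7rho_chartX A hℓ hA M hℓM K x₀ (hmem K))).symm

end Coord

/-- **(ζ) at level `2 ∣ M`, `ℓ ≠ 2`** (`hwa`, `hwa'` of helper22's `stRedOne_two`). -/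
theorem h7_stWAG_two (hM : 2 ∣ M) (hℓ2 : ℓ ≠ 2) :
    StWAG A M hℓ hA hℓM (coordL M H28.h2 (h2_mem_inter M hM))
      (coordL_mem_gaussL A M H28.h2 (h2_mem_inter M hM)) ∧
    StWAG A M hℓ hA hℓM (coordL M H28.h2 (h2_mem_inter M hM))⁻¹
      (coordL_inv_mem_gaussL A M H28.h2 H28.coeff_h2_neg_one (h2_mem_inter M hM)) :=
  h7_stWAG_coord A hℓ hA M hℓM H28.h2 Fermat.Agent.S18x.Dict.H7.h7_order_h2
    H28.coeff_h2_neg_one (h2_mem_inter M hM)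
    (fun K hK hdvr => h7_setting_two A hℓ hA M hℓ2 hM hℓM K)

/-- **(ζ) at level `3 ∣ M`, `ℓ ≠ 3`** (`hwa`, `hwa'` of helper22's `stRedOne_three`). -/
theorem h7_stWAG_three (hM : 3 ∣ M) (hℓ3 : ℓ ≠ 3) :
    StWAG A M hℓ hA hℓM (coordL M H28.h3 (h3_mem_inter M hM))
      (coordL_mem_gaussL A M H28.h3 (h3_mem_inter M hM)) ∧
    StWAG A M hℓ hA hℓM (coordL M H28.h3 (h3_mem_inter M hM))⁻¹
      (coordL_inv_mem_gaussL A M H28.h3 H28.coeff_h3_neg_one (h3_mem_inter M hM)) :=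
  h7_stWAG_coord A hℓ hA M hℓM H28.h3 Fermat.Agent.S18x.Dict.H7.h7_order_h3
    H28.coeff_h3_neg_one (h3_mem_inter M hM)
    (fun K hK hdvr => h7_setting_three A hℓ hA M hℓ3 hM hℓM K)

end Fermat.Agent.S37x.Red.H7
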