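import Mathlib
import Fermat.Agent.S18x.IG.Defs

/-!
# S37 [RED-M] (c2), the abstract core of (WA): CRT + Nakayama in element form (helper16)

Setting: `B` a commutative ring, `π : B`, `𝔫` a maximal ideal with (SM) in element form
(`Fermat.Agent.S18x.IG.HSM π 𝔫`: there is `t ∈ 𝔫` such that every `y ∈ 𝔫` satisfies
`s * y = π * u + t * w` with `s ∉ 𝔫`), and finitely many further maximal ideals.

* `sq_local`           : elements of `𝔫 ^ 2` lie, locally at `𝔫`, in `π B + t 𝔫`;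
* `hSM_of_sub_mem_sq`  : **Nakayama**: a second generator may be changed modulo `𝔫 ^ 2`;
* `exists_crt`         : **CRT**: `g ≡ t mod 𝔫 ^ 2` and `g ≡ c 𝔫' mod 𝔫'` at finitely many
                         maximal ideals `𝔫' ≠ 𝔫`;
* `wa_core_val`, `wa_core` : a second generator `g` of `𝔫` (locally, modulo `π`) with prescribed
                         residues (resp. residue `1`) at finitely many other maximal ideals;
* `hSM_of_wa_core`     : the same in the spelling `IG.HSM`.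

No noetherian, domain or dimension hypothesis is used.
-/

set_option autoImplicit false

namespace Fermat.Agent.S37x.Red.H16

open Ideal

variable {B : Type*} [CommRing B]

/-- Elements of `𝔫 ^ 2` lie, locally at `𝔫`, in `π B + t 𝔫`. -/
theorem sq_local (π t : B) (𝔫 : Ideal B) (h𝔫 : 𝔫.IsPrime)
    (hSM : ∀ y ∈ 𝔫, ∃ s : B, s ∉ 𝔫 ∧ ∃ u w : B, s * y = π * u + t * w) :
    ∀ z ∈ 𝔫 ^ 2, ∃ S : B, S ∉ 𝔫 ∧ ∃ U W : B, W ∈ 𝔫 ∧ S * z = π * U + t * W := by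
  intro z hz
  rw [pow_two] at hz
  refine Submodule.mul_induction_on hz ?_ ?_
  · intro x hx y hy
    obtain ⟨s, hs, u, w, h⟩ := hSM x hx
    refine ⟨s, hs, u * y, w * y, 𝔫.mul_mem_left w hy, ?_⟩
    rw [show s * (x * y) = s * x * y by ring, h]
    ring
  · rintro z₁ z₂ ⟨S₁, hS₁, U₁, W₁, hW₁, h₁⟩ ⟨S₂, hS₂, U₂, W₂, hW₂, h₂⟩
    refine ⟨S₁ * S₂, fun h => (h𝔫.mem_or_mem h).elim hS₁ hS₂, S₂ * U₁ + S₁ * U₂,
      S₂ * W₁ + S₁ * W₂, 𝔫.add_mem (𝔫.mul_mem_left _ hW₁) (𝔫.mul_mem_left _ hW₂), ?_⟩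
    linear_combination S₂ * h₁ + S₁ * h₂

/-- **Nakayama in element form**: if `t` generates `𝔫` locally modulo `π` and `g ≡ t` modulo
`𝔫 ^ 2`, then `g` generates `𝔫` locally modulo `π`. -/
theorem hSM_of_sub_mem_sq (π t g : B) (𝔫 : Ideal B) (h𝔫 : 𝔫.IsPrime)
    (hSM : ∀ y ∈ 𝔫, ∃ s : B, s ∉ 𝔫 ∧ ∃ u w : B, s * y = π * u + t * w)
    (hg : g - t ∈ 𝔫 ^ 2) :
    ∀ y ∈ 𝔫, ∃ s : B, s ∉ 𝔫 ∧ ∃ u w : B, s * y = π * u + g * w := by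
  obtain ⟨S, hS, U, W, hW, hz⟩ := sq_local π t 𝔫 h𝔫 hSM (g - t) hg
  -- `(S + W) * t = π * (-U) + g * S`
  have hS' : S + W ∉ 𝔫 := fun h => hS (by
    have := 𝔫.sub_mem h hW
    rwa [add_sub_cancel_right] at this)
  have ht : (S + W) * t = π * (-U) + g * S := by linear_combination (-1 : B) * hz
  intro y hy
  obtain ⟨s, hs, u, w, h⟩ := hSM y hy
  refine ⟨(S + W) * s, fun h' => (h𝔫.mem_or_mem h').elim hS' hs, (S + W) * u - U * w, S * w, ?_⟩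
  linear_combination (S + W) * h + w * ht

/-- **Chinese remainder theorem** for the square of a maximal ideal and finitely many other
maximal ideals. -/
theorem exists_crt (𝔫 : Ideal B) (h𝔫 : 𝔫.IsMaximal) (T : Finset (Ideal B))
    (hT : ∀ 𝔫' ∈ T, 𝔫'.IsMaximal) (t : B) (c : Ideal B → B) :
    ∃ g : B, g - t ∈ 𝔫 ^ 2 ∧ ∀ 𝔫' ∈ T, 𝔫' ≠ 𝔫 → g - c 𝔫' ∈ 𝔫' := by
  classical
  induction T using Finset.induction_on with
  | empty => exact ⟨t, by rw [sub_self]; exact zero_mem _, by simp⟩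
  | insert 𝔭 T h𝔭T ih =>
    obtain ⟨g₀, hg₀, hg₀T⟩ := ih (fun 𝔫' h => hT 𝔫' (Finset.mem_insert_of_mem h))
    by_cases h𝔭 : 𝔭 = 𝔫
    · refine ⟨g₀, hg₀, fun 𝔫' h𝔫' hne => ?_⟩
      rcases Finset.mem_insert.mp h𝔫' with rfl | h
      · exact absurd h𝔭 hne
      · exact hg₀T 𝔫' h hne
    · -- `𝔭` is comaximal with `𝔫 ^ 2 ⊓ ⨅ 𝔫' ∈ T, 𝔫' ≠ 𝔫`
      have h𝔭max : 𝔭.IsMaximal := hT 𝔭 (Finset.mem_insert_self _ _)
      set J : Ideal B → Ideal B := fun 𝔮 => if 𝔮 = 𝔫 then 𝔫 ^ 2 else 𝔮 with hJ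
      have hcop : ∀ 𝔮 ∈ insert 𝔫 T, 𝔭 ⊔ J 𝔮 = ⊤ := by
        intro 𝔮 h𝔮
        by_cases h𝔮𝔫 : 𝔮 = 𝔫
        · simp only [hJ, if_pos h𝔮𝔫]
          exact Ideal.sup_pow_eq_top (h𝔭max.coprime_of_ne h𝔫 h𝔭)
        · simp only [hJ, if_neg h𝔮𝔫]
          have h𝔮T : 𝔮 ∈ T := by
            rcases Finset.mem_insert.mp h𝔮 with h | h
            · exact absurd h h𝔮𝔫
            · exact h
          have hne : 𝔭 ≠ 𝔮 := fun h => h𝔭T (h ▸ h𝔮T)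
          exact h𝔭max.coprime_of_ne (hT 𝔮 (Finset.mem_insert_of_mem h𝔮T)) hne
      have htop := Ideal.sup_iInf_eq_top hcop
      obtain ⟨a, ha, b, hb, hab⟩ := Submodule.mem_sup.mp
        (show (1 : B) ∈ 𝔭 ⊔ ⨅ 𝔮 ∈ insert 𝔫 T, J 𝔮 by rw [htop]; exact Submodule.mem_top)
      have hbJ : ∀ 𝔮 ∈ insert 𝔫 T, b ∈ J 𝔮 := by
        intro 𝔮 h𝔮
        have := (Submodule.mem_iInf _).mp hb 𝔮
        exact (Submodule.mem_iInf _).mp this h𝔮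
      -- `g := g₀ + b * (c 𝔭 - g₀)`
      refine ⟨g₀ + b * (c 𝔭 - g₀), ?_, fun 𝔫' h𝔫' hne => ?_⟩
      · have hb𝔫 : b ∈ 𝔫 ^ 2 := by
          have := hbJ 𝔫 (Finset.mem_insert_self _ _)
          simpa only [hJ, if_true] using this
        have : g₀ + b * (c 𝔭 - g₀) - t = (g₀ - t) + b * (c 𝔭 - g₀) := by ring
        rw [this]
        exact Ideal.add_mem _ hg₀ (Ideal.mul_mem_right _ _ hb𝔫)
      · rcases Finset.mem_insert.mp h𝔫' with rfl | h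
        · -- at `𝔭`: `b ≡ 1`
          have : g₀ + b * (c 𝔫' - g₀) - c 𝔫' = -(a * (c 𝔫' - g₀)) := by
            linear_combination (c 𝔫' - g₀) * hab
          rw [this]
          exact Ideal.neg_mem_iff _ |>.mpr (Ideal.mul_mem_right _ _ ha)
        · have hb' : b ∈ 𝔫' := by
            have := hbJ 𝔫' (Finset.mem_insert_of_mem h)
            simpa only [hJ, if_neg hne] using this
          have : g₀ + b * (c 𝔭 - g₀) - c 𝔫' = (g₀ - c 𝔫') + b * (c 𝔭 - g₀) := by ring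
          rw [this]
          exact Ideal.add_mem _ (hg₀T 𝔫' h hne) (Ideal.mul_mem_right _ _ hb')

/-- **Core of (WA), with prescribed residues**: if `t` generates the maximal ideal `𝔫` locally
modulo `π`, there is `g ∈ 𝔫` generating `𝔫` locally modulo `π` with `g ≡ c 𝔫'` at finitely many
prescribed maximal ideals `𝔫' ≠ 𝔫`. -/
theorem wa_core_val (π t : B) (𝔫 : Ideal B) (h𝔫 : 𝔫.IsMaximal) (ht : t ∈ 𝔫)
    (hSM : ∀ y ∈ 𝔫, ∃ s : B, s ∉ 𝔫 ∧ ∃ u w : B, s * y = π * u + t * w)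
    (T : Finset (Ideal B)) (hT : ∀ 𝔫' ∈ T, 𝔫'.IsMaximal) (c : Ideal B → B) :
    ∃ g : B, g ∈ 𝔫 ∧ g - t ∈ 𝔫 ^ 2 ∧ (∀ 𝔫' ∈ T, 𝔫' ≠ 𝔫 → g - c 𝔫' ∈ 𝔫') ∧
      ∀ y ∈ 𝔫, ∃ s : B, s ∉ 𝔫 ∧ ∃ u w : B, s * y = π * u + g * w := by
  obtain ⟨g, hg, hgT⟩ := exists_crt 𝔫 h𝔫 T hT t c
  refine ⟨g, ?_, hg, hgT, hSM_of_sub_mem_sq π t g 𝔫 h𝔫.isPrime hSM hg⟩
  have h1 : g - t ∈ 𝔫 := Ideal.pow_le_self (two_ne_zero) hg
  have := 𝔫.add_mem h1 ht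
  rwa [sub_add_cancel] at this

/-- **Core of (WA)**: if (SM) holds at the maximal ideal `𝔫`, there is a second generator
`g ∈ 𝔫` (locally, modulo `π`) which is `≡ 1` — in particular a unit — at finitely many
prescribed maximal ideals `𝔫' ≠ 𝔫`. -/
theorem wa_core (π : B) (𝔫 : Ideal B) (h𝔫 : 𝔫.IsMaximal)
    (hSM : Fermat.Agent.S18x.IG.HSM π 𝔫)
    (T : Finset (Ideal B)) (hT : ∀ 𝔫' ∈ T, 𝔫'.IsMaximal) :
    ∃ g : B, g ∈ 𝔫 ∧ (∀ 𝔫' ∈ T, 𝔫' ≠ 𝔫 → g - 1 ∈ 𝔫') ∧ (∀ 𝔫' ∈ T, 𝔫' ≠ 𝔫 → g ∉ 𝔫') ∧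
      ∀ y ∈ 𝔫, ∃ s : B, s ∉ 𝔫 ∧ ∃ u w : B, s * y = π * u + g * w := by
  obtain ⟨t, ht, hSM'⟩ := hSM
  obtain ⟨g, hg, -, hgT, hgen⟩ := wa_core_val π t 𝔫 h𝔫 ht hSM' T hT (fun _ => 1)
  refine ⟨g, hg, hgT, fun 𝔫' h𝔫' hne hmem => ?_, hgen⟩
  have h1 : (1 : B) ∈ 𝔫' := by
    have := 𝔫'.sub_mem hmem (hgT 𝔫' h𝔫' hne)
    rwa [sub_sub_cancel] at this
  exact (hT 𝔫' h𝔫').ne_top ((Ideal.eq_top_iff_one _).mpr h1)

/-- The generator of `wa_core` in the spelling `IG.HSM`. -/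
theorem hSM_of_wa_core (π g : B) (𝔫 : Ideal B) (hg : g ∈ 𝔫)
    (hgen : ∀ y ∈ 𝔫, ∃ s : B, s ∉ 𝔫 ∧ ∃ u w : B, s * y = π * u + g * w) :
    Fermat.Agent.S18x.IG.HSM π 𝔫 :=
  ⟨g, hg, hgen⟩

end Fermat.Agent.S37x.Red.H16
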