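import Fermat.Agent.S37x.Red.H20_Sep
import Fermat.Prelude.Def_ModularCurve_ReductionModL

/-!
# S37 [RED-M] (c2), part (S1'): the separation lemma for a place reduction (helper20)

`r` a place reduction at level `M` (`IsPlaceReductionModL A M r`), `y ∈ A((q)) ∩ F_L` with
reduction in `F̄`, of value `b ∈ 𝔪_A` at `P`, regular at the places reducing into `𝒯 ∪ {r P}`,
`ord_{r P} ȳ = 1`, `ord_{Q'} ȳ = 0` for `Q' ∈ 𝒯 \ {r P}`.  Then `f := y - b` has a simple zero
at `P` and all its other zeros and poles reduce outside `𝒯 ∪ {r P}`.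
-/

set_option autoImplicit false
set_option synthInstance.maxHeartbeats 400000
set_option maxHeartbeats 1000000

open HahnSeries IntermediateField AlgebraicCurve ModularCurve

noncomputable section

namespace Fermat.Agent.S37x.Red.H20

section PlaceLemmas

variable {K F : Type*} [Field K] [Field F] [Algebra K F]

theorem place_mem_of_ord_nonneg (v : Place K F) {f : F} (h : 0 ≤ v.ord f) :
    f ∈ v.toValuationSubring := by
  rcases eq_or_ne f 0 with rfl | hf
  · exact zero_mem _
  obtain ⟨π, hπ⟩ := IsDiscreteValuationRing.exists_irreducible v.toValuationSubring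
  obtain ⟨u, hu⟩ := v.exists_unit_mul_zpow hf hπ
  obtain ⟨m, hm⟩ := Int.eq_ofNat_of_zero_le h
  rw [hu, hm, zpow_natCast]
  exact mul_mem (u : v.toValuationSubring).2 (pow_mem π.2 m)

theorem place_ord_nonneg_of_mem (v : Place K F) {f : F} (hf : f ∈ v.toValuationSubring) :
    0 ≤ v.ord f := by
  rcases eq_or_ne f 0 with rfl | hf0
  · simp
  obtain ⟨π, hπ⟩ := IsDiscreteValuationRing.exists_irreducible v.toValuationSubring
  obtain ⟨u, hu⟩ := v.exists_unit_mul_zpow hf0 hπ
  by_contra hneg
  rw [not_le] at hneg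
  obtain ⟨m, hm⟩ := Int.exists_eq_neg_ofNat hneg.le
  have hm0 : m ≠ 0 := by rintro rfl; simp at hm; omega
  have hπ0 : (π : F) ≠ 0 := by
    simpa [ne_eq, ZeroMemClass.coe_eq_zero] using hπ.ne_zero
  have h1 : ((u : v.toValuationSubring) : F) = f * (π : F) ^ m := by
    conv_rhs => rw [hu, hm, zpow_neg, zpow_natCast]
    field_simp
  have h2 : (u : v.toValuationSubring) = ⟨f, hf⟩ * π ^ m := Subtype.ext (by simpa using h1)
  have h3 : (u : v.toValuationSubring) ∈ IsLocalRing.maximalIdeal v.toValuationSubring := by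
    rw [h2, hπ.maximalIdeal_eq]
    exact Ideal.mul_mem_left _ _ (Ideal.pow_mem_of_mem _ (Ideal.mem_span_singleton_self π) m
      (Nat.pos_of_ne_zero hm0))
  exact (IsLocalRing.mem_maximalIdeal _).mp h3 u.isUnit

theorem place_ord_nonneg_iff (v : Place K F) {f : F} :
    0 ≤ v.ord f ↔ f ∈ v.toValuationSubring :=
  ⟨place_mem_of_ord_nonneg v, place_ord_nonneg_of_mem v⟩

/-- Subtracting a constant preserves regularity. -/
theorem place_ord_sub_const_nonneg (v : Place K F) {f : F} (h : 0 ≤ v.ord f) (c : K) :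
    0 ≤ v.ord (f - algebraMap K F c) :=
  place_ord_nonneg_of_mem v (sub_mem (place_mem_of_ord_nonneg v h) (v.algebraMap_mem' c))

end PlaceLemmas

section Red

local notation "Lbar" => AlgebraicClosure ℚ

variable (A : ValuationSubring (AlgebraicClosure ℚ)) (M : ℕ)

local notation "kA" => IsLocalRing.ResidueField A

theorem coeffMap_subtype_injective : Function.Injective (coeffMap A.subtype) := by
  intro x y hxy
  ext n
  have := congrArg (fun z => z.coeff n) hxy
  simp only [coeffMap_coeff] at this
  exact this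

theorem coeffMap_subtype_sub_C (y : LaurentSeries A) (b : A) :
    coeffMap A.subtype (y - HahnSeries.C b) =
      coeffMap A.subtype y - algebraMap Lbar (LaurentSeries Lbar) (b : Lbar) := by
  rw [map_sub, algebraMap_laurentSeries_eq_single]
  congr 1
  exact coeffMap_single _ _ _

theorem coeffMap_residue_sub_C (y : LaurentSeries A) (b : A)
    (hb : IsLocalRing.residue A b = 0) :
    coeffMap (IsLocalRing.residue A) (y - HahnSeries.C b) =
      coeffMap (IsLocalRing.residue A) y := by
  rw [map_sub]
  have : coeffMap (IsLocalRing.residue A) (HahnSeries.C b) = 0 := by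
    show coeffMap (IsLocalRing.residue A) (HahnSeries.single 0 b) = 0
    rw [coeffMap_single, hb, HahnSeries.single_eq_zero]
  rw [this, sub_zero]

/-- **(S1') The separation lemma for a place reduction.** -/
theorem sep_of_lift
    (r : Place Lbar (modularFunctionFieldBar M) → Place kA (modularFunctionFieldFullC kA M))
    (hr : IsPlaceReductionModL A M r)
    (hdiv : ∀ f : modularFunctionFieldBar M, f ≠ 0 →
      ∃ D : Divisor Lbar (modularFunctionFieldBar M),
        ∀ P : Place Lbar (modularFunctionFieldBar M), D P = P.ord f)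
    (P : Place Lbar (modularFunctionFieldBar M))
    (𝒯 : Set (Place kA (modularFunctionFieldFullC kA M)))
    (y : LaurentSeries A) (hy : coeffMap A.subtype y ∈ modularFunctionFieldBar M)
    (hyk : coeffMap (IsLocalRing.residue A) y ∈ modularFunctionFieldFullC kA M)
    (hreg : ∀ P'', (r P'' ∈ 𝒯 ∨ r P'' = r P) →
      0 ≤ P''.ord (⟨coeffMap A.subtype y, hy⟩ : modularFunctionFieldBar M))
    (b : A) (hb : IsLocalRing.residue A b = 0)
    (hval : 0 < P.ord ((⟨coeffMap A.subtype y, hy⟩ : modularFunctionFieldBar M) -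
      algebraMap Lbar (modularFunctionFieldBar M) (b : Lbar)))
    (huni : (r P).ord (⟨coeffMap (IsLocalRing.residue A) y, hyk⟩ :
      modularFunctionFieldFullC kA M) = 1)
    (hoff : ∀ Q' ∈ 𝒯, Q' ≠ r P →
      Q'.ord (⟨coeffMap (IsLocalRing.residue A) y, hyk⟩ : modularFunctionFieldFullC kA M) = 0) :
    ∃ f : modularFunctionFieldBar M, f ≠ 0 ∧ P.ord f = 1 ∧
      ∀ P' : Place Lbar (modularFunctionFieldBar M), P' ≠ P → P'.ord f ≠ 0 →
        r P' ∉ 𝒯 ∧ r P' ≠ r P := by
  set f : modularFunctionFieldBar M := (⟨coeffMap A.subtype y, hy⟩ : modularFunctionFieldBar M) -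
      algebraMap Lbar (modularFunctionFieldBar M) (b : Lbar) with hf
  have hcoe : ((f : modularFunctionFieldBar M) : LaurentSeries Lbar) =
      coeffMap A.subtype (y - HahnSeries.C b) := by
    rw [coeffMap_subtype_sub_C]
    rfl
  have hy' : coeffMap A.subtype (y - HahnSeries.C b) ∈ modularFunctionFieldBar M := by
    rw [← hcoe]; exact f.2
  have hfeq : f = ⟨coeffMap A.subtype (y - HahnSeries.C b), hy'⟩ := Subtype.ext hcoe
  have hredeq : coeffMap (IsLocalRing.residue A) (y - HahnSeries.C b) =
      coeffMap (IsLocalRing.residue A) y := coeffMap_residue_sub_C A y b hb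
  have hyk' : coeffMap (IsLocalRing.residue A) (y - HahnSeries.C b) ∈
      modularFunctionFieldFullC kA M := by rw [hredeq]; exact hyk
  have hbar0 : coeffMap (IsLocalRing.residue A) y ≠ 0 := by
    intro h0
    have : (⟨coeffMap (IsLocalRing.residue A) y, hyk⟩ : modularFunctionFieldFullC kA M) = 0 :=
      Subtype.ext h0
    rw [this, Place.ord_zero] at huni
    exact zero_ne_one huni
  have hf0 : f ≠ 0 := by
    intro h0
    have h1 : coeffMap A.subtype (y - HahnSeries.C b) = 0 := by
      rw [← hcoe, h0]; rfl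
    have h2 : y - HahnSeries.C b = 0 := by
      apply coeffMap_subtype_injective A
      rw [h1, map_zero]
    apply hbar0
    rw [← hredeq, h2, map_zero]
  obtain ⟨D, hD⟩ := hdiv f hf0
  have hcons : ∀ Q, Finsupp.mapDomain r D Q =
      Q.ord (⟨coeffMap (IsLocalRing.residue A) y, hyk⟩ : modularFunctionFieldFullC kA M) := by
    intro Q
    have h1 := hr.2 (y - HahnSeries.C b) hy' hyk' (by rw [hredeq]; exact hbar0) D
      (fun P' => by rw [hD P', hfeq]) Q
    rw [h1]
    congr 1
    exact Subtype.ext hredeq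
  obtain ⟨h1, h2⟩ := sep_core r P 𝒯 f D hD _ hcons hval
    (fun P' hP' => place_ord_sub_const_nonneg P' (hreg P' hP') _) huni hoff
  exact ⟨f, hf0, h1, h2⟩

end Red

end Fermat.Agent.S37x.Red.H20
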