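import Fermat.Agent.S37x.Red.H20_DefsG
import Fermat.Agent.S37x.Red.H20_SepRed
import Fermat.Agent.S37x.Red.H22_Gen
import Fermat.Agent.S24.H15_Kaehler

/-!
# S37 [RED-M] (c2): the consistency of a place reduction on the Gauss ring (helper20)

`r` a place reduction at level `M` (`IsPlaceReductionModL A M r`).

* `cons_gauss`    : for a Gauss unit `g ∈ gaussL A M` (`redL g ≠ 0`):
                    `r_* (div g) = div (redL g)`  (the prelude states this for `A`-integral
                    Laurent series only; every Gauss unit is `c Y₁ / Y₂`, `c ∈ Aˣ`);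
* `sep_of_lift_g` : the separation lemma `sep_of_lift` for elements of the Gauss ring.
-/

set_option autoImplicit false
set_option synthInstance.maxHeartbeats 400000
set_option maxHeartbeats 1000000

open HahnSeries IntermediateField AlgebraicCurve ModularCurve

noncomputable section

namespace Fermat.Agent.S37x.Red.H20

open Fermat.Agent.S37x.Red.H22 Fermat.Agent.S18x.Dict.H20 Fermat.Agent.S24.RH

local notation "Lbar" => AlgebraicClosure ℚ

variable (A : ValuationSubring (AlgebraicClosure ℚ)) (M : ℕ) [NeZero M]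
  {ℓ : ℕ} (hℓ : ℓ.Prime) (hA : A.LiesOverPrime ℓ) (hℓM : ¬ ℓ ∣ M)

local notation "kA" => IsLocalRing.ResidueField A

/-- the inverse of a non-element of `A` reduces to `0` -/
theorem residue_inv_eq_zero_of_not_mem {c : Lbar} (hc : c ∉ A) (hci : c⁻¹ ∈ A) :
    IsLocalRing.residue A ⟨c⁻¹, hci⟩ = 0 := by
  rw [IsLocalRing.residue_eq_zero_iff, IsLocalRing.mem_maximalIdeal, mem_nonunits_iff]
  rintro ⟨u, hu⟩
  apply hc
  have h1 : (u : A) * ((u⁻¹ : Aˣ) : A) = 1 := u.mul_inv
  have h2 : ((u : A) : Lbar) * (((u⁻¹ : Aˣ) : A) : Lbar) = 1 := by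
    have := congrArg Subtype.val h1
    rwa [MulMemClass.coe_mul] at this
  rw [hu] at h2
  have h3 : (((u⁻¹ : Aˣ) : A) : Lbar) = c := by
    have := eq_inv_of_mul_eq_one_right h2
    rwa [inv_inv] at this
  rw [← h3]
  exact ((u⁻¹ : Aˣ) : A).2

/-- **(G1) Consistency on the Gauss units.** -/
theorem cons_gauss
    (r : Place Lbar (modularFunctionFieldBar M) → Place kA (modularFunctionFieldFullC kA M))
    (hr : IsPlaceReductionModL A M r)
    (hdiv : ∀ f : modularFunctionFieldBar M, f ≠ 0 →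
      ∃ D : Divisor Lbar (modularFunctionFieldBar M),
        ∀ P : Place Lbar (modularFunctionFieldBar M), D P = P.ord f)
    (g : gaussL A M) (hg : redL A M hℓ hA hℓM g ≠ 0)
    (D : Divisor Lbar (modularFunctionFieldBar M))
    (hD : ∀ P : Place Lbar (modularFunctionFieldBar M),
      D P = P.ord (g : modularFunctionFieldBar M))
    (Q : Place kA (modularFunctionFieldFullC kA M)) :
    Finsupp.mapDomain r D Q = Q.ord (redL A M hℓ hA hℓM g) := by
  have hg0 : (g : modularFunctionFieldBar M) ≠ 0 := by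
    intro h0
    apply hg
    have : g = 0 := Subtype.ext h0
    rw [this, map_zero]
  have hgLS : gaussRed A ⟨((g : modularFunctionFieldBar M) : LaurentSeries Lbar), g.2⟩ ≠ 0 := by
    intro h0
    apply hg
    apply Subtype.ext
    rw [coe_redL, redLS_apply]
    exact h0
  obtain ⟨c, Y₁, Y₂, hc, hY₁, hY₂, hk₁, hk₂, hr₁, hr₂, hrel⟩ :=
    exists_integral_quot A hℓ hA M hℓM (g : modularFunctionFieldBar M) hg0
  -- `c ∈ A`
  have hcA : c ∈ A := by
    by_contra hcn
    have hci : c⁻¹ ∈ A := (A.mem_or_inv_mem c).resolve_left hcn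
    have hrel' : (gaussC A ⟨c⁻¹, hci⟩ *
        (⟨((g : modularFunctionFieldBar M) : LaurentSeries Lbar), g.2⟩ : gaussRing A) *
        ⟨coeffMap A.subtype Y₂, coeffMap_subtype_mem_gaussRing A Y₂⟩ : gaussRing A) =
        ⟨coeffMap A.subtype Y₁, coeffMap_subtype_mem_gaussRing A Y₁⟩ := by
      apply Subtype.ext
      show HahnSeries.C c⁻¹ * ((g : modularFunctionFieldBar M) : LaurentSeries Lbar) *
        coeffMap A.subtype Y₂ = coeffMap A.subtype Y₁
      rw [mul_assoc, hrel, ← mul_assoc, ← map_mul, inv_mul_cancel₀ hc, map_one, one_mul]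
    have h1 := congrArg (gaussRed A) hrel'
    rw [map_mul, map_mul, gaussRed_gaussC, residue_inv_eq_zero_of_not_mem A hcn hci, map_zero,
      zero_mul, zero_mul, gaussRed_coeffMap_subtype] at h1
    exact hr₁ h1.symm
  -- the relation in the Gauss ring and its reduction
  have hrelG : ((⟨((g : modularFunctionFieldBar M) : LaurentSeries Lbar), g.2⟩ : gaussRing A) *
      ⟨coeffMap A.subtype Y₂, coeffMap_subtype_mem_gaussRing A Y₂⟩ : gaussRing A) =
      gaussC A ⟨c, hcA⟩ * ⟨coeffMap A.subtype Y₁, coeffMap_subtype_mem_gaussRing A Y₁⟩ :=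
    Subtype.ext hrel
  have hE := congrArg (gaussRed A) hrelG
  rw [map_mul, map_mul, gaussRed_gaussC, gaussRed_coeffMap_subtype,
    gaussRed_coeffMap_subtype] at hE
  have hresc : IsLocalRing.residue A ⟨c, hcA⟩ ≠ 0 := by
    intro h0
    rw [h0, map_zero, zero_mul] at hE
    exact (mul_ne_zero hgLS hr₂) hE
  -- the relation in `F̄`
  have hEk : redL A M hℓ hA hℓM g *
      (⟨coeffMap (IsLocalRing.residue A) Y₂, hk₂⟩ : modularFunctionFieldFullC kA M) =
      algebraMap kA (modularFunctionFieldFullC kA M) (IsLocalRing.residue A ⟨c, hcA⟩) *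
        ⟨coeffMap (IsLocalRing.residue A) Y₁, hk₁⟩ := by
    apply Subtype.ext
    show redLS A M g * coeffMap (IsLocalRing.residue A) Y₂ =
      algebraMap kA (LaurentSeries kA) (IsLocalRing.residue A ⟨c, hcA⟩) *
        coeffMap (IsLocalRing.residue A) Y₁
    rw [algebraMap_laurentSeries_eq_single, redLS_apply]
    exact hE
  have hk₁0 : (⟨coeffMap (IsLocalRing.residue A) Y₁, hk₁⟩ : modularFunctionFieldFullC kA M) ≠ 0 :=
    fun h => hr₁ (congrArg Subtype.val h)
  have hk₂0 : (⟨coeffMap (IsLocalRing.residue A) Y₂, hk₂⟩ : modularFunctionFieldFullC kA M) ≠ 0 :=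
    fun h => hr₂ (congrArg Subtype.val h)
  have hck0 : algebraMap kA (modularFunctionFieldFullC kA M) (IsLocalRing.residue A ⟨c, hcA⟩) ≠
      0 := by
    rwa [Ne, map_eq_zero]
  have hordk : Q.ord (redL A M hℓ hA hℓM g) +
      Q.ord (⟨coeffMap (IsLocalRing.residue A) Y₂, hk₂⟩ : modularFunctionFieldFullC kA M) =
      Q.ord (⟨coeffMap (IsLocalRing.residue A) Y₁, hk₁⟩ : modularFunctionFieldFullC kA M) := by
    have := congrArg Q.ord hEk
    rwa [Q.ord_mul hg hk₂0, Q.ord_mul hck0 hk₁0, ord_algebraMap, zero_add] at this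
  -- the relation in `F_L`
  have hEL : (g : modularFunctionFieldBar M) *
      (⟨coeffMap A.subtype Y₂, hY₂⟩ : modularFunctionFieldBar M) =
      algebraMap Lbar (modularFunctionFieldBar M) c * ⟨coeffMap A.subtype Y₁, hY₁⟩ := by
    apply Subtype.ext
    show ((g : modularFunctionFieldBar M) : LaurentSeries Lbar) * coeffMap A.subtype Y₂ =
      algebraMap Lbar (LaurentSeries Lbar) c * coeffMap A.subtype Y₁
    rw [algebraMap_laurentSeries_eq_single]
    exact hrel
  have hL₁0 : (⟨coeffMap A.subtype Y₁, hY₁⟩ : modularFunctionFieldBar M) ≠ 0 := by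
    intro h
    have h1 : coeffMap A.subtype Y₁ = 0 := congrArg Subtype.val h
    have h2 : Y₁ = 0 := coeffMap_subtype_injective A (h1.trans (map_zero _).symm)
    exact hr₁ (by rw [h2, map_zero])
  have hL₂0 : (⟨coeffMap A.subtype Y₂, hY₂⟩ : modularFunctionFieldBar M) ≠ 0 := by
    intro h
    have h1 : coeffMap A.subtype Y₂ = 0 := congrArg Subtype.val h
    have h2 : Y₂ = 0 := coeffMap_subtype_injective A (h1.trans (map_zero _).symm)
    exact hr₂ (by rw [h2, map_zero])
  have hcL0 : algebraMap Lbar (modularFunctionFieldBar M) c ≠ 0 := by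
    rwa [Ne, map_eq_zero]
  have hordL : ∀ P : Place Lbar (modularFunctionFieldBar M),
      P.ord (g : modularFunctionFieldBar M) +
        P.ord (⟨coeffMap A.subtype Y₂, hY₂⟩ : modularFunctionFieldBar M) =
      P.ord (⟨coeffMap A.subtype Y₁, hY₁⟩ : modularFunctionFieldBar M) := by
    intro P
    have := congrArg P.ord hEL
    rwa [P.ord_mul hg0 hL₂0, P.ord_mul hcL0 hL₁0, ord_algebraMap, zero_add] at this
  obtain ⟨D₁, hD₁⟩ := hdiv _ hL₁0
  obtain ⟨D₂, hD₂⟩ := hdiv _ hL₂0
  have hsum : D + D₂ = D₁ := by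
    ext P
    rw [Finsupp.add_apply, hD, hD₁, hD₂]
    exact hordL P
  have h1 := hr.2 Y₁ hY₁ hk₁ hr₁ D₁ hD₁ Q
  have h2 := hr.2 Y₂ hY₂ hk₂ hr₂ D₂ hD₂ Q
  have h3 : Finsupp.mapDomain r D Q + Finsupp.mapDomain r D₂ Q = Finsupp.mapDomain r D₁ Q := by
    rw [← hsum, Finsupp.mapDomain_add, Finsupp.add_apply]
  rw [h1, h2] at h3
  omega

/-- **(G2) The separation lemma for a place reduction**, Gauss form. -/
theorem sep_of_lift_g
    (r : Place Lbar (modularFunctionFieldBar M) → Place kA (modularFunctionFieldFullC kA M))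
    (hr : IsPlaceReductionModL A M r)
    (hdiv : ∀ f : modularFunctionFieldBar M, f ≠ 0 →
      ∃ D : Divisor Lbar (modularFunctionFieldBar M),
        ∀ P : Place Lbar (modularFunctionFieldBar M), D P = P.ord f)
    (P : Place Lbar (modularFunctionFieldBar M))
    (𝒯 : Set (Place kA (modularFunctionFieldFullC kA M)))
    (g : gaussL A M)
    (hreg : ∀ P'', (r P'' ∈ 𝒯 ∨ r P'' = r P) →
      0 ≤ P''.ord (g : modularFunctionFieldBar M))
    (b : A) (hb : IsLocalRing.residue A b = 0)
    (hval : 0 < P.ord ((g : modularFunctionFieldBar M) -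
      algebraMap Lbar (modularFunctionFieldBar M) (b : Lbar)))
    (huni : (r P).ord (redL A M hℓ hA hℓM g) = 1)
    (hoff : ∀ Q' ∈ 𝒯, Q' ≠ r P → Q'.ord (redL A M hℓ hA hℓM g) = 0) :
    ∃ f : modularFunctionFieldBar M, f ≠ 0 ∧ P.ord f = 1 ∧
      ∀ P' : Place Lbar (modularFunctionFieldBar M), P' ≠ P → P'.ord f ≠ 0 →
        r P' ∉ 𝒯 ∧ r P' ≠ r P := by
  set gb : gaussL A M :=
    g - ⟨algebraMap Lbar (modularFunctionFieldBar M) (b : Lbar), algebraMap_mem_gaussL A M b⟩
    with hgb
  have hred : redL A M hℓ hA hℓM gb = redL A M hℓ hA hℓM g := by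
    rw [hgb, map_sub, redL_algebraMap, hb, map_zero, sub_zero]
  have hbar0 : redL A M hℓ hA hℓM g ≠ 0 := by
    intro h0
    rw [h0, Place.ord_zero] at huni
    exact zero_ne_one huni
  have hf0 : (gb : modularFunctionFieldBar M) ≠ 0 := by
    intro h0
    apply hbar0
    rw [← hred]
    have : gb = 0 := Subtype.ext h0
    rw [this, map_zero]
  obtain ⟨D, hD⟩ := hdiv (gb : modularFunctionFieldBar M) hf0
  have hcons : ∀ Q, Finsupp.mapDomain r D Q = Q.ord (redL A M hℓ hA hℓM g) := by
    intro Q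
    rw [← hred]
    exact cons_gauss A M hℓ hA hℓM r hr hdiv gb (by rw [hred]; exact hbar0) D hD Q
  obtain ⟨h1, h2⟩ := sep_core r P 𝒯 (gb : modularFunctionFieldBar M) D hD _ hcons hval
    (fun P' hP' => place_ord_sub_const_nonneg P' (hreg P' hP') _) huni hoff
  exact ⟨(gb : modularFunctionFieldBar M), hf0, h1, h2⟩

end Fermat.Agent.S37x.Red.H20
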