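import Fermat.Agent.S37x.Red.H22_GaussL
import Fermat.Agent.S37x.Red.H22_PlaceVal

/-!
# S37 [RED-M] (c2): interface Props of the separation package, Gauss form (helper20)

`L = ℚ̄`, `F_L = modularFunctionFieldBar M`, `A` a valuation ring of `L` over `ℓ ∤ M`,
`k = ResidueField A`, `F̄ = modularFunctionFieldFullC k M`, `gaussL A M ⊆ F_L` the Gauss
valuation ring and `redL : gaussL A M →+* F̄` its reduction (helper22).

* `StValG A M r xL` : **(U2)** for the chart of `xL`: at a place `P` where `xL` has a value in
  `A`, the value `b` of a chart element `g` reduces to the value of `redL g` at `r P`;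
* `StWAG A M xL`   : **(WA)** weak approximation by chart elements.
-/

set_option autoImplicit false
set_option synthInstance.maxHeartbeats 400000
set_option maxHeartbeats 1000000

open HahnSeries IntermediateField AlgebraicCurve ModularCurve

noncomputable section

namespace Fermat.Agent.S37x.Red.H20

open Fermat.Agent.S37x.Red.H22

local notation "Lbar" => AlgebraicClosure ℚ

variable (A : ValuationSubring (AlgebraicClosure ℚ)) (M : ℕ) [NeZero M]
  {ℓ : ℕ} (hℓ : ℓ.Prime) (hA : A.LiesOverPrime ℓ) (hℓM : ¬ ℓ ∣ M)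

local notation "kA" => IsLocalRing.ResidueField A

/-- **(U2)** value compatibility of `r` on the chart of `xL`, Gauss form. -/
def StValG
    (r : Place Lbar (modularFunctionFieldBar M) → Place kA (modularFunctionFieldFullC kA M))
    (xL : modularFunctionFieldBar M) : Prop :=
  ∀ (P : Place Lbar (modularFunctionFieldBar M)) (a : A), ValAt P xL (a : Lbar) →
    ∀ g : gaussL A M,
      IsIntegral (Algebra.adjoin A {xL}) (g : modularFunctionFieldBar M) →
      ∀ b : A, ValAt P (g : modularFunctionFieldBar M) (b : Lbar) →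
        ValAt (r P) (redL A M hℓ hA hℓM g) (IsLocalRing.residue A b)

/-- **(WA)** weak approximation by elements of the chart of `xL`, Gauss form. -/
def StWAG (xL : modularFunctionFieldBar M) (hxV : xL ∈ gaussL A M) : Prop :=
  ∀ (Q : Place kA (modularFunctionFieldFullC kA M))
    (𝒯 : Finset (Place kA (modularFunctionFieldFullC kA M))),
    (∀ Q', (Q' = Q ∨ Q' ∈ 𝒯) → 0 ≤ Q'.ord (redL A M hℓ hA hℓM ⟨xL, hxV⟩)) →
    ∃ g : gaussL A M,
      IsIntegral (Algebra.adjoin A {xL}) (g : modularFunctionFieldBar M) ∧
      Q.ord (redL A M hℓ hA hℓM g) = 1 ∧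
      ∀ Q' ∈ 𝒯, Q' ≠ Q → Q'.ord (redL A M hℓ hA hℓM g) = 0

end Fermat.Agent.S37x.Red.H20
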