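import Mathlib
import Fermat.Prelude.Def_ModularCurve_ReductionModL
import Fermat.Agent.S37x.Red.H22_Base
import Fermat.Agent.S37x.Red.H7_WaK

/-!
# S37 [RED-M] (helper22): the place reduction at the Hauptmodul levels, hypothesis-free

For a prime `ℓ`, a valuation ring `A` of `ℚ̄` over `ℓ` and a level `M` prime to `ℓ`:

* `stRedOne_two_final`, `stRedOne_three_final` : **[RED-M]** `Asm.StRedOne M A` for `2 ∣ M`,
  `ℓ ≠ 2`, resp. `3 ∣ M`, `ℓ ≠ 3`;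
* `stRed_two_final`, `stRed_three_final` : `Asm.StRed M A` likewise;
* `stRedOne_base` : `Asm.StRedOne (h18_base ℓ * N) A` for `ℓ ∤ N`.

Inputs: the place reduction `r` with `RSpec` (`exists_rSpec_two/three`), `[CONS]` (helper7's
`h7_cons_two/three`), `(c1)` (helper21), `(c2)` (helper20, helper4, helper21; `StWAG` by
helper7's `h7_stWAG_two/three`), `PrincipalGeneratedByIntegral`.
-/

set_option autoImplicit false
set_option linter.unusedSectionVars false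
set_option linter.style.haveILetI false
set_option synthInstance.maxHeartbeats 400000
set_option maxHeartbeats 1000000

open ModularCurve AlgebraicCurve IntermediateField Polynomial

noncomputable section

namespace Fermat.Agent.S37x.Red.H22

open Fermat.Agent.S18x.IG Fermat.Agent.S37x.Asm Fermat.Agent.S18x.Asm

local notation "Lbar" => AlgebraicClosure ℚ

section Final

variable (A : ValuationSubring Lbar) (M : ℕ) [NeZero M]
  {ℓ : ℕ} (hℓ : ℓ.Prime) (hA : A.LiesOverPrime ℓ) (hℓM : ¬ ℓ ∣ M)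

include hℓ hA hℓM in
/-- **[RED-M], level `2 ∣ M`, `ℓ ≠ 2`**: `Asm.StRedOne M A`. -/
theorem stRedOne_two_final (hM : 2 ∣ M) (hℓ2 : ℓ ≠ 2) : Asm.StRedOne M A :=
  stRedOne_two A M hℓ hA hℓM hM hℓ2
    (Fermat.Agent.S37x.Red.H7.h7_cons_two A hℓ hA M hℓM hM hℓ2)
    (Fermat.Agent.S37x.Red.H7.h7_stWAG_two A hℓ hA M hℓM hM hℓ2).1
    (Fermat.Agent.S37x.Red.H7.h7_stWAG_two A hℓ hA M hℓM hM hℓ2).2

include hℓ hA hℓM in
/-- **[RED-M], level `3 ∣ M`, `ℓ ≠ 3`**: `Asm.StRedOne M A`. -/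
theorem stRedOne_three_final (hM : 3 ∣ M) (hℓ3 : ℓ ≠ 3) : Asm.StRedOne M A :=
  stRedOne_three A M hℓ hA hℓM hM hℓ3
    (Fermat.Agent.S37x.Red.H7.h7_cons_three A hℓ hA M hℓM hM hℓ3)
    (Fermat.Agent.S37x.Red.H7.h7_stWAG_three A hℓ hA M hℓM hM hℓ3).1
    (Fermat.Agent.S37x.Red.H7.h7_stWAG_three A hℓ hA M hℓM hM hℓ3).2

include hℓ hA hℓM in
/-- **[RED-M], level `2 ∣ M`, `ℓ ≠ 2`**: `Asm.StRed M A`. -/
theorem stRed_two_final (hM : 2 ∣ M) (hℓ2 : ℓ ≠ 2) : Asm.StRed M A :=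
  Asm.stRed_of_stRedOne M A (h22_principalGeneratedByIntegral A hℓ hA M hℓM)
    (stRedOne_two_final A M hℓ hA hℓM hM hℓ2)

include hℓ hA hℓM in
/-- **[RED-M], level `3 ∣ M`, `ℓ ≠ 3`**: `Asm.StRed M A`. -/
theorem stRed_three_final (hM : 3 ∣ M) (hℓ3 : ℓ ≠ 3) : Asm.StRed M A :=
  Asm.stRed_of_stRedOne M A (h22_principalGeneratedByIntegral A hℓ hA M hℓM)
    (stRedOne_three_final A M hℓ hA hℓM hM hℓ3)

end Final

/-- **[RED-M] at the auxiliary level `h18_base ℓ * N`** (`ℓ ∤ N`): the input `hOne` of the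
route N top of S37. -/
theorem stRedOne_base (N : ℕ) [NeZero N] {ℓ : ℕ} (hℓ : ℓ.Prime) (hℓN : ¬ ℓ ∣ N)
    (A : ValuationSubring Lbar) (hA : A.LiesOverPrime ℓ) :
    haveI : NeZero (h18_base ℓ * N) := h18_level_neZero ℓ N
    Asm.StRedOne (h18_base ℓ * N) A :=
  stRedOne_base_of N hℓ hℓN A hA
    (fun M _ hℓM hM hℓ2 => Fermat.Agent.S37x.Red.H7.h7_cons_two A hℓ hA M hℓM hM hℓ2)
    (fun M _ hℓM hM hℓ2 => Fermat.Agent.S37x.Red.H7.h7_stWAG_two A hℓ hA M hℓM hM hℓ2)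
    (fun M _ hℓM hM hℓ3 => Fermat.Agent.S37x.Red.H7.h7_cons_three A hℓ hA M hℓM hM hℓ3)
    (fun M _ hℓM hM hℓ3 => Fermat.Agent.S37x.Red.H7.h7_stWAG_three A hℓ hA M hℓM hM hℓ3)

end Fermat.Agent.S37x.Red.H22
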