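import Mathlib
import Fermat.Prelude.Def_AlgebraicCurve_DivisorClassGroup
import Fermat.Agent.S24.H21_Surj
import Fermat.Agent.S18x.Dict.H7_LocPlace

/-!
# S37 [RED-M] (b1) (helper29): local conservation of zeros at a closed point

`R` a noetherian local domain with maximal ideal `(π, t)`, `(π)` prime (a regular local ring of
dimension two: the local ring of an arithmetic surface at a smooth closed point of the special
fibre `π = 0`), `F = Frac R ⊇ K` with `π ∈ K` and `K ⊆ R[1/π]`.

A place `v` of `F / K` is *centred* on `R` if `R ⊆ O_v`; it is *transversal* if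
`m_R = π R + (m_v ∩ R)` (automatic for `K`-rational `v`).

`cons_loc`: for `a ∈ R`, `a ∉ (π)`, and a finite set `S` of centred transversal places
containing every centred place at which `a` vanishes:
`a = u * t ^ d + π * c` with `u` a unit and `d = ∑ v ∈ S, ord_v a`.
So the order of vanishing of the reduction `ā` at the closed point is the number of zeros of `a`
passing through it.
-/

set_option autoImplicit false
set_option linter.unusedSectionVars false
set_option linter.style.haveILetI false
set_option maxHeartbeats 1000000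

namespace Fermat.Agent.S37x.Red.H29

open AlgebraicCurve IsLocalRing Fermat.Agent.S24.Orb Fermat.Agent.S18x.Dict.H7

variable {K F R : Type*} [Field K] [Field F] [Algebra K F]
  [CommRing R] [IsDomain R] [Algebra R F] [IsFractionRing R F]

/-- The place `v` is centred on `R`: `R ⊆ O_v`. -/
def Centred (R : Type*) [CommRing R] [Algebra R F] (v : Place K F) : Prop :=
  ∀ x : R, algebraMap R F x ∈ v.toValuationSubring

/-- The place `v` is transversal to the fibre `π = 0`: `m_R = π R + (m_v ∩ R)`. -/
def Transversal {R : Type*} [CommRing R] [Algebra R F] (π : R) (v : Place K F) : Prop :=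
  ∀ z : R, ¬ IsUnit z → ∃ c w : R, z = π * c + w ∧ (w = 0 ∨ 0 < v.ord (algebraMap R F w))

/-- `x ≡ unit * t ^ d` modulo `π`. -/
def IsOrd {R : Type*} [CommRing R] (π t : R) (x : R) (d : ℕ) : Prop :=
  ∃ u c : R, IsUnit u ∧ x = u * t ^ d + π * c

section Basic

omit [IsDomain R] in
theorem isOrd_unit (π t : R) {x : R} (hx : IsUnit x) : IsOrd π t x 0 :=
  ⟨x, 0, hx, by simp⟩

omit [IsDomain R] in
theorem isOrd_mul (π t : R) {x y : R} {d e : ℕ} (hx : IsOrd π t x d) (hy : IsOrd π t y e) :
    IsOrd π t (x * y) (d + e) := by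
  obtain ⟨u, c, hu, rfl⟩ := hx
  obtain ⟨u', c', hu', rfl⟩ := hy
  exact ⟨u * u', u * t ^ d * c' + c * u' * t ^ e + π * c * c', hu.mul hu', by ring⟩

theorem algebraMap_ne_zero' {x : R} (hx : x ≠ 0) : algebraMap R F x ≠ 0 := by
  rw [Ne, map_eq_zero_iff _ (IsFractionRing.injective R F)]
  exact hx

variable {v : Place K F}

theorem ord_nonneg_of_centred (hv : Centred R v) (x : R) : 0 ≤ v.ord (algebraMap R F x) := by
  by_cases hx : x = 0
  · rw [hx, map_zero, Place.ord_zero]
  · exact (mem_place_iff_ord_nonneg v (algebraMap_ne_zero' hx)).mp (hv x)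

theorem ord_mul' (v : Place K F) {x y : R} (hx : x ≠ 0) (hy : y ≠ 0) :
    v.ord (algebraMap R F (x * y)) = v.ord (algebraMap R F x) + v.ord (algebraMap R F y) := by
  rw [map_mul, v.ord_mul (algebraMap_ne_zero' hx) (algebraMap_ne_zero' hy)]

theorem ord_unit_of_centred (hv : Centred R v) {u : R} (hu : IsUnit u) :
    v.ord (algebraMap R F u) = 0 := by
  obtain ⟨u', hu'⟩ := hu.exists_right_inv
  have hu0 : u ≠ 0 := hu.ne_zero
  have hu'0 : u' ≠ 0 := by
    rintro rfl
    rw [mul_zero] at hu'
    exact zero_ne_one hu'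
  have h1 := ord_mul' v hu0 hu'0
  rw [hu', map_one, Place.ord_one] at h1
  have h2 := ord_nonneg_of_centred hv u
  have h3 := ord_nonneg_of_centred hv u'
  omega

theorem ord_pow' (v : Place K F) {x : R} (hx : x ≠ 0) (n : ℕ) :
    v.ord (algebraMap R F (x ^ n)) = n * v.ord (algebraMap R F x) := by
  induction n with
  | zero => simp
  | succ n ih =>
    rw [pow_succ, ord_mul' v (pow_ne_zero n hx) hx, ih]
    push_cast
    ring

theorem ord_pi (v : Place K F) {π : R} (hπK : ∃ c : K, algebraMap K F c = algebraMap R F π)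
    (hπ0 : π ≠ 0) : v.ord (algebraMap R F π) = 0 := by
  obtain ⟨c, hc⟩ := hπK
  rw [← hc]
  exact ord_algebraMap v (by rw [hc]; exact algebraMap_ne_zero' hπ0)

end Basic

section Local

variable [IsLocalRing R] [IsNoetherianRing R] {v : Place K F}

/-- If `m_R = (w, π)`, `ord_v π = 0` and `ord_v w > 0`, then every `x ∈ R` vanishing at `v` is
divisible by `w`. -/
theorem dvd_of_ord_pos (π w : R) (hm : maximalIdeal R = Ideal.span {w, π})
    (hv : Centred R v) (hπ0 : π ≠ 0) (hπv : v.ord (algebraMap R F π) = 0)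
    (hw : 0 < v.ord (algebraMap R F w)) (x : R) (hx : 0 < v.ord (algebraMap R F x)) :
    w ∣ x := by
  by_contra hnd
  have hxs : x ∉ Ideal.span {w} := by
    rw [Ideal.mem_span_singleton]
    exact hnd
  obtain ⟨d, u, c, hu, hxe⟩ := h7_exists_unit_pow w π hm x hxs
  have hA0 : u * π ^ d ≠ 0 := mul_ne_zero hu.ne_zero (pow_ne_zero d hπ0)
  have hA : v.ord (algebraMap R F (u * π ^ d)) = 0 := by
    rw [ord_mul' v hu.ne_zero (pow_ne_zero d hπ0), ord_unit_of_centred hv hu,
      ord_pow' v hπ0, hπv]
    simp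
  have hx0 : x ≠ 0 := by
    rintro rfl
    rw [map_zero, Place.ord_zero] at hx
    exact lt_irrefl _ hx
  have hw0 : w ≠ 0 := by
    rintro rfl
    rw [map_zero, Place.ord_zero] at hw
    exact lt_irrefl _ hw
  by_cases hc : c = 0
  · rw [hc, mul_zero, add_zero] at hxe
    rw [hxe, hA] at hx
    exact lt_irrefl _ hx
  · have hB : 0 < v.ord (algebraMap R F (-(w * c))) := by
      rw [map_neg, ← neg_one_mul, v.ord_mul (by simp) (algebraMap_ne_zero' (mul_ne_zero hw0 hc)),
        ord_mul' v hw0 hc]
      have h1 : v.ord (-1 : F) = 0 := by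
        have h2 := v.ord_mul (f := (-1 : F)) (g := -1) (by simp) (by simp)
        rw [neg_one_mul, neg_neg, Place.ord_one] at h2
        omega
      have h3 := ord_nonneg_of_centred hv c
      omega
    have hsum : algebraMap R F (u * π ^ d) = algebraMap R F x + algebraMap R F (-(w * c)) := by
      rw [← map_add, hxe]
      congr 1
      ring
    have h4 := le_ord_add v (algebraMap_ne_zero' hx0)
      (algebraMap_ne_zero' (neg_ne_zero.mpr (mul_ne_zero hw0 hc)))
      (by rw [← hsum]; exact algebraMap_ne_zero' hA0)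
    rw [← hsum, hA] at h4
    have h5 : 0 < min (v.ord (algebraMap R F x)) (v.ord (algebraMap R F (-(w * c)))) :=
      lt_min hx hB
    omega

/-- The transversal generator: `m_R = (π, w)` with `w` vanishing at `v`. -/
theorem exists_transversal_gen (π t : R) (hm : maximalIdeal R = Ideal.span {π, t})
    (ht : t ∉ Ideal.span {π}) (htr : Transversal π v) :
    ∃ w : R, w ≠ 0 ∧ 0 < v.ord (algebraMap R F w) ∧ maximalIdeal R = Ideal.span {π, w} ∧
      w ∉ Ideal.span {π} := by
  have htm : ¬ IsUnit t := by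
    have : t ∈ maximalIdeal R := h7_t_mem π t hm
    exact (mem_maximalIdeal t).mp this
  obtain ⟨c, w, htw, hw⟩ := htr t htm
  have hwπ : w ∉ Ideal.span {π} := by
    intro h
    apply ht
    rw [htw]
    exact Ideal.add_mem _ (Ideal.mul_mem_right _ _ (Ideal.mem_span_singleton_self π)) h
  have hw0 : w ≠ 0 := by
    rintro rfl
    exact hwπ (Ideal.zero_mem _)
  refine ⟨w, hw0, hw.resolve_left hw0, ?_, hwπ⟩
  rw [hm]
  apply le_antisymm
  · rw [Ideal.span_le]
    rintro x (rfl | rfl)
    · exact Ideal.subset_span (by simp)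
    · rw [htw]
      exact Ideal.add_mem _ (Ideal.mul_mem_right _ _ (Ideal.subset_span (by simp)))
        (Ideal.subset_span (by simp))
  · rw [Ideal.span_le]
    rintro x (rfl | rfl)
    · exact Ideal.subset_span (by simp)
    · have : x = t - π * c := by rw [htw]; ring
      rw [this]
      exact Ideal.sub_mem _ (Ideal.subset_span (by simp))
        (Ideal.mul_mem_right _ _ (Ideal.subset_span (by simp)))

/-- A generator `w` of `m_R` modulo `π` has order one on the special fibre. -/
theorem isOrd_gen (π t w : R) (hm : maximalIdeal R = Ideal.span {π, t})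
    (hmw : maximalIdeal R = Ideal.span {π, w}) (hw : w ∉ Ideal.span {π}) :
    IsOrd π t w 1 := by
  have hwm : w ∈ maximalIdeal R := by
    rw [hmw]
    exact Ideal.subset_span (by simp)
  have htm : t ∈ maximalIdeal R := h7_t_mem π t hm
  rw [hm, Ideal.mem_span_pair] at hwm
  obtain ⟨α, β, hαβ⟩ := hwm
  have hβ : IsUnit β := by
    by_contra hβ
    have hβm : β ∈ maximalIdeal R := (mem_maximalIdeal β).mpr hβ
    rw [hmw, Ideal.mem_span_pair] at hβm
    obtain ⟨γ, δ, hγδ⟩ := hβm
    have h1 : w * (1 - δ * t) = π * (α + γ * t) := by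
      linear_combination (-1 : R) * hαβ - t * hγδ
    have h2 : IsUnit (1 - δ * t) := by
      by_contra h
      have h3 : 1 - δ * t ∈ maximalIdeal R := (mem_maximalIdeal _).mpr h
      have h4 : δ * t ∈ maximalIdeal R := Ideal.mul_mem_left _ _ htm
      have h5 : (1 : R) ∈ maximalIdeal R := by
        have := Ideal.add_mem _ h3 h4
        simp at this
      exact (mem_maximalIdeal (1 : R)).mp h5 isUnit_one
    obtain ⟨e, he⟩ := h2.exists_right_inv
    apply hw
    rw [Ideal.mem_span_singleton]
    refine ⟨(α + γ * t) * e, ?_⟩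
    calc w = w * ((1 - δ * t) * e) := by rw [he, mul_one]
      _ = (w * (1 - δ * t)) * e := by ring
      _ = π * ((α + γ * t) * e) := by rw [h1]; ring
  exact ⟨β, α, hβ, by rw [← hαβ]; ring⟩

/-- The transversal generator is a prime element. -/
theorem prime_gen (π w : R) (hmw : maximalIdeal R = Ideal.span {π, w})
    (hv : Centred R v) (hπ0 : π ≠ 0) (hπv : v.ord (algebraMap R F π) = 0)
    (hw : 0 < v.ord (algebraMap R F w)) : Prime w := by
  have hm' : maximalIdeal R = Ideal.span {w, π} := by rw [hmw, Set.pair_comm]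
  have hw0 : w ≠ 0 := by
    rintro rfl
    rw [map_zero, Place.ord_zero] at hw
    exact lt_irrefl _ hw
  refine ⟨hw0, ?_, ?_⟩
  · intro hu
    rw [ord_unit_of_centred hv hu] at hw
    exact lt_irrefl _ hw
  · intro a b hab
    by_cases ha : a = 0
    · left; rw [ha]; exact dvd_zero w
    by_cases hb : b = 0
    · right; rw [hb]; exact dvd_zero w
    obtain ⟨c, hc⟩ := hab
    have hc0 : c ≠ 0 := by
      rintro rfl
      rw [mul_zero] at hc
      exact mul_ne_zero ha hb hc
    have h1 := ord_mul' v ha hb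
    rw [hc, ord_mul' v hw0 hc0] at h1
    have h2 := ord_nonneg_of_centred hv c
    have h3 := ord_nonneg_of_centred hv a
    have h4 := ord_nonneg_of_centred hv b
    by_cases h5 : 0 < v.ord (algebraMap R F a)
    · left; exact dvd_of_ord_pos π w hm' hv hπ0 hπv hw a h5
    · right
      exact dvd_of_ord_pos π w hm' hv hπ0 hπv hw b (by omega)

/-- At a centred place with transversal generator `w`, the order of `x ∈ R` is a multiple of
the order of `w`, the factor being the multiplicity of `w` in `x`. -/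
theorem ord_eq_multiplicity_mul (π w : R) (hmw : maximalIdeal R = Ideal.span {π, w})
    (hv : Centred R v) (hπ0 : π ≠ 0) (hπv : v.ord (algebraMap R F π) = 0)
    (hw : 0 < v.ord (algebraMap R F w)) (x : R) (hx : x ≠ 0) :
    v.ord (algebraMap R F x) = multiplicity w x * v.ord (algebraMap R F w) := by
  have hm' : maximalIdeal R = Ideal.span {w, π} := by rw [hmw, Set.pair_comm]
  have hp := prime_gen π w hmw hv hπ0 hπv hw
  have hfin : FiniteMultiplicity w x := FiniteMultiplicity.of_prime_left hp hx
  obtain ⟨c, hc, hnd⟩ := hfin.exists_eq_pow_mul_and_not_dvd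
  have hc0 : c ≠ 0 := by
    rintro rfl
    exact hnd (dvd_zero w)
  have hcv : v.ord (algebraMap R F c) = 0 := by
    have h1 := ord_nonneg_of_centred hv c
    by_contra h2
    exact hnd (dvd_of_ord_pos π w hm' hv hπ0 hπv hw c (by omega))
  conv_lhs => rw [hc]
  rw [ord_mul' v (pow_ne_zero _ hp.ne_zero) hc0, ord_pow' v hp.ne_zero, hcv, add_zero]

/-- The transversal generator is a uniformiser of `v`. -/
theorem ord_gen_eq_one (π w : R) (hmw : maximalIdeal R = Ideal.span {π, w})
    (hv : Centred R v) (hπ0 : π ≠ 0) (hπv : v.ord (algebraMap R F π) = 0)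
    (hw : 0 < v.ord (algebraMap R F w)) : v.ord (algebraMap R F w) = 1 := by
  obtain ⟨ϖ, hϖ⟩ := IsDiscreteValuationRing.exists_irreducible v.toValuationSubring
  have h1 : v.ord (ϖ : F) = 1 := v.ord_coe_irreducible hϖ
  obtain ⟨⟨a, b⟩, hab⟩ := IsLocalization.surj (nonZeroDivisors R) (ϖ : F)
  have hb0 : (b : R) ≠ 0 := nonZeroDivisors.ne_zero b.2
  have hϖ0 : (ϖ : F) ≠ 0 := by
    intro h
    rw [h, Place.ord_zero] at h1
    exact zero_ne_one h1
  have ha0 : a ≠ 0 := by
    rintro rfl
    simp only [map_zero] at hab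
    exact mul_ne_zero hϖ0 (algebraMap_ne_zero' hb0) hab
  have h2 := congrArg v.ord hab
  simp only at h2
  rw [v.ord_mul hϖ0 (algebraMap_ne_zero' hb0), h1,
    ord_eq_multiplicity_mul π w hmw hv hπ0 hπv hw a ha0,
    ord_eq_multiplicity_mul π w hmw hv hπ0 hπv hw (b : R) hb0] at h2
  have h3 : ((multiplicity w a : ℤ) - multiplicity w (b : R)) * v.ord (algebraMap R F w) = 1 := by
    linarith
  have h4 : v.ord (algebraMap R F w) ∣ 1 := Dvd.intro_left _ h3
  have h5 := Int.eq_one_or_neg_one_of_mul_eq_one' h3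
  rcases h5 with ⟨_, h6⟩ | ⟨_, h6⟩
  · exact h6
  · omega

/-- At a centred transversal place, `ord_v = multiplicity` of the generator. -/
theorem ord_eq_multiplicity (π w : R) (hmw : maximalIdeal R = Ideal.span {π, w})
    (hv : Centred R v) (hπ0 : π ≠ 0) (hπv : v.ord (algebraMap R F π) = 0)
    (hw : 0 < v.ord (algebraMap R F w)) (x : R) (hx : x ≠ 0) :
    v.ord (algebraMap R F x) = multiplicity w x := by
  rw [ord_eq_multiplicity_mul π w hmw hv hπ0 hπv hw x hx,
    ord_gen_eq_one π w hmw hv hπ0 hπv hw, mul_one]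

end Local

section Main

variable [IsLocalRing R] [IsNoetherianRing R]

/-- The place of a prime element `p` of the UFD `R` not dividing `π`. -/
theorem exists_place_of_prime [UniqueFactorizationMonoid R] (π : R) (hπ0 : π ≠ 0)
    (hK : ∀ c : K, ∃ (n : ℕ) (b : R),
      algebraMap R F π ^ n * algebraMap K F c = algebraMap R F b)
    (p : R) (hp : Prime p) (hpπ : ¬ p ∣ π) :
    ∃ v : Place K F, Centred R v ∧ 0 < v.ord (algebraMap R F p) := by
  have hpu : ¬ IsUnit p := hp.not_isUnit
  have hmul := h7_w_mul (F := F) p hp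
  have hadd := h7_w_add (F := F) p hp
  have hwR : ∀ x : R, x ≠ 0 → h7_w p (algebraMap R F x) = (multiplicity p x : ℤ) := by
    intro x hx
    rw [h7_w_eq p hp (algebraMap R F x) x 1 hx one_ne_zero (by rw [map_one, mul_one]),
      multiplicity_of_one_right hpu]
    simp
  have hKw : ∀ a : K, algebraMap K F a ≠ 0 → 0 ≤ h7_w p (algebraMap K F a) := by
    intro a ha
    obtain ⟨n, b, hnb⟩ := hK a
    have hb0 : b ≠ 0 := by
      rintro rfl
      rw [map_zero] at hnb
      exact mul_ne_zero (pow_ne_zero n (algebraMap_ne_zero' hπ0)) ha hnb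
    have hpn : ¬ p ∣ π ^ n := fun h => hpπ (hp.dvd_of_dvd_pow h)
    rw [h7_w_eq p hp (algebraMap K F a) b (π ^ n) hb0 (pow_ne_zero n hπ0)
      (by rw [map_pow, mul_comm]; exact hnb), multiplicity_eq_zero.mpr hpn]
    simp
  have hnt : ∃ t : F, t ≠ 0 ∧ h7_w p t ≠ 0 := by
    refine ⟨algebraMap R F p, algebraMap_ne_zero' hp.ne_zero, ?_⟩
    rw [hwR p hp.ne_zero, multiplicity_self]
    simp
  obtain ⟨P, m, hm0, hwP, hmem⟩ := exists_place_of_valuation (K := K) (h7_w p) hmul hadd hKw hnt
  refine ⟨P, ?_, ?_⟩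
  · intro x
    rw [hmem]
    by_cases hx : x = 0
    · left; rw [hx, map_zero]
    · right
      rw [hwR x hx]
      exact Int.natCast_nonneg _
  · have h1 := hwP (algebraMap R F p) (algebraMap_ne_zero' hp.ne_zero)
    rw [hwR p hp.ne_zero, multiplicity_self] at h1
    by_contra h2
    have h3 : (m : ℤ) * P.ord (algebraMap R F p) ≤ 0 :=
      mul_nonpos_of_nonneg_of_nonpos (Int.natCast_nonneg _) (by omega)
    have h4 : ((1 : ℕ) : ℤ) = 1 := by norm_num
    omega

/-- Two centred transversal places with associated generators coincide. -/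
theorem place_eq_of_gen {v v' : Place K F} (π w : R)
    (hmw : maximalIdeal R = Ideal.span {π, w}) (hπ0 : π ≠ 0)
    (hv : Centred R v) (hπv : v.ord (algebraMap R F π) = 0)
    (hw : 0 < v.ord (algebraMap R F w))
    (hv' : Centred R v') (hπv' : v'.ord (algebraMap R F π) = 0)
    (hw' : 0 < v'.ord (algebraMap R F w)) : v = v' := by
  apply place_ext_of_ord
  intro f hf
  obtain ⟨⟨a, b⟩, hab⟩ := IsLocalization.surj (nonZeroDivisors R) f
  have hb0 : (b : R) ≠ 0 := nonZeroDivisors.ne_zero b.2
  have ha0 : a ≠ 0 := by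
    rintro rfl
    simp only [map_zero] at hab
    exact mul_ne_zero hf (algebraMap_ne_zero' hb0) hab
  have h1 := congrArg v.ord hab
  have h2 := congrArg v'.ord hab
  simp only at h1 h2
  rw [v.ord_mul hf (algebraMap_ne_zero' hb0),
    ord_eq_multiplicity π w hmw hv hπ0 hπv hw a ha0,
    ord_eq_multiplicity π w hmw hv hπ0 hπv hw (b : R) hb0] at h1
  rw [v'.ord_mul hf (algebraMap_ne_zero' hb0),
    ord_eq_multiplicity π w hmw hv' hπ0 hπv' hw' a ha0,
    ord_eq_multiplicity π w hmw hv' hπ0 hπv' hw' (b : R) hb0] at h2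
  have h3 : v.ord f = v'.ord f := by omega
  rw [h3]

/-- **Local conservation, regular case** (`t ∉ (π)`). -/
theorem cons_loc_aux (π t : R) (hm : maximalIdeal R = Ideal.span {π, t})
    (hπ : (Ideal.span {π} : Ideal R).IsPrime) (hπ0 : π ≠ 0) (ht : t ∉ Ideal.span {π})
    (hπK : ∃ c : K, algebraMap K F c = algebraMap R F π)
    (hK : ∀ c : K, ∃ (n : ℕ) (b : R),
      algebraMap R F π ^ n * algebraMap K F c = algebraMap R F b)
    (S : Finset (Place K F))
    (hS₁ : ∀ v ∈ S, Centred R v ∧ Transversal π v) (a : R) :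
    a ∉ Ideal.span {π} →
    (∀ v : Place K F, Centred R v → v.ord (algebraMap R F a) ≠ 0 → v ∈ S) →
    ∃ d : ℕ, IsOrd π t a d ∧ (d : ℤ) = ∑ v ∈ S, v.ord (algebraMap R F a) := by
  classical
  haveI : UniqueFactorizationMonoid R := h7_ufm π t hm hπ hπ0
  have hπv : ∀ v : Place K F, v.ord (algebraMap R F π) = 0 := fun v => ord_pi v hπK hπ0
  induction a using UniqueFactorizationMonoid.induction_on_prime with
  | h₁ =>
    intro h0
    exact absurd (Ideal.zero_mem _) h0
  | h₂ x hx =>
    intro _ _
    refine ⟨0, isOrd_unit π t hx, ?_⟩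
    rw [Finset.sum_eq_zero (fun v hv => ord_unit_of_centred (hS₁ v hv).1 hx)]
    simp
  | h₃ a p ha0 hp ih =>
    intro hpa hS₂
    have hpπ' : p ∉ Ideal.span {π} := fun h => hpa (Ideal.mul_mem_right _ _ h)
    have haπ : a ∉ Ideal.span {π} := fun h => hpa (Ideal.mul_mem_left _ _ h)
    have hpπ : ¬ p ∣ π := by
      intro h
      have hπp : Prime π := h7_prime_pi π hπ hπ0
      have hass : Associated p π := hp.associated_of_dvd hπp h
      apply hpπ'
      rw [Ideal.mem_span_singleton]
      exact hass.symm.dvd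
    -- the place of `p`
    obtain ⟨vp, hvpc, hvpp⟩ := exists_place_of_prime (K := K) (F := F) π hπ0 hK p hp hpπ
    have hvpS : vp ∈ S := by
      apply hS₂ vp hvpc
      rw [ord_mul' vp hp.ne_zero ha0]
      have := ord_nonneg_of_centred hvpc a
      omega
    -- for a centred transversal place with `ord p > 0`: `p` is associated to the generator
    have key : ∀ v ∈ S, 0 < v.ord (algebraMap R F p) →
        IsOrd π t p 1 ∧ v.ord (algebraMap R F p) = 1 ∧ v = vp := by
      intro v hvS hvp
      obtain ⟨hvc, hvt⟩ := hS₁ v hvS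
      obtain ⟨w, hw0, hwv, hmw, hwπ⟩ := exists_transversal_gen (v := v) π t hm ht hvt
      have hm' : maximalIdeal R = Ideal.span {w, π} := by rw [hmw, Set.pair_comm]
      have hwp : w ∣ p := dvd_of_ord_pos π w hm' hvc hπ0 (hπv v) hwv p hvp
      have hwprime : Prime w := prime_gen π w hmw hvc hπ0 (hπv v) hwv
      have hass : Associated w p := hwprime.associated_of_dvd hp hwp
      obtain ⟨e, he⟩ := hass
      have h1 : IsOrd π t p 1 := by
        have := isOrd_mul π t (isOrd_gen π t w hm hmw hwπ) (isOrd_unit π t e.isUnit)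
        rwa [he] at this
      have h2 : v.ord (algebraMap R F p) = 1 := by
        rw [← he, ord_mul' v hw0 e.isUnit.ne_zero, ord_unit_of_centred hvc e.isUnit,
          ord_gen_eq_one π w hmw hvc hπ0 (hπv v) hwv]
        rfl
      refine ⟨h1, h2, ?_⟩
      have hwvp : 0 < vp.ord (algebraMap R F w) := by
        have h3 : w = p * (e⁻¹ : Rˣ) := by rw [← he]; simp
        rw [h3, ord_mul' vp hp.ne_zero (e⁻¹).isUnit.ne_zero,
          ord_unit_of_centred hvpc (e⁻¹).isUnit]
        omega
      exact place_eq_of_gen π w hmw hπ0 hvc (hπv v) hwv hvpc (hπv vp) hwvp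
    obtain ⟨hp1, hvp1, _⟩ := key vp hvpS hvpp
    -- induction hypothesis
    obtain ⟨d, hd, hdS⟩ := ih haπ (by
      intro v hvc hva
      apply hS₂ v hvc
      rw [ord_mul' v hp.ne_zero ha0]
      have h1 := ord_nonneg_of_centred hvc a
      have h2 := ord_nonneg_of_centred hvc p
      omega)
    refine ⟨1 + d, isOrd_mul π t hp1 hd, ?_⟩
    have hsum : ∑ v ∈ S, v.ord (algebraMap R F (p * a))
        = ∑ v ∈ S, v.ord (algebraMap R F p) + ∑ v ∈ S, v.ord (algebraMap R F a) := by
      rw [← Finset.sum_add_distrib]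
      exact Finset.sum_congr rfl (fun v _ => ord_mul' v hp.ne_zero ha0)
    have hsum1 : ∑ v ∈ S, v.ord (algebraMap R F p) = 1 := by
      rw [Finset.sum_eq_single vp, hvp1]
      · intro v hvS hne
        by_contra h
        have h1 := ord_nonneg_of_centred (hS₁ v hvS).1 p
        exact hne (key v hvS (by omega)).2.2
      · intro h
        exact absurd hvpS h
    rw [hsum, hsum1, ← hdS]
    push_cast
    ring

/-- **[CONS-LOC] Local conservation of zeros.**  `R` a noetherian local domain with maximal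
ideal `(π, t)`, `(π)` prime; `a ∉ (π)`; `S` a finite set of centred transversal places of
`F = Frac R` over `K` containing all centred places at which `a` vanishes.  Then
`a = u * t ^ d + π * c` with `u` a unit and `d = ∑ v ∈ S, ord_v a`. -/
theorem cons_loc (π t : R) (hm : maximalIdeal R = Ideal.span {π, t})
    (hπ : (Ideal.span {π} : Ideal R).IsPrime) (hπ0 : π ≠ 0)
    (hπK : ∃ c : K, algebraMap K F c = algebraMap R F π)
    (hK : ∀ c : K, ∃ (n : ℕ) (b : R),
      algebraMap R F π ^ n * algebraMap K F c = algebraMap R F b)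
    (a : R) (ha : a ∉ Ideal.span {π})
    (S : Finset (Place K F))
    (hS₁ : ∀ v ∈ S, Centred R v ∧ Transversal π v)
    (hS₂ : ∀ v : Place K F, Centred R v → v.ord (algebraMap R F a) ≠ 0 → v ∈ S) :
    ∃ (d : ℕ) (u c : R), IsUnit u ∧ a = u * t ^ d + π * c ∧
      (d : ℤ) = ∑ v ∈ S, v.ord (algebraMap R F a) := by
  by_cases ht : t ∈ Ideal.span {π}
  · -- degenerate case: `m_R = (π)`, `a` is a unit
    have hmax : maximalIdeal R = Ideal.span {π} := by
      rw [hm]
      apply le_antisymm
      · rw [Ideal.span_le]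
        rintro x (rfl | rfl)
        · exact Ideal.mem_span_singleton_self _
        · exact ht
      · exact Ideal.span_mono (by simp)
    have hau : IsUnit a := by
      rw [← hmax] at ha
      by_contra hnu
      exact ha ((mem_maximalIdeal a).mpr hnu)
    refine ⟨0, a, 0, hau, by simp, ?_⟩
    rw [Finset.sum_eq_zero (fun v hv => ord_unit_of_centred (hS₁ v hv).1 hau)]
    simp
  · obtain ⟨d, ⟨u, c, hu, hac⟩, hd⟩ := cons_loc_aux π t hm hπ hπ0 ht hπK hK S hS₁ a ha hS₂
    exact ⟨d, u, c, hu, hac, hd⟩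

end Main

end Fermat.Agent.S37x.Red.H29

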