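import Mathlib
import Fermat.Prelude.Def_AlgebraicCurve_DivisorClassGroup
import Fermat.Agent.S24.H15_Kaehler

/-!
# S37 / [RED-M] (b-asm): the abstract assembly of the conservation law (helper2)

`r_* div y = div ȳ` at one place `Q` of the special fibre, from

* the local factorisation `s * z = u * t ^ d + π * c` with `d = Σ_{v through 𝔫} ord_v z`
  (helper11's `cons_core`, helper29's `cons_loc`) for numerator and denominator,
* the centre dictionary (`ord_Q (red s) = 0` for `s ∉ 𝔫`, `ord_Q (red t) = 1`),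
* the restriction of places from `E / L` to `F / K` (`e = 1`, uniqueness and existence of the
  extension at the relevant places), and
* the compatibility `r P = Q ↔ (res P through 𝔫)`.

No modular curve inside: `E / L = F_ℚ̄`, `Eb / k = F̄_k`, `F / K = F_K`, `F' = F̄_κ`,
`B` the chart, `ρ` the Gauss reduction on the chart, `Cen v` = "`v` is centred at `𝔫`".
-/

set_option autoImplicit false

open AlgebraicCurve

noncomputable section

namespace Fermat.Agent.S37x.Red.H2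

open Fermat.Agent.S24.RH

section PlaceLemmas

variable {K F : Type*} [Field K] [Field F] [Algebra K F]

/-- `ord_v f = 0` iff `f` and `f⁻¹` lie in the valuation ring. -/
theorem h2c_ord_eq_zero_iff (v : Place K F) (f : F) :
    v.ord f = 0 ↔ f ∈ v.toValuationSubring ∧ f⁻¹ ∈ v.toValuationSubring := by
  constructor
  · intro h
    refine ⟨mem_of_ord_nonneg v h.ge, mem_of_ord_nonneg v ?_⟩
    rw [v.ord_inv, h]
    simp
  · rintro ⟨h1, h2⟩
    have e1 := ord_nonneg_of_mem v h1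
    have e2 := ord_nonneg_of_mem v h2
    rw [v.ord_inv] at e2
    omega

/-- the order of a power. -/
theorem h2c_ord_pow (v : Place K F) (f : F) (n : ℕ) : v.ord (f ^ n) = n * v.ord f := by
  have := v.ord_zpow f (n : ℤ)
  rwa [zpow_natCast] at this

end PlaceLemmas

section Restriction

variable {L E K F : Type*} [Field L] [Field E] [Algebra L E] [Field K] [Field F] [Algebra K F]

/-- If `O_v = ι⁻¹ O_P`, then `ord_P (ι f) = 0 ↔ ord_v f = 0`. -/
theorem h2c_ord_eq_zero_of_comap (ι : F →+* E) (P : Place L E) (v : Place K F)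
    (hres : v.toValuationSubring = P.toValuationSubring.comap ι) (f : F) :
    P.ord (ι f) = 0 ↔ v.ord f = 0 := by
  rw [h2c_ord_eq_zero_iff P (ι f), h2c_ord_eq_zero_iff v f, hres, ValuationSubring.mem_comap,
    ValuationSubring.mem_comap, map_inv₀]

end Restriction

section Assembly

variable {L E k Eb K F F' : Type*} [Field L] [Field E] [Algebra L E] [Field k] [Field Eb]
  [Algebra k Eb] [Field K] [Field F] [Algebra K F] [Field F']

/-- **Special side**: from `s * z = u * t ^ d + π * c` one reads off `ord_Q (red z) = d`. -/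
theorem h2c_special (Q : Place k Eb) (ιb : F' →+* Eb) (B : Subring F) (ρ : B →+* F')
    (𝔫 : Ideal B) (π t : B) (hρπ : ρ π = 0) (hρ𝔫 : ∀ s : B, ρ s = 0 → s ∈ 𝔫)
    (hQs : ∀ s : B, s ∉ 𝔫 → Q.ord (ιb (ρ s)) = 0) (hQt : Q.ord (ιb (ρ t)) = 1)
    (z : B) (hρz : ρ z ≠ 0) (d : ℕ) (s u c : B) (hs : s ∉ 𝔫) (hu : u ∉ 𝔫)
    (h : s * z = u * t ^ d + π * c) : Q.ord (ιb (ρ z)) = d := by
  have h1 : ιb (ρ s) * ιb (ρ z) = ιb (ρ u) * ιb (ρ t) ^ d := by
    have := congrArg (fun w => ιb (ρ w)) h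
    simpa [hρπ] using this
  have hs0 : ιb (ρ s) ≠ 0 := (map_ne_zero ιb).mpr (fun h0 => hs (hρ𝔫 s h0))
  have hu0 : ιb (ρ u) ≠ 0 := (map_ne_zero ιb).mpr (fun h0 => hu (hρ𝔫 u h0))
  have hz0 : ιb (ρ z) ≠ 0 := (map_ne_zero ιb).mpr hρz
  have ht0 : ιb (ρ t) ≠ 0 := by
    intro h0
    rw [h0, Place.ord_zero] at hQt
    exact zero_ne_one hQt
  have h2 := congrArg Q.ord h1
  rw [Q.ord_mul hs0 hz0, Q.ord_mul hu0 (pow_ne_zero _ ht0), h2c_ord_pow, hQs s hs, hQs u hu,
    hQt] at h2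
  simpa using h2

open Classical in
/-- **Generic side**, relational form (`v` is the restriction of `P` iff
`O_P.comap ι = O_v`): the sum of `ord_v z` over the places of `F / K` through `𝔫` is the value
at `Q` of `r_* div (ι z)`. -/
theorem h2c_generic (r : Place L E → Place k Eb) (Q : Place k Eb) (ι : F →+* E)
    (Cen : Place K F → Prop) (z : F)
    (hex : ∀ P : Place L E, P.ord (ι z) ≠ 0 →
      ∃ v : Place K F, P.toValuationSubring.comap ι = v.toValuationSubring)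
    (hsurj : ∀ v : Place K F, Cen v → v.ord z ≠ 0 →
      ∃ P : Place L E, P.toValuationSubring.comap ι = v.toValuationSubring)
    (hord : ∀ (P : Place L E) (v : Place K F),
      P.toValuationSubring.comap ι = v.toValuationSubring → P.ord (ι z) ≠ 0 →
        P.ord (ι z) = v.ord z)
    (hinj : ∀ (P P' : Place L E) (v : Place K F),
      P.toValuationSubring.comap ι = v.toValuationSubring →
      P'.toValuationSubring.comap ι = v.toValuationSubring → P.ord (ι z) ≠ 0 → P' = P)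
    (hrQ : ∀ (P : Place L E) (v : Place K F),
      P.toValuationSubring.comap ι = v.toValuationSubring → P.ord (ι z) ≠ 0 →
        (r P = Q ↔ Cen v))
    (Dz : Divisor L E) (hDz : ∀ P, Dz P = P.ord (ι z)) (d : ℤ)
    (hd : ∀ S : Finset (Place K F), (∀ v, v ∈ S ↔ Cen v ∧ v.ord z ≠ 0) →
      ∑ v ∈ S, v.ord z = d) :
    Finsupp.mapDomain r Dz Q = d := by
  set T : Finset (Place L E) := Dz.support.filter (fun P => r P = Q) with hT
  have hmemT : ∀ P, P ∈ T ↔ P.ord (ι z) ≠ 0 ∧ r P = Q := by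
    intro P
    rw [hT, Finset.mem_filter, Finsupp.mem_support_iff, hDz]
  -- the restriction on `T`
  let res : T → Place K F := fun P => Classical.choose (hex P.1 ((hmemT P.1).mp P.2).1)
  have hres : ∀ P : T, (P.1).toValuationSubring.comap ι = (res P).toValuationSubring :=
    fun P => Classical.choose_spec (hex P.1 ((hmemT P.1).mp P.2).1)
  have hS : ∀ v, v ∈ T.attach.image res ↔ Cen v ∧ v.ord z ≠ 0 := by
    intro v
    rw [Finset.mem_image]
    constructor
    · rintro ⟨P, -, rfl⟩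
      obtain ⟨hP0, hPQ⟩ := (hmemT P.1).mp P.2
      exact ⟨(hrQ P.1 _ (hres P) hP0).mp hPQ, by rw [← hord P.1 _ (hres P) hP0]; exact hP0⟩
    · rintro ⟨hc, hv⟩
      obtain ⟨P, hPv⟩ := hsurj v hc hv
      have hP0 : P.ord (ι z) ≠ 0 := fun h0 =>
        hv ((h2c_ord_eq_zero_of_comap ι P v hPv.symm z).mp h0)
      have hPT : P ∈ T := (hmemT P).mpr ⟨hP0, (hrQ P v hPv hP0).mpr hc⟩
      refine ⟨⟨P, hPT⟩, Finset.mem_attach _ _, ?_⟩
      apply Place.ext
      rw [← hres ⟨P, hPT⟩, hPv]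
  rw [← hd _ hS, Finset.sum_image]
  · rw [Finsupp.mapDomain, Finsupp.sum, Finsupp.finsetSum_apply]
    have e1 : ∑ i ∈ Dz.support, (Finsupp.single (r i) (Dz i)) Q = ∑ P ∈ T, Dz P := by
      rw [hT, Finset.sum_filter]
      apply Finset.sum_congr rfl
      intro P _
      rw [Finsupp.single_apply]
    rw [e1, ← Finset.sum_attach T]
    apply Finset.sum_congr rfl
    intro P _
    rw [hDz]
    exact hord P.1 _ (hres P) ((hmemT P.1).mp P.2).1
  · intro P _ P' _ h
    apply Subtype.ext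
    exact (hinj P'.1 P.1 (res P') (hres P') (h ▸ hres P) ((hmemT P'.1).mp P'.2).1)

/-- **(A-ASM)**: the conservation law `(r_* div y)(Q) = ord_Q ȳ` at one place `Q`. -/
theorem h2cons_asm (r : Place L E → Place k Eb) (Q : Place k Eb) (ι : F →+* E)
    (ιb : F' →+* Eb) (B : Subring F) (ρ : B →+* F') (𝔫 : Ideal B) (π t : B)
    (hρπ : ρ π = 0) (hρ𝔫 : ∀ s : B, ρ s = 0 → s ∈ 𝔫)
    (hQs : ∀ s : B, s ∉ 𝔫 → Q.ord (ιb (ρ s)) = 0) (hQt : Q.ord (ιb (ρ t)) = 1)
    (Cen : Place K F → Prop)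
    (a b : B) (hρa : ρ a ≠ 0) (hρb : ρ b ≠ 0)
    (hca : ∃ (d : ℕ) (s u c : B), s ∉ 𝔫 ∧ u ∉ 𝔫 ∧ s * a = u * t ^ d + π * c ∧
      ∀ S : Finset (Place K F), (∀ v, v ∈ S ↔ Cen v ∧ v.ord (a : F) ≠ 0) →
        ∑ v ∈ S, v.ord (a : F) = d)
    (hcb : ∃ (d : ℕ) (s u c : B), s ∉ 𝔫 ∧ u ∉ 𝔫 ∧ s * b = u * t ^ d + π * c ∧
      ∀ S : Finset (Place K F), (∀ v, v ∈ S ↔ Cen v ∧ v.ord (b : F) ≠ 0) →
        ∑ v ∈ S, v.ord (b : F) = d)
    (hex : ∀ z : B, z = a ∨ z = b → ∀ P : Place L E, P.ord (ι z) ≠ 0 →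
      ∃ v : Place K F, P.toValuationSubring.comap ι = v.toValuationSubring)
    (hsurj : ∀ z : B, z = a ∨ z = b → ∀ v : Place K F, Cen v → v.ord (z : F) ≠ 0 →
      ∃ P : Place L E, P.toValuationSubring.comap ι = v.toValuationSubring)
    (hord : ∀ z : B, z = a ∨ z = b → ∀ (P : Place L E) (v : Place K F),
      P.toValuationSubring.comap ι = v.toValuationSubring → P.ord (ι z) ≠ 0 →
        P.ord (ι z) = v.ord (z : F))
    (hinj : ∀ z : B, z = a ∨ z = b → ∀ (P P' : Place L E) (v : Place K F),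
      P.toValuationSubring.comap ι = v.toValuationSubring →
      P'.toValuationSubring.comap ι = v.toValuationSubring → P.ord (ι z) ≠ 0 → P' = P)
    (hrQ : ∀ z : B, z = a ∨ z = b → ∀ (P : Place L E) (v : Place K F),
      P.toValuationSubring.comap ι = v.toValuationSubring → P.ord (ι z) ≠ 0 →
        (r P = Q ↔ Cen v))
    (y : E) (hy : y * ι b = ι a) (yb : Eb) (hyb : yb * ιb (ρ b) = ιb (ρ a))
    (D Da Db : Divisor L E) (hD : ∀ P, D P = P.ord y) (hDa : ∀ P, Da P = P.ord (ι a))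
    (hDb : ∀ P, Db P = P.ord (ι b)) :
    Finsupp.mapDomain r D Q = Q.ord yb := by
  have ha0 : (a : F) ≠ 0 := fun h => hρa (by
    have : a = 0 := Subtype.ext h
    rw [this, map_zero])
  have hb0 : (b : F) ≠ 0 := fun h => hρb (by
    have : b = 0 := Subtype.ext h
    rw [this, map_zero])
  have hιa : ι a ≠ 0 := (map_ne_zero ι).mpr ha0
  have hιb : ι b ≠ 0 := (map_ne_zero ι).mpr hb0
  have hy0 : y ≠ 0 := by
    rintro rfl
    rw [zero_mul] at hy
    exact hιa hy.symm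
  have hρa' : ιb (ρ a) ≠ 0 := (map_ne_zero ιb).mpr hρa
  have hρb' : ιb (ρ b) ≠ 0 := (map_ne_zero ιb).mpr hρb
  have hyb0 : yb ≠ 0 := by
    rintro rfl
    rw [zero_mul] at hyb
    exact hρa' hyb.symm
  -- numerator and denominator
  obtain ⟨da, sa, ua, ca, hsa, hua, hea, hsuma⟩ := hca
  obtain ⟨db, sb, ub, cb, hsb, hub, heb, hsumb⟩ := hcb
  have hA : Finsupp.mapDomain r Da Q = (da : ℤ) :=
    h2c_generic r Q ι Cen (a : F) (hex a (Or.inl rfl)) (hsurj a (Or.inl rfl))
      (hord a (Or.inl rfl)) (hinj a (Or.inl rfl)) (hrQ a (Or.inl rfl)) Da hDa da hsuma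
  have hB : Finsupp.mapDomain r Db Q = (db : ℤ) :=
    h2c_generic r Q ι Cen (b : F) (hex b (Or.inr rfl)) (hsurj b (Or.inr rfl))
      (hord b (Or.inr rfl)) (hinj b (Or.inr rfl)) (hrQ b (Or.inr rfl)) Db hDb db hsumb
  have hA' : Q.ord (ιb (ρ a)) = da :=
    h2c_special Q ιb B ρ 𝔫 π t hρπ hρ𝔫 hQs hQt a hρa da sa ua ca hsa hua hea
  have hB' : Q.ord (ιb (ρ b)) = db :=
    h2c_special Q ιb B ρ 𝔫 π t hρπ hρ𝔫 hQs hQt b hρb db sb ub cb hsb hub heb
  -- `D = Da - Db`
  have hDeq : D = Da - Db := by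
    ext P
    rw [Finsupp.sub_apply, hD, hDa, hDb, ← hy, P.ord_mul hy0 hιb]
    ring
  have hQeq : Q.ord yb = Q.ord (ιb (ρ a)) - Q.ord (ιb (ρ b)) := by
    rw [← hyb, Q.ord_mul hyb0 hρb']
    ring
  rw [hDeq, Finsupp.mapDomain_sub, Finsupp.sub_apply, hA, hB, hQeq, hA', hB']

end Assembly

end Fermat.Agent.S37x.Red.H2
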