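import Mathlib
import Fermat.Prelude.Def_ModularCurve_ReductionModL
import Fermat.Agent.S37x.Red.H20_SepRed
import Fermat.Agent.S37x.Red.H20_Defs
import Fermat.Agent.S37x.Red.H4_ChartVal
import Fermat.Agent.S37x.Asm.DefsLeaves

/-!
# S37 [RED-M] (c2), (ε): the cusp clause of `StSep` via (D5) (helper4)

`L = ℚ̄`, `A` a valuation ring of `L`, `k` its residue field, `F_L = modularFunctionFieldBar M`,
`F̄ = modularFunctionFieldFullC k M`, `r` a place reduction at level `M`.

* `h4_series_equation`, `h4_red_equation` : the integral equation of a chart element over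
  `A[x]`, as an identity of integral Laurent series, and its reduction;
* `h4_d5_of_series` : the data `u = 1 / (1 - x)`, `w = 1 - u`, `y = g u ^ n + w ^ n` of (D5)
  from integral series, upstairs and downstairs;
* `h4_sep_chart` : **chart form of (D5)**: for a chart coordinate `x` (with `1 - x` a unit of
  `A((q))`, `x̄` non-constant, `StVal`, `StWA`) and a place `P` with `x(P) ∈ 𝔪_A` there is a
  function with a simple zero at `P` whose other zeros and poles reduce away from the zeros and
  poles of `x̄`;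
* `h4_stSep_cusp` : **the cusp clause of `Asm.StSep A r`**, from the chart form for `x` and
  `x'` (`= x⁻¹`) and the description of the cusps by `x` (upstairs and downstairs).
-/

set_option autoImplicit false
set_option synthInstance.maxHeartbeats 400000
set_option maxHeartbeats 1000000

open HahnSeries IntermediateField AlgebraicCurve ModularCurve Polynomial

noncomputable section

namespace Fermat.Agent.S37x.Red.H4

section Series

variable {L k : Type*} [Field L] [Field k] (A : ValuationSubring L) (π : A →+* k)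

/-- Evaluation of `p ∈ A[X]` at an integral series. -/
def h4EvalA (x : LaurentSeries A) (p : A[X]) : LaurentSeries A :=
  p.eval₂ (HahnSeries.C : A →+* LaurentSeries A) x

theorem h4_coeffMap_injective : Function.Injective (coeffMap A.subtype) := by
  intro x y hxy
  ext n
  have := congrArg (fun z => z.coeff n) hxy
  simp only [coeffMap_coeff] at this
  exact this

theorem h4_algebraMap_eq_C (K : Type*) [Field K] (c : K) :
    algebraMap K (LaurentSeries K) c = HahnSeries.C c := by
  have h1 : algebraMap K (PowerSeries K) c = PowerSeries.C c := by simp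
  rw [HahnSeries.algebraMap_apply', h1, HahnSeries.ofPowerSeries_C]

theorem h4_coeffMap_C {R S : Type*} [CommRing R] [CommRing S] (f : R →+* S) (a : R) :
    coeffMap f (HahnSeries.C a : LaurentSeries R) = HahnSeries.C (f a) := by
  show coeffMap f (HahnSeries.single 0 a) = HahnSeries.single 0 (f a)
  exact coeffMap_single f 0 a

theorem h4_iota_evalA (x : LaurentSeries A) (p : A[X]) :
    coeffMap A.subtype (h4EvalA A x p) =
      p.eval₂ ((algebraMap L (LaurentSeries L)).comp A.subtype) (coeffMap A.subtype x) := by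
  rw [h4EvalA, hom_eval₂]
  congr 1
  ext a : 1
  simp only [RingHom.comp_apply]
  rw [h4_coeffMap_C, h4_algebraMap_eq_C]

theorem h4_red_evalA (x : LaurentSeries A) (p : A[X]) :
    coeffMap π (h4EvalA A x p) = aeval (coeffMap π x) (p.map π) := by
  rw [h4EvalA, hom_eval₂, aeval_def, eval₂_map]
  congr 1
  ext a : 1
  simp only [RingHom.comp_apply]
  rw [h4_coeffMap_C, h4_algebraMap_eq_C]

end Series

section Equation

variable {L k : Type*} [Field L] [Field k] (A : ValuationSubring L) (π : A →+* k)
  (E : IntermediateField L (LaurentSeries L)) (Ek : IntermediateField k (LaurentSeries k))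

theorem h4_coe_aeval_E (x : E) (p : A[X]) :
    ((aeval x p : E) : LaurentSeries L) =
      p.eval₂ ((algebraMap L (LaurentSeries L)).comp A.subtype) (x : LaurentSeries L) := by
  rw [aeval_def]
  exact hom_eval₂ p (algebraMap A E) (algebraMap E (LaurentSeries L)) x

/-- The integral equation of a chart element, as an identity of integral Laurent series. -/
theorem h4_series_equation (x g : LaurentSeries A) (hx : coeffMap A.subtype x ∈ E)
    (hg : coeffMap A.subtype g ∈ E) (n : ℕ) (q : ℕ → A[X])
    (heq : (⟨coeffMap A.subtype g, hg⟩ : E) ^ n + ∑ i ∈ Finset.range n,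
      aeval (⟨coeffMap A.subtype x, hx⟩ : E) (q i) * (⟨coeffMap A.subtype g, hg⟩ : E) ^ i = 0) :
    g ^ n + ∑ i ∈ Finset.range n, h4EvalA A x (q i) * g ^ i = 0 := by
  apply h4_coeffMap_injective A
  rw [map_zero, map_add, map_pow, map_sum]
  have h1 := congrArg (fun z : E => (z : LaurentSeries L)) heq
  simp only [AddMemClass.coe_add, SubmonoidClass.coe_pow, AddSubmonoidClass.coe_finsetSum,
    MulMemClass.coe_mul, ZeroMemClass.coe_zero, h4_coe_aeval_E] at h1
  rw [← h1]
  congr 1
  refine Finset.sum_congr rfl fun i _ => ?_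
  rw [map_mul, map_pow, h4_iota_evalA]

/-- The reduced integral equation. -/
theorem h4_red_equation (x g : LaurentSeries A) (hxk : coeffMap π x ∈ Ek)
    (hgk : coeffMap π g ∈ Ek) (n : ℕ) (q : ℕ → A[X])
    (heq : g ^ n + ∑ i ∈ Finset.range n, h4EvalA A x (q i) * g ^ i = 0) :
    (⟨coeffMap π g, hgk⟩ : Ek) ^ n + ∑ i ∈ Finset.range n,
      aeval (⟨coeffMap π x, hxk⟩ : Ek) ((q i).map π) * (⟨coeffMap π g, hgk⟩ : Ek) ^ i = 0 := by
  apply Subtype.ext
  have h1 := congrArg (coeffMap π) heq
  rw [map_zero, map_add, map_pow, map_sum] at h1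
  simp only [AddMemClass.coe_add, SubmonoidClass.coe_pow, AddSubmonoidClass.coe_finsetSum,
    MulMemClass.coe_mul, ZeroMemClass.coe_zero]
  rw [← h1]
  congr 1
  refine Finset.sum_congr rfl fun i _ => ?_
  rw [map_mul, map_pow, h4_red_evalA, ← IntermediateField.aeval_coe]

/-- A series which is a constant of `A` upstairs is the reduced constant downstairs. -/
theorem h4_const_red (y : LaurentSeries A) (b : A) (hy : coeffMap A.subtype y ∈ E)
    (hyk : coeffMap π y ∈ Ek)
    (h : (⟨coeffMap A.subtype y, hy⟩ : E) = algebraMap L E (b : L)) :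
    (⟨coeffMap π y, hyk⟩ : Ek) = algebraMap k Ek (π b) := by
  have h1 : coeffMap A.subtype y = coeffMap A.subtype (HahnSeries.C b) := by
    have h2 := congrArg (fun z : E => (z : LaurentSeries L)) h
    simp only at h2
    rw [h2, h4_coeffMap_C]
    show algebraMap L (LaurentSeries L) (b : L) = _
    rw [h4_algebraMap_eq_C]
    rfl
  have h3 : y = HahnSeries.C b := h4_coeffMap_injective A h1
  apply Subtype.ext
  show coeffMap π y = algebraMap k (LaurentSeries k) (π b)
  rw [h3, h4_coeffMap_C, h4_algebraMap_eq_C]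

end Equation

section D5Series

variable {R K' : Type*} [CommRing R] [Field K'] (f : LaurentSeries R →+* LaurentSeries K')
  (E' : IntermediateField K' (LaurentSeries K'))

theorem h4_unit_mem (x ux : LaurentSeries R) (hux : ux * (1 - x) = 1) (hx : f x ∈ E') :
    f ux ∈ E' := by
  have h1 : f ux * (1 - f x) = 1 := by
    rw [← map_one f, ← map_sub, ← map_mul, hux]
  have h2 : f ux = (1 - f x)⁻¹ := eq_inv_of_mul_eq_one_left h1
  rw [h2]
  exact inv_mem (sub_mem (one_mem _) hx)

theorem h4_one_sub_mem (ux : LaurentSeries R) (hu : f ux ∈ E') : f (1 - ux) ∈ E' := by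
  rw [map_sub, map_one]
  exact sub_mem (one_mem _) hu

theorem h4_y_mem (g ux : LaurentSeries R) (n : ℕ) (hg : f g ∈ E') (hu : f ux ∈ E') :
    f (g * ux ^ n + (1 - ux) ^ n) ∈ E' := by
  rw [map_add, map_mul, map_pow, map_pow]
  exact add_mem (mul_mem hg (pow_mem hu n)) (pow_mem (h4_one_sub_mem f E' ux hu) n)

/-- The data of (D5) for `a = 1` from integral series. -/
theorem h4_d5_of_series (x g ux : LaurentSeries R) (hux : ux * (1 - x) = 1) (n : ℕ)
    (hx : f x ∈ E') (hg : f g ∈ E') (hu : f ux ∈ E') (hw : f (1 - ux) ∈ E')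
    (hy : f (g * ux ^ n + (1 - ux) ^ n) ∈ E') :
    H4D5 (1 : K') (⟨f x, hx⟩ : E') ⟨f g, hg⟩ ⟨f ux, hu⟩ ⟨f (1 - ux), hw⟩
      ⟨f (g * ux ^ n + (1 - ux) ^ n), hy⟩ n := by
  refine ⟨one_ne_zero, ?_, ?_, ?_⟩
  · apply Subtype.ext
    rw [map_one]
    show f ux * (1 - f x) = 1
    rw [← map_one f, ← map_sub, ← map_mul, hux]
  · apply Subtype.ext
    show f ux + f (1 - ux) = 1
    rw [← map_add, add_sub_cancel, map_one]
  · apply Subtype.ext
    show f (g * ux ^ n + (1 - ux) ^ n) = f g * f ux ^ n + f (1 - ux) ^ n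
    rw [map_add, map_mul, map_pow, map_pow]

end D5Series

section Chart

open Fermat.Agent.S24.RH

local notation "Lbar" => AlgebraicClosure ℚ

variable (A : ValuationSubring (AlgebraicClosure ℚ)) (M : ℕ)

local notation "kA" => IsLocalRing.ResidueField A

/-- **(D5), chart form.**  `x` a chart coordinate with `1 - x` a unit of `A((q))`, `P` a place
at which `x` has a value in `𝔪_A`.  Then there is a function with a simple zero at `P` all of
whose other zeros and poles reduce away from the zeros and poles of `x̄`. -/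
theorem h4_sep_chart
    (r : Place Lbar (modularFunctionFieldBar M) → Place kA (modularFunctionFieldFullC kA M))
    (hr : IsPlaceReductionModL A M r)
    (hdiv : ∀ f : modularFunctionFieldBar M, f ≠ 0 →
      ∃ D : Divisor Lbar (modularFunctionFieldBar M),
        ∀ P : Place Lbar (modularFunctionFieldBar M), D P = P.ord f)
    (hdivk : ∀ f : modularFunctionFieldFullC kA M, f ≠ 0 →
      ∃ D : Divisor kA (modularFunctionFieldFullC kA M),
        ∀ Q : Place kA (modularFunctionFieldFullC kA M), D Q = Q.ord f)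
    (hres : ∀ P : Place Lbar (modularFunctionFieldBar M), ResidueTrivial P)
    (x : LaurentSeries A) (hx : coeffMap A.subtype x ∈ modularFunctionFieldBar M)
    (hxk : coeffMap (IsLocalRing.residue A) x ∈ modularFunctionFieldFullC kA M)
    (ux : LaurentSeries A) (hux : ux * (1 - x) = 1)
    (hxnc : ∀ β : kA, (⟨coeffMap (IsLocalRing.residue A) x, hxk⟩ :
      modularFunctionFieldFullC kA M) ≠ algebraMap kA (modularFunctionFieldFullC kA M) β)
    (hVal : H20.StVal A M r x hx) (hWA : H20.StWA A M x hx hxk)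
    (P : Place Lbar (modularFunctionFieldBar M)) (c : A) (hc : IsLocalRing.residue A c = 0)
    (hPc : 0 < P.ord ((⟨coeffMap A.subtype x, hx⟩ : modularFunctionFieldBar M) -
      algebraMap Lbar (modularFunctionFieldBar M) (c : Lbar))) :
    ∃ f : modularFunctionFieldBar M, f ≠ 0 ∧ P.ord f = 1 ∧
      ∀ P' : Place Lbar (modularFunctionFieldBar M), P' ≠ P → P'.ord f ≠ 0 →
        (r P').ord (⟨coeffMap (IsLocalRing.residue A) x, hxk⟩ :
          modularFunctionFieldFullC kA M) = 0 := by
  classical
  set xL : modularFunctionFieldBar M := ⟨coeffMap A.subtype x, hx⟩ with hxL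
  set xk : modularFunctionFieldFullC kA M := ⟨coeffMap (IsLocalRing.residue A) x, hxk⟩ with hxkd
  -- (0) `x` lies in its own chart
  have hinx : H20.InChart A M xL xL := by
    have hmem : xL ∈ Algebra.adjoin A {xL} := Algebra.subset_adjoin (Set.mem_singleton _)
    exact isIntegral_algebraMap (R := Algebra.adjoin A {xL}) (x := ⟨xL, hmem⟩)
  -- (1) `r P` is a zero of `x̄`
  have hxk0 : xk ≠ 0 := by
    have := hxnc 0
    rwa [map_zero] at this
  have hQ0 : 0 < (r P).ord xk := by
    rcases hVal P c hPc x hx hxk hinx c hPc with h | h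
    · exact absurd (sub_eq_zero.mp h) (hxnc _)
    · rwa [hc, map_zero, sub_zero] at h
  -- (2) the finitely many zeros of `x̄`
  obtain ⟨Dx, hDx⟩ := hdivk xk hxk0
  set T0 : Finset (Place kA (modularFunctionFieldFullC kA M)) :=
    Dx.support.filter (fun Q' => 0 ≤ Q'.ord xk) with hT0
  -- (3) weak approximation
  obtain ⟨g, hg, hgk, hin, hg1, hg0⟩ := hWA (r P) T0 (by
    rintro Q' (rfl | hQ')
    · exact hQ0.le
    · exact (Finset.mem_filter.mp hQ').2)
  set gL : modularFunctionFieldBar M := ⟨coeffMap A.subtype g, hg⟩ with hgL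
  set gk : modularFunctionFieldFullC kA M := ⟨coeffMap (IsLocalRing.residue A) g, hgk⟩ with hgkd
  have hgk0 : gk ≠ 0 := by
    intro h
    rw [h, Place.ord_zero] at hg1
    exact zero_ne_one hg1
  -- (4) the pole-order bound, upstairs and downstairs
  obtain ⟨n0, m0, q, hq, heq⟩ := h4_exists_equation (O := A) xL gL hin
  have heqA := h4_series_equation A (modularFunctionFieldBar M) x g hx hg n0 q heq
  have heqk := h4_red_equation A (IsLocalRing.residue A) (modularFunctionFieldFullC kA M) x g
    hxk hgk n0 q heqA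
  have hbL : ∀ v : Place Lbar (modularFunctionFieldBar M), v.ord xL < 0 →
      (m0 : ℤ) * v.ord xL ≤ v.ord gL := fun v hv =>
    h4_pole_bound_of_equation (O := A) v (fun c => v.algebraMap_mem' _) xL gL hv n0 m0 q hq heq
  have hbk : ∀ v : Place kA (modularFunctionFieldFullC kA M), v.ord xk < 0 →
      (m0 : ℤ) * v.ord xk ≤ v.ord gk := fun v hv =>
    h4_pole_bound_of_equation (O := kA) v (fun c => v.algebraMap_mem' _) xk gk hv n0 m0
      (fun i => (q i).map (IsLocalRing.residue A))
      (fun i => le_trans natDegree_map_le (hq i)) heqk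
  -- (5) the series `y`
  set n : ℕ := m0 + 2 with hn
  have huL := h4_unit_mem (coeffMap A.subtype) (modularFunctionFieldBar M) x ux hux hx
  have huk := h4_unit_mem (coeffMap (IsLocalRing.residue A)) (modularFunctionFieldFullC kA M)
    x ux hux hxk
  have hwL := h4_one_sub_mem (coeffMap A.subtype) (modularFunctionFieldBar M) ux huL
  have hwk := h4_one_sub_mem (coeffMap (IsLocalRing.residue A))
    (modularFunctionFieldFullC kA M) ux huk
  have hyL := h4_y_mem (coeffMap A.subtype) (modularFunctionFieldBar M) g ux n hg huL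
  have hyk := h4_y_mem (coeffMap (IsLocalRing.residue A)) (modularFunctionFieldFullC kA M)
    g ux n hgk huk
  have dL := h4_d5_of_series (coeffMap A.subtype) (modularFunctionFieldBar M) x g ux hux n
    hx hg huL hwL hyL
  have dk := h4_d5_of_series (coeffMap (IsLocalRing.residue A))
    (modularFunctionFieldFullC kA M) x g ux hux n hxk hgk huk hwk hyk
  -- (6) `ord_{r P} ȳ = 1`
  have huni := dk.ord_y_eq_one (r P) hQ0 hg1 (by omega)
  -- (7) `ord_{Q'} ȳ = 0` at the other zeros and poles of `x̄`
  have hoff : ∀ Q' ∈ {Q' : Place kA (modularFunctionFieldFullC kA M) | Q'.ord xk ≠ 0},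
      Q' ≠ r P → Q'.ord (⟨coeffMap (IsLocalRing.residue A) (g * ux ^ n + (1 - ux) ^ n), hyk⟩ :
        modularFunctionFieldFullC kA M) = 0 := by
    intro Q' hQ' hne
    rcases lt_or_gt_of_ne (show Q'.ord xk ≠ 0 from hQ') with hneg | hpos
    · exact (dk.ord_y_of_pole Q' hneg m0 (by omega) (Or.inr (hbk Q' hneg))).2
    · have hmem : Q' ∈ T0 :=
        Finset.mem_filter.mpr ⟨Finsupp.mem_support_iff.mpr (by rw [hDx]; exact hpos.ne'),
          hpos.le⟩
      exact (dk.ord_y_eq_zero Q' hpos hgk0 (hg0 Q' hmem hne) (by omega)).2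
  -- (8) `y` is regular at the places reducing to a zero or pole of `x̄`
  have hreg : ∀ P'' : Place Lbar (modularFunctionFieldBar M),
      (r P'' ∈ {Q' : Place kA (modularFunctionFieldFullC kA M) | Q'.ord xk ≠ 0} ∨
        r P'' = r P) →
      0 ≤ P''.ord (⟨coeffMap A.subtype (g * ux ^ n + (1 - ux) ^ n), hyL⟩ :
        modularFunctionFieldBar M) := by
    intro P'' hP''
    have hne : (r P'').ord xk ≠ 0 := by
      rcases hP'' with h | h
      · exact h
      · rw [h]; exact hQ0.ne'
    rcases lt_or_ge (P''.ord xL) 0 with hpole | hregx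
    · exact (dL.ord_y_of_pole P'' hpole m0 (by omega) (Or.inr (hbL P'' hpole))).2.ge
    · have hle : P''.ord (xL - algebraMap Lbar (modularFunctionFieldBar M) 1) ≤ 0 := by
        by_contra hpos
        rw [not_le] at hpos
        have hpos' : 0 < P''.ord (xL - algebraMap Lbar (modularFunctionFieldBar M)
            (((1 : A) : Lbar))) := hpos
        rcases hVal P'' 1 hpos' x hx hxk hinx 1 hpos' with h | h
        · exact hxnc _ (sub_eq_zero.mp h)
        · have h1 : H4Cong (r P'') xk (IsLocalRing.residue A 1) := h4Cong_of_ord_pos h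
          rw [map_one] at h1
          exact hne ((h4_val_eq_one_iff _ _).mp (h1.val_eq_one one_ne_zero)).2
      have hgreg : 0 ≤ P''.ord gL :=
        h4_regular_of_integral (O := A) P'' (fun c => P''.algebraMap_mem' _) xL gL hregx hin
      exact dL.ord_y_nonneg P'' hle hgreg
  -- (9) the value of `y` at `P`
  have hcL : H4Cong P xL (c : Lbar) := h4Cong_of_ord_pos hPc
  have hgreg : 0 ≤ P.ord gL :=
    h4_regular_of_integral (O := A) P (fun c => P.algebraMap_mem' _) xL gL hcL.ord_nonneg hin
  obtain ⟨b1, hb1⟩ := h4_exists_cong P (hres P) hgreg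
  have hb1A : b1 ∈ A := h4_value_mem A hin c.2 hcL hb1
  have hgnc : gL ≠ algebraMap Lbar (modularFunctionFieldBar M) b1 := by
    intro h
    have h1 : gk = algebraMap kA (modularFunctionFieldFullC kA M)
        (IsLocalRing.residue A ⟨b1, hb1A⟩) :=
      h4_const_red A (IsLocalRing.residue A) (modularFunctionFieldBar M)
        (modularFunctionFieldFullC kA M) g ⟨b1, hb1A⟩ hg hgk h
    rw [h1, ord_algebraMap] at hg1
    exact zero_ne_one hg1
  have hb1pos : 0 < P.ord (gL - algebraMap Lbar (modularFunctionFieldBar M)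
      (((⟨b1, hb1A⟩ : A) : Lbar))) := ((h4Cong_iff _ _ _).mp hb1).resolve_left hgnc
  have hres1 : IsLocalRing.residue A ⟨b1, hb1A⟩ = 0 := by
    rcases hVal P c hPc g hg hgk hin ⟨b1, hb1A⟩ hb1pos with h | h
    · exfalso
      have h' : gk = algebraMap kA (modularFunctionFieldFullC kA M)
          (IsLocalRing.residue A ⟨b1, hb1A⟩) := sub_eq_zero.mp h
      rw [h', ord_algebraMap] at hg1
      exact zero_ne_one hg1
    · exact H4Cong.unique (h4Cong_of_ord_pos h)
        (h4Cong_zero_of_ord_pos (by rw [hg1]; exact one_pos))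
  have hvalc : A.valuation (c : Lbar) < 1 :=
    (A.valuation_lt_one_iff c).mp ((IsLocalRing.residue_eq_zero_iff c).mp hc)
  have hvalb : A.valuation b1 < 1 :=
    (A.valuation_lt_one_iff ⟨b1, hb1A⟩).mp ((IsLocalRing.residue_eq_zero_iff _).mp hres1)
  obtain ⟨hβ, hβres⟩ := h4_beta_mem A (a := 1) (c := (c : Lbar)) (b := b1)
    (A.valuation.map_one) hvalc hvalb (n := n) (by omega)
  have hc1 : (c : Lbar) ≠ 1 := by
    intro h
    rw [h, map_one] at hvalc
    exact lt_irrefl _ hvalc
  have hyc := dL.cong_y P hcL hc1 hb1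
  have hynot : (⟨coeffMap A.subtype (g * ux ^ n + (1 - ux) ^ n), hyL⟩ :
      modularFunctionFieldBar M) ≠ algebraMap Lbar (modularFunctionFieldBar M)
        (b1 * (1 / (1 - (c : Lbar))) ^ n + ((c : Lbar) / ((c : Lbar) - 1)) ^ n) := by
    intro h
    have h1 := h4_const_red A (IsLocalRing.residue A) (modularFunctionFieldBar M)
      (modularFunctionFieldFullC kA M) (g * ux ^ n + (1 - ux) ^ n) ⟨_, hβ⟩ hyL hyk h
    rw [h1, ord_algebraMap] at huni
    exact zero_ne_one huni
  have hval := ((h4Cong_iff _ _ _).mp hyc).resolve_left hynot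
  -- (10) the separation lemma
  obtain ⟨f, hf0, hf1, hf2⟩ := H20.sep_of_lift A M r hr hdiv P
    {Q' : Place kA (modularFunctionFieldFullC kA M) | Q'.ord xk ≠ 0}
    (g * ux ^ n + (1 - ux) ^ n) hyL hyk hreg ⟨_, hβ⟩ hβres hval huni hoff
  refine ⟨f, hf0, hf1, fun P' hP' hord => ?_⟩
  have h1 := (hf2 P' hP' hord).1
  exact not_not.mp h1

end Chart

section Cusp

open Fermat.Agent.S24.RH

local notation "Lbar" => AlgebraicClosure ℚ

variable (A : ValuationSubring (AlgebraicClosure ℚ)) (M : ℕ)

local notation "kA" => IsLocalRing.ResidueField A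

/-- **(ε) The cusp clause of `StSep`** from the two charts `x`, `x'` of a Hauptmodul. -/
theorem h4_stSep_cusp
    (r : Place Lbar (modularFunctionFieldBar M) → Place kA (modularFunctionFieldFullC kA M))
    (hr : IsPlaceReductionModL A M r)
    (hdiv : ∀ f : modularFunctionFieldBar M, f ≠ 0 →
      ∃ D : Divisor Lbar (modularFunctionFieldBar M),
        ∀ P : Place Lbar (modularFunctionFieldBar M), D P = P.ord f)
    (hdivk : ∀ f : modularFunctionFieldFullC kA M, f ≠ 0 →
      ∃ D : Divisor kA (modularFunctionFieldFullC kA M),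
        ∀ Q : Place kA (modularFunctionFieldFullC kA M), D Q = Q.ord f)
    (hres : ∀ P : Place Lbar (modularFunctionFieldBar M), ResidueTrivial P)
    (x : LaurentSeries A) (hx : coeffMap A.subtype x ∈ modularFunctionFieldBar M)
    (hxk : coeffMap (IsLocalRing.residue A) x ∈ modularFunctionFieldFullC kA M)
    (ux : LaurentSeries A) (hux : ux * (1 - x) = 1)
    (hxnc : ∀ β : kA, (⟨coeffMap (IsLocalRing.residue A) x, hxk⟩ :
      modularFunctionFieldFullC kA M) ≠ algebraMap kA (modularFunctionFieldFullC kA M) β)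
    (hVal : H20.StVal A M r x hx) (hWA : H20.StWA A M x hx hxk)
    (x' : LaurentSeries A) (hx' : coeffMap A.subtype x' ∈ modularFunctionFieldBar M)
    (hxk' : coeffMap (IsLocalRing.residue A) x' ∈ modularFunctionFieldFullC kA M)
    (ux' : LaurentSeries A) (hux' : ux' * (1 - x') = 1)
    (hxnc' : ∀ β : kA, (⟨coeffMap (IsLocalRing.residue A) x', hxk'⟩ :
      modularFunctionFieldFullC kA M) ≠ algebraMap kA (modularFunctionFieldFullC kA M) β)
    (hVal' : H20.StVal A M r x' hx') (hWA' : H20.StWA A M x' hx' hxk')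
    (hcuspL : ∀ P : Place Lbar (modularFunctionFieldBar M), Asm.JCusp A P →
      (∃ c : A, IsLocalRing.residue A c = 0 ∧
        0 < P.ord ((⟨coeffMap A.subtype x, hx⟩ : modularFunctionFieldBar M) -
          algebraMap Lbar (modularFunctionFieldBar M) (c : Lbar))) ∨
      (∃ c : A, IsLocalRing.residue A c = 0 ∧
        0 < P.ord ((⟨coeffMap A.subtype x', hx'⟩ : modularFunctionFieldBar M) -
          algebraMap Lbar (modularFunctionFieldBar M) (c : Lbar))))
    (hcuspk : ∀ Q : Place kA (modularFunctionFieldFullC kA M), Q.ord (Asm.jk A M) < 0 →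
      Q.ord (⟨coeffMap (IsLocalRing.residue A) x, hxk⟩ : modularFunctionFieldFullC kA M) ≠ 0 ∧
      Q.ord (⟨coeffMap (IsLocalRing.residue A) x', hxk'⟩ :
        modularFunctionFieldFullC kA M) ≠ 0) :
    ∀ P : Place Lbar (modularFunctionFieldBar M), Asm.JCusp A P →
      ∃ f : modularFunctionFieldBar M, f ≠ 0 ∧ P.ord f ≠ 0 ∧
        ∀ P' : Place Lbar (modularFunctionFieldBar M), P' ≠ P →
          P'.ord f ≠ 0 → ¬ (r P').ord (Asm.jk A M) < 0 := by
  intro P hP
  rcases hcuspL P hP with ⟨c, hc, hPc⟩ | ⟨c, hc, hPc⟩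
  · obtain ⟨f, hf0, hf1, hf2⟩ := h4_sep_chart A M r hr hdiv hdivk hres x hx hxk ux hux hxnc
      hVal hWA P c hc hPc
    refine ⟨f, hf0, by rw [hf1]; exact one_ne_zero, fun P' hP' hord hpole => ?_⟩
    exact (hcuspk (r P') hpole).1 (hf2 P' hP' hord)
  · obtain ⟨f, hf0, hf1, hf2⟩ := h4_sep_chart A M r hr hdiv hdivk hres x' hx' hxk' ux' hux'
      hxnc' hVal' hWA' P c hc hPc
    refine ⟨f, hf0, by rw [hf1]; exact one_ne_zero, fun P' hP' hord hpole => ?_⟩
    exact (hcuspk (r P') hpole).2 (hf2 P' hP' hord)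

end Cusp

end Fermat.Agent.S37x.Red.H4
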