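import Fermat.Agent.S37x.Red.H20_ConsG
import Fermat.Agent.S37x.Red.H4_ChartVal
import Fermat.Agent.S37x.Asm.DefsLeaves

/-!
# S37 [RED-M] (c2), (ε), Gauss form: the cusp clause of `StSepOne` via (D5) (helper4)

`L = ℚ̄`, `A` a valuation ring of `L` over `ℓ ∤ M`, `k` its residue field,
`F_L = modularFunctionFieldBar M`, `F̄ = modularFunctionFieldFullC k M`, `gaussL A M ⊆ F_L` the
Gauss ring with its reduction `redL` (helper22), `r` a place reduction at level `M`.

* `h4_red_equation_g` : the reduction of the integral equation of a chart element;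
* `h4_sep_chart_g`    : **chart form of (D5)**: for a chart coordinate `xL ∈ gaussL` with
  `redL xL` non-constant, `StValG`, `StWAG`, and a place `P` with `xL(P) ∈ 𝔪_A` there is a
  function with a simple zero at `P` whose other zeros and poles reduce away from the zeros and
  poles of `redL xL`;
* `h4_stSepOne_cusp`  : **the cusp clause of `Asm.StSepOne A r`** (simple zero at `P`), from the
  chart form for `xL` and `xL⁻¹`.
-/

set_option autoImplicit false
set_option synthInstance.maxHeartbeats 400000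
set_option maxHeartbeats 1000000

open HahnSeries IntermediateField AlgebraicCurve ModularCurve Polynomial

noncomputable section

namespace Fermat.Agent.S37x.Red.H4

open Fermat.Agent.S24.RH Fermat.Agent.S37x.Red.H22

local notation "Lbar" => AlgebraicClosure ℚ

variable (A : ValuationSubring (AlgebraicClosure ℚ)) (M : ℕ) [NeZero M]
  {ℓ : ℕ} (hℓ : ℓ.Prime) (hA : A.LiesOverPrime ℓ) (hℓM : ¬ ℓ ∣ M)

local notation "kA" => IsLocalRing.ResidueField A

/-- The constants of `A` in the Gauss ring. -/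
def h4cA : A →+* gaussL A M :=
  ((algebraMap Lbar (modularFunctionFieldBar M)).comp A.subtype).codRestrict (gaussL A M)
    (fun a => algebraMap_mem_gaussL A M a)

theorem h4cA_coe (a : A) :
    ((h4cA A M a : gaussL A M) : modularFunctionFieldBar M) =
      algebraMap Lbar (modularFunctionFieldBar M) (a : Lbar) := rfl

theorem h4_redL_cA (a : A) :
    redL A M hℓ hA hℓM (h4cA A M a) =
      algebraMap kA (modularFunctionFieldFullC kA M) (IsLocalRing.residue A a) :=
  redL_algebraMap A M hℓ hA hℓM a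

theorem h4_coe_eval₂_cA (X : gaussL A M) (p : A[X]) :
    ((p.eval₂ (h4cA A M) X : gaussL A M) : modularFunctionFieldBar M) =
      aeval (X : modularFunctionFieldBar M) p := by
  rw [aeval_def]
  exact hom_eval₂ p (h4cA A M) (gaussL A M).subtype X

theorem h4_redL_eval₂_cA (X : gaussL A M) (p : A[X]) :
    redL A M hℓ hA hℓM (p.eval₂ (h4cA A M) X) =
      aeval (redL A M hℓ hA hℓM X) (p.map (IsLocalRing.residue A)) := by
  rw [hom_eval₂, aeval_def, eval₂_map]
  congr 1
  ext a : 1
  simp only [RingHom.comp_apply]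
  exact h4_redL_cA A M hℓ hA hℓM a

/-- **The reduced integral equation**, Gauss form. -/
theorem h4_red_equation_g (X G : gaussL A M) (n : ℕ) (q : ℕ → A[X])
    (heq : (G : modularFunctionFieldBar M) ^ n + ∑ i ∈ Finset.range n,
      aeval (X : modularFunctionFieldBar M) (q i) * (G : modularFunctionFieldBar M) ^ i = 0) :
    redL A M hℓ hA hℓM G ^ n + ∑ i ∈ Finset.range n,
      aeval (redL A M hℓ hA hℓM X) ((q i).map (IsLocalRing.residue A)) *
        redL A M hℓ hA hℓM G ^ i = 0 := by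
  have hG : G ^ n + ∑ i ∈ Finset.range n, (q i).eval₂ (h4cA A M) X * G ^ i = 0 := by
    apply Subtype.ext
    simp only [Subring.coe_add, Subring.coe_pow, AddSubmonoidClass.coe_finsetSum,
      Subring.coe_mul, Subring.coe_zero, h4_coe_eval₂_cA]
    exact heq
  have h1 := congrArg (redL A M hℓ hA hℓM) hG
  rw [map_zero, map_add, map_pow, map_sum] at h1
  rw [← h1]
  congr 1
  refine Finset.sum_congr rfl fun i _ => ?_
  rw [map_mul, map_pow, h4_redL_eval₂_cA]

/-- Elements of the Gauss ring with non-zero reduction are units of the Gauss ring. -/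
theorem h4_inv_mem_gaussL (g : gaussL A M) (hg : redL A M hℓ hA hℓM g ≠ 0) :
    ((g : modularFunctionFieldBar M))⁻¹ ∈ gaussL A M := by
  have h1 : Fermat.Agent.S18x.Dict.H20.gaussRed A
      ⟨((g : modularFunctionFieldBar M) : LaurentSeries Lbar), g.2⟩ ≠ 0 := by
    intro h0
    apply hg
    apply Subtype.ext
    rw [coe_redL, redLS_apply]
    exact h0
  have h3 := Fermat.Agent.S18x.Dict.H20.inv_mem_gaussRing A h1
  refine Subring.mem_comap.2 ?_
  rw [map_inv₀]
  exact h3

/-- `(1 - xL)⁻¹` lies in the Gauss ring when the reduction of `xL` is not constant. -/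
theorem h4_one_sub_inv_mem (xL : modularFunctionFieldBar M) (hxV : xL ∈ gaussL A M)
    (hxnc : ∀ β : kA, redL A M hℓ hA hℓM ⟨xL, hxV⟩ ≠
      algebraMap kA (modularFunctionFieldFullC kA M) β) :
    (1 - xL)⁻¹ ∈ gaussL A M := by
  set X : gaussL A M := ⟨xL, hxV⟩ with hX
  have h1 : redL A M hℓ hA hℓM (1 - X) ≠ 0 := by
    intro h0
    rw [map_sub, map_one, sub_eq_zero] at h0
    apply hxnc 1
    rw [← h0, map_one]
  have h2 := h4_inv_mem_gaussL A M hℓ hA hℓM (1 - X) h1
  have h3 : ((1 - X : gaussL A M) : modularFunctionFieldBar M) = 1 - xL := rfl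
  rw [h3] at h2
  exact h2

/-- **(D5), chart form, Gauss form.** -/
theorem h4_sep_chart_g
    (r : Place Lbar (modularFunctionFieldBar M) → Place kA (modularFunctionFieldFullC kA M))
    (hr : IsPlaceReductionModL A M r)
    (hdiv : ∀ f : modularFunctionFieldBar M, f ≠ 0 →
      ∃ D : Divisor Lbar (modularFunctionFieldBar M),
        ∀ P : Place Lbar (modularFunctionFieldBar M), D P = P.ord f)
    (hdivk : ∀ f : modularFunctionFieldFullC kA M, f ≠ 0 →
      ∃ D : Divisor kA (modularFunctionFieldFullC kA M),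
        ∀ Q : Place kA (modularFunctionFieldFullC kA M), D Q = Q.ord f)
    (hres : ∀ P : Place Lbar (modularFunctionFieldBar M), ResidueTrivial P)
    (xL : modularFunctionFieldBar M) (hxV : xL ∈ gaussL A M)
    (hxnc : ∀ β : kA, redL A M hℓ hA hℓM ⟨xL, hxV⟩ ≠
      algebraMap kA (modularFunctionFieldFullC kA M) β)
    (hVal : H20.StValG A M hℓ hA hℓM r xL) (hWA : H20.StWAG A M hℓ hA hℓM xL hxV)
    (P : Place Lbar (modularFunctionFieldBar M)) (c : A) (hc : IsLocalRing.residue A c = 0)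
    (hPc : 0 < P.ord (xL - algebraMap Lbar (modularFunctionFieldBar M) (c : Lbar))) :
    ∃ f : modularFunctionFieldBar M, f ≠ 0 ∧ P.ord f = 1 ∧
      ∀ P' : Place Lbar (modularFunctionFieldBar M), P' ≠ P → P'.ord f ≠ 0 →
        (r P').ord (redL A M hℓ hA hℓM ⟨xL, hxV⟩) = 0 := by
  classical
  have huV := h4_one_sub_inv_mem A M hℓ hA hℓM xL hxV hxnc
  set X : gaussL A M := ⟨xL, hxV⟩ with hX
  set xk : modularFunctionFieldFullC kA M := redL A M hℓ hA hℓM X with hxkd
  -- (0) `xL` lies in its own chart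
  have hinx : IsIntegral (Algebra.adjoin A {xL}) ((X : gaussL A M) : modularFunctionFieldBar M) :=
    isIntegral_algebraMap (R := Algebra.adjoin A {xL})
      (x := ⟨xL, Algebra.subset_adjoin (Set.mem_singleton _)⟩)
  -- (1) `r P` is a zero of `x̄`
  have hxk0 : xk ≠ 0 := by
    have := hxnc 0
    rwa [map_zero] at this
  have hQ0 : 0 < (r P).ord xk := by
    rcases hVal P c (Or.inr hPc) X hinx c (Or.inr hPc) with h | h
    · exact absurd h (hxnc _)
    · rwa [hc, map_zero, sub_zero] at h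
  -- (2) the finitely many zeros of `x̄`
  obtain ⟨Dx, hDx⟩ := hdivk xk hxk0
  set T0 : Finset (Place kA (modularFunctionFieldFullC kA M)) :=
    Dx.support.filter (fun Q' => 0 ≤ Q'.ord xk) with hT0
  -- (3) weak approximation
  obtain ⟨G, hin, hg1, hg0⟩ := hWA (r P) T0 (by
    rintro Q' (rfl | hQ')
    · exact hQ0.le
    · exact (Finset.mem_filter.mp hQ').2)
  set gL : modularFunctionFieldBar M := (G : modularFunctionFieldBar M) with hgL
  set gk : modularFunctionFieldFullC kA M := redL A M hℓ hA hℓM G with hgkd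
  have hgk0 : gk ≠ 0 := by
    intro h
    rw [h, Place.ord_zero] at hg1
    exact zero_ne_one hg1
  -- (4) the pole-order bound, upstairs and downstairs
  obtain ⟨n0, m0, q, hq, heq⟩ := h4_exists_equation (O := A) xL gL hin
  have heqk := h4_red_equation_g A M hℓ hA hℓM X G n0 q heq
  have hbL : ∀ v : Place Lbar (modularFunctionFieldBar M), v.ord xL < 0 →
      (m0 : ℤ) * v.ord xL ≤ v.ord gL := fun v hv =>
    h4_pole_bound_of_equation (O := A) v (fun c => v.algebraMap_mem' _) xL gL hv n0 m0 q hq heq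
  have hbk : ∀ v : Place kA (modularFunctionFieldFullC kA M), v.ord xk < 0 →
      (m0 : ℤ) * v.ord xk ≤ v.ord gk := fun v hv =>
    h4_pole_bound_of_equation (O := kA) v (fun c => v.algebraMap_mem' _) xk gk hv n0 m0
      (fun i => (q i).map (IsLocalRing.residue A))
      (fun i => le_trans natDegree_map_le (hq i)) heqk
  -- (5) the element `y` of the Gauss ring
  set n : ℕ := m0 + 2 with hn
  have hx1 : 1 - xL ≠ 0 := by
    intro h0
    have h1 : X = 1 := Subtype.ext (by rw [hX]; exact (sub_eq_zero.mp h0).symm)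
    apply hxnc 1
    rw [hxkd, h1, map_one, map_one]
  set U : gaussL A M := ⟨(1 - xL)⁻¹, huV⟩ with hU
  have hUX : U * (1 - X) = 1 := Subtype.ext (inv_mul_cancel₀ hx1)
  set Y : gaussL A M := G * U ^ n + (1 - U) ^ n with hY
  have dL : H4D5 (1 : Lbar) xL gL (U : modularFunctionFieldBar M)
      ((1 - U : gaussL A M) : modularFunctionFieldBar M)
      ((Y : gaussL A M) : modularFunctionFieldBar M) n := by
    refine ⟨one_ne_zero, ?_, ?_, rfl⟩
    · rw [map_one]
      exact inv_mul_cancel₀ hx1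
    · show (U : modularFunctionFieldBar M) + (1 - (U : modularFunctionFieldBar M)) = 1
      ring
  have dk : H4D5 (1 : kA) xk gk (redL A M hℓ hA hℓM U) (redL A M hℓ hA hℓM (1 - U))
      (redL A M hℓ hA hℓM Y) n := by
    refine ⟨one_ne_zero, ?_, ?_, ?_⟩
    · rw [map_one, hxkd, ← map_one (redL A M hℓ hA hℓM), ← map_sub, ← map_mul, hUX]
    · rw [← map_add, add_sub_cancel, map_one]
    · rw [hY, map_add, map_mul, map_pow, map_pow]
  -- (6) `ord_{r P} ȳ = 1`
  have huni := dk.ord_y_eq_one (r P) hQ0 hg1 (by omega)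
  -- (7) `ord_{Q'} ȳ = 0` at the other zeros and poles of `x̄`
  have hoff : ∀ Q' ∈ {Q' : Place kA (modularFunctionFieldFullC kA M) | Q'.ord xk ≠ 0},
      Q' ≠ r P → Q'.ord (redL A M hℓ hA hℓM Y) = 0 := by
    intro Q' hQ' hne
    rcases lt_or_gt_of_ne (show Q'.ord xk ≠ 0 from hQ') with hneg | hpos
    · exact (dk.ord_y_of_pole Q' hneg m0 (by omega) (Or.inr (hbk Q' hneg))).2
    · have hmem : Q' ∈ T0 :=
        Finset.mem_filter.mpr ⟨Finsupp.mem_support_iff.mpr (by rw [hDx]; exact hpos.ne'),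
          hpos.le⟩
      exact (dk.ord_y_eq_zero Q' hpos hgk0 (hg0 Q' hmem hne) (by omega)).2
  -- (8) `y` is regular at the places reducing to a zero or pole of `x̄`
  have hreg : ∀ P'' : Place Lbar (modularFunctionFieldBar M),
      (r P'' ∈ {Q' : Place kA (modularFunctionFieldFullC kA M) | Q'.ord xk ≠ 0} ∨
        r P'' = r P) →
      0 ≤ P''.ord ((Y : gaussL A M) : modularFunctionFieldBar M) := by
    intro P'' hP''
    have hne : (r P'').ord xk ≠ 0 := by
      rcases hP'' with h | h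
      · exact h
      · rw [h]; exact hQ0.ne'
    rcases lt_or_ge (P''.ord xL) 0 with hpole | hregx
    · exact (dL.ord_y_of_pole P'' hpole m0 (by omega) (Or.inr (hbL P'' hpole))).2.ge
    · have hle : P''.ord (xL - algebraMap Lbar (modularFunctionFieldBar M) 1) ≤ 0 := by
        by_contra hpos
        rw [not_le] at hpos
        have hpos' : ValAt P'' xL (((1 : A) : Lbar)) := Or.inr hpos
        rcases hVal P'' 1 hpos' X hinx 1 hpos' with h | h
        · exact hxnc _ h
        · have h1 : H4Cong (r P'') xk (IsLocalRing.residue A 1) := h4Cong_of_ord_pos h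
          rw [map_one] at h1
          exact hne ((h4_val_eq_one_iff _ _).mp (h1.val_eq_one one_ne_zero)).2
      have hgreg : 0 ≤ P''.ord gL :=
        h4_regular_of_integral (O := A) P'' (fun c => P''.algebraMap_mem' _) xL gL hregx hin
      exact dL.ord_y_nonneg P'' hle hgreg
  -- (9) the value of `y` at `P`
  have hcL : H4Cong P xL (c : Lbar) := h4Cong_of_ord_pos hPc
  have hgreg : 0 ≤ P.ord gL :=
    h4_regular_of_integral (O := A) P (fun c => P.algebraMap_mem' _) xL gL hcL.ord_nonneg hin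
  obtain ⟨b1, hb1⟩ := h4_exists_cong P (hres P) hgreg
  have hb1A : b1 ∈ A := h4_value_mem A hin c.2 hcL hb1
  have hres1 : IsLocalRing.residue A ⟨b1, hb1A⟩ = 0 := by
    have h1 : ValAt (r P) gk (IsLocalRing.residue A ⟨b1, hb1A⟩) :=
      hVal P c (Or.inr hPc) G hin ⟨b1, hb1A⟩ ((h4Cong_iff _ _ _).mp hb1)
    exact H4Cong.unique ((h4Cong_iff _ _ _).mpr h1)
      (h4Cong_zero_of_ord_pos (by rw [hg1]; exact one_pos))
  have hvalc : A.valuation (c : Lbar) < 1 :=
    (A.valuation_lt_one_iff c).mp ((IsLocalRing.residue_eq_zero_iff c).mp hc)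
  have hvalb : A.valuation b1 < 1 :=
    (A.valuation_lt_one_iff ⟨b1, hb1A⟩).mp ((IsLocalRing.residue_eq_zero_iff _).mp hres1)
  obtain ⟨hβ, hβres⟩ := h4_beta_mem A (a := 1) (c := (c : Lbar)) (b := b1)
    (A.valuation.map_one) hvalc hvalb (n := n) (by omega)
  have hc1 : (c : Lbar) ≠ 1 := by
    intro h
    rw [h, map_one] at hvalc
    exact lt_irrefl _ hvalc
  have hyc := dL.cong_y P hcL hc1 hb1
  have hynot : ((Y : gaussL A M) : modularFunctionFieldBar M) ≠
      algebraMap Lbar (modularFunctionFieldBar M)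
        (b1 * (1 / (1 - (c : Lbar))) ^ n + ((c : Lbar) / ((c : Lbar) - 1)) ^ n) := by
    intro h
    have h1 : Y = h4cA A M ⟨_, hβ⟩ := Subtype.ext h
    rw [h1, h4_redL_cA, ord_algebraMap] at huni
    exact zero_ne_one huni
  have hval := ((h4Cong_iff _ _ _).mp hyc).resolve_left hynot
  -- (10) the separation lemma
  obtain ⟨f, hf0, hf1, hf2⟩ := H20.sep_of_lift_g A M hℓ hA hℓM r hr hdiv P
    {Q' : Place kA (modularFunctionFieldFullC kA M) | Q'.ord xk ≠ 0}
    Y hreg ⟨_, hβ⟩ hβres hval huni hoff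
  refine ⟨f, hf0, hf1, fun P' hP' hord => ?_⟩
  have h1 := (hf2 P' hP' hord).1
  exact not_not.mp h1

/-- **(ε) The cusp clause of `StSepOne`**, from the two charts `xL`, `xL⁻¹` of a Hauptmodul. -/
theorem h4_stSepOne_cusp
    (r : Place Lbar (modularFunctionFieldBar M) → Place kA (modularFunctionFieldFullC kA M))
    (hr : IsPlaceReductionModL A M r)
    (hdiv : ∀ f : modularFunctionFieldBar M, f ≠ 0 →
      ∃ D : Divisor Lbar (modularFunctionFieldBar M),
        ∀ P : Place Lbar (modularFunctionFieldBar M), D P = P.ord f)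
    (hdivk : ∀ f : modularFunctionFieldFullC kA M, f ≠ 0 →
      ∃ D : Divisor kA (modularFunctionFieldFullC kA M),
        ∀ Q : Place kA (modularFunctionFieldFullC kA M), D Q = Q.ord f)
    (hres : ∀ P : Place Lbar (modularFunctionFieldBar M), ResidueTrivial P)
    (xL : modularFunctionFieldBar M) (hxV : xL ∈ gaussL A M) (hxV' : xL⁻¹ ∈ gaussL A M)
    (hxnc : ∀ β : kA, redL A M hℓ hA hℓM ⟨xL, hxV⟩ ≠
      algebraMap kA (modularFunctionFieldFullC kA M) β)
    (hVal : H20.StValG A M hℓ hA hℓM r xL) (hWA : H20.StWAG A M hℓ hA hℓM xL hxV)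
    (hVal' : H20.StValG A M hℓ hA hℓM r xL⁻¹) (hWA' : H20.StWAG A M hℓ hA hℓM xL⁻¹ hxV')
    (hcuspL : ∀ P : Place Lbar (modularFunctionFieldBar M), Asm.JCusp A P →
      (∃ c : A, IsLocalRing.residue A c = 0 ∧
        0 < P.ord (xL - algebraMap Lbar (modularFunctionFieldBar M) (c : Lbar))) ∨
      (∃ c : A, IsLocalRing.residue A c = 0 ∧
        0 < P.ord (xL⁻¹ - algebraMap Lbar (modularFunctionFieldBar M) (c : Lbar))))
    (hcuspk : ∀ Q : Place kA (modularFunctionFieldFullC kA M), Q.ord (Asm.jk A M) < 0 →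
      Q.ord (redL A M hℓ hA hℓM ⟨xL, hxV⟩) ≠ 0) :
    ∀ P : Place Lbar (modularFunctionFieldBar M), Asm.JCusp A P →
      ∃ f : modularFunctionFieldBar M, f ≠ 0 ∧ P.ord f = 1 ∧
        ∀ P' : Place Lbar (modularFunctionFieldBar M), P' ≠ P →
          P'.ord f ≠ 0 → ¬ (r P').ord (Asm.jk A M) < 0 := by
  -- the reduction of the inverse coordinate
  have hx0 : xL ≠ 0 := by
    rintro rfl
    apply hxnc 0
    have : (⟨0, hxV⟩ : gaussL A M) = 0 := rfl
    rw [this, map_zero, map_zero]
  have hmul : redL A M hℓ hA hℓM ⟨xL⁻¹, hxV'⟩ * redL A M hℓ hA hℓM ⟨xL, hxV⟩ = 1 := by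
    rw [← map_mul]
    have : (⟨xL⁻¹, hxV'⟩ * ⟨xL, hxV⟩ : gaussL A M) = 1 := Subtype.ext (inv_mul_cancel₀ hx0)
    rw [this, map_one]
  have hinv : redL A M hℓ hA hℓM ⟨xL⁻¹, hxV'⟩ = (redL A M hℓ hA hℓM ⟨xL, hxV⟩)⁻¹ :=
    eq_inv_of_mul_eq_one_left hmul
  have hxnc' : ∀ β : kA, redL A M hℓ hA hℓM ⟨xL⁻¹, hxV'⟩ ≠
      algebraMap kA (modularFunctionFieldFullC kA M) β := by
    intro β hβ
    rw [hβ] at hmul
    have hβ0 : β ≠ 0 := by
      rintro rfl
      rw [map_zero, zero_mul] at hmul
      exact zero_ne_one hmul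
    apply hxnc β⁻¹
    rw [map_inv₀]
    exact eq_inv_of_mul_eq_one_right hmul
  intro P hP
  rcases hcuspL P hP with ⟨c, hc, hPc⟩ | ⟨c, hc, hPc⟩
  · obtain ⟨f, hf0, hf1, hf2⟩ := h4_sep_chart_g A M hℓ hA hℓM r hr hdiv hdivk hres xL hxV
      hxnc hVal hWA P c hc hPc
    exact ⟨f, hf0, hf1, fun P' hP' hord hpole => hcuspk (r P') hpole (hf2 P' hP' hord)⟩
  · obtain ⟨f, hf0, hf1, hf2⟩ := h4_sep_chart_g A M hℓ hA hℓM r hr hdiv hdivk hres xL⁻¹ hxV'
      hxnc' hVal' hWA' P c hc hPc
    refine ⟨f, hf0, hf1, fun P' hP' hord hpole => hcuspk (r P') hpole ?_⟩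
    have h1 := hf2 P' hP' hord
    rw [hinv, Place.ord_inv] at h1
    omega

end Fermat.Agent.S37x.Red.H4
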