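import Fermat.Agent.S37x.Red.H4_SepCuspG
import Fermat.Agent.S37x.Red.H22_RedCoord
import Fermat.Agent.S37x.Red.H21_Cusp
import Fermat.Agent.S37x.FFk.H19_RedDeg

/-!
# S37 [RED-M] (c2), (ε): the cusp clause of `StSepOne` at the Hauptmodul levels (helper4)

The cusp clause of `Asm.StSepOne A r` for a place reduction `r` at a level `M` divisible by
`2` resp. `3`, from

* `hr  : IsPlaceReductionModL A M r`,
* `hR  : H22.RSpec .. xL r` (helper22: value compatibility on the two charts),
* `hWA`, `hWA'` : `H20.StWAG` for the two charts `xL`, `xL⁻¹` (weak approximation),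

where `xL = H22.coordL M H28.h2 _` resp. `H22.coordL M H28.h3 _` is the Hauptmodul.
Everything else (divisors upstairs and downstairs, residue fields, non-constancy, the
description of the cusps by the Hauptmodul) is discharged.
-/

set_option autoImplicit false
set_option synthInstance.maxHeartbeats 400000
set_option maxHeartbeats 1000000

open HahnSeries IntermediateField AlgebraicCurve ModularCurve Polynomial

noncomputable section

namespace Fermat.Agent.S37x.Red.H4

open Fermat.Agent.S24.RH Fermat.Agent.S37x.Red.H22 Fermat.Agent.S18x.IG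

local notation "Lbar" => AlgebraicClosure ℚ

variable (A : ValuationSubring (AlgebraicClosure ℚ)) (M : ℕ) [NeZero M]
  {ℓ : ℕ} (hℓ : ℓ.Prime) (hA : A.LiesOverPrime ℓ) (hℓM : ¬ ℓ ∣ M)

local notation "kA" => IsLocalRing.ResidueField A

section Coord

variable (x₀ : LaurentSeries ℤ) (hord : x₀.order = -1) (hlead : x₀.coeff (-1) = 1)
  (hmem : ∀ K : IntermediateField ℚ Lbar,
    coeffMap (Int.castRingHom ↥K) x₀ ∈ modularFunctionFieldFullC ↥K M)

include hord hlead in
/-- The reduction of the coordinate is not constant (`redL` form). -/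
theorem h4_redL_coordL_ne_const (β : kA) :
    redL A M hℓ hA hℓM ⟨coordL M x₀ hmem, coordL_mem_gaussL A M x₀ hmem⟩ ≠
      algebraMap kA (modularFunctionFieldFullC kA M) β := by
  intro h
  apply redLS_coordL_ne_const A M x₀ hord hlead hmem β
  rw [← coe_redL A M hℓ hA hℓM, h]
  rfl

include hord hlead in
/-- **The cusp clause for a coordinate**: the two `StValG` come from `RSpec`. -/
theorem h4_stSepOne_cusp_coord
    (r : Place Lbar (modularFunctionFieldBar M) → Place kA (modularFunctionFieldFullC kA M))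
    (hr : IsPlaceReductionModL A M r)
    (hR : RSpec A M hℓ hA hℓM (coordL M x₀ hmem) r)
    (hWA : H20.StWAG A M hℓ hA hℓM (coordL M x₀ hmem) (coordL_mem_gaussL A M x₀ hmem))
    (hWA' : H20.StWAG A M hℓ hA hℓM (coordL M x₀ hmem)⁻¹
      (coordL_inv_mem_gaussL A M x₀ hlead hmem))
    (hcuspL : ∀ P : Place Lbar (modularFunctionFieldBar M), Asm.JCusp A P →
      (∃ c : A, IsLocalRing.residue A c = 0 ∧
        0 < P.ord (coordL M x₀ hmem -
          algebraMap Lbar (modularFunctionFieldBar M) (c : Lbar))) ∨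
      (∃ c : A, IsLocalRing.residue A c = 0 ∧
        0 < P.ord ((coordL M x₀ hmem)⁻¹ -
          algebraMap Lbar (modularFunctionFieldBar M) (c : Lbar))))
    (hcuspk : ∀ Q : Place kA (modularFunctionFieldFullC kA M), Q.ord (Asm.jk A M) < 0 →
      Q.ord (redL A M hℓ hA hℓM ⟨coordL M x₀ hmem, coordL_mem_gaussL A M x₀ hmem⟩) ≠ 0) :
    ∀ P : Place Lbar (modularFunctionFieldBar M), Asm.JCusp A P →
      ∃ f : modularFunctionFieldBar M, f ≠ 0 ∧ P.ord f = 1 ∧
        ∀ P' : Place Lbar (modularFunctionFieldBar M), P' ≠ P →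
          P'.ord f ≠ 0 → ¬ (r P').ord (Asm.jk A M) < 0 := by
  have hpd : HasPrincipalDivisors kA (modularFunctionFieldFullC kA M) :=
    Fermat.Agent.S37x.FFk.H19.h19_hasPrincipalDivisors_of_red ⟨r, hr⟩
  refine h4_stSepOne_cusp A M hℓ hA hℓM r hr (Fermat.Agent.S18x.E.H12.stDiv M)
    (fun f hf => ?_) (residueTrivial_bar M) (coordL M x₀ hmem) (coordL_mem_gaussL A M x₀ hmem)
    (coordL_inv_mem_gaussL A M x₀ hlead hmem)
    (h4_redL_coordL_ne_const A M hℓ hA hℓM x₀ hord hlead hmem)
    (fun P => (hR P).1) hWA (fun P => (hR P).2) hWA' hcuspL hcuspk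
  obtain ⟨D, hD, -⟩ := hpd.exists_divisor f hf
  exact ⟨D, hD⟩

end Coord

section Levels

include hℓ hA hℓM in
/-- **The cusp clause of `StSepOne` at a level divisible by `2`.** -/
theorem h4_stSepOne_cusp_two (hM : 2 ∣ M)
    (r : Place Lbar (modularFunctionFieldBar M) → Place kA (modularFunctionFieldFullC kA M))
    (hr : IsPlaceReductionModL A M r)
    (hR : RSpec A M hℓ hA hℓM (coordL M H28.h2 (h2_mem_inter M hM)) r)
    (hWA : H20.StWAG A M hℓ hA hℓM (coordL M H28.h2 (h2_mem_inter M hM))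
      (coordL_mem_gaussL A M H28.h2 (h2_mem_inter M hM)))
    (hWA' : H20.StWAG A M hℓ hA hℓM (coordL M H28.h2 (h2_mem_inter M hM))⁻¹
      (coordL_inv_mem_gaussL A M H28.h2 H28.coeff_h2_neg_one (h2_mem_inter M hM))) :
    ∀ P : Place Lbar (modularFunctionFieldBar M), Asm.JCusp A P →
      ∃ f : modularFunctionFieldBar M, f ≠ 0 ∧ P.ord f = 1 ∧
        ∀ P' : Place Lbar (modularFunctionFieldBar M), P' ≠ P →
          P'.ord f ≠ 0 → ¬ (r P').ord (Asm.jk A M) < 0 := by
  refine h4_stSepOne_cusp_coord A M hℓ hA hℓM H28.h2 H28.order_h2 H28.coeff_h2_neg_one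
    (h2_mem_inter M hM) r hr hR hWA hWA' (fun P hP => ?_) (fun Q hQ => ?_)
  · exact Fermat.Agent.S37x.Red.H21.h21_hcuspL_two A M (coordL M H28.h2 (h2_mem_inter M hM))
      (coe_coordL M H28.h2 (h2_mem_inter M hM)) P hP
  · refine (Fermat.Agent.S37x.Red.H21.h21_hcuspk_two A M
      (redL A M hℓ hA hℓM ⟨coordL M H28.h2 (h2_mem_inter M hM),
        coordL_mem_gaussL A M H28.h2 (h2_mem_inter M hM)⟩) ?_ Q hQ).1
    rw [coe_redL]
    exact redLS_coordL A M H28.h2 (h2_mem_inter M hM)

include hℓ hA hℓM in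
/-- **The cusp clause of `StSepOne` at a level divisible by `3`.** -/
theorem h4_stSepOne_cusp_three (hM : 3 ∣ M)
    (r : Place Lbar (modularFunctionFieldBar M) → Place kA (modularFunctionFieldFullC kA M))
    (hr : IsPlaceReductionModL A M r)
    (hR : RSpec A M hℓ hA hℓM (coordL M H28.h3 (h3_mem_inter M hM)) r)
    (hWA : H20.StWAG A M hℓ hA hℓM (coordL M H28.h3 (h3_mem_inter M hM))
      (coordL_mem_gaussL A M H28.h3 (h3_mem_inter M hM)))
    (hWA' : H20.StWAG A M hℓ hA hℓM (coordL M H28.h3 (h3_mem_inter M hM))⁻¹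
      (coordL_inv_mem_gaussL A M H28.h3 H28.coeff_h3_neg_one (h3_mem_inter M hM))) :
    ∀ P : Place Lbar (modularFunctionFieldBar M), Asm.JCusp A P →
      ∃ f : modularFunctionFieldBar M, f ≠ 0 ∧ P.ord f = 1 ∧
        ∀ P' : Place Lbar (modularFunctionFieldBar M), P' ≠ P →
          P'.ord f ≠ 0 → ¬ (r P').ord (Asm.jk A M) < 0 := by
  refine h4_stSepOne_cusp_coord A M hℓ hA hℓM H28.h3 H28.order_h3 H28.coeff_h3_neg_one
    (h3_mem_inter M hM) r hr hR hWA hWA' (fun P hP => ?_) (fun Q hQ => ?_)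
  · exact Fermat.Agent.S37x.Red.H21.h21_hcuspL_three A M (coordL M H28.h3 (h3_mem_inter M hM))
      (coe_coordL M H28.h3 (h3_mem_inter M hM)) P hP
  · refine (Fermat.Agent.S37x.Red.H21.h21_hcuspk_three A M
      (redL A M hℓ hA hℓM ⟨coordL M H28.h3 (h3_mem_inter M hM),
        coordL_mem_gaussL A M H28.h3 (h3_mem_inter M hM)⟩) ?_ Q hQ).1
    rw [coe_redL]
    exact redLS_coordL A M H28.h3 (h3_mem_inter M hM)

end Levels

end Fermat.Agent.S37x.Red.H4
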