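import Fermat.Agent.S37x.Red.H4_SepCuspInst
import Fermat.Agent.S37x.Red.H20_SepFinG
import Fermat.Agent.S37x.Asm.DefsDesc

/-!
# S37 [RED-M] (c): `StU1` and `StSepOne` at the Hauptmodul levels (helper4)

For a place reduction `r` at a level `M` divisible by `2` (`ℓ ≠ 2`) resp. `3` (`ℓ ≠ 3`):

* `h4_data_two`, `h4_data_three`       : helper21's `H21U1Data` from helper22's `RSpec`;
* `h4_stU1_two`, `h4_stU1_three`       : `Asm.StU1 A r` from `RSpec`;
* `h4_stSepOne_two`, `h4_stSepOne_three` : `Asm.StSepOne A r` from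
  `IsPlaceReductionModL A M r`, `RSpec` and `StWAG` for the two charts of the Hauptmodul
  (helper20's non-cusp clause `stSep_noncusp_g` + the cusp clause `h4_stSepOne_cusp_two`).
-/

set_option autoImplicit false
set_option synthInstance.maxHeartbeats 400000
set_option maxHeartbeats 1000000

open HahnSeries IntermediateField AlgebraicCurve ModularCurve Polynomial

noncomputable section

namespace Fermat.Agent.S37x.Red.H4

open Fermat.Agent.S24.RH Fermat.Agent.S37x.Red.H22 Fermat.Agent.S18x.IG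
open Fermat.Agent.S37x.Red.H21

local notation "Lbar" => AlgebraicClosure ℚ

variable (A : ValuationSubring (AlgebraicClosure ℚ)) (M : ℕ) [NeZero M]
  {ℓ : ℕ} (hℓ : ℓ.Prime) (hA : A.LiesOverPrime ℓ) (hℓM : ¬ ℓ ∣ M)

local notation "kA" => IsLocalRing.ResidueField A

section Coord

variable (x₀ : LaurentSeries ℤ) (hord : x₀.order = -1) (hlead : x₀.coeff (-1) = 1)
  (hmem : ∀ K : IntermediateField ℚ Lbar,
    coeffMap (Int.castRingHom ↥K) x₀ ∈ modularFunctionFieldFullC ↥K M)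

include hord hlead in
/-- The reduction of the inverse coordinate. -/
theorem h4_redL_coordL_inv :
    redL A M hℓ hA hℓM ⟨(coordL M x₀ hmem)⁻¹, coordL_inv_mem_gaussL A M x₀ hlead hmem⟩ =
      (redL A M hℓ hA hℓM ⟨coordL M x₀ hmem, coordL_mem_gaussL A M x₀ hmem⟩)⁻¹ := by
  have hx0 : coordL M x₀ hmem ≠ 0 := by
    intro h0
    apply h4_redL_coordL_ne_const A M hℓ hA hℓM x₀ hord hlead hmem 0
    have : (⟨coordL M x₀ hmem, coordL_mem_gaussL A M x₀ hmem⟩ : gaussL A M) = 0 :=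
      Subtype.ext h0
    rw [this, map_zero, map_zero]
  apply eq_inv_of_mul_eq_one_left
  rw [← map_mul]
  have : (⟨(coordL M x₀ hmem)⁻¹, coordL_inv_mem_gaussL A M x₀ hlead hmem⟩ *
      ⟨coordL M x₀ hmem, coordL_mem_gaussL A M x₀ hmem⟩ : gaussL A M) = 1 :=
    Subtype.ext (inv_mul_cancel₀ hx0)
  rw [this, map_one]

include hord hlead in
/-- **(U2h)** from `RSpec`. -/
theorem h4_u2h_of_rSpec
    (r : Place Lbar (modularFunctionFieldBar M) → Place kA (modularFunctionFieldFullC kA M))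
    (hR : RSpec A M hℓ hA hℓM (coordL M x₀ hmem) r)
    (P : Place Lbar (modularFunctionFieldBar M)) (c : Lbar) (hc : c ∈ A)
    (hpos : 0 < P.ord (coordL M x₀ hmem - algebraMap Lbar (modularFunctionFieldBar M) c)) :
    0 < (r P).ord (redL A M hℓ hA hℓM ⟨coordL M x₀ hmem, coordL_mem_gaussL A M x₀ hmem⟩ -
      algebraMap kA (modularFunctionFieldFullC kA M) (Asm.res A c hc)) := by
  have hin : IsIntegral (Algebra.adjoin A {coordL M x₀ hmem})
      ((⟨coordL M x₀ hmem, coordL_mem_gaussL A M x₀ hmem⟩ : gaussL A M) :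
        modularFunctionFieldBar M) :=
    isIntegral_algebraMap (R := Algebra.adjoin A {coordL M x₀ hmem})
      (x := ⟨coordL M x₀ hmem, Algebra.subset_adjoin (Set.mem_singleton _)⟩)
  have h1 : ValAt P (coordL M x₀ hmem) (((⟨c, hc⟩ : A) : Lbar)) := Or.inr hpos
  rcases (hR P).1 ⟨c, hc⟩ h1 ⟨coordL M x₀ hmem, coordL_mem_gaussL A M x₀ hmem⟩ hin ⟨c, hc⟩ h1
    with h | h
  · exact absurd h (h4_redL_coordL_ne_const A M hℓ hA hℓM x₀ hord hlead hmem _)
  · exact h

include hord hlead in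
/-- **(U2w)** from `RSpec`. -/
theorem h4_u2w_of_rSpec
    (r : Place Lbar (modularFunctionFieldBar M) → Place kA (modularFunctionFieldFullC kA M))
    (hR : RSpec A M hℓ hA hℓM (coordL M x₀ hmem) r)
    (P : Place Lbar (modularFunctionFieldBar M)) (c : Lbar) (hc : c ∈ A)
    (hpos : 0 < P.ord ((coordL M x₀ hmem)⁻¹ -
      algebraMap Lbar (modularFunctionFieldBar M) c)) :
    0 < (r P).ord ((redL A M hℓ hA hℓM
        ⟨coordL M x₀ hmem, coordL_mem_gaussL A M x₀ hmem⟩)⁻¹ -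
      algebraMap kA (modularFunctionFieldFullC kA M) (Asm.res A c hc)) := by
  have hin : IsIntegral (Algebra.adjoin A {(coordL M x₀ hmem)⁻¹})
      ((⟨(coordL M x₀ hmem)⁻¹, coordL_inv_mem_gaussL A M x₀ hlead hmem⟩ : gaussL A M) :
        modularFunctionFieldBar M) :=
    isIntegral_algebraMap (R := Algebra.adjoin A {(coordL M x₀ hmem)⁻¹})
      (x := ⟨(coordL M x₀ hmem)⁻¹, Algebra.subset_adjoin (Set.mem_singleton _)⟩)
  have h1 : ValAt P (coordL M x₀ hmem)⁻¹ (((⟨c, hc⟩ : A) : Lbar)) := Or.inr hpos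
  have h2 := (hR P).2 ⟨c, hc⟩ h1
    ⟨(coordL M x₀ hmem)⁻¹, coordL_inv_mem_gaussL A M x₀ hlead hmem⟩ hin ⟨c, hc⟩ h1
  rw [h4_redL_coordL_inv A M hℓ hA hℓM x₀ hord hlead hmem] at h2
  rcases h2 with h | h
  · exfalso
    -- the reduction of the coordinate would be constant
    have hne := h4_redL_coordL_ne_const A M hℓ hA hℓM x₀ hord hlead hmem
      (IsLocalRing.residue A ⟨c, hc⟩)⁻¹
    apply hne
    rw [map_inv₀, ← h, inv_inv]
  · exact h

end Coord

section Levels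

include hℓ hA hℓM in
/-- helper21's data at level `2` from `RSpec`. -/
theorem h4_data_two (hM : 2 ∣ M) (hℓ2 : ℓ ≠ 2)
    (r : Place Lbar (modularFunctionFieldBar M) → Place kA (modularFunctionFieldFullC kA M))
    (hR : RSpec A M hℓ hA hℓM (coordL M H28.h2 (h2_mem_inter M hM)) r) :
    H21U1Data A (IsLocalRing.residue A) r (Asm.jL M) (coordL M H28.h2 (h2_mem_inter M hM))
      (Asm.jk A M) (redL A M hℓ hA hℓM ⟨coordL M H28.h2 (h2_mem_inter M hM),
        coordL_mem_gaussL A M H28.h2 (h2_mem_inter M hM)⟩) (h21N2 A) (h21D2 A) :=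
  h21_data_two A M (h21_two_ne_zero A hℓ hA hℓ2) r _
    (coe_coordL M H28.h2 (h2_mem_inter M hM)) _
    ((coe_redL A M hℓ hA hℓM _).trans (redLS_coordL A M H28.h2 (h2_mem_inter M hM)))
    (h4_u2h_of_rSpec A M hℓ hA hℓM H28.h2 H28.order_h2 H28.coeff_h2_neg_one
      (h2_mem_inter M hM) r hR)
    (h4_u2w_of_rSpec A M hℓ hA hℓM H28.h2 H28.order_h2 H28.coeff_h2_neg_one
      (h2_mem_inter M hM) r hR)

include hℓ hA hℓM in
/-- helper21's data at level `3` from `RSpec`. -/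
theorem h4_data_three (hM : 3 ∣ M) (hℓ3 : ℓ ≠ 3)
    (r : Place Lbar (modularFunctionFieldBar M) → Place kA (modularFunctionFieldFullC kA M))
    (hR : RSpec A M hℓ hA hℓM (coordL M H28.h3 (h3_mem_inter M hM)) r) :
    H21U1Data A (IsLocalRing.residue A) r (Asm.jL M) (coordL M H28.h3 (h3_mem_inter M hM))
      (Asm.jk A M) (redL A M hℓ hA hℓM ⟨coordL M H28.h3 (h3_mem_inter M hM),
        coordL_mem_gaussL A M H28.h3 (h3_mem_inter M hM)⟩) (h21N3 A) (h21D3 A) :=
  h21_data_three A M (h21_three_ne_zero A hℓ hA hℓ3) r _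
    (coe_coordL M H28.h3 (h3_mem_inter M hM)) _
    ((coe_redL A M hℓ hA hℓM _).trans (redLS_coordL A M H28.h3 (h3_mem_inter M hM)))
    (h4_u2h_of_rSpec A M hℓ hA hℓM H28.h3 H28.order_h3 H28.coeff_h3_neg_one
      (h3_mem_inter M hM) r hR)
    (h4_u2w_of_rSpec A M hℓ hA hℓM H28.h3 H28.order_h3 H28.coeff_h3_neg_one
      (h3_mem_inter M hM) r hR)

include hℓ hA hℓM in
/-- **`StU1` at a level divisible by `2`** from `RSpec`. -/
theorem h4_stU1_two (hM : 2 ∣ M) (hℓ2 : ℓ ≠ 2)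
    (r : Place Lbar (modularFunctionFieldBar M) → Place kA (modularFunctionFieldFullC kA M))
    (hR : RSpec A M hℓ hA hℓM (coordL M H28.h2 (h2_mem_inter M hM)) r) : Asm.StU1 A r :=
  h21_stU1_of_data A M (h4_data_two A M hℓ hA hℓM hM hℓ2 r hR)

include hℓ hA hℓM in
/-- **`StU1` at a level divisible by `3`** from `RSpec`. -/
theorem h4_stU1_three (hM : 3 ∣ M) (hℓ3 : ℓ ≠ 3)
    (r : Place Lbar (modularFunctionFieldBar M) → Place kA (modularFunctionFieldFullC kA M))
    (hR : RSpec A M hℓ hA hℓM (coordL M H28.h3 (h3_mem_inter M hM)) r) : Asm.StU1 A r :=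
  h21_stU1_of_data A M (h4_data_three A M hℓ hA hℓM hM hℓ3 r hR)

include hℓ hA hℓM in
/-- **`StSepOne` at a level divisible by `2`.** -/
theorem h4_stSepOne_two (hM : 2 ∣ M) (hℓ2 : ℓ ≠ 2)
    (r : Place Lbar (modularFunctionFieldBar M) → Place kA (modularFunctionFieldFullC kA M))
    (hr : IsPlaceReductionModL A M r)
    (hR : RSpec A M hℓ hA hℓM (coordL M H28.h2 (h2_mem_inter M hM)) r)
    (hWA : H20.StWAG A M hℓ hA hℓM (coordL M H28.h2 (h2_mem_inter M hM))
      (coordL_mem_gaussL A M H28.h2 (h2_mem_inter M hM)))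
    (hWA' : H20.StWAG A M hℓ hA hℓM (coordL M H28.h2 (h2_mem_inter M hM))⁻¹
      (coordL_inv_mem_gaussL A M H28.h2 H28.coeff_h2_neg_one (h2_mem_inter M hM))) :
    Asm.StSepOne A r := by
  have hpd : HasPrincipalDivisors kA (modularFunctionFieldFullC kA M) :=
    Fermat.Agent.S37x.FFk.H19.h19_hasPrincipalDivisors_of_red ⟨r, hr⟩
  have hdivk : ∀ f : modularFunctionFieldFullC kA M, f ≠ 0 →
      ∃ D : Divisor kA (modularFunctionFieldFullC kA M),
        ∀ Q : Place kA (modularFunctionFieldFullC kA M), D Q = Q.ord f := fun f hf => by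
    obtain ⟨D, hD, -⟩ := hpd.exists_divisor f hf
    exact ⟨D, hD⟩
  refine ⟨fun P hP T => ?_, ?_⟩
  · exact H20.stSep_noncusp_g A M hℓ hA hℓM r hr (Fermat.Agent.S18x.E.H12.stDiv M) hdivk _ _
      (h4_data_two A M hℓ hA hℓM hM hℓ2 r hR) (fun P => (hR P).1) hWA P hP T
  · exact h4_stSepOne_cusp_two A M hℓ hA hℓM hM r hr hR hWA hWA'

include hℓ hA hℓM in
/-- **`StSepOne` at a level divisible by `3`.** -/
theorem h4_stSepOne_three (hM : 3 ∣ M) (hℓ3 : ℓ ≠ 3)
    (r : Place Lbar (modularFunctionFieldBar M) → Place kA (modularFunctionFieldFullC kA M))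
    (hr : IsPlaceReductionModL A M r)
    (hR : RSpec A M hℓ hA hℓM (coordL M H28.h3 (h3_mem_inter M hM)) r)
    (hWA : H20.StWAG A M hℓ hA hℓM (coordL M H28.h3 (h3_mem_inter M hM))
      (coordL_mem_gaussL A M H28.h3 (h3_mem_inter M hM)))
    (hWA' : H20.StWAG A M hℓ hA hℓM (coordL M H28.h3 (h3_mem_inter M hM))⁻¹
      (coordL_inv_mem_gaussL A M H28.h3 H28.coeff_h3_neg_one (h3_mem_inter M hM))) :
    Asm.StSepOne A r := by
  have hpd : HasPrincipalDivisors kA (modularFunctionFieldFullC kA M) :=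
    Fermat.Agent.S37x.FFk.H19.h19_hasPrincipalDivisors_of_red ⟨r, hr⟩
  have hdivk : ∀ f : modularFunctionFieldFullC kA M, f ≠ 0 →
      ∃ D : Divisor kA (modularFunctionFieldFullC kA M),
        ∀ Q : Place kA (modularFunctionFieldFullC kA M), D Q = Q.ord f := fun f hf => by
    obtain ⟨D, hD, -⟩ := hpd.exists_divisor f hf
    exact ⟨D, hD⟩
  refine ⟨fun P hP T => ?_, ?_⟩
  · exact H20.stSep_noncusp_g A M hℓ hA hℓM r hr (Fermat.Agent.S18x.E.H12.stDiv M) hdivk _ _
      (h4_data_three A M hℓ hA hℓM hM hℓ3 r hR) (fun P => (hR P).1) hWA P hP T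
  · exact h4_stSepOne_cusp_three A M hℓ hA hℓM hM r hr hR hWA hWA'

end Levels

end Fermat.Agent.S37x.Red.H4
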